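import Fermat.Agent.CFT.SKummer.Omega
import Mathlib.NumberTheory.RamificationInertia.HilbertTheory

set_option autoImplicit false

/-!
# The fixed field of an inertia group of `ℚ̄` is unramified

* `exists_valuation_eq_zpow_of_fixed` : if `x ≠ 0` is fixed by the inertia group of a place `A`
  above `q`, its valuation is an integral power of the valuation of `q`.
* `exists_frob_pow_mul_inertia` : on every finite layer, the decomposition group is generated by
  the inertia group and a Frobenius element.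
-/

namespace Fermat.Agent.TW

open scoped Pointwise NumberField
open Fermat.Agent.Frob Fermat.Agent.Minkowski

abbrev Qbar := AlgebraicClosure ℚ

theorem ramificationIdx_inertiaField (F : Type*) [Field F] [NumberField F] [IsGalois ℚ F]
    (P : Ideal (𝓞 F)) [hP : P.IsMaximal] (hP0 : P ≠ ⊥)
    (E : IntermediateField ℚ F)
    (hE : E = FixedPoints.intermediateField (P.inertia (F ≃ₐ[ℚ] F))) :
    (P.under (𝓞 E)).ramificationIdx ℤ = 1 := by
  classical
  have hPprime : P.IsPrime := hP.isPrime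
  let H : Subgroup (F ≃ₐ[ℚ] F) := P.inertia (F ≃ₐ[ℚ] F)
  have hEH : IsGaloisGroup H E F := by
    subst hE
    exact IsGaloisGroup.subgroup (F ≃ₐ[ℚ] F) ℚ F H
  have hGal : IsGaloisGroup (F ≃ₐ[ℚ] F) ℤ (𝓞 F) := inferInstance
  have hGal2 : IsGaloisGroup H (𝓞 E) (𝓞 F) := IsGaloisGroup.of_isFractionRing H (𝓞 E) (𝓞 F) E F
  let p : Ideal ℤ := P.under ℤ
  have hp0 : p ≠ ⊥ := by
    intro h
    exact hP0 (Ideal.eq_bot_of_comap_eq_bot h)
  let PE : Ideal (𝓞 E) := P.under (𝓞 E)
  have hPE0 : PE ≠ ⊥ := by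
    intro h
    exact hP0 (Ideal.eq_bot_of_comap_eq_bot h)
  have hpp : p.IsPrime := inferInstance
  have hPEp : PE.IsPrime := inferInstance
  have hpm : p.IsMaximal := hpp.isMaximal hp0
  have hPEm : PE.IsMaximal := hPEp.isMaximal hPE0
  have hfin1 : Finite (ℤ ⧸ p) := Ring.HasFiniteQuotients.finiteQuotient hp0
  have hfin2 : Finite (𝓞 E ⧸ PE) := Ring.HasFiniteQuotients.finiteQuotient hPE0
  have h1 : Nat.card (P.inertia (F ≃ₐ[ℚ] F)) = p.ramificationIdxIn (𝓞 F) :=
    Ideal.card_inertia_eq_ramificationIdxIn (G := F ≃ₐ[ℚ] F) p P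
  have h2 : Nat.card (P.inertia H) = PE.ramificationIdxIn (𝓞 F) :=
    Ideal.card_inertia_eq_ramificationIdxIn (G := H) PE P
  have h3 : Nat.card (P.inertia H) = Nat.card H := by
    have : P.inertia H = ⊤ := by
      rw [eq_top_iff]
      rintro ⟨h, hh⟩ -
      exact hh
    rw [this]
    exact Nat.card_congr Subgroup.topEquiv.toEquiv
  have h4 : p.ramificationIdxIn (𝓞 F) = P.ramificationIdx ℤ :=
    Ideal.ramificationIdxIn_eq_ramificationIdx p P (F ≃ₐ[ℚ] F)
  have h5 : PE.ramificationIdxIn (𝓞 F) = P.ramificationIdx (𝓞 E) :=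
    Ideal.ramificationIdxIn_eq_ramificationIdx PE P H
  have h6 : P.ramificationIdx ℤ = PE.ramificationIdx ℤ * P.ramificationIdx (𝓞 E) :=
    Ideal.ramificationIdx_tower (R := ℤ) PE P
  have h7 : P.ramificationIdx (𝓞 E) = P.ramificationIdx ℤ := by
    rw [← h5, ← h2, h3, ← h4, ← h1]
  have h8 : 0 < P.ramificationIdx ℤ := Ideal.ramificationIdx_pos P ℤ
  rw [h7] at h6
  nlinarith [h6, h8]

/-- The valuation of a place at an element of an unramified number field. -/
theorem exists_zpow_of_unramifiedAt {E : Type*} [Field E] [NumberField E] (j : E →+* Qbar)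
    {q : ℕ} (hq : q.Prime) {A : ValuationSubring Qbar} (hA : A.LiesOverPrime q)
    (P : Ideal (𝓞 E)) [hP : P.IsPrime]
    (hPA : ∀ z : 𝓞 E, z ∈ P ↔ j (z : E) ∈ A.nonunits)
    (hunr : Algebra.IsUnramifiedAt ℤ P) {y : E} (hy0 : y ≠ 0) :
    ∃ n : ℤ, A.valuation (j y) = A.valuation ((q : ℕ) : Qbar) ^ n := by
  have hPp : ((q : ℕ) : 𝓞 E) ∈ P := by
    rw [hPA]
    have h1 : j (((q : ℕ) : 𝓞 E) : E) = ((q : ℕ) : Qbar) := by
      rw [show (((q : ℕ) : 𝓞 E) : E) = ((q : ℕ) : E) from map_natCast _ _, map_natCast]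
    rw [h1]
    exact hA
  have hq0 : ((q : ℕ) : 𝓞 E) ≠ 0 := by exact_mod_cast hq.ne_zero
  have hP0 : P ≠ ⊥ := by
    intro h
    rw [h, Ideal.mem_bot] at hPp
    exact hq0 hPp
  have hPmax : P.IsMaximal := hP.isMaximal hP0
  let p' : Ideal ℤ := P.under ℤ
  have hp'0 : p' ≠ ⊥ := by
    intro h
    exact hP0 (Ideal.eq_bot_of_comap_eq_bot h)
  have hp'p : p'.IsPrime := inferInstance
  have hfin : Finite (ℤ ⧸ p') := Ring.HasFiniteQuotients.finiteQuotient hp'0
  have hp'm : p'.IsMaximal := hp'p.isMaximal hp'0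
  have hp'q : p' = Ideal.span {((q : ℕ) : ℤ)} := by
    symm
    have : Fact (q : ℕ).Prime := ⟨hq⟩
    have hmax : (Ideal.span {((q : ℕ) : ℤ)}).IsMaximal :=
      Int.ideal_span_isMaximal_of_prime (q : ℕ)
    refine hmax.eq_of_le (Ideal.IsPrime.ne_top inferInstance) ?_
    rw [Ideal.span_singleton_le_iff_mem, Ideal.mem_comap]
    simpa using hPp
  have hfin2 : Finite p'.ResidueField := inferInstance
  have : P.LiesOver p' := ⟨rfl⟩
  let R := Localization.AtPrime P
  let : Algebra (Localization.AtPrime p') (Localization.AtPrime P) :=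
    Localization.AtPrime.algebraOfLiesOver p' P
  have hmap := ((Algebra.isUnramifiedAt_iff_map_eq ℤ p' P).mp hunr).2
  rw [hp'q, Ideal.map_span, Set.image_singleton] at hmap
  have hDVR : IsDiscreteValuationRing R :=
    IsLocalization.AtPrime.isDiscreteValuationRing_of_dedekind_domain _ hP0 _
  -- the map to `A`
  have hintA : ∀ z : 𝓞 E, j (z : E) ∈ A := by
    intro z
    have h1 : IsIntegral ℤ (j (z : E)) := by
      have h2 : IsIntegral ℤ (z : E) := z.2
      exact h2.map j.toIntAlgHom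
    exact mem_of_mem_Zbar A ⟨j (z : E), h1⟩
  have hunitA : ∀ z : 𝓞 E, z ∉ P → A.valuation (j (z : E)) = 1 := by
    intro z hz
    have h2 : A.valuation (j (z : E)) ≤ 1 := (A.valuation_le_one_iff _).mpr (hintA z)
    refine le_antisymm h2 (not_lt.mp fun h3 => hz ?_)
    rw [hPA, ValuationSubring.mem_nonunits_iff]
    exact h3
  let : Algebra R E :=
    (IsLocalization.lift (M := P.primeCompl) (g := algebraMap (𝓞 E) E)
      (fun z => (by
        have hz0 : (z : 𝓞 E) ≠ 0 := by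
          rintro h
          exact z.2 (h ▸ P.zero_mem)
        exact isUnit_iff_ne_zero.mpr (by
          intro h
          exact hz0 (FaithfulSMul.algebraMap_injective (𝓞 E) E
            (by rw [h, map_zero])))))).toAlgebra
  have : IsScalarTower (𝓞 E) R E :=
    IsScalarTower.of_algebraMap_eq (fun z => by
      rw [RingHom.algebraMap_toAlgebra, IsLocalization.lift_eq])
  have : IsFractionRing R E :=
    IsFractionRing.isFractionRing_of_isDomain_of_isLocalization P.primeCompl _ _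
  have hunitR : ∀ u : Rˣ, A.valuation (j (algebraMap R E u)) = 1 := by
    intro u
    obtain ⟨b, s, hbs⟩ := IsLocalization.exists_mk'_eq P.primeCompl (u : R)
    have h1 := IsLocalization.mk'_spec R b s
    rw [hbs] at h1
    have hb : b ∉ P := by
      intro hb
      have h2 : algebraMap (𝓞 E) R b ∈ IsLocalRing.maximalIdeal R := by
        rw [IsLocalization.AtPrime.to_map_mem_maximal_iff R P]
        exact hb
      rw [← h1] at h2
      have h3 : IsUnit ((u : R) * algebraMap (𝓞 E) R s) :=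
        u.isUnit.mul (IsLocalization.map_units R s)
      exact h2 h3
    have h4 := congrArg (fun z => (algebraMap R E z : E)) h1
    simp only [map_mul] at h4
    rw [← IsScalarTower.algebraMap_apply, ← IsScalarTower.algebraMap_apply] at h4
    have h5 := congrArg (fun z : E => A.valuation (j z)) h4
    simp only [map_mul] at h5
    have h6 : A.valuation (j (algebraMap (𝓞 E) E s)) = 1 := hunitA s s.2
    have h7 : A.valuation (j (algebraMap (𝓞 E) E b)) = 1 := hunitA b hb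
    rw [h6, h7, mul_one] at h5
    exact h5
  have hirr : Irreducible ((q : ℕ) : R) := by
    rw [IsDiscreteValuationRing.irreducible_iff_uniformizer]
    rw [← hmap]
    congr 2
    exact (map_natCast _ _)
  have hval : ∀ w : R, w ≠ 0 → ∃ n : ℕ, A.valuation (j (algebraMap R E w)) =
      A.valuation ((q : ℕ) : Qbar) ^ n := by
    intro w hw
    obtain ⟨n, u, hu⟩ := IsDiscreteValuationRing.eq_unit_mul_pow_irreducible hw hirr
    refine ⟨n, ?_⟩
    rw [hu, map_mul, map_pow, map_natCast]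
    simp only [map_mul, map_pow, map_natCast]
    rw [hunitR, one_mul]
  obtain ⟨a, b, hb, hab⟩ := IsFractionRing.div_surjective (A := R) y
  have hb0 : b ≠ 0 := nonZeroDivisors.ne_zero hb
  have ha0 : a ≠ 0 := by
    rintro rfl
    rw [map_zero, zero_div] at hab
    exact hy0 hab.symm
  obtain ⟨m, hm⟩ := hval a ha0
  obtain ⟨n, hn⟩ := hval b hb0
  refine ⟨(m : ℤ) - n, ?_⟩
  have hqv : A.valuation ((q : ℕ) : Qbar) ≠ 0 := by
    rw [Ne, Valuation.zero_iff]
    exact_mod_cast hq.ne_zero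
  have h8 : A.valuation (j y) = A.valuation (j (algebraMap R E a / algebraMap R E b)) := by
    rw [hab]
  rw [h8, map_div₀, map_div₀, hm, hn, zpow_sub₀ hqv, zpow_natCast, zpow_natCast]


/-- Every finite subextension of `ℚ̄` is contained in a finite Galois one. -/
lemma exists_galois_ge (L : IntermediateField ℚ Qbar) [FiniteDimensional ℚ L] :
    ∃ F : IntermediateField ℚ Qbar, L ≤ F ∧ FiniteDimensional ℚ F ∧ IsGalois ℚ F := by
  have hn : Normal ℚ Qbar := inferInstance
  obtain ⟨F, h1, h2, h3, -⟩ := Fermat.Agent.CFT.SKummer.exists_galois_of_stable L ⊤ le_top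
    (fun _ _ _ => IntermediateField.mem_top)
  exact ⟨F, h1, h2, h3⟩

lemma exists_galois_mem (x : Qbar) :
    ∃ F : IntermediateField ℚ Qbar, x ∈ F ∧ FiniteDimensional ℚ F ∧ IsGalois ℚ F := by
  have hint : IsIntegral ℚ x := Algebra.IsIntegral.isIntegral x
  have : FiniteDimensional ℚ (IntermediateField.adjoin ℚ {x}) :=
    IntermediateField.adjoin.finiteDimensional hint
  obtain ⟨F, h1, h2, h3⟩ := exists_galois_ge (IntermediateField.adjoin ℚ {x})
  exact ⟨F, h1 (IntermediateField.mem_adjoin_simple_self ℚ x), h2, h3⟩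

lemma exists_galois_ge_finset (s : Finset Qbar) (L : IntermediateField ℚ Qbar)
    [FiniteDimensional ℚ L] :
    ∃ F : IntermediateField ℚ Qbar, L ≤ F ∧ (∀ x ∈ s, x ∈ F) ∧ FiniteDimensional ℚ F ∧
      IsGalois ℚ F := by
  classical
  have : FiniteDimensional ℚ (IntermediateField.adjoin ℚ (s : Set Qbar)) := by
    apply IntermediateField.finiteDimensional_adjoin
    intro x _
    exact Algebra.IsIntegral.isIntegral x
  obtain ⟨F, h1, h2, h3⟩ := exists_galois_ge (L ⊔ IntermediateField.adjoin ℚ (s : Set Qbar))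
  refine ⟨F, le_trans le_sup_left h1, fun x hx => ?_, h2, h3⟩
  exact h1 (le_sup_right (a := L) (IntermediateField.subset_adjoin ℚ _ hx))

/-- If `x ≠ 0` is fixed by the inertia group of a place above `q`, then its valuation is a power
of the valuation of `q`. -/
theorem exists_valuation_eq_zpow_of_fixed {q : ℕ} (hq : q.Prime) {A : ValuationSubring Qbar}
    (hA : A.LiesOverPrime q) {x : Qbar} (hx : ∀ σ ∈ A.inertiaSubgroupIn ℚ, σ x = x)
    (hx0 : x ≠ 0) :
    ∃ n : ℤ, A.valuation x = A.valuation ((q : ℕ) : Qbar) ^ n := by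
  obtain ⟨F, hxF, hfd, hgal⟩ := exists_galois_mem x
  have : NumberField F := ⟨⟩
  let P : Ideal (𝓞 F) := (centre A).comap (incl F)
  have hP : P.IsPrime := Ideal.comap_isPrime _ _
  have hPp : ((q : ℕ) : 𝓞 F) ∈ P := by
    change incl F ((q : ℕ) : 𝓞 F) ∈ centre A
    rw [map_natCast]
    exact natCast_mem_centre hA
  have hq0 : ((q : ℕ) : 𝓞 F) ≠ 0 := by exact_mod_cast hq.ne_zero
  have hP0 : P ≠ ⊥ := by
    intro h
    rw [h, Ideal.mem_bot] at hPp
    exact hq0 hPp
  have hPmax : P.IsMaximal := hP.isMaximal hP0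
  let E : IntermediateField ℚ F := FixedPoints.intermediateField (P.inertia (F ≃ₐ[ℚ] F))
  have hxE : (⟨x, hxF⟩ : F) ∈ E := by
    rintro ⟨τ, hτ⟩
    obtain ⟨σ, hσ, hσ2⟩ := exists_lift_inertia F hq hA τ (fun x => ⟨τ • x - x, rfl, hτ x⟩)
    apply Subtype.ext
    have h1 := hσ2 ⟨x, hxF⟩
    have h2 := hx σ hσ
    change ((τ (⟨x, hxF⟩ : F) : F) : Qbar) = x
    rw [← h1]
    exact h2
  let PE : Ideal (𝓞 E) := P.under (𝓞 E)
  have hPE0 : PE ≠ ⊥ := by
    intro h
    exact hP0 (Ideal.eq_bot_of_comap_eq_bot h)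
  have hPEp : PE.IsPrime := inferInstance
  have hram := ramificationIdx_inertiaField F P hP0 E rfl
  let p' : Ideal ℤ := PE.under ℤ
  have hp'0 : p' ≠ ⊥ := by
    intro h
    exact hPE0 (Ideal.eq_bot_of_comap_eq_bot h)
  have hp'p : p'.IsPrime := inferInstance
  have hfin : Finite (ℤ ⧸ p') := Ring.HasFiniteQuotients.finiteQuotient hp'0
  have hp'm : p'.IsMaximal := hp'p.isMaximal hp'0
  have hfin2 : Finite p'.ResidueField := inferInstance
  have hunr : Algebra.IsUnramifiedAt ℤ PE := by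
    rw [← Ideal.ramificationIdx_eq_one_iff]
    exact hram
  obtain ⟨n, hn⟩ := exists_zpow_of_unramifiedAt
    ((algebraMap F Qbar).comp (algebraMap E F)) hq hA PE (by
      intro z
      change incl F (algebraMap (𝓞 E) (𝓞 F) z) ∈ centre A ↔ _
      rw [mem_centre_iff]
      rfl) hunr (y := ⟨⟨x, hxF⟩, hxE⟩) (by
      intro h
      apply hx0
      have := congrArg (fun z : E => ((z : F) : Qbar)) h
      exact this)
  exact ⟨n, hn⟩


section Decomp

variable {A : ValuationSubring Qbar} {q : ℕ}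

lemma map_mem_of_mem_decomp {g : GQ} (hg : g ∈ A.decompositionSubgroup ℚ) {x : Qbar}
    (hx : x ∈ A) : g x ∈ A := by
  have h1 : g • x ∈ g • A := ValuationSubring.smul_mem_pointwise_smul _ _ _ hx
  have h2 : g • A = A := hg
  rwa [h2] at h1

lemma val_le_one_iff_decomp {g : GQ} (hg : g ∈ A.decompositionSubgroup ℚ) {x : Qbar} :
    A.valuation (g x) ≤ 1 ↔ A.valuation x ≤ 1 := by
  rw [A.valuation_le_one_iff, A.valuation_le_one_iff]
  refine ⟨fun h => ?_, map_mem_of_mem_decomp hg⟩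
  have := map_mem_of_mem_decomp (inv_mem hg) h
  have h2 : g⁻¹ (g x) = x := g.symm_apply_apply x
  rwa [h2] at this

lemma val_lt_one_iff_decomp {g : GQ} (hg : g ∈ A.decompositionSubgroup ℚ) {x : Qbar} :
    A.valuation (g x) < 1 ↔ A.valuation x < 1 := by
  by_cases hx : x = 0
  · simp [hx]
  have h := val_le_one_iff_decomp hg (x := x⁻¹)
  have hv : A.valuation x ≠ 0 := by rwa [Ne, Valuation.zero_iff]
  have hv' : A.valuation (g x) ≠ 0 := by
    rw [Ne, Valuation.zero_iff, map_eq_zero]; exact hx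
  rw [map_inv₀, map_inv₀, map_inv₀, inv_le_one₀ (zero_lt_iff.mpr hv),
    inv_le_one₀ (zero_lt_iff.mpr hv')] at h
  rw [← not_le, ← not_le, not_iff_not]
  exact h

/-- Elements of the decomposition group preserve the valuation. -/
theorem val_decomp_eq {g : GQ} (hg : g ∈ A.decompositionSubgroup ℚ) (x : Qbar) :
    A.valuation (g x) = A.valuation x := by
  apply le_antisymm
  · exact not_lt.mp (Fermat.Agent.MultRed.not_val_lt
      (fun y hy => (val_lt_one_iff_decomp hg).mpr hy) x)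
  · have h := not_lt.mp (Fermat.Agent.MultRed.not_val_lt
      (fun y hy => (val_lt_one_iff_decomp (inv_mem hg)).mpr hy) (g x))
    have h2 : g⁻¹ (g x) = x := g.symm_apply_apply x
    rwa [h2] at h

lemma frob_sub_mem {φ : GQ} (hφ : A.IsFrobeniusAt φ q) {x : Qbar} (hx : x ∈ A) :
    φ x - x ^ q ∈ A.nonunits := by
  obtain ⟨hd, hf⟩ := hφ
  rw [ValuationSubring.mem_nonunits_iff_exists_mem_maximalIdeal]
  refine ⟨sub_mem (map_mem_of_mem_decomp hd hx) (pow_mem hx q), ?_⟩
  have h := hf (IsLocalRing.residue A ⟨x, hx⟩)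
  rw [← IsLocalRing.ResidueField.residue_smul, ← map_pow, ← sub_eq_zero, ← map_sub,
    IsLocalRing.residue_eq_zero_iff] at h
  exact h

lemma inertia_le_decomp : A.inertiaSubgroupIn ℚ ≤ A.decompositionSubgroup ℚ := by
  rintro _ ⟨⟨g, hg⟩, -, rfl⟩
  exact hg

lemma conj_mem_inertia_of_decomp {g i : GQ} (hg : g ∈ A.decompositionSubgroup ℚ)
    (hi : i ∈ A.inertiaSubgroupIn ℚ) : g⁻¹ * i * g ∈ A.inertiaSubgroupIn ℚ := by
  apply Fermat.Agent.CFT.SKummer.conj_mem_inertia
  have h2 : g • A = A := hg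
  rwa [h2]

/-- On a finite Galois layer, the decomposition group is generated by inertia and Frobenius. -/
theorem exists_frob_pow_mul_inertia (hq : q.Prime) (hA : A.LiesOverPrime q) {φ : GQ}
    (hφ : A.IsFrobeniusAt φ q) (F : IntermediateField ℚ Qbar) [FiniteDimensional ℚ F]
    [IsGalois ℚ F] {g : GQ} (hg : g ∈ A.decompositionSubgroup ℚ) :
    ∃ n : ℕ, ∃ i ∈ A.inertiaSubgroupIn ℚ, ∀ x ∈ F, g x = (φ ^ n * i) x := by
  have : NumberField F := ⟨⟩
  let P : Ideal (𝓞 F) := (centre A).comap (incl F)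
  have hP : P.IsPrime := Ideal.comap_isPrime _ _
  have hPA : ∀ z : 𝓞 F, z ∈ P ↔ A.valuation ((z : F) : Qbar) < 1 := by
    intro z
    change incl F z ∈ centre A ↔ _
    rw [mem_centre_iff, ValuationSubring.mem_nonunits_iff]
    rfl
  have hPp : ((q : ℕ) : 𝓞 F) ∈ P := by
    change incl F ((q : ℕ) : 𝓞 F) ∈ centre A
    rw [map_natCast]
    exact natCast_mem_centre hA
  have hq0 : ((q : ℕ) : 𝓞 F) ≠ 0 := by exact_mod_cast hq.ne_zero
  have hP0 : P ≠ ⊥ := by
    intro h
    rw [h, Ideal.mem_bot] at hPp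
    exact hq0 hPp
  have hPmax : P.IsMaximal := hP.isMaximal hP0
  let p' : Ideal ℤ := P.under ℤ
  have hp'0 : p' ≠ ⊥ := by
    intro h
    exact hP0 (Ideal.eq_bot_of_comap_eq_bot h)
  have hp'p : p'.IsPrime := inferInstance
  have hfin : Finite (ℤ ⧸ p') := Ring.HasFiniteQuotients.finiteQuotient hp'0
  have hfin' : Finite (𝓞 F ⧸ P) := Ring.HasFiniteQuotients.finiteQuotient hP0
  have hp'm : p'.IsMaximal := hp'p.isMaximal hp'0
  have hp'q : p' = Ideal.span {((q : ℕ) : ℤ)} := by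
    symm
    have : Fact (q : ℕ).Prime := ⟨hq⟩
    have hmax : (Ideal.span {((q : ℕ) : ℤ)}).IsMaximal :=
      Int.ideal_span_isMaximal_of_prime (q : ℕ)
    refine hmax.eq_of_le (Ideal.IsPrime.ne_top inferInstance) ?_
    rw [Ideal.span_singleton_le_iff_mem, Ideal.mem_comap]
    simpa using hPp
  have hcardp : Nat.card (ℤ ⧸ p') = q := by
    rw [hp'q]
    rw [Nat.card_congr (Int.quotientSpanNatEquivZMod q).toEquiv, Nat.card_zmod]
  let fK : Field (ℤ ⧸ p') := Ideal.Quotient.field _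
  let fL : Field (𝓞 F ⧸ P) := Ideal.Quotient.field _
  let ftK : Fintype (ℤ ⧸ p') := Fintype.ofFinite _
  have hlo : P.LiesOver p' := ⟨rfl⟩
  let ρ : GQ → (F ≃ₐ[ℚ] F) := fun g => AlgEquiv.restrictNormalHom F g
  have hρ : ∀ (g : GQ) (x : F), ((ρ g x : F) : Qbar) = g x := fun g x =>
    AlgEquiv.restrictNormal_commutes g F x
  have hρ' : ∀ (g : GQ) (z : 𝓞 F), (((ρ g • z : 𝓞 F) : F) : Qbar) = g ((z : F) : Qbar) := by
    intro g z
    rw [← hρ]
    rfl
  have hstab : ∀ g : GQ, g ∈ A.decompositionSubgroup ℚ →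
      ρ g ∈ MulAction.stabilizer (F ≃ₐ[ℚ] F) P := by
    intro g hg
    rw [MulAction.mem_stabilizer_iff]
    ext z
    rw [Ideal.mem_pointwise_smul_iff_inv_smul_mem, hPA, hPA]
    have h1 : (ρ g)⁻¹ = ρ g⁻¹ := (map_inv _ _).symm
    rw [h1, hρ', val_decomp_eq (inv_mem hg)]
  -- the automorphisms of the residue field
  let G := F ≃ₐ[ℚ] F
  let st : MulAction.stabilizer G P →* ((𝓞 F ⧸ P) ≃ₐ[ℤ ⧸ p'] (𝓞 F ⧸ P)) :=
    Ideal.Quotient.stabilizerHom P p' G
  have hfrob : st ⟨ρ φ, hstab φ hφ.mem_decompositionSubgroup⟩ =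
      FiniteField.frobeniusAlgEquivOfAlgebraic (ℤ ⧸ p') (𝓞 F ⧸ P) := by
    apply AlgEquiv.ext
    intro x
    obtain ⟨z, rfl⟩ := Ideal.Quotient.mk_surjective x
    rw [FiniteField.coe_frobeniusAlgEquivOfAlgebraic]
    change Ideal.Quotient.mk P (ρ φ • z) = _
    have hcard : Fintype.card (ℤ ⧸ p') = q := by rw [← Nat.card_eq_fintype_card, hcardp]
    rw [hcard]
    change _ = (Ideal.Quotient.mk P z) ^ q
    rw [← map_pow, ← sub_eq_zero, ← map_sub, Ideal.Quotient.eq_zero_iff_mem, hPA]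
    have h1 : (((ρ φ • z - z ^ q : 𝓞 F) : F) : Qbar) = φ ((z : F) : Qbar) - ((z : F) : Qbar) ^ q := by
      rw [← hρ']
      push_cast
      rfl
    rw [h1]
    exact (ValuationSubring.mem_nonunits_iff A).mp (frob_sub_mem hφ (mem_of_mem_Zbar A (incl F z)))
  obtain ⟨n, hn⟩ := (FiniteField.bijective_frobeniusAlgEquivOfAlgebraic_pow (ℤ ⧸ p') (𝓞 F ⧸ P)).2
    (st ⟨ρ g, hstab g hg⟩)
  have hφd := hφ.mem_decompositionSubgroup
  let τ : MulAction.stabilizer G P := (⟨ρ φ, hstab φ hφd⟩ : MulAction.stabilizer G P)⁻¹ ^ n.1 *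
    ⟨ρ g, hstab g hg⟩
  have hτ : st τ = 1 := by
    rw [map_mul, map_pow, map_inv, hfrob, ← hn, inv_pow, inv_mul_cancel]
  have hτ2 : ∀ z : 𝓞 F, (τ : G) • z - z ∈ P := by
    intro z
    have h1 := DFunLike.congr_fun hτ (Ideal.Quotient.mk P z)
    have h2 : Ideal.Quotient.mk P ((τ : G) • z) = Ideal.Quotient.mk P z := h1
    rwa [← sub_eq_zero, ← map_sub, Ideal.Quotient.eq_zero_iff_mem] at h2
  obtain ⟨i, hi, hi2⟩ := exists_lift_inertia F hq hA (τ : G)
    (fun x => ⟨(τ : G) • x - x, rfl, hτ2 x⟩)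
  refine ⟨n.1, i, hi, fun x hx => ?_⟩
  have h1 := hi2 ⟨x, hx⟩
  have h2 : (τ : G) = ρ (φ⁻¹ ^ n.1 * g) := by
    change (ρ φ)⁻¹ ^ n.1 * ρ g = _
    rw [show ρ (φ⁻¹ ^ n.1 * g) = AlgEquiv.restrictNormalHom F (φ⁻¹ ^ n.1 * g) from rfl, map_mul,
      map_pow, map_inv]
  rw [h2, hρ] at h1
  have h3 : i x = (φ⁻¹ ^ n.1 * g) x := h1
  change g x = (φ ^ n.1) (i x)
  rw [h3]
  change g x = (φ ^ n.1 * (φ⁻¹ ^ n.1 * g)) x
  rw [← mul_assoc, inv_pow, mul_inv_cancel, one_mul]

end Decomp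

end Fermat.Agent.TW
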