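import Fermat.Agent.TW.Hilbert90
import Mathlib.GroupTheory.Nilpotent
import Mathlib.GroupTheory.PGroup

set_option autoImplicit false

/-!
# Kummer theory for inertia groups, tame inertia

`A` is a place of `ℚ̄` over `q`, `p ≠ q` is a prime, `I` the inertia group at `A`.

* `kummer_inertia` : every level-constant homomorphism `I → μ_p` is a power of `i ↦ i π / π`,
  `π ^ p = q`.
* `isCyclic_of_inertia` : the image of a level-constant homomorphism from `I` to a finite
  `p`-group is cyclic.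
-/

namespace Fermat.Agent.TW

open scoped Pointwise
open Fermat.Agent.Frob Fermat.Agent.Minkowski

variable {A : ValuationSubring Qbar} {q p : ℕ}

/-- A unit of `A` whose `p`-th power is fixed by the inertia group is fixed. -/
lemma fixed_of_pow_fixed (hA : A.LiesOverPrime q) (hqp : Nat.Coprime q p) (hp0 : p ≠ 0) {w : Qbar}
    (hw : A.valuation w = 1) {σ : GQ} (hσ : σ ∈ A.inertiaSubgroupIn ℚ)
    (hσw : σ (w ^ p) = w ^ p) : σ w = w := by
  have hw0 : w ≠ 0 := by
    rintro rfl
    rw [map_zero] at hw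
    exact zero_ne_one hw
  have hwA : w ∈ A := (A.valuation_le_one_iff w).mp hw.le
  obtain ⟨hσA, hσu⟩ := sub_mem_nonunits_of_mem_inertia hσ hwA
  have hpow : (σ w / w) ^ p = 1 := by
    rw [div_pow, ← map_pow, hσw, div_self (pow_ne_zero _ hw0)]
  have hζA : σ w / w ∈ A := Fermat.Agent.GalRep.rootOfUnity_mem hp0 hpow
  have hζ1 : (⟨σ w / w, hζA⟩ : A) = 1 := by
    refine Fermat.Agent.GalRep.eq_one_of_residue_eq_one hA hqp (M := p)
      (Subtype.ext hpow) ?_
    rw [← sub_eq_zero, ← map_one (IsLocalRing.residue A), ← map_sub,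
      IsLocalRing.residue_eq_zero_iff]
    have h4 : ((⟨σ w / w, hζA⟩ : A) - 1 : A) = ⟨(σ w - w) / w, by
        rw [sub_div, div_self hw0]; exact sub_mem hζA A.one_mem⟩ := by
      apply Subtype.ext
      change σ w / w - 1 = (σ w - w) / w
      rw [sub_div, div_self hw0]
    rw [h4]
    have h5 : (σ w - w) / w ∈ A.nonunits := by
      rw [ValuationSubring.mem_nonunits_iff, map_div₀, hw, div_one]
      exact (ValuationSubring.mem_nonunits_iff A).mp hσu
    exact ((ValuationSubring.mem_nonunits_iff_exists_mem_maximalIdeal).mp h5).2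
  have h6 : σ w / w = 1 := congrArg Subtype.val hζ1
  rwa [div_eq_one_iff_eq hw0] at h6

/-- **Kummer theory for the tame inertia**. -/
theorem kummer_inertia (hq : q.Prime) (hA : A.LiesOverPrime q) (hqp : Nat.Coprime q p)
    (hp0 : p ≠ 0) {π : Qbar} (hπ : π ^ p = (q : Qbar)) (h : GQ → Qbar)
    (hhp : ∀ i ∈ A.inertiaSubgroupIn ℚ, h i ^ p = 1)
    (hmul : ∀ i ∈ A.inertiaSubgroupIn ℚ, ∀ j ∈ A.inertiaSubgroupIn ℚ, h (i * j) = h i * h j)
    (L : IntermediateField ℚ Qbar) [FiniteDimensional ℚ L]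
    (hL : ∀ i ∈ A.inertiaSubgroupIn ℚ, (∀ x ∈ L, i x = x) → h i = 1) :
    ∃ a : ℤ, ∀ i ∈ A.inertiaSubgroupIn ℚ, h i = (i π / π) ^ a := by
  have hfix : ∀ i ∈ A.inertiaSubgroupIn ℚ, ∀ ζ : Qbar, ζ ^ p = 1 → i ζ = ζ := fun i hi ζ hζ =>
    Fermat.Agent.GalRep.inertia_fix_rootOfUnity hA hqp hp0 hi hζ
  obtain ⟨z, hz0, hz⟩ := exists_hilbert90 (A.inertiaSubgroupIn ℚ) h
    (fun i hi h0 => by
      have := hhp i hi
      rw [h0, zero_pow hp0] at this
      exact zero_ne_one this)
    (fun i hi j hj => by rw [hmul i hi j hj, hfix i hi _ (hhp j hj)]) L hL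
  have hzp : ∀ i ∈ A.inertiaSubgroupIn ℚ, i (z ^ p) = z ^ p := by
    intro i hi
    rw [map_pow, hz i hi, mul_pow, hhp i hi, one_mul]
  obtain ⟨n, hn⟩ := exists_valuation_eq_zpow_of_fixed hq hA hzp (pow_ne_zero _ hz0)
  have hqQ : ((q : ℕ) : Qbar) ≠ 0 := by exact_mod_cast hq.ne_zero
  have hπ0 : π ≠ 0 := by
    rintro rfl
    rw [zero_pow hp0] at hπ
    exact hqQ hπ.symm
  -- `w = z / π ^ n` is a unit, and `w ^ p` is fixed
  set w : Qbar := z / π ^ n with hwdef
  have hw0 : w ≠ 0 := div_ne_zero hz0 (zpow_ne_zero _ hπ0)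
  have hwp : w ^ p = z ^ p / (q : Qbar) ^ n := by
    rw [hwdef, div_pow]
    congr 1
    rw [← hπ, ← zpow_natCast, ← zpow_natCast, ← zpow_mul, ← zpow_mul, mul_comm]
  have hqv : A.valuation ((q : ℕ) : Qbar) ≠ 0 := by
    rw [Ne, Valuation.zero_iff]
    exact hqQ
  have hwv : A.valuation w = 1 := by
    have h1 : A.valuation w ^ p = 1 := by
      rw [← map_pow, hwp, map_div₀, hn, map_zpow₀]
      exact div_self (zpow_ne_zero _ hqv)
    exact (pow_eq_one_iff.mp h1).resolve_right hp0
  refine ⟨n, fun i hi => ?_⟩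
  have hwi : i w = w := by
    apply fixed_of_pow_fixed hA hqp hp0 hwv hi
    rw [hwp, map_div₀, hzp i hi, map_zpow₀, map_natCast]
  have hz' : z = w * π ^ n := by
    rw [hwdef, div_mul_cancel₀ _ (zpow_ne_zero _ hπ0)]
  have h1 := hz i hi
  rw [hz', map_mul, hwi, map_zpow₀] at h1
  have h2 : (i π) ^ n = h i * π ^ n := by
    have : w * (i π) ^ n = w * (h i * π ^ n) := by rw [h1]; ring
    exact mul_left_cancel₀ hw0 this
  rw [div_zpow, h2, mul_div_assoc, div_self (zpow_ne_zero _ hπ0), mul_one]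


/-- The Kummer character `i ↦ i π / π` on the inertia group. -/
lemma chi_pow (π : Qbar) (hπ0 : π ≠ 0) (hπ : π ^ p = (q : Qbar)) (i : GQ) :
    (i π / π) ^ p = 1 := by
  rw [div_pow, ← map_pow, hπ, map_natCast, ← hπ, div_self (pow_ne_zero _ hπ0)]

lemma normal_of_coatom_of_isPGroup {H : Type*} [Group H] [Finite H] [Fact p.Prime]
    (hH : IsPGroup p H) {M : Subgroup H} (hM : IsCoatom M) : M.Normal :=
  haveI := hH.isNilpotent
  Subgroup.NormalizerCondition.normal_of_coatom M Group.normalizerCondition_of_isNilpotent hM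

lemma card_quotient_of_coatom {H : Type*} [Group H] [Finite H] [Fact p.Prime]
    (hH : IsPGroup p H) {M : Subgroup H} [M.Normal] (hM : IsCoatom M) :
    Nat.card (H ⧸ M) = p := by
  have hQ : IsPGroup p (H ⧸ M) := hH.to_quotient M
  have hnt : Nontrivial (H ⧸ M) := by
    rw [← not_subsingleton_iff_nontrivial]
    intro h
    exact hM.1 (QuotientGroup.subgroup_eq_top_of_subsingleton M h)
  obtain ⟨n, hn0, hn⟩ := hQ.nontrivial_iff_card.mp hnt
  have hdvd : p ∣ Nat.card (H ⧸ M) := by
    rw [hn]; exact dvd_pow_self p hn0.ne'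
  obtain ⟨x, hx⟩ := exists_prime_orderOf_dvd_card' p hdvd
  have htop : Subgroup.zpowers x = ⊤ := by
    have h1 : M ≤ (Subgroup.zpowers x).comap (QuotientGroup.mk' M) := by
      intro m hm
      rw [Subgroup.mem_comap]
      have : QuotientGroup.mk' M m = 1 := (QuotientGroup.eq_one_iff m).mpr hm
      rw [this]
      exact one_mem _
    rcases hM.le_iff.mp h1 with h2 | h2
    · rw [eq_top_iff]
      intro y _
      obtain ⟨y, rfl⟩ := QuotientGroup.mk'_surjective M y
      have : y ∈ (Subgroup.zpowers x).comap (QuotientGroup.mk' M) := by rw [h2]; trivial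
      exact this
    · exfalso
      obtain ⟨y, rfl⟩ := QuotientGroup.mk'_surjective M x
      have h3 : y ∈ (Subgroup.zpowers (QuotientGroup.mk' M y)).comap (QuotientGroup.mk' M) :=
        Subgroup.mem_zpowers _
      rw [h2] at h3
      have h4 : QuotientGroup.mk' M y = 1 := (QuotientGroup.eq_one_iff y).mpr h3
      rw [h4, orderOf_one] at hx
      exact (Fact.out : p.Prime).one_lt.ne hx
  rw [← hx, ← Nat.card_zpowers, htop]
  exact (Nat.card_congr Subgroup.topEquiv.toEquiv).symm

/-- A finite `p`-group with at most one maximal subgroup is cyclic. -/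
lemma isCyclic_of_unique_coatom {H : Type*} [Group H] [Finite H]
    (huniq : ∀ M M' : Subgroup H, IsCoatom M → IsCoatom M' → M = M') : IsCyclic H := by
  rcases subsingleton_or_nontrivial H with hs | hn
  · exact isCyclic_of_subsingleton
  · have h0 : (⊥ : Subgroup H) ≠ ⊤ := bot_ne_top
    obtain ⟨M, hM, -⟩ := (eq_top_or_exists_le_coatom (⊥ : Subgroup H)).resolve_left h0
    have : ∃ x, x ∉ M := by
      by_contra hcon
      push Not at hcon
      exact hM.1 (eq_top_iff.mpr fun x _ => hcon x)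
    obtain ⟨x, hx⟩ := this
    rcases eq_top_or_exists_le_coatom (Subgroup.zpowers x) with h1 | ⟨M', hM', h1⟩
    · exact ⟨x, fun y => by
        have : y ∈ Subgroup.zpowers x := by rw [h1]; trivial
        exact this⟩
    · exfalso
      apply hx
      rw [huniq M M' hM hM']
      exact h1 (Subgroup.mem_zpowers x)

/-- **Tame inertia** : the image of the inertia group at `q` in a finite `p`-group, `p ≠ q`, by a
level-constant homomorphism is cyclic. -/
theorem isCyclic_of_inertia (hq : q.Prime) [hp : Fact p.Prime] (hA : A.LiesOverPrime q)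
    (hqp : q ≠ p) {H : Type*} [Group H] [Finite H] (hH : IsPGroup p H)
    (f : A.inertiaSubgroupIn ℚ →* H) (hf : Function.Surjective f)
    (L : IntermediateField ℚ Qbar) [FiniteDimensional ℚ L]
    (hL : ∀ i : A.inertiaSubgroupIn ℚ, (∀ x ∈ L, (i : GQ) x = x) → f i = 1) :
    IsCyclic H := by
  classical
  have hcop : Nat.Coprime q p := (Nat.coprime_primes hq hp.out).mpr hqp
  have hp0 : p ≠ 0 := hp.out.ne_zero
  obtain ⟨π, hπ⟩ := IsAlgClosed.exists_pow_nat_eq ((q : ℕ) : Qbar) hp.out.pos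
  have hqQ : ((q : ℕ) : Qbar) ≠ 0 := by exact_mod_cast hq.ne_zero
  have hπ0 : π ≠ 0 := by
    rintro rfl
    rw [zero_pow hp0] at hπ
    exact hqQ hπ.symm
  have hcardμ : Nat.card (rootsOfUnity p Qbar) = p := by
    obtain ⟨ζ, hζ⟩ := HasEnoughRootsOfUnity.exists_primitiveRoot Qbar p
    exact hζ.card_rootsOfUnity
  -- the main claim
  have key : ∀ M : Subgroup H, IsCoatom M → ∀ i : A.inertiaSubgroupIn ℚ,
      f i ∈ M ↔ (i : GQ) π / π = 1 := by
    intro M hM
    have hMn : M.Normal := normal_of_coatom_of_isPGroup hH hM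
    have hcard := card_quotient_of_coatom hH hM
    let e : (H ⧸ M) ≃* rootsOfUnity p Qbar := mulEquivOfPrimeCardEq hcard hcardμ
    let a : A.inertiaSubgroupIn ℚ →* Qbarˣ :=
      (rootsOfUnity p Qbar).subtype.comp (e.toMonoidHom.comp ((QuotientGroup.mk' M).comp f))
    have ha : ∀ i, a i = 1 ↔ f i ∈ M := by
      intro i
      rw [← QuotientGroup.eq_one_iff (N := M)]
      constructor
      · intro h
        have h1 : e (QuotientGroup.mk' M (f i)) = 1 := Subtype.ext h
        rwa [EmbeddingLike.map_eq_one_iff] at h1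
      · intro h
        have h1 : e (QuotientGroup.mk' M (f i)) = 1 := by
          rw [EmbeddingLike.map_eq_one_iff]; exact h
        exact congrArg Subtype.val h1
    have hap : ∀ i, a i ^ p = 1 := fun i => (e (QuotientGroup.mk' M (f i))).2
    let h : GQ → Qbar := fun g => if hg : g ∈ A.inertiaSubgroupIn ℚ then (a ⟨g, hg⟩ : Qbar) else 1
    have hh : ∀ i : A.inertiaSubgroupIn ℚ, h i = a i := fun i => by
      simp only [h, dif_pos i.2]
    obtain ⟨n, hn⟩ := kummer_inertia hq hA hcop hp0 hπ h (fun i hi => by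
        rw [hh ⟨i, hi⟩, ← Units.val_pow_eq_pow_val, hap, Units.val_one])
      (fun i hi j hj => by
        have h1 := hh (⟨i, hi⟩ * ⟨j, hj⟩)
        rw [map_mul, Units.val_mul, ← hh, ← hh] at h1
        exact h1) L (fun i hi hfix => by
        rw [hh ⟨i, hi⟩, (ha ⟨i, hi⟩).mpr, Units.val_one]
        rw [hL ⟨i, hi⟩ hfix]
        exact one_mem _)
    -- `n` is not divisible by `p`
    have hn' : ¬ (p : ℤ) ∣ n := by
      rintro ⟨m, rfl⟩
      apply hM.1
      rw [eq_top_iff]
      intro y _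
      obtain ⟨i, rfl⟩ := hf y
      rw [← ha, ← Units.val_inj, Units.val_one, ← hh, hn i i.2, zpow_mul, zpow_natCast,
        chi_pow π hπ0 hπ, one_zpow]
    intro i
    rw [← ha, ← Units.val_inj, Units.val_one, ← hh, hn i i.2]
    constructor
    · intro h1
      have hco : IsCoprime (p : ℤ) n :=
        ((Nat.prime_iff_prime_int.mp hp.out).coprime_iff_not_dvd).mpr hn'
      obtain ⟨u, v, huv⟩ := hco
      calc (i : GQ) π / π = ((i : GQ) π / π) ^ (u * p + v * n) := by rw [huv, zpow_one]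
        _ = ((((i : GQ) π / π) ^ p) ^ u) * ((((i : GQ) π / π) ^ n) ^ v) := by
          have h0 : (i : GQ) π / π ≠ 0 := div_ne_zero (by rwa [Ne, map_eq_zero]) hπ0
          rw [zpow_add₀ h0, mul_comm u, mul_comm v, zpow_mul, zpow_mul, zpow_natCast]
        _ = 1 := by rw [chi_pow π hπ0 hπ, h1, one_zpow, one_zpow, one_mul]
    · intro h1
      rw [h1, one_zpow]
  apply isCyclic_of_unique_coatom
  intro M M' hM hM'
  ext y
  obtain ⟨i, rfl⟩ := hf y
  rw [key M hM, key M' hM']

end Fermat.Agent.TW
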