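import Mathlib
import Fermat.Agent.S53_PowerSeries
import Fermat.Agent.S53_ProRep

set_option autoImplicit false

/-!
# Surjections from power series rings onto complete local `𝒪`-algebras

Part (F) of S56.
-/

namespace Fermat.Agent.TW

open IsLocalRing Fermat.Agent.S53rep

section Eval

variable {𝒪 R : Type} [CommRing 𝒪] [CommRing R] [IsLocalRing R]
  [IsAdicComplete (maximalIdeal R) R] [Algebra 𝒪 R]

omit [IsAdicComplete (maximalIdeal R) R] in
lemma aeval_mem_pow' {σ : Type} (x : σ → R) (hx : ∀ s, x s ∈ maximalIdeal R) {n : ℕ}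
    {q : MvPolynomial σ 𝒪} (hq : q ∈ MvPolynomial.idealOfVars σ 𝒪 ^ n) :
    MvPolynomial.aeval x q ∈ maximalIdeal R ^ n := by
  have h1 := Ideal.mem_map_of_mem (MvPolynomial.aeval x : MvPolynomial σ 𝒪 →ₐ[𝒪] R) hq
  rw [Ideal.map_pow] at h1
  refine Ideal.pow_right_mono ?_ n h1
  rw [MvPolynomial.idealOfVars, Ideal.map_span, Ideal.span_le]
  rintro _ ⟨_, ⟨s, rfl⟩, rfl⟩
  have h2 : (MvPolynomial.aeval x : MvPolynomial σ 𝒪 →ₐ[𝒪] R) (MvPolynomial.X s) = x s :=
    MvPolynomial.aeval_X _ _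
  rw [h2]
  exact hx s

/-- Evaluation of power series at elements of the maximal ideal of a complete local ring. -/
theorem exists_powerSeries_eval {σ : Type} [Finite σ] (x : σ → R)
    (hx : ∀ s, x s ∈ maximalIdeal R) :
    ∃ γ : MvPowerSeries σ 𝒪 →ₐ[𝒪] R, ∀ q : MvPolynomial σ 𝒪,
      γ (q : MvPowerSeries σ 𝒪) = MvPolynomial.aeval x q := by
  let f : ∀ n : ℕ, MvPowerSeries σ 𝒪 →ₐ[𝒪] R ⧸ maximalIdeal R ^ n := fun n =>
    (Ideal.Quotient.liftₐ (MvPolynomial.idealOfVars σ 𝒪 ^ n)
      ((Ideal.Quotient.mkₐ 𝒪 (maximalIdeal R ^ n)).comp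
        (MvPolynomial.aeval x : MvPolynomial σ 𝒪 →ₐ[𝒪] R))
      (fun _ ha => Ideal.Quotient.eq_zero_iff_mem.mpr (aeval_mem_pow' x hx ha))).comp
    ((MvPowerSeries.truncTotalAlgHom σ 𝒪 n).restrictScalars 𝒪)
  have hf : ∀ n g, f n g = Ideal.Quotient.mk _
      (MvPolynomial.aeval x (MvPowerSeries.truncTotal n g)) := fun n g => rfl
  have hcompat : ∀ {m n : ℕ} (hle : m ≤ n),
      (Ideal.Quotient.factorₐ 𝒪 (Ideal.pow_le_pow_right hle)).comp (f n) = f m := by
    intro m n hle
    apply AlgHom.ext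
    intro g
    show Ideal.Quotient.factorₐ 𝒪 (Ideal.pow_le_pow_right hle) (f n g) = f m g
    rw [hf, hf]
    show Ideal.Quotient.mk _ _ = Ideal.Quotient.mk _ _
    rw [Ideal.Quotient.mk_eq_mk_iff_sub_mem, ← map_sub]
    exact aeval_mem_pow' x hx
      (MvPowerSeries.truncTotal_sub_truncTotal_mem_pow_idealOfVars hle le_rfl g)
  refine ⟨IsAdicComplete.liftAlgHom (maximalIdeal R) f hcompat, fun q => ?_⟩
  rw [← sub_eq_zero]
  refine IsHausdorff.haus (I := maximalIdeal R) (M := R) inferInstance _ fun n => ?_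
  rw [SModEq.sub_mem, sub_zero, smul_eq_mul, Ideal.mul_top, ← Ideal.Quotient.eq_zero_iff_mem,
    map_sub]
  have h1 : Ideal.Quotient.mk (maximalIdeal R ^ n)
      (IsAdicComplete.liftAlgHom (maximalIdeal R) f hcompat (q : MvPowerSeries σ 𝒪)) =
      f n (q : MvPowerSeries σ 𝒪) := IsAdicComplete.mk_liftAlgHom (maximalIdeal R) f hcompat n _
  rw [h1, hf, ← map_sub, ← map_sub, Ideal.Quotient.eq_zero_iff_mem]
  refine aeval_mem_pow' x hx ?_
  rw [MvPolynomial.mem_pow_idealOfVars_iff']
  intro α hα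
  rw [MvPolynomial.coeff_sub, MvPowerSeries.coeff_truncTotal _ hα, MvPolynomial.coeff_coe, sub_self]

end Eval

section Deriv

/-- The homomorphism to the dual numbers attached to a derivation. -/
def derivHom {R k : Type} [CommRing R] [Field k] (π : R →+* k) (d : R → k)
    (hmul : ∀ p q, d (p * q) = π p * d q + π q * d p) (hadd : ∀ p q, d (p + q) = d p + d q)
    (h1 : d 1 = 0) (h0 : d 0 = 0) : R →+* DualNumber k where
  toFun p := TrivSqZeroExt.inl (π p) + TrivSqZeroExt.inr (d p)
  map_one' := by rw [h1, map_one]; simp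
  map_zero' := by rw [h0, map_zero]; simp
  map_add' p q := by
    rw [hadd, map_add]
    ext <;> simp
  map_mul' p q := by
    rw [hmul, map_mul]
    ext
    · simp
    · simp [mul_comm]

lemma derivHom_snd {R k : Type} [CommRing R] [Field k] (π : R →+* k) (d : R → k)
    (hmul : ∀ p q, d (p * q) = π p * d q + π q * d p) (hadd : ∀ p q, d (p + q) = d p + d q)
    (h1 : d 1 = 0) (h0 : d 0 = 0) (p : R) :
    TrivSqZeroExt.snd (derivHom π d hmul hadd h1 h0 p) = d p := by
  show TrivSqZeroExt.snd (TrivSqZeroExt.inl (π p) + TrivSqZeroExt.inr (d p)) = _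
  simp

lemma derivHom_eq_inl {R k : Type} [CommRing R] [Field k] (π : R →+* k) (d : R → k)
    (hmul : ∀ p q, d (p * q) = π p * d q + π q * d p) (hadd : ∀ p q, d (p + q) = d p + d q)
    (h1 : d 1 = 0) (h0 : d 0 = 0) {p : R} (hp : d p = 0) :
    derivHom π d hmul hadd h1 h0 p = TrivSqZeroExt.inl (π p) := by
  show TrivSqZeroExt.inl (π p) + TrivSqZeroExt.inr (d p) = _
  rw [hp]; simp

end Deriv

section Surj

variable {𝒪 R : Type} [CommRing 𝒪] [IsLocalRing 𝒪] [IsNoetherianRing 𝒪]
  [IsAdicComplete (maximalIdeal 𝒪) 𝒪] [CommRing R] [IsLocalRing R] [IsNoetherianRing R]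
  [IsAdicComplete (maximalIdeal R) R] [Algebra 𝒪 R] [IsLocalHom (algebraMap 𝒪 R)]

/-- If the maximal ideal of `R` is generated modulo `m_R ^ 2 + m_𝒪 R` by a finite family, then `R`
is a quotient of the corresponding power series ring. -/
theorem exists_surjective_of_generators {σ : Type} [Finite σ]
    (hres : Function.Surjective (residue R ∘ algebraMap 𝒪 R)) (x : σ → R)
    (hx : ∀ s, x s ∈ maximalIdeal R)
    (hgen : maximalIdeal R ≤ Ideal.span (Set.range x) ⊔
      (maximalIdeal 𝒪).map (algebraMap 𝒪 R) ⊔ maximalIdeal R ^ 2) :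
    ∃ γ : MvPowerSeries σ 𝒪 →ₐ[𝒪] R, Function.Surjective γ ∧
      ∀ s, γ (MvPowerSeries.X s) = x s := by
  obtain ⟨γ, hγ⟩ := exists_powerSeries_eval (𝒪 := 𝒪) x hx
  have hX : ∀ s, γ (MvPowerSeries.X s) = x s := by
    intro s
    rw [← MvPolynomial.coe_X, hγ, MvPolynomial.aeval_X]
  refine ⟨γ, ?_, hX⟩
  have hC : ∀ c : 𝒪, γ (MvPowerSeries.C c) = algebraMap 𝒪 R c := by
    intro c
    rw [← MvPolynomial.coe_C, hγ, MvPolynomial.aeval_C]
  have := isAdicComplete_mvPowerSeries (σ := σ) (𝒪 := 𝒪)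
  set M := maximalIdeal (MvPowerSeries σ 𝒪) with hM
  have hle : M.map (γ : MvPowerSeries σ 𝒪 →+* R) ≤ maximalIdeal R := by
    rw [Ideal.map_le_iff_le_comap]
    intro f hf
    rw [Ideal.mem_comap]
    have h1 : f - MvPowerSeries.C (MvPowerSeries.constantCoeff f) ∈
        (Ideal.span (Set.range (MvPowerSeries.X : σ → MvPowerSeries σ 𝒪))) ^ 1 := by
      refine mem_span_X_pow_of_coeff_eq_zero ?_
      intro α hα
      have h0 : α = 0 := by
        have : α.degree = 0 := by omega
        rwa [Finsupp.degree_eq_zero_iff] at this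
      subst h0
      simp
    rw [pow_one] at h1
    have h2 := Ideal.mem_map_of_mem (γ : MvPowerSeries σ 𝒪 →+* R) h1
    have h3 : (Ideal.span (Set.range (MvPowerSeries.X : σ → MvPowerSeries σ 𝒪))).map
        (γ : MvPowerSeries σ 𝒪 →+* R) ≤ maximalIdeal R := by
      rw [Ideal.map_span, Ideal.span_le]
      rintro _ ⟨_, ⟨s, rfl⟩, rfl⟩
      show γ (MvPowerSeries.X s) ∈ maximalIdeal R
      rw [hX]
      exact hx s
    have h4 := h3 h2
    rw [hM, mem_maximalIdeal_mvPowerSeries_iff] at hf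
    have h5 : algebraMap 𝒪 R (MvPowerSeries.constantCoeff f) ∈ maximalIdeal R :=
      map_maximalIdeal_le (algebraMap 𝒪 R) (Ideal.mem_map_of_mem _ hf)
    have h6 : (γ : MvPowerSeries σ 𝒪 →+* R) f =
        (γ : MvPowerSeries σ 𝒪 →+* R) (f - MvPowerSeries.C (MvPowerSeries.constantCoeff f)) +
          algebraMap 𝒪 R (MvPowerSeries.constantCoeff f) := by
      rw [map_sub]
      show γ f = γ f - γ (MvPowerSeries.C (MvPowerSeries.constantCoeff f)) + _
      rw [hC]; ring
    rw [h6]
    exact Ideal.add_mem _ h4 h5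
  have hge : maximalIdeal R ≤ M.map (γ : MvPowerSeries σ 𝒪 →+* R) := by
    refine Submodule.le_of_le_smul_of_le_jacobson_bot (I := maximalIdeal R)
      (IsNoetherian.noetherian (maximalIdeal R)) (IsLocalRing.maximalIdeal_le_jacobson _) ?_
    refine hgen.trans ?_
    rw [smul_eq_mul, ← pow_two]
    refine sup_le_sup_right (sup_le ?_ ?_) _
    · rw [Ideal.span_le]
      rintro _ ⟨s, rfl⟩
      rw [SetLike.mem_coe, ← hX s]
      exact Ideal.mem_map_of_mem (γ : MvPowerSeries σ 𝒪 →+* R) (X_mem_maximalIdeal s)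
    · rw [Ideal.map_le_iff_le_comap]
      intro c hc
      rw [Ideal.mem_comap, ← hC c]
      refine Ideal.mem_map_of_mem (γ : MvPowerSeries σ 𝒪 →+* R) ?_
      have := C_mem_maximalIdeal_pow (σ := σ) (n := 1) (c := c) (by rwa [pow_one])
      rwa [pow_one] at this
  have heq : M.map (γ : MvPowerSeries σ 𝒪 →+* R) = maximalIdeal R := le_antisymm hle hge
  have hhaus : IsHausdorff (M.map (γ : MvPowerSeries σ 𝒪 →+* R)) R := by
    rw [heq]; infer_instance
  refine surjective_of_mk_map_comp_surjective (I := M) (γ : MvPowerSeries σ 𝒪 →+* R) ?_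
  intro y
  obtain ⟨y, rfl⟩ := Ideal.Quotient.mk_surjective y
  obtain ⟨c, hc⟩ := hres (residue R y)
  refine ⟨MvPowerSeries.C c, ?_⟩
  show Ideal.Quotient.mk _ (γ (MvPowerSeries.C c)) = Ideal.Quotient.mk _ y
  rw [hC, Ideal.Quotient.mk_eq_mk_iff_sub_mem, heq, ← residue_eq_zero_iff, map_sub, sub_eq_zero]
  exact hc

omit [IsNoetherianRing 𝒪] [IsAdicComplete (maximalIdeal 𝒪) 𝒪] [IsNoetherianRing R]
  [IsAdicComplete (maximalIdeal R) R] in
/-- The augmentation `R → k`. -/
lemma exists_aug (hres : Function.Surjective (residue R ∘ algebraMap 𝒪 R)) :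
    ∃ π : R →ₐ[𝒪] ResidueField 𝒪, RingHom.ker π = maximalIdeal R := by
  have hbij : Function.Bijective (ResidueField.map (algebraMap 𝒪 R)) := by
    refine ⟨RingHom.injective _, fun y => ?_⟩
    obtain ⟨c, hc⟩ := hres y
    exact ⟨residue 𝒪 c, hc⟩
  let e : ResidueField 𝒪 ≃+* ResidueField R := RingEquiv.ofBijective _ hbij
  have he : ∀ c, e.symm (residue R (algebraMap 𝒪 R c)) = residue 𝒪 c := by
    intro c
    rw [RingEquiv.symm_apply_eq]
    rfl
  let π : R →ₐ[𝒪] ResidueField 𝒪 :=
    { (e.symm : ResidueField R →+* ResidueField 𝒪).comp (residue R) with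
      commutes' := he }
  refine ⟨π, ?_⟩
  ext y
  rw [RingHom.mem_ker]
  show e.symm (residue R y) = 0 ↔ _
  rw [map_eq_zero_iff _ e.symm.injective, residue_eq_zero_iff]

omit [IsNoetherianRing 𝒪] [IsAdicComplete (maximalIdeal 𝒪) 𝒪] [IsAdicComplete (maximalIdeal R) R] in
/-- If `R` has at most `q ^ r` tangent vectors then `m_R / (m_R ^ 2 + m_𝒪 R)` is generated by `r`
elements. -/
theorem exists_generators_of_card [Finite (ResidueField 𝒪)]
    (hres : Function.Surjective (residue R ∘ algebraMap 𝒪 R)) (r : ℕ)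
    (hcard : Nat.card {f : R →+* DualNumber (ResidueField 𝒪) // f.comp (algebraMap 𝒪 R) =
        (algebraMap (ResidueField 𝒪) (DualNumber (ResidueField 𝒪))).comp (residue 𝒪)} ≤
      Nat.card (ResidueField 𝒪) ^ r) :
    ∃ x : Fin r → R, (∀ s, x s ∈ maximalIdeal R) ∧
      maximalIdeal R ≤ Ideal.span (Set.range x) ⊔
        (maximalIdeal 𝒪).map (algebraMap 𝒪 R) ⊔ maximalIdeal R ^ 2 := by
  classical
  obtain ⟨π, hπ⟩ := exists_aug (R := R) hres
  set k := ResidueField 𝒪 with hk
  set m := maximalIdeal R with hm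
  set J : Ideal R := (maximalIdeal 𝒪).map (algebraMap 𝒪 R) ⊔ m ^ 2 with hJ
  have hJ𝒪 : (maximalIdeal 𝒪).map (algebraMap 𝒪 R) ≤ J := le_sup_left
  have hJ2 : m ^ 2 ≤ J := le_sup_right
  have hJm : J ≤ m := sup_le (map_maximalIdeal_le _) (Ideal.pow_le_self (by norm_num))
  -- the `k`-algebra structure on `R / J`
  let j : k →+* R ⧸ J :=
    Ideal.Quotient.lift (maximalIdeal 𝒪) ((Ideal.Quotient.mk J).comp (algebraMap 𝒪 R)) (by
      intro a ha
      exact Ideal.Quotient.eq_zero_iff_mem.mpr (hJ𝒪 (Ideal.mem_map_of_mem _ ha)))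
  have hj : ∀ c : 𝒪, j (residue 𝒪 c) = Ideal.Quotient.mk J (algebraMap 𝒪 R c) := fun c => rfl
  let _ : Algebra k (R ⧸ J) := j.toAlgebra
  have hjsmul : ∀ (a : k) (q : R ⧸ J), a • q = j a * q := fun a q => rfl
  -- `R / J` is finite
  have hfinres : Finite (ResidueField R) := by
    have h3 : Function.Surjective (ResidueField.map (algebraMap 𝒪 R)) := by
      intro y
      obtain ⟨c, hc⟩ := hres y
      exact ⟨residue 𝒪 c, hc⟩
    exact Finite.of_surjective _ h3
  have hfin : Finite (R ⧸ J) := IsLocalRing.finite_quotient_iff.mpr ⟨2, hJ2⟩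
  -- the cotangent space
  let V : Submodule k (R ⧸ J) := { (m.map (Ideal.Quotient.mk J)).toAddSubmonoid with
    smul_mem' := by
      intro a q hq
      exact Ideal.mul_mem_left (m.map (Ideal.Quotient.mk J)) (j a) hq }
  have hV : ∀ q : R ⧸ J, q ∈ V ↔ q ∈ m.map (Ideal.Quotient.mk J) := fun q => Iff.rfl
  have hVfin : Finite V := inferInstance
  have hVfd : FiniteDimensional k V := inferInstance
  have hmk : ∀ y : R, ∃ c : 𝒪, residue 𝒪 c = π y ∧
      Ideal.Quotient.mk J y - j (π y) = Ideal.Quotient.mk J (y - algebraMap 𝒪 R c) ∧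
      y - algebraMap 𝒪 R c ∈ m := by
    intro y
    obtain ⟨c, hc⟩ := residue_surjective (π y)
    refine ⟨c, hc, ?_, ?_⟩
    · rw [← hc, hj, map_sub]
    · rw [← hπ, RingHom.mem_ker, map_sub, residue_eq_pi_algebraMap, hc, sub_self]
  have hmem : ∀ y : R, Ideal.Quotient.mk J y - j (π y) ∈ V := by
    intro y
    obtain ⟨c, _, h1, h2⟩ := hmk y
    rw [h1, hV]
    exact Ideal.mem_map_of_mem _ h2
  have hprod : ∀ p q : R,
      (Ideal.Quotient.mk J p - j (π p)) * (Ideal.Quotient.mk J q - j (π q)) = 0 := by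
    intro p q
    obtain ⟨c, _, h1, h2⟩ := hmk p
    obtain ⟨c', _, h1', h2'⟩ := hmk q
    rw [h1, h1', ← map_mul, Ideal.Quotient.eq_zero_iff_mem]
    apply hJ2
    rw [pow_two]
    exact Ideal.mul_mem_mul h2 h2'
  -- the tangent vector attached to a functional
  let d : Module.Dual k V → R → k := fun l y => l ⟨Ideal.Quotient.mk J y - j (π y), hmem y⟩
  have hdmul : ∀ l p q, d l (p * q) = π p * d l q + π q * d l p := by
    intro l p q
    have h1 : (⟨Ideal.Quotient.mk J (p * q) - j (π (p * q)), hmem (p * q)⟩ : V) =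
        π p • ⟨Ideal.Quotient.mk J q - j (π q), hmem q⟩ +
        π q • ⟨Ideal.Quotient.mk J p - j (π p), hmem p⟩ := by
      apply Subtype.ext
      show Ideal.Quotient.mk J (p * q) - j (π (p * q)) =
        π p • (Ideal.Quotient.mk J q - j (π q)) + π q • (Ideal.Quotient.mk J p - j (π p))
      rw [hjsmul, hjsmul]
      have := hprod p q
      rw [map_mul, map_mul, map_mul]
      linear_combination this
    simp only [d]
    rw [h1, map_add, map_smul, map_smul, smul_eq_mul, smul_eq_mul]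
  have hdadd : ∀ l p q, d l (p + q) = d l p + d l q := by
    intro l p q
    simp only [d]
    rw [← map_add]
    congr 1
    apply Subtype.ext
    show Ideal.Quotient.mk J (p + q) - j (π (p + q)) =
        (Ideal.Quotient.mk J p - j (π p)) + (Ideal.Quotient.mk J q - j (π q))
    rw [map_add, map_add, map_add]
    ring
  have hdalg : ∀ l (c : 𝒪), d l (algebraMap 𝒪 R c) = 0 := by
    intro l c
    simp only [d]
    have h1 : (⟨Ideal.Quotient.mk J (algebraMap 𝒪 R c) - j (π (algebraMap 𝒪 R c)), hmem _⟩ : V) =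
        0 := by
      apply Subtype.ext
      show Ideal.Quotient.mk J (algebraMap 𝒪 R c) - j (π (algebraMap 𝒪 R c)) = 0
      rw [residue_eq_pi_algebraMap, hj, sub_self]
    rw [h1, map_zero]
  have hd0 : ∀ l, d l 0 = 0 := fun l => by simpa using hdalg l 0
  have hd1 : ∀ l, d l 1 = 0 := fun l => by simpa using hdalg l 1
  let F : Module.Dual k V → {f : R →+* DualNumber k // f.comp (algebraMap 𝒪 R) =
      (algebraMap k (DualNumber k)).comp (residue 𝒪)} := fun l =>
    ⟨derivHom (π : R →+* k) (d l) (hdmul l) (hdadd l) (hd1 l) (hd0 l), by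
      refine RingHom.ext fun c => ?_
      show derivHom (π : R →+* k) (d l) (hdmul l) (hdadd l) (hd1 l) (hd0 l) (algebraMap 𝒪 R c) = _
      rw [derivHom_eq_inl _ _ _ _ _ _ (hdalg l c)]
      show TrivSqZeroExt.inl (π (algebraMap 𝒪 R c)) = TrivSqZeroExt.inl (residue 𝒪 c)
      rw [residue_eq_pi_algebraMap]⟩
  have hFsnd : ∀ l p, TrivSqZeroExt.snd ((F l).1 p) = d l p := fun l p =>
    derivHom_snd (π : R →+* k) (d l) (hdmul l) (hdadd l) (hd1 l) (hd0 l) p
  have hF : Function.Injective F := by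
    intro l l' h
    apply LinearMap.ext
    rintro ⟨v, hv⟩
    have hv' := hv
    rw [hV] at hv'
    obtain ⟨y, hy, hyv⟩ := (Ideal.mem_map_iff_of_surjective _ Ideal.Quotient.mk_surjective).mp hv'
    have h1 : d l y = d l' y := by rw [← hFsnd, ← hFsnd, h]
    have h2 : π y = 0 := by
      rw [← RingHom.mem_ker, hπ]; exact hy
    have h3 : (⟨Ideal.Quotient.mk J y - j (π y), hmem y⟩ : V) = ⟨v, hv⟩ := by
      apply Subtype.ext
      show Ideal.Quotient.mk J y - j (π y) = v
      rw [h2, map_zero, sub_zero, hyv]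
    simp only [d] at h1
    rw [h3] at h1
    exact h1
  -- finiteness of the set of tangent vectors
  have hTfin : Finite {f : R →+* DualNumber k // f.comp (algebraMap 𝒪 R) =
      (algebraMap k (DualNumber k)).comp (residue 𝒪)} := by
    have hkfin : Finite (DualNumber k) := inferInstanceAs (Finite (k × k))
    have hker : ∀ f : {f : R →+* DualNumber k // f.comp (algebraMap 𝒪 R) =
        (algebraMap k (DualNumber k)).comp (residue 𝒪)}, ∀ y ∈ J, f.1 y = 0 := by
      rintro ⟨f, hf⟩
      have hfc : ∀ c, f (algebraMap 𝒪 R c) = TrivSqZeroExt.inl (residue 𝒪 c) := fun c =>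
        RingHom.congr_fun hf c
      let g : R →+* k := (TrivSqZeroExt.fstHom k k k : DualNumber k →+* k).comp f
      have hg : Function.Surjective g := by
        intro y
        obtain ⟨c, hc⟩ := residue_surjective y
        refine ⟨algebraMap 𝒪 R c, ?_⟩
        show TrivSqZeroExt.fst (f (algebraMap 𝒪 R c)) = y
        rw [hfc]
        exact hc
      have hgm : RingHom.ker g = m :=
        IsLocalRing.eq_maximalIdeal (RingHom.ker_isMaximal_of_surjective g hg)
      have hfst : ∀ y ∈ m, TrivSqZeroExt.fst (f y) = 0 := by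
        intro y hy
        rw [← hgm] at hy
        exact hy
      have hJle : J ≤ RingHom.ker f := by
        refine sup_le ?_ ?_
        · rw [Ideal.map_le_iff_le_comap]
          intro c hc
          rw [Ideal.mem_comap, RingHom.mem_ker, hfc, (residue_eq_zero_iff c).mpr hc]
          rfl
        · rw [pow_two, Ideal.mul_le]
          intro a ha b hb
          rw [RingHom.mem_ker, map_mul]
          ext
          · rw [TrivSqZeroExt.fst_mul, hfst a ha, zero_mul]; rfl
          · rw [TrivSqZeroExt.snd_mul, hfst a ha, hfst b hb]; simp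
      intro y hy
      exact hJle hy
    refine Finite.of_injective (fun f => (fun q : R ⧸ J => (Ideal.Quotient.lift J f.1 (hker f)) q))
      ?_
    intro f f' h
    apply Subtype.ext
    apply RingHom.ext
    intro y
    exact congrFun h (Ideal.Quotient.mk J y)
  have hcard2 : Nat.card (Module.Dual k V) ≤ Nat.card k ^ r :=
    (Nat.card_le_card_of_injective F hF).trans hcard
  have hdim : Module.finrank k V ≤ r := by
    have h1 : Nat.card (Module.Dual k V) = Nat.card k ^ Module.finrank k V := by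
      rw [Module.natCard_eq_pow_finrank (K := k) (V := Module.Dual k V),
        Subspace.dual_finrank_eq]
    rw [h1] at hcard2
    exact (Nat.pow_le_pow_iff_right (Finite.one_lt_card (α := k))).mp hcard2
  -- a basis of the cotangent space
  let b := Module.finBasis k V
  have hlift : ∀ i : Fin (Module.finrank k V), ∃ y ∈ m, Ideal.Quotient.mk J y = (b i : R ⧸ J) := by
    intro i
    exact (Ideal.mem_map_iff_of_surjective _ Ideal.Quotient.mk_surjective).mp
      ((hV _).mp (b i).2)
  choose y hym hyb using hlift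
  let x : Fin r → R := fun i => if h : (i : ℕ) < Module.finrank k V then y ⟨i, h⟩ else 0
  refine ⟨x, ?_, ?_⟩
  · intro s
    simp only [x]
    split_ifs with h
    · exact hym _
    · exact Ideal.zero_mem _
  · have hyspan : ∀ i, y i ∈ Ideal.span (Set.range x) := by
      intro i
      refine Ideal.subset_span ⟨⟨i, lt_of_lt_of_le i.2 hdim⟩, ?_⟩
      simp only [x]
      rw [dif_pos i.2]
    intro z hz
    have hz' : Ideal.Quotient.mk J z ∈ V := (hV _).mpr (Ideal.mem_map_of_mem _ hz)
    have h1 := b.sum_repr ⟨Ideal.Quotient.mk J z, hz'⟩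
    have h2 : ∑ i, j (b.repr ⟨Ideal.Quotient.mk J z, hz'⟩ i) * Ideal.Quotient.mk J (y i) =
        Ideal.Quotient.mk J z := by
      have h3 : ((∑ i, b.repr ⟨Ideal.Quotient.mk J z, hz'⟩ i • b i : V) : R ⧸ J) =
          Ideal.Quotient.mk J z := congrArg (Subtype.val) h1
      refine Eq.trans ?_ h3
      simp only [AddSubmonoidClass.coe_finsetSum, Submodule.coe_smul, hyb]
      rfl
    have h4 : ∀ i, ∃ c : 𝒪, residue 𝒪 c = b.repr ⟨Ideal.Quotient.mk J z, hz'⟩ i := fun i =>
      residue_surjective _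
    choose c hc using h4
    have h5 : z - ∑ i, algebraMap 𝒪 R (c i) * y i ∈ J := by
      rw [← Ideal.Quotient.eq_zero_iff_mem, map_sub, map_sum, ← h2, sub_eq_zero]
      refine Finset.sum_congr rfl fun i _ => ?_
      rw [← hc i, hj, map_mul]
    have h6 : z = (z - ∑ i, algebraMap 𝒪 R (c i) * y i) + ∑ i, algebraMap 𝒪 R (c i) * y i := by
      ring
    rw [h6]
    refine Ideal.add_mem _ ?_ ?_
    · refine (?_ : J ≤ _) h5
      rw [hJ]
      exact sup_le (le_sup_right.trans le_sup_left) le_sup_right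
    · refine Ideal.sum_mem _ fun i _ => Ideal.mul_mem_left _ _ ?_
      exact Ideal.mem_sup_left (Ideal.mem_sup_left (hyspan i))

/-- **Part (F)**: a complete local `𝒪`-algebra with at most `q ^ r` tangent vectors is a quotient
of a power series ring in `r` variables. -/
theorem exists_surjective_of_card [Finite (ResidueField 𝒪)]
    (hres : Function.Surjective (residue R ∘ algebraMap 𝒪 R)) (r : ℕ)
    (hcard : Nat.card {f : R →+* DualNumber (ResidueField 𝒪) // f.comp (algebraMap 𝒪 R) =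
        (algebraMap (ResidueField 𝒪) (DualNumber (ResidueField 𝒪))).comp (residue 𝒪)} ≤
      Nat.card (ResidueField 𝒪) ^ r) :
    ∃ γ : MvPowerSeries (Fin r) 𝒪 →ₐ[𝒪] R, Function.Surjective γ := by
  obtain ⟨x, hx, hgen⟩ := exists_generators_of_card hres r hcard
  obtain ⟨γ, hγ, _⟩ := exists_surjective_of_generators hres x hx hgen
  exact ⟨γ, hγ⟩

end Surj

end Fermat.Agent.TW
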