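import Mathlib
import Fermat.Agent.TW.PowerSurj
import Fermat.Agent.S53_Tangent
import Fermat.Prelude.Def_GaloisRep_DeformationRingData

set_option autoImplicit false

/-!
# The tangent space of a deformation ring in terms of cocycles

Part (G) of S56.
-/

namespace Fermat.Agent.TW

open IsLocalRing Matrix Fermat.Agent.S53norm GaloisRep

lemma isAdicComplete_of_pow_eq_bot {A : Type*} [CommRing A] (I : Ideal A) (n : ℕ)
    (h : I ^ n = ⊥) : IsAdicComplete I A where
  haus' := by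
    intro x hx
    have h1 := hx n
    rw [h, SModEq.zero, Submodule.bot_smul, Submodule.mem_bot] at h1
    exact h1
  prec' := by
    intro f hf
    refine ⟨f n, fun m => ?_⟩
    rcases le_total m n with hmn | hmn
    · exact hf hmn
    · have h1 := hf hmn
      rw [h, Submodule.bot_smul, SModEq.bot] at h1
      rw [h1]

section Cocycle

variable {k : Type} [Field k]

/-- Cocycles of the Galois group with values in the adjoint representation of `r`. -/
def IsCocyc (r c : GQ → M2 k) : Prop := ∀ s t, c (s * t) = c s + r s * c t * r s⁻¹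

/-- `c` vanishes on the Galois group of a finite extension. -/
def IsLevel (c : GQ → M2 k) : Prop :=
  ∃ L : IntermediateField ℚ (AlgebraicClosure ℚ), FiniteDimensional ℚ L ∧
    ∀ σ : GQ, (∀ x ∈ L, σ x = x) → c σ = 0

/-- The matrix `A + ε B`. -/
def dm (A B : M2 k) : M2 (DualNumber k) :=
  Matrix.of fun i j => TrivSqZeroExt.inl (A i j) + TrivSqZeroExt.inr (B i j)

/-- The constant part. -/
def fm (X : M2 (DualNumber k)) : M2 k := Matrix.of fun i j => TrivSqZeroExt.fst (X i j)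

/-- The `ε` part. -/
def sm (X : M2 (DualNumber k)) : M2 k := Matrix.of fun i j => TrivSqZeroExt.snd (X i j)

@[simp] lemma fm_dm (A B : M2 k) : fm (dm A B) = A := by
  ext i j; simp [fm, dm]

@[simp] lemma sm_dm (A B : M2 k) : sm (dm A B) = B := by
  ext i j; simp [sm, dm]

omit [Field k] in
lemma dm_ext {X Y : M2 (DualNumber k)} (h1 : fm X = fm Y) (h2 : sm X = sm Y) : X = Y := by
  ext i j
  · exact congrFun (congrFun h1 i) j
  · exact congrFun (congrFun h2 i) j

@[simp] lemma dm_fm_sm (X : M2 (DualNumber k)) : dm (fm X) (sm X) = X :=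
  dm_ext (fm_dm _ _) (sm_dm _ _)

@[simp] lemma fm_mul (X Y : M2 (DualNumber k)) : fm (X * Y) = fm X * fm Y := by
  ext i j
  simp [fm, Matrix.mul_apply, Fin.sum_univ_two]

@[simp] lemma sm_mul (X Y : M2 (DualNumber k)) : sm (X * Y) = fm X * sm Y + sm X * fm Y := by
  ext i j
  simp [fm, sm, Matrix.mul_apply, Fin.sum_univ_two]
  ring

@[simp] lemma fm_one : fm (1 : M2 (DualNumber k)) = 1 := by
  ext i j
  by_cases h : i = j <;> simp [fm, Matrix.one_apply, h]

@[simp] lemma sm_one : sm (1 : M2 (DualNumber k)) = 0 := by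
  ext i j
  by_cases h : i = j <;> simp [sm, Matrix.one_apply, h]

@[simp] lemma fm_sub (X Y : M2 (DualNumber k)) : fm (X - Y) = fm X - fm Y := by
  ext i j; simp [fm]

@[simp] lemma sm_sub (X Y : M2 (DualNumber k)) : sm (X - Y) = sm X - sm Y := by
  ext i j; simp [sm]

@[simp] lemma fm_add (X Y : M2 (DualNumber k)) : fm (X + Y) = fm X + fm Y := by
  ext i j; simp [fm]

@[simp] lemma sm_add (X Y : M2 (DualNumber k)) : sm (X + Y) = sm X + sm Y := by
  ext i j; simp [sm]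

/-- The matrices `(1 + ε c) r`. -/
def dualMat (r c : GQ → M2 k) (σ : GQ) : M2 (DualNumber k) := dm (r σ) (c σ * r σ)

/-- The unit `1 + ε X`. -/
def dunit (X : M2 k) : (M2 (DualNumber k))ˣ where
  val := dm 1 X
  inv := dm 1 (-X)
  val_inv := dm_ext (by simp) (by simp)
  inv_val := dm_ext (by simp) (by simp)

@[simp] lemma fm_dunit (X : M2 k) : fm (dunit X : M2 (DualNumber k)) = 1 := fm_dm _ _

@[simp] lemma sm_dunit (X : M2 k) : sm (dunit X : M2 (DualNumber k)) = X := sm_dm _ _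

lemma dunit_mul_dualMat {r : GQ → M2 k} (hr1 : ∀ s, r s⁻¹ * r s = 1) {c c' : GQ → M2 k}
    {X : M2 k} (h : ∀ s, c s - c' s = X - r s * X * r s⁻¹) (s : GQ) :
    (dunit X : M2 (DualNumber k)) * dualMat r c' s = dualMat r c s * dunit X := by
  refine dm_ext ?_ ?_
  · simp [dualMat]
  · have h1 : c s = c' s + (X - r s * X * r s⁻¹) := by rw [← h s]; abel
    simp only [dualMat, sm_mul, fm_dm, sm_dm, fm_dunit, sm_dunit, one_mul, mul_one, h1]
    have h2 : r s * X * r s⁻¹ * r s = r s * X := by rw [mul_assoc, hr1, mul_one]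
    rw [add_mul, sub_mul, h2]
    abel

/-- The coboundaries. -/
def cobound (r : GQ → M2 k) : AddSubgroup (GQ → M2 k) where
  carrier := {c | ∃ X : M2 k, ∀ s, c s = X - r s * X * r s⁻¹}
  zero_mem' := ⟨0, fun s => by simp⟩
  add_mem' := by
    rintro a b ⟨X, hX⟩ ⟨Y, hY⟩
    refine ⟨X + Y, fun s => ?_⟩
    rw [Pi.add_apply, hX, hY]
    noncomm_ring
  neg_mem' := by
    rintro a ⟨X, hX⟩
    refine ⟨-X, fun s => ?_⟩
    rw [Pi.neg_apply, hX]
    noncomm_ring

lemma mem_cobound {r c : GQ → M2 k} :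
    c ∈ cobound r ↔ ∃ X : M2 k, ∀ s, c s = X - r s * X * r s⁻¹ := Iff.rfl

end Cocycle

section Main

variable {𝒪 : Type} [CommRing 𝒪] [IsDomain 𝒪] [IsDiscreteValuationRing 𝒪]
  [IsAdicComplete (maximalIdeal 𝒪) 𝒪] [Finite (ResidueField 𝒪)]

omit [IsAdicComplete (maximalIdeal 𝒪) 𝒪] [Finite (ResidueField 𝒪)] in
lemma exists_nfData_of {ρbar : ResidualGaloisRep (ResidueField 𝒪)}
    (habs : ρbar.IsAbsolutelyIrreducible) {r : GQ → M2 (ResidueField 𝒪)}
    (hr : HasMat (ρbar.ρ : GQ → _) r) : ∃ D : NFData ρbar, D.rbar = r := by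
  obtain ⟨g, i, j, hdet⟩ := exists_positions habs hr
  have h1 : ∀ t, ∃ c : 𝒪, residue 𝒪 c = r (g t) (i t) (j t) := fun t => residue_surjective _
  choose c hc using h1
  exact ⟨⟨habs, r, hr, g, i, j, hdet, c, hc⟩, rfl⟩

variable {ρbar : ResidualGaloisRep (ResidueField 𝒪)}
    {𝒟 : ∀ ⦃A : Type⦄ [CommRing A] [IsLocalRing A] [Algebra 𝒪 A], GaloisRepAdic A → Prop}

lemma fst_eq_zero_of_mem {k : Type} [Field k] {y : DualNumber k}
    (hy : y ∈ maximalIdeal (DualNumber k)) : TrivSqZeroExt.fst y = 0 := by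
  by_contra h
  exact hy ((TrivSqZeroExt.isUnit_iff_isUnit_fst).mpr (isUnit_iff_ne_zero.mpr h))

lemma maximalIdeal_dual_sq {k : Type} [Field k] : maximalIdeal (DualNumber k) ^ 2 = ⊥ := by
  rw [eq_bot_iff, pow_two, Ideal.mul_le]
  intro a ha b hb
  have h1 := fst_eq_zero_of_mem ha
  have h2 := fst_eq_zero_of_mem hb
  rw [Ideal.mem_bot]
  ext
  · simp [h1]
  · simp [h1, h2]

omit [Finite (ResidueField 𝒪)] in
/-- Tangent vectors of a deformation ring give cocycles. -/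
lemma exists_cocycle (DQ : DeformationRingData 𝒪 ρbar 𝒟) {r : GQ → M2 DQ.R}
    (hr : HasMat (DQ.ρ.ρ : GQ → _) r) {rbar : GQ → M2 (ResidueField 𝒪)}
    (hrbar : HasMat (ρbar.ρ : GQ → _) rbar)
    (hlift : ∀ σ a b (z : 𝒪), residue 𝒪 z = rbar σ a b →
      r σ a b - algebraMap 𝒪 DQ.R z ∈ maximalIdeal DQ.R)
    (f : DQ.R →+* DualNumber (ResidueField 𝒪)) (hloc : IsLocalHom f)
    (hf : f.comp (algebraMap 𝒪 DQ.R) =
      (algebraMap (ResidueField 𝒪) (DualNumber (ResidueField 𝒪))).comp (residue 𝒪)) :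
    ∃ c : GQ → M2 (ResidueField 𝒪), IsCocyc rbar c ∧ IsLevel c ∧
      ∀ σ, (r σ).map f = dualMat rbar c σ := by
  have hfst : ∀ σ, fm ((r σ).map f) = rbar σ := by
    intro σ
    ext a b
    obtain ⟨z, hz⟩ := residue_surjective (R := 𝒪) (rbar σ a b)
    have h1 := hlift σ a b z hz
    have h2 : f (r σ a b - algebraMap 𝒪 DQ.R z) ∈ maximalIdeal (DualNumber (ResidueField 𝒪)) :=
      map_nonunit f _ h1
    have h3 := fst_eq_zero_of_mem h2
    have h4 : f (algebraMap 𝒪 DQ.R z) = TrivSqZeroExt.inl (rbar σ a b) := by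
      have := RingHom.congr_fun hf z
      rw [RingHom.comp_apply, RingHom.comp_apply, hz] at this
      exact this
    rw [map_sub, h4, TrivSqZeroExt.fst_sub, TrivSqZeroExt.fst_inl, sub_eq_zero] at h3
    exact h3
  have hinv : ∀ s, rbar s * rbar s⁻¹ = 1 := fun s => by
    rw [← hrbar.map_mul, mul_inv_cancel, hrbar.map_one]
  have hinv' : ∀ s, rbar s⁻¹ * rbar s = 1 := fun s => by
    rw [← hrbar.map_mul, inv_mul_cancel, hrbar.map_one]
  have hmul : ∀ s t, (r (s * t)).map f = (r s).map f * (r t).map f := fun s t => by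
    rw [hr.map_mul, Matrix.map_mul]
  refine ⟨fun σ => sm ((r σ).map f) * rbar σ⁻¹, ?_, ?_, ?_⟩
  · intro s t
    have h1 : sm ((r (s * t)).map f) = rbar s * sm ((r t).map f) + sm ((r s).map f) * rbar t := by
      rw [hmul, sm_mul, hfst, hfst]
    have h2 : rbar (s * t)⁻¹ = rbar t⁻¹ * rbar s⁻¹ := by rw [_root_.mul_inv_rev, hrbar.map_mul]
    show sm ((r (s * t)).map f) * rbar (s * t)⁻¹ = sm ((r s).map f) * rbar s⁻¹ +
      rbar s * (sm ((r t).map f) * rbar t⁻¹) * rbar s⁻¹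
    rw [h1, h2, add_mul, add_comm]
    congr 1
    · rw [mul_assoc, ← mul_assoc (rbar t), hinv, one_mul]
    · simp only [mul_assoc]
  · obtain ⟨L, hL, h1⟩ := hr.isCont 2
    refine ⟨L, hL, fun σ hσ => ?_⟩
    have h2 : (r σ).map f = 1 := by
      ext1 a b
      have h3 := h1 σ hσ a b
      have h4 : f ((r σ - 1) a b) ∈ maximalIdeal (DualNumber (ResidueField 𝒪)) ^ 2 := by
        have h5 : (maximalIdeal DQ.R ^ 2).map f ≤
            maximalIdeal (DualNumber (ResidueField 𝒪)) ^ 2 := by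
          rw [Ideal.map_pow]
          exact Ideal.pow_right_mono (Ideal.map_le_iff_le_comap.mpr fun a ha =>
            Ideal.mem_comap.mpr (map_nonunit f a ha)) 2
        exact h5 (Ideal.mem_map_of_mem f h3)
      rw [maximalIdeal_dual_sq, Ideal.mem_bot, Matrix.sub_apply, map_sub, sub_eq_zero] at h4
      rw [Matrix.map_apply, h4, Matrix.one_apply, Matrix.one_apply]
      split_ifs <;> simp
    show sm ((r σ).map f) * rbar σ⁻¹ = 0
    rw [h2, sm_one, zero_mul]
  · intro σ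
    refine dm_ext ?_ ?_
    · rw [hfst, dualMat, fm_dm]
    · rw [dualMat, sm_dm, mul_assoc, hinv', mul_one]

omit [IsDomain 𝒪] [IsDiscreteValuationRing 𝒪] [IsAdicComplete (maximalIdeal 𝒪) 𝒪] in
lemma isAdicComplete_dual [IsLocalRing 𝒪] :
    IsAdicComplete (maximalIdeal (DualNumber (ResidueField 𝒪))) (DualNumber (ResidueField 𝒪)) :=
  isAdicComplete_of_pow_eq_bot _ 2 maximalIdeal_dual_sq

omit [IsAdicComplete (maximalIdeal 𝒪) 𝒪] [Finite (ResidueField 𝒪)] in
lemma isLocalHom_of_compat {R : Type} [CommRing R] [IsLocalRing R] [Algebra 𝒪 R]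
    {f : R →+* DualNumber (ResidueField 𝒪)}
    (hf : f.comp (algebraMap 𝒪 R) =
      (algebraMap (ResidueField 𝒪) (DualNumber (ResidueField 𝒪))).comp (residue 𝒪)) :
    IsLocalHom f := by
  let g : R →+* ResidueField 𝒪 :=
    (TrivSqZeroExt.fstHom (ResidueField 𝒪) (ResidueField 𝒪) (ResidueField 𝒪) :
      DualNumber (ResidueField 𝒪) →+* ResidueField 𝒪).comp f
  have hg : Function.Surjective g := by
    intro y
    obtain ⟨c, hc⟩ := residue_surjective y
    refine ⟨algebraMap 𝒪 R c, ?_⟩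
    show TrivSqZeroExt.fst (f (algebraMap 𝒪 R c)) = y
    have := RingHom.congr_fun hf c
    rw [RingHom.comp_apply] at this
    rw [this]
    exact hc
  have hgm : RingHom.ker g = maximalIdeal R :=
    IsLocalRing.eq_maximalIdeal (RingHom.ker_isMaximal_of_surjective g hg)
  constructor
  intro a ha
  by_contra hna
  have h1 : a ∈ RingHom.ker g := by rw [hgm]; exact hna
  have h2 : TrivSqZeroExt.fst (f a) = 0 := h1
  have h3 := (TrivSqZeroExt.isUnit_iff_isUnit_fst).mp ha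
  rw [h2] at h3
  exact not_isUnit_zero h3

/-- The cocycles attached to the tangent vectors of a deformation ring. -/
theorem exists_cocycle_map (DQ : DeformationRingData 𝒪 ρbar 𝒟)
    {rbar : GQ → M2 (ResidueField 𝒪)} (hrbar : HasMat (ρbar.ρ : GQ → _) rbar)
    (hstab : letI := dualAlg 𝒪
      ∀ (φ : DQ.R →ₐ[𝒪] DualNumber (ResidueField 𝒪))
        (hφ : IsLocalHom (φ : DQ.R →+* DualNumber (ResidueField 𝒪))),
        𝒟 (DQ.ρ.baseChangeAlong (φ : DQ.R →+* DualNumber (ResidueField 𝒪)) hφ)) :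
    ∃ C : {f : DQ.R →+* DualNumber (ResidueField 𝒪) // f.comp (algebraMap 𝒪 DQ.R) =
        (algebraMap (ResidueField 𝒪) (DualNumber (ResidueField 𝒪))).comp (residue 𝒪)} →
        (GQ → M2 (ResidueField 𝒪)),
      (∀ f, IsCocyc rbar (C f)) ∧ (∀ f, IsLevel (C f)) ∧
      (∀ f, HasMat ((DQ.ρ.baseChangeAlong f.1 (isLocalHom_of_compat f.2)).ρ : GQ → _)
        (dualMat rbar (C f))) ∧
      ∀ f g, C g - C f ∈ cobound rbar → f = g := by
  let _ := dualAlg 𝒪
  obtain ⟨D, hD⟩ := exists_nfData_of DQ.absIrr hrbar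
  obtain ⟨rR, hrR, hlift, -⟩ := D.exists_normalForm DQ.residual_isEquiv
  have hinv' : ∀ s, rbar s⁻¹ * rbar s = 1 := fun s => by
    rw [← hrbar.map_mul, inv_mul_cancel, hrbar.map_one]
  let T := {f : DQ.R →+* DualNumber (ResidueField 𝒪) // f.comp (algebraMap 𝒪 DQ.R) =
        (algebraMap (ResidueField 𝒪) (DualNumber (ResidueField 𝒪))).comp (residue 𝒪)}
  have hloc : ∀ f : T, IsLocalHom f.1 := fun f => isLocalHom_of_compat f.2
  let al : T → (DQ.R →ₐ[𝒪] DualNumber (ResidueField 𝒪)) := fun f =>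
    { f.1 with commutes' := fun z => RingHom.congr_fun f.2 z }
  have hex : ∀ f : T, ∃ c : GQ → M2 (ResidueField 𝒪), IsCocyc rbar c ∧ IsLevel c ∧
      ∀ σ, (rR σ).map f.1 = dualMat rbar c σ := fun f =>
    exists_cocycle DQ hrR hrbar (fun σ a b z hz => hlift σ a b z (by rw [hz, hD])) f.1 (hloc f)
      f.2
  choose c hc1 hc2 hc3 using hex
  have hmat : ∀ f : T, HasMat ((DQ.ρ.baseChangeAlong f.1 (hloc f)).ρ : GQ → _)
      (dualMat rbar (c f)) := fun f => (hrR.baseChangeAlong f.1 (hloc f)).of_eq (hc3 f)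
  refine ⟨c, hc1, hc2, hmat, ?_⟩
  intro f g h1
  obtain ⟨X, hX⟩ := h1
  have h2 := dunit_mul_dualMat hinv' (c := c g) (c' := c f) (X := X) (fun s => hX s)
  have h3 : HasMat ((DQ.ρ.baseChangeAlong f.1 (hloc f)).ρ : GQ → _) (dualMat rbar (c g)) := by
    refine ((hmat f).conj (dunit X)).of_eq fun s => ?_
    rw [h2, mul_assoc, Units.mul_inv, mul_one]
  have h4 : (DQ.ρ.baseChangeAlong f.1 (hloc f)).IsEquiv
      (DQ.ρ.baseChangeAlong g.1 (hloc g)) := isEquiv_of_hasMat h3 (hmat g)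
  have hA := dual_isArtinianTestAlgebra (𝒪 := 𝒪)
  have := hA.isLocalHom
  have := hA.isArtinian
  have := isAdicComplete_dual (𝒪 := 𝒪)
  have hres : (DQ.ρ.baseChangeAlong g.1 (hloc g)).residual.IsEquiv
      (ρbar.baseChangeAlong (IsLocalRing.ResidueField.map
        (algebraMap 𝒪 (DualNumber (ResidueField 𝒪))))) := by
    refine D.residual_isEquiv (hmat g) ?_
    intro σ a b z hz
    have h5 : algebraMap 𝒪 (DualNumber (ResidueField 𝒪)) z =
      TrivSqZeroExt.inl (residue 𝒪 z) := rfl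
    have h6 : dualMat rbar (c g) σ a b - algebraMap 𝒪 (DualNumber (ResidueField 𝒪)) z =
        TrivSqZeroExt.inr ((c g σ * rbar σ) a b) := by
      rw [h5, hz, hD]
      simp [dualMat, dm]
    rw [h6]
    exact eps_mem _
  have huniq := DQ.universal (DualNumber (ResidueField 𝒪)) hA.residue_surjective
    (DQ.ρ.baseChangeAlong g.1 (hloc g)) (hstab (al g) (hloc g)) hres
  have h7 : al f = al g := huniq.unique ⟨hloc f, h4⟩
    ⟨hloc g, ⟨GaloisRepAdic.Equiv.refl _⟩⟩
  apply Subtype.ext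
  have h8 := congrArg (fun φ : DQ.R →ₐ[𝒪] DualNumber (ResidueField 𝒪) =>
    (φ : DQ.R →+* DualNumber (ResidueField 𝒪))) h7
  exact h8

/-- The tangent vectors of a deformation ring satisfying a condition `P`, compared with classes of
cocycles. -/
theorem card_tangent_le (DQ : DeformationRingData 𝒪 ρbar 𝒟)
    {rbar : GQ → M2 (ResidueField 𝒪)} (hrbar : HasMat (ρbar.ρ : GQ → _) rbar)
    (P : (DQ.R →+* DualNumber (ResidueField 𝒪)) → Prop)
    (hstab : letI := dualAlg 𝒪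
      ∀ (φ : DQ.R →ₐ[𝒪] DualNumber (ResidueField 𝒪))
        (hφ : IsLocalHom (φ : DQ.R →+* DualNumber (ResidueField 𝒪))),
        𝒟 (DQ.ρ.baseChangeAlong (φ : DQ.R →+* DualNumber (ResidueField 𝒪)) hφ))
    (Z : AddSubgroup (GQ → M2 (ResidueField 𝒪)))
    (hZ : ∀ (f : DQ.R →+* DualNumber (ResidueField 𝒪)) (hf : IsLocalHom f) (c : GQ → M2 _),
        f.comp (algebraMap 𝒪 DQ.R) =
          (algebraMap (ResidueField 𝒪) (DualNumber (ResidueField 𝒪))).comp (residue 𝒪) →
        P f → IsCocyc rbar c → IsLevel c →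
        HasMat ((DQ.ρ.baseChangeAlong f hf).ρ : GQ → _) (dualMat rbar c) → c ∈ Z)
    (h0 : (cobound rbar).relIndex Z ≠ 0) :
    Nat.card {f : DQ.R →+* DualNumber (ResidueField 𝒪) // f.comp (algebraMap 𝒪 DQ.R) =
        (algebraMap (ResidueField 𝒪) (DualNumber (ResidueField 𝒪))).comp (residue 𝒪) ∧ P f} ≤
      (cobound rbar).relIndex Z := by
  obtain ⟨C, hC1, hC2, hC3, hC4⟩ := exists_cocycle_map DQ hrbar hstab
  have hcZ : ∀ f : {f : DQ.R →+* DualNumber (ResidueField 𝒪) // f.comp (algebraMap 𝒪 DQ.R) =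
        (algebraMap (ResidueField 𝒪) (DualNumber (ResidueField 𝒪))).comp (residue 𝒪) ∧ P f},
      C ⟨f.1, f.2.1⟩ ∈ Z := fun f =>
    hZ f.1 (isLocalHom_of_compat f.2.1) _ f.2.1 f.2.2 (hC1 _) (hC2 _) (hC3 ⟨f.1, f.2.1⟩)
  have hfin : Finite (Z ⧸ (cobound rbar).addSubgroupOf Z) :=
    Nat.finite_of_card_ne_zero h0
  have hinj : Function.Injective (fun f : {f : DQ.R →+* DualNumber (ResidueField 𝒪) //
        f.comp (algebraMap 𝒪 DQ.R) =
        (algebraMap (ResidueField 𝒪) (DualNumber (ResidueField 𝒪))).comp (residue 𝒪) ∧ P f} =>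
      (QuotientAddGroup.mk (⟨C ⟨f.1, f.2.1⟩, hcZ f⟩ : Z) :
        Z ⧸ (cobound rbar).addSubgroupOf Z)) := by
    intro f g hfg
    have h1 : C ⟨g.1, g.2.1⟩ - C ⟨f.1, f.2.1⟩ ∈ cobound rbar := by
      have h2 := QuotientAddGroup.eq.mp hfg
      rw [AddSubgroup.mem_addSubgroupOf] at h2
      have h3 : ((-(⟨C ⟨f.1, f.2.1⟩, hcZ f⟩ : Z) + ⟨C ⟨g.1, g.2.1⟩, hcZ g⟩ : Z) :
          GQ → M2 (ResidueField 𝒪)) = C ⟨g.1, g.2.1⟩ - C ⟨f.1, f.2.1⟩ := by
        rw [AddSubgroup.coe_add, AddSubgroup.coe_neg]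
        abel
      rwa [h3] at h2
    have h5 := hC4 _ _ h1
    exact Subtype.ext (Subtype.mk.inj h5)
  exact (Nat.card_le_card_of_injective _ hinj)

/-- **Part (G)**: if the group of allowed cocycles modulo coboundaries has at most `q ^ r`
elements, the deformation ring is a quotient of a power series ring in `r` variables. -/
theorem exists_surjective_of_relIndex (DQ : DeformationRingData 𝒪 ρbar 𝒟)
    {rbar : GQ → M2 (ResidueField 𝒪)} (hrbar : HasMat (ρbar.ρ : GQ → _) rbar)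
    (hstab : letI := dualAlg 𝒪
      ∀ (φ : DQ.R →ₐ[𝒪] DualNumber (ResidueField 𝒪))
        (hφ : IsLocalHom (φ : DQ.R →+* DualNumber (ResidueField 𝒪))),
        𝒟 (DQ.ρ.baseChangeAlong (φ : DQ.R →+* DualNumber (ResidueField 𝒪)) hφ))
    (Z : AddSubgroup (GQ → M2 (ResidueField 𝒪)))
    (hZ : letI := dualAlg 𝒪
      ∀ (c : GQ → M2 (ResidueField 𝒪)) (ρ : GaloisRepAdic (DualNumber (ResidueField 𝒪))),
        IsCocyc rbar c → IsLevel c → 𝒟 ρ → HasMat (ρ.ρ : GQ → _) (dualMat rbar c) → c ∈ Z)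
    (r : ℕ) (h0 : (cobound rbar).relIndex Z ≠ 0)
    (hle : (cobound rbar).relIndex Z ≤ Nat.card (ResidueField 𝒪) ^ r) :
    ∃ γ : MvPowerSeries (Fin r) 𝒪 →ₐ[𝒪] DQ.R, Function.Surjective γ := by
  refine exists_surjective_of_card DQ.residue_surjective r (le_trans ?_ hle)
  let _ := dualAlg 𝒪
  have h1 := card_tangent_le DQ hrbar (fun _ => True) hstab Z (fun f hf c hfc _ hc1 hc2 hm =>
    hZ c _ hc1 hc2 (hstab { f with commutes' := fun z => RingHom.congr_fun hfc z } hf) hm) h0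
  refine le_trans (le_of_eq ?_) h1
  exact Nat.card_congr (Equiv.subtypeEquivRight fun f => (and_iff_left trivial).symm)

end Main

end Fermat.Agent.TW
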