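import Mathlib
import Fermat.Agent.TW.Tangent
import Fermat.Prelude.Def_GaloisRep_LocalConditions
import Fermat.Prelude.Def_GaloisRep_StrictOrdinary

set_option autoImplicit false

/-!
# Local conditions in terms of matrices
-/

namespace Fermat.Agent.TW

open IsLocalRing Matrix Fermat.Agent.S53norm GaloisRep Polynomial

section Matrices

variable {A : Type} [CommRing A] {V : Type} [AddCommGroup V] [Module A V]

/-- The matrix of an endomorphism in coordinates. -/
lemma toMatrix_of_coord [Nontrivial A] (e : V ≃ₗ[A] (Fin 2 → A)) (f : Module.End A V) (X : M2 A)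
    (h : ∀ v, e (f v) = X *ᵥ e v) :
    LinearMap.toMatrix (Module.Basis.ofEquivFun e) (Module.Basis.ofEquivFun e) f = X := by
  refine mat_ext fun v => ?_
  have h1 := LinearMap.toMatrix_mulVec_repr (Module.Basis.ofEquivFun e)
    (Module.Basis.ofEquivFun e) f (e.symm v)
  have h2 : ((Module.Basis.ofEquivFun e).repr (e.symm v) : Fin 2 → A) = v := by
    ext i
    simp
  have h3 : ((Module.Basis.ofEquivFun e).repr (f (e.symm v)) : Fin 2 → A) = X *ᵥ v := by
    ext i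
    have := h (e.symm v)
    rw [LinearEquiv.apply_symm_apply] at this
    rw [← this]
    simp
  rw [h2, h3] at h1
  exact h1

lemma det_eq_of_coord (e : V ≃ₗ[A] (Fin 2 → A)) (f : Module.End A V) (X : M2 A)
    (h : ∀ v, e (f v) = X *ᵥ e v) : LinearMap.det f = X.det := by
  nontriviality A
  rw [← LinearMap.det_toMatrix (Module.Basis.ofEquivFun e), toMatrix_of_coord e f X h]

lemma charpoly_eq_of_coord [Module.Free A V] [Module.Finite A V]
    (e : V ≃ₗ[A] (Fin 2 → A)) (f : Module.End A V) (X : M2 A)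
    (h : ∀ v, e (f v) = X *ᵥ e v) : LinearMap.charpoly f = X.charpoly := by
  nontriviality A
  rw [← LinearMap.charpoly_toMatrix f (Module.Basis.ofEquivFun e), toMatrix_of_coord e f X h]

end Matrices

section Adic

variable {A : Type} [CommRing A] [IsLocalRing A] {ρ : GaloisRepAdic A} {r : GQ → M2 A}

lemma detIsCyclotomic_iff (h : HasMat (ρ.ρ : GQ → _) r) (p : ℕ) :
    ρ.DetIsCyclotomic p ↔ (p : A) ∈ maximalIdeal A ∧ ∀ (n : ℕ) (σ : GQ) (a : ℕ),
      (∀ μ : AlgebraicClosure ℚ, μ ^ p ^ n = 1 → σ μ = μ ^ a) →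
        (r σ).det - (a : A) ∈ Ideal.span {((p ^ n : ℕ) : A)} := by
  obtain ⟨e, he⟩ := h
  unfold GaloisRepAdic.DetIsCyclotomic
  simp only [det_eq_of_coord e (ρ.ρ _) (r _) (he _)]

lemma isUnramifiedAt_iff (h : HasMat (ρ.ρ : GQ → _) r) (q : ℕ) :
    ρ.IsUnramifiedAt q ↔ ∀ P : ValuationSubring (AlgebraicClosure ℚ), P.LiesOverPrime q →
      ∀ σ ∈ P.inertiaSubgroupIn ℚ, r σ = 1 := by
  obtain ⟨e, he⟩ := h
  refine forall₂_congr fun P _ => forall₂_congr fun σ _ => ?_
  constructor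
  · intro h1
    refine mat_ext fun v => ?_
    have h2 := he σ (e.symm v)
    rw [h1, Module.End.one_apply, LinearEquiv.apply_symm_apply] at h2
    rw [← h2, Matrix.one_mulVec]
  · intro h1
    refine LinearMap.ext fun v => e.injective ?_
    rw [he, h1, Matrix.one_mulVec, Module.End.one_apply]

lemma isUnipotentOnInertiaAt_iff (h : HasMat (ρ.ρ : GQ → _) r) (q : ℕ) :
    ρ.IsUnipotentOnInertiaAt q ↔ ∀ P : ValuationSubring (AlgebraicClosure ℚ),
      P.LiesOverPrime q → ∀ σ ∈ P.inertiaSubgroupIn ℚ, (r σ).charpoly = (X - 1) ^ 2 := by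
  obtain ⟨e, he⟩ := h
  unfold GaloisRepAdic.IsUnipotentOnInertiaAt
  simp only [charpoly_eq_of_coord e (ρ.ρ _) (r _) (he _)]

omit [IsLocalRing A] in
lemma mem_span_zero_iff {V : Type} [AddCommGroup V] [Module A V] (b : Module.Basis (Fin 2) A V)
    (v : V) : v ∈ Submodule.span A {b 0} ↔ b.equivFun v 1 = 0 := by
  constructor
  · intro hv
    obtain ⟨c, rfl⟩ := Submodule.mem_span_singleton.mp hv
    simp
  · intro hv
    refine Submodule.mem_span_singleton.mpr ⟨b.equivFun v 0, ?_⟩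
    apply b.equivFun.injective
    ext i
    fin_cases i
    · simp
    · rw [map_smul]
      simp only [Fin.mk_one, Pi.smul_apply]
      rw [hv]
      simp

lemma inertia_le_decomposition (P : ValuationSubring (AlgebraicClosure ℚ)) {σ : GQ}
    (hσ : σ ∈ P.inertiaSubgroupIn ℚ) : σ ∈ P.decompositionSubgroup ℚ := by
  obtain ⟨τ, -, rfl⟩ := hσ
  exact τ.2

/-- Strict ordinarity in terms of matrices. -/
theorem isStrictOrdinaryAt_iff (p : ℕ) :
    ρ.IsStrictOrdinaryAt p ↔ (p : A) ∈ maximalIdeal A ∧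
      ∀ P : ValuationSubring (AlgebraicClosure ℚ), P.LiesOverPrime p →
        ∃ r' : GQ → M2 A, HasMat (ρ.ρ : GQ → _) r' ∧ ∀ σ ∈ P.decompositionSubgroup ℚ,
          r' σ 1 0 = 0 ∧ (σ ∈ P.inertiaSubgroupIn ℚ → r' σ 1 1 = 1) ∧
          ∀ n a : ℕ, (∀ μ : AlgebraicClosure ℚ, μ ^ p ^ n = 1 → σ μ = μ ^ a) →
            r' σ 0 0 - (a : A) * r' σ 1 1 ∈ Ideal.span {((p ^ n : ℕ) : A)} := by
  unfold GaloisRepAdic.IsStrictOrdinaryAt
  refine and_congr_right fun _ => forall₂_congr fun P _ => ?_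
  constructor
  · rintro ⟨L, ⟨b, rfl⟩, hD, hI, hx⟩
    have hmat : ∀ (σ : GQ) (v : ρ.V), b.equivFun (ρ.ρ σ v) =
        LinearMap.toMatrix b b (ρ.ρ σ) *ᵥ b.equivFun v := fun σ v =>
      (LinearMap.toMatrix_mulVec_repr b b (ρ.ρ σ) v).symm
    have hcol : ∀ (σ : GQ) (i j : Fin 2), LinearMap.toMatrix b b (ρ.ρ σ) i j =
        b.equivFun (ρ.ρ σ (b j)) i := fun σ i j => LinearMap.toMatrix_apply b b _ i j
    refine ⟨fun σ => LinearMap.toMatrix b b (ρ.ρ σ), ⟨b.equivFun, hmat⟩, fun σ hσ => ⟨?_, ?_, ?_⟩⟩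
    · show LinearMap.toMatrix b b (ρ.ρ σ) 1 0 = 0
      rw [hcol]
      exact (mem_span_zero_iff b _).mp (hD σ hσ _ (Submodule.mem_span_singleton_self _))
    · intro hσI
      have h1 := (mem_span_zero_iff b _).mp (hI σ hσI (b 1))
      show LinearMap.toMatrix b b (ρ.ρ σ) 1 1 = 1
      rw [hcol]
      rw [map_sub, Pi.sub_apply, sub_eq_zero] at h1
      rw [h1]
      simp
    · intro n a hna
      obtain ⟨x, z, h1, h2, h3⟩ := hx σ hσ
      have h4 : LinearMap.toMatrix b b (ρ.ρ σ) 0 0 = x := by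
        rw [hcol, h1 _ (Submodule.mem_span_singleton_self _)]
        simp
      have h5 : LinearMap.toMatrix b b (ρ.ρ σ) 1 1 = z := by
        have h6 := (mem_span_zero_iff b _).mp (h2 (b 1))
        rw [map_sub, Pi.sub_apply, sub_eq_zero] at h6
        rw [hcol, h6]
        simp
      show LinearMap.toMatrix b b (ρ.ρ σ) 0 0 - (a : A) * LinearMap.toMatrix b b (ρ.ρ σ) 1 1 ∈ _
      rw [h4, h5]
      exact h3 n a hna
  · rintro ⟨r', ⟨e, he⟩, h⟩
    let b := Module.Basis.ofEquivFun e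
    have hbe : ∀ v, b.equivFun v = e v := fun v => by
      simp [b]
    have hmem : ∀ v, v ∈ Submodule.span A {b 0} ↔ e v 1 = 0 := fun v => by
      rw [mem_span_zero_iff, hbe]
    refine ⟨Submodule.span A {b 0}, ⟨b, rfl⟩, ?_, ?_, ?_⟩
    · intro σ hσ v hv
      rw [hmem] at hv ⊢
      rw [he, Matrix.mulVec, dotProduct, Fin.sum_univ_two, hv, (h σ hσ).1]
      simp
    · intro σ hσ v
      rw [hmem, map_sub, Pi.sub_apply, he, Matrix.mulVec, dotProduct, Fin.sum_univ_two,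
        (h σ (inertia_le_decomposition P hσ)).1, (h σ (inertia_le_decomposition P hσ)).2.1 hσ]
      simp
    · intro σ hσ
      refine ⟨r' σ 0 0, r' σ 1 1, ?_, ?_, (h σ hσ).2.2⟩
      · intro w hw
        rw [hmem] at hw
        apply e.injective
        rw [he, map_smul]
        ext i
        fin_cases i
        · rw [Matrix.mulVec, dotProduct, Fin.sum_univ_two]
          simp [hw]
        · rw [Matrix.mulVec, dotProduct, Fin.sum_univ_two]
          simp [hw, (h σ hσ).1]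
      · intro v
        rw [hmem, map_sub, Pi.sub_apply, he, map_smul, Matrix.mulVec, dotProduct,
          Fin.sum_univ_two, (h σ hσ).1]
        simp

end Adic

section BaseChange

variable {A B : Type} [CommRing A] [IsLocalRing A] [CommRing B] [IsLocalRing B]
  {ρ : GaloisRepAdic A} (φ : A →+* B) (hφ : IsLocalHom φ)

omit [IsLocalRing A] [IsLocalRing B] in
lemma map_mem_span_natCast {x : A} {n : ℕ} (hx : x ∈ Ideal.span {(n : A)}) :
    φ x ∈ Ideal.span {(n : B)} := by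
  have h1 := Ideal.mem_map_of_mem φ hx
  rw [Ideal.map_span, Set.image_singleton, map_natCast] at h1
  exact h1

lemma detIsCyclotomic_baseChange {p : ℕ} (h : ρ.DetIsCyclotomic p) :
    (ρ.baseChangeAlong φ hφ).DetIsCyclotomic p := by
  obtain ⟨r, hr⟩ := exists_hasMat_adic ρ
  rw [detIsCyclotomic_iff hr] at h
  rw [detIsCyclotomic_iff (hr.baseChangeAlong φ hφ)]
  refine ⟨?_, fun n σ a hna => ?_⟩
  · have h1 := map_nonunit φ _ h.1
    rwa [map_natCast] at h1
  · have h1 := map_mem_span_natCast φ (h.2 n σ a hna)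
    rw [map_sub, map_natCast, RingHom.map_det] at h1
    exact h1

lemma isUnramifiedAt_baseChange {q : ℕ} (h : ρ.IsUnramifiedAt q) :
    (ρ.baseChangeAlong φ hφ).IsUnramifiedAt q := by
  obtain ⟨r, hr⟩ := exists_hasMat_adic ρ
  rw [isUnramifiedAt_iff hr] at h
  rw [isUnramifiedAt_iff (hr.baseChangeAlong φ hφ)]
  intro P hP σ hσ
  rw [h P hP σ hσ, Matrix.map_one _ (map_zero φ) (map_one φ)]

lemma isUnipotentOnInertiaAt_baseChange {q : ℕ} (h : ρ.IsUnipotentOnInertiaAt q) :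
    (ρ.baseChangeAlong φ hφ).IsUnipotentOnInertiaAt q := by
  obtain ⟨r, hr⟩ := exists_hasMat_adic ρ
  rw [isUnipotentOnInertiaAt_iff hr] at h
  rw [isUnipotentOnInertiaAt_iff (hr.baseChangeAlong φ hφ)]
  intro P hP σ hσ
  rw [Matrix.charpoly_map, h P hP σ hσ]
  simp

lemma isStrictOrdinaryAt_baseChange {p : ℕ} (h : ρ.IsStrictOrdinaryAt p) :
    (ρ.baseChangeAlong φ hφ).IsStrictOrdinaryAt p := by
  rw [isStrictOrdinaryAt_iff] at h ⊢
  refine ⟨?_, fun P hP => ?_⟩
  · have h1 := map_nonunit φ _ h.1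
    rwa [map_natCast] at h1
  · obtain ⟨r', hr', h'⟩ := h.2 P hP
    refine ⟨_, hr'.baseChangeAlong φ hφ, fun σ hσ => ?_⟩
    obtain ⟨h1, h2, h3⟩ := h' σ hσ
    refine ⟨?_, fun hσI => ?_, fun n a hna => ?_⟩
    · rw [Matrix.map_apply, h1, map_zero]
    · rw [Matrix.map_apply, h2 hσI, map_one]
    · have h4 := map_mem_span_natCast φ (h3 n a hna)
      rw [map_sub, map_mul, map_natCast] at h4
      exact h4

lemma strictOrdinaryCondition_baseChange {𝒪 : Type} [CommRing 𝒪] [Algebra 𝒪 A] [Algebra 𝒪 B]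
    {p : ℕ} {S : Finset ℕ} (h : strictOrdinaryCondition 𝒪 p S ρ) :
    strictOrdinaryCondition 𝒪 p S (ρ.baseChangeAlong φ hφ) :=
  ⟨detIsCyclotomic_baseChange φ hφ h.1, isStrictOrdinaryAt_baseChange φ hφ h.2.1,
    fun q hq hqS => isUnramifiedAt_baseChange φ hφ (h.2.2 q hq hqS)⟩

end BaseChange

section Dual

variable {k : Type} [Field k]

lemma det_dm (X Y : M2 k) : (dm X Y).det =
    TrivSqZeroExt.inl X.det + TrivSqZeroExt.inr
      (X 0 0 * Y 1 1 + Y 0 0 * X 1 1 - X 0 1 * Y 1 0 - Y 0 1 * X 1 0) := by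
  rw [Matrix.det_fin_two, Matrix.det_fin_two]
  ext
  · simp [dm]
  · simp [dm]
    ring

lemma det_dualMat (r c : GQ → M2 k) (σ : GQ) : (dualMat r c σ).det =
    TrivSqZeroExt.inl (r σ).det + TrivSqZeroExt.inr ((c σ).trace * (r σ).det) := by
  rw [dualMat, det_dm]
  congr 2
  rw [Matrix.det_fin_two, Matrix.trace_fin_two]
  simp only [Matrix.mul_apply, Fin.sum_univ_two]
  ring

lemma exists_root_exponent (p : ℕ) [Fact p.Prime] (σ : GQ) :
    ∃ a : ℕ, ∀ μ : AlgebraicClosure ℚ, μ ^ p = 1 → σ μ = μ ^ a := by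
  haveI : NeZero p := ⟨(Fact.out : p.Prime).ne_zero⟩
  obtain ⟨ζ, hζ⟩ := HasEnoughRootsOfUnity.exists_primitiveRoot (AlgebraicClosure ℚ) p
  have h1 : (σ ζ) ^ p = 1 := by rw [← map_pow, hζ.pow_eq_one, map_one]
  obtain ⟨a, -, ha⟩ := hζ.eq_pow_of_pow_eq_one h1
  refine ⟨a, fun μ hμ => ?_⟩
  obtain ⟨i, -, rfl⟩ := hζ.eq_pow_of_pow_eq_one hμ
  rw [map_pow, ← ha, ← pow_mul, ← pow_mul, mul_comm]

/-- The cyclotomic determinant condition forces trace zero. -/
lemma trace_eq_zero_of_detIsCyclotomic {p : ℕ} [Fact p.Prime] (hp : (p : k) = 0)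
    {ρ : GaloisRepAdic (DualNumber k)} {r c : GQ → M2 k}
    (hinv : ∀ s, r s * r s⁻¹ = 1)
    (h : HasMat (ρ.ρ : GQ → _) (dualMat r c)) (hdet : ρ.DetIsCyclotomic p) (σ : GQ) :
    (c σ).trace = 0 := by
  rw [detIsCyclotomic_iff h] at hdet
  obtain ⟨a, ha⟩ := exists_root_exponent p σ
  have h1 := hdet.2 1 σ a (by simpa using ha)
  have h2 : ((p ^ 1 : ℕ) : DualNumber k) = 0 := by
    rw [pow_one]
    have h3 : ((p : ℕ) : DualNumber k) = TrivSqZeroExt.inl (p : k) := by simp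
    rw [h3, hp, TrivSqZeroExt.inl_zero]
  rw [h2, Ideal.span_singleton_zero, Ideal.mem_bot, det_dualMat, sub_eq_zero] at h1
  have h3 := congrArg TrivSqZeroExt.snd h1
  simp only [TrivSqZeroExt.snd_add, TrivSqZeroExt.snd_inl, TrivSqZeroExt.snd_inr, zero_add,
    TrivSqZeroExt.snd_natCast] at h3
  refine (mul_eq_zero.mp h3).resolve_right fun h4 => ?_
  have h5 := congrArg Matrix.det (hinv σ)
  rw [Matrix.det_mul, h4, zero_mul, Matrix.det_one] at h5
  exact zero_ne_one h5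

lemma dualMat_eq_one_iff {r c : GQ → M2 k} {σ : GQ} :
    dualMat r c σ = 1 ↔ r σ = 1 ∧ c σ = 0 := by
  constructor
  · intro h
    have h1 := congrArg fm h
    have h2 := congrArg sm h
    rw [dualMat, fm_dm, fm_one] at h1
    rw [dualMat, sm_dm, sm_one, h1, mul_one] at h2
    exact ⟨h1, h2⟩
  · rintro ⟨h1, h2⟩
    refine dm_ext ?_ ?_
    · rw [dualMat, fm_dm, fm_one, h1]
    · rw [dualMat, sm_dm, sm_one, h2, zero_mul]

/-- Unramified lifts have cocycles vanishing on inertia. -/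
lemma eq_zero_of_isUnramifiedAt {ρ : GaloisRepAdic (DualNumber k)} {r c : GQ → M2 k}
    (h : HasMat (ρ.ρ : GQ → _) (dualMat r c)) {q : ℕ} (hq : ρ.IsUnramifiedAt q)
    {P : ValuationSubring (AlgebraicClosure ℚ)} (hP : P.LiesOverPrime q) {σ : GQ}
    (hσ : σ ∈ P.inertiaSubgroupIn ℚ) : r σ = 1 ∧ c σ = 0 :=
  dualMat_eq_one_iff.mp ((isUnramifiedAt_iff h q).mp hq P hP σ hσ)

lemma charpoly_eq_iff {R : Type} [CommRing R] [Nontrivial R] (M : M2 R) :
    M.charpoly = (X - 1) ^ 2 ↔ M.trace = 2 ∧ M.det = 1 := by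
  rw [Matrix.charpoly_fin_two]
  have h2 : ((X : R[X]) - 1) ^ 2 = X ^ 2 - C 2 * X + C 1 := by
    have : (C (2 : R)) = 2 := by
      rw [show (2 : R) = ((2 : ℕ) : R) by norm_num, map_natCast]; norm_num
    rw [this, map_one]
    ring
  rw [h2]
  constructor
  · intro h
    have h0 := congrArg (fun P : R[X] => P.coeff 0) h
    have h1 := congrArg (fun P : R[X] => P.coeff 1) h
    simp only [coeff_add, coeff_sub, coeff_X_pow, coeff_C_mul, coeff_X_one, coeff_X_zero,
      coeff_C] at h0 h1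
    norm_num at h0 h1
    exact ⟨h1, h0⟩
  · rintro ⟨h1, h2⟩
    rw [h1, h2]

/-- Unipotent lifts in terms of cocycles. -/
lemma unipotent_dual_iff {r c : GQ → M2 k} {σ : GQ} :
    (dualMat r c σ).charpoly = (X - 1) ^ 2 ↔
      (r σ).trace = 2 ∧ (r σ).det = 1 ∧ (c σ).trace = 0 ∧ (c σ * r σ).trace = 0 := by
  rw [charpoly_eq_iff, det_dualMat]
  have htr : (dualMat r c σ).trace =
      TrivSqZeroExt.inl (r σ).trace + TrivSqZeroExt.inr (c σ * r σ).trace := by
    rw [Matrix.trace_fin_two, Matrix.trace_fin_two, Matrix.trace_fin_two]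
    ext
    · simp [dualMat, dm]
    · simp [dualMat, dm]
  have h2 : (2 : DualNumber k) = TrivSqZeroExt.inl 2 :=
    (map_ofNat (TrivSqZeroExt.inlHom k k) 2).symm
  rw [htr, h2]
  constructor
  · rintro ⟨h3, h4⟩
    have h5 := congrArg TrivSqZeroExt.fst h3
    have h6 := congrArg TrivSqZeroExt.snd h3
    have h7 := congrArg TrivSqZeroExt.fst h4
    have h8 := congrArg TrivSqZeroExt.snd h4
    simp only [TrivSqZeroExt.fst_add, TrivSqZeroExt.fst_inl, TrivSqZeroExt.fst_inr, add_zero,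
      TrivSqZeroExt.snd_add, TrivSqZeroExt.snd_inl, TrivSqZeroExt.snd_inr, zero_add,
      TrivSqZeroExt.fst_one, TrivSqZeroExt.snd_one] at h5 h6 h7 h8
    rw [h7, mul_one] at h8
    exact ⟨h5, h7, h8, h6⟩
  · rintro ⟨h3, h4, h5, h6⟩
    rw [h3, h4, h5, h6]
    constructor
    · simp
    · simp

end Dual

end Fermat.Agent.TW
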