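import Fermat.Agent.TW.Defs
import Fermat.Agent.TW.Conditions
import Fermat.Agent.TW.KummerTame

set_option autoImplicit false

/-!
# Local cocycles at a prime `q ≠ p` where `r` is ramified and the lifts are unipotent

* `Z1_eq_zero_of_frob` : a cocycle of the decomposition group vanishing on inertia and at a
  Frobenius element is zero.
* `card_unrCob_le` : cocycles of `D` which are coboundaries on `I` : at most `#k ^ 3`.
* `localBound_unipotent` : (E2).
-/

namespace Fermat.Agent.TW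

open IsLocalRing Matrix Polynomial
open scoped Pointwise
open Fermat.Agent.S53norm (M2 HasMat IsCont toAdic)
open Fermat.Agent.Frob Fermat.Agent.Minkowski

section Count

variable {k : Type} [Field k] {r : GQ →* M2 k} {A : ValuationSubring Qbar} {q : ℕ}

lemma Z1_mul {H : Type} [Group H] {ι : H →* GQ} {j : ℕ} {c : H → M2 k} (hc : c ∈ Z1 r ι j)
    (g h : H) : c (g * h) = c g + act r j (ι g) (c h) := hc.2.1 g h

/-- The subgroup of elements where a cocycle vanishes. -/
def zeroSubgroup {H : Type} [Group H] {ι : H →* GQ} {j : ℕ} {c : H → M2 k}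
    (hc : c ∈ Z1 r ι j) : Subgroup H where
  carrier := {g | c g = 0}
  one_mem' := Z1_one hc
  mul_mem' := by
    intro a b ha hb
    show c (a * b) = 0
    rw [Z1_mul hc, show c a = 0 from ha, show c b = 0 from hb, map_zero, add_zero]
  inv_mem' := by
    intro a ha
    show c a⁻¹ = 0
    rw [Z1_inv hc, show c a = 0 from ha, map_zero, neg_zero]

/-- A cocycle of the decomposition group which vanishes on inertia and at a Frobenius element
vanishes. -/
theorem Z1_eq_zero_of_frob (hq : q.Prime) (hA : A.LiesOverPrime q) {φ : GQ}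
    (hφ : A.IsFrobeniusAt φ q) {j : ℕ} {c : A.decompositionSubgroup ℚ → M2 k}
    (hc : c ∈ Z1 r (A.decompositionSubgroup ℚ).subtype j)
    (hI : ∀ g : A.decompositionSubgroup ℚ, (g : GQ) ∈ A.inertiaSubgroupIn ℚ → c g = 0)
    (hφ0 : c ⟨φ, hφ.mem_decompositionSubgroup⟩ = 0) : c = 0 := by
  obtain ⟨L, hLfd, hL⟩ := hc.2.2
  obtain ⟨F, hLF, hfd, hgal⟩ := exists_galois_ge L
  funext g
  obtain ⟨n, i, hi, h⟩ := exists_frob_pow_mul_inertia hq hA hφ F g.2
  let φ' : A.decompositionSubgroup ℚ := ⟨φ, hφ.mem_decompositionSubgroup⟩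
  let i' : A.decompositionSubgroup ℚ := ⟨i, inertia_le_decomp hi⟩
  let x : A.decompositionSubgroup ℚ := (φ' ^ n * i')⁻¹ * g
  have hx : c x = 0 := by
    apply hL
    intro y hy
    have h1 := h y (hLF hy)
    change ((φ ^ n * i)⁻¹ * (g : GQ)) y = y
    rw [AlgEquiv.mul_apply, h1]
    exact (φ ^ n * i).symm_apply_apply y
  have hg : g = φ' ^ n * i' * x := by
    simp only [x]
    group
  change g ∈ zeroSubgroup hc
  rw [hg]
  exact mul_mem (mul_mem (pow_mem (show φ' ∈ zeroSubgroup hc from hφ0) n) (hI i' hi)) hx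

variable (r A)

/-- Cocycles of the decomposition group which are coboundaries on the inertia group. -/
def unrCob : AddSubgroup (A.decompositionSubgroup ℚ → M2 k) where
  carrier := {c | c ∈ Z1 r (A.decompositionSubgroup ℚ).subtype 0 ∧ ∃ X : M2 k, X.trace = 0 ∧
    ∀ g : A.decompositionSubgroup ℚ, (g : GQ) ∈ A.inertiaSubgroupIn ℚ →
      c g = cob r (A.decompositionSubgroup ℚ).subtype 0 X g}
  zero_mem' := ⟨zero_mem _, 0, trace_zero _ _, fun g _ => by
    rw [cob, map_zero, sub_zero]; rfl⟩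
  add_mem' := by
    rintro a b ⟨ha, X, hX, ha2⟩ ⟨hb, Y, hY, hb2⟩
    refine ⟨add_mem ha hb, X + Y, by rw [trace_add, hX, hY, add_zero], fun g hg => ?_⟩
    rw [Pi.add_apply, ha2 g hg, hb2 g hg, cob, cob, cob, map_add]
    abel
  neg_mem' := by
    rintro a ⟨ha, X, hX, ha2⟩
    refine ⟨neg_mem ha, -X, by rw [trace_neg, hX, neg_zero], fun g hg => ?_⟩
    rw [Pi.neg_apply, ha2 g hg, cob, cob, map_neg]
    abel

/-- Unramified cocycles. -/
def unrZ : AddSubgroup (A.decompositionSubgroup ℚ → M2 k) where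
  carrier := {c | c ∈ Z1 r (A.decompositionSubgroup ℚ).subtype 0 ∧
    ∀ g : A.decompositionSubgroup ℚ, (g : GQ) ∈ A.inertiaSubgroupIn ℚ → c g = 0}
  zero_mem' := ⟨zero_mem _, fun g _ => rfl⟩
  add_mem' := by
    rintro a b ⟨ha, ha2⟩ ⟨hb, hb2⟩
    refine ⟨add_mem ha hb, fun g hg => ?_⟩
    rw [Pi.add_apply, ha2 g hg, hb2 g hg, add_zero]
  neg_mem' := by
    rintro a ⟨ha, ha2⟩
    exact ⟨neg_mem ha, fun g hg => by rw [Pi.neg_apply, ha2 g hg, neg_zero]⟩

/-- Invariants of inertia in `ad⁰`. -/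
def invI : AddSubgroup (M2 k) where
  carrier := {X | X.trace = 0 ∧ ∀ σ ∈ A.inertiaSubgroupIn ℚ, act r 0 σ X = X}
  zero_mem' := ⟨trace_zero _ _, fun σ _ => map_zero _⟩
  add_mem' := by
    rintro a b ⟨ha, ha2⟩ ⟨hb, hb2⟩
    refine ⟨by rw [trace_add, ha, hb, add_zero], fun σ hσ => ?_⟩
    rw [map_add, ha2 σ hσ, hb2 σ hσ]
  neg_mem' := by
    rintro a ⟨ha, ha2⟩
    exact ⟨by rw [trace_neg, ha, neg_zero], fun σ hσ => by rw [map_neg, ha2 σ hσ]⟩

variable {r A}

theorem finite_M2' (R : Type) [Finite R] : Finite (M2 R) := by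
  unfold M2
  infer_instance

lemma card_unrZ_le [Finite k] (hq : q.Prime) (hA : A.LiesOverPrime q) :
    Finite (unrZ r A) ∧ Nat.card (unrZ r A) ≤ Nat.card (invI r A) := by
  have : Finite (M2 k) := finite_M2' k
  obtain ⟨φ, hφ⟩ := exists_isFrobeniusAt hq hA
  have hφd := hφ.mem_decompositionSubgroup
  let ev : unrZ r A → invI r A := fun c => ⟨c.1 ⟨φ, hφd⟩, c.2.1.1 _, by
    intro σ hσ
    have hσ' : φ⁻¹ * σ * φ ∈ A.inertiaSubgroupIn ℚ := conj_mem_inertia_of_decomp hφd hσ
    let σd : A.decompositionSubgroup ℚ := ⟨σ, inertia_le_decomp hσ⟩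
    let σd' : A.decompositionSubgroup ℚ := ⟨_, inertia_le_decomp hσ'⟩
    have h1 : σd * ⟨φ, hφd⟩ = ⟨φ, hφd⟩ * σd' := by
      apply Subtype.ext
      change σ * φ = φ * (φ⁻¹ * σ * φ)
      group
    have h2 := Z1_mul c.2.1 σd ⟨φ, hφd⟩
    rw [h1, Z1_mul c.2.1, c.2.2 σd' hσ', map_zero, add_zero, c.2.2 σd hσ, zero_add] at h2
    exact h2.symm⟩
  have hinj : Function.Injective ev := by
    intro c c' h
    have h1 : c.1 ⟨φ, hφd⟩ = c'.1 ⟨φ, hφd⟩ := congrArg Subtype.val h
    apply Subtype.ext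
    rw [← sub_eq_zero]
    refine Z1_eq_zero_of_frob hq hA hφ (sub_mem c.2.1 c'.2.1) (fun g hg => ?_) ?_
    · rw [Pi.sub_apply, c.2.2 g hg, c'.2.2 g hg, sub_zero]
    · rw [Pi.sub_apply, h1, sub_self]
  exact ⟨Finite.of_injective ev hinj, Nat.card_le_card_of_injective ev hinj⟩

lemma card_ad0 [Finite k] : Nat.card {X : M2 k // X.trace = 0} = Nat.card k ^ 3 := by
  have e : {X : M2 k // X.trace = 0} ≃ (Fin 3 → k) :=
    { toFun := fun X => ![X.1 0 0, X.1 0 1, X.1 1 0]
      invFun := fun v => ⟨!![v 0, v 1; v 2, -v 0], by simp [Matrix.trace_fin_two]⟩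
      left_inv := by
        rintro ⟨X, hX⟩
        rw [Matrix.trace_fin_two] at hX
        apply Subtype.ext
        ext i j
        fin_cases i <;> fin_cases j <;> simp
        linear_combination -hX
      right_inv := by
        intro v
        ext i
        fin_cases i <;> simp }
  rw [Nat.card_congr e, Nat.card_fun, Nat.card_fin]

theorem card_unrCob_le [Finite k] (hr : IsFiniteLevel r) (hq : q.Prime)
    (hA : A.LiesOverPrime q) :
    Finite (unrCob r A) ∧ Nat.card (unrCob r A) ≤ Nat.card k ^ 3 := by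
  have : Finite (M2 k) := finite_M2' k
  obtain ⟨hfin, hle⟩ := card_unrZ_le (r := r) hq hA
  have hex : ∀ c : unrCob r A, ∃ X : M2 k, X.trace = 0 ∧
    ∀ g : A.decompositionSubgroup ℚ, (g : GQ) ∈ A.inertiaSubgroupIn ℚ →
      c.1 g = cob r (A.decompositionSubgroup ℚ).subtype 0 X g := fun c => c.2.2
  choose X hX0 hX using hex
  let f : unrCob r A × invI r A → {X : M2 k // X.trace = 0} × unrZ r A := fun y =>
    (⟨X y.1 + y.2, by rw [trace_add, hX0, y.2.2.1, add_zero]⟩,
      ⟨y.1.1 - cob r (A.decompositionSubgroup ℚ).subtype 0 (X y.1 + y.2),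
        sub_mem y.1.2.1 (cob_mem_Z1 _ hr 0 (by rw [trace_add, hX0, y.2.2.1, add_zero])), by
        intro g hg
        rw [Pi.sub_apply, hX y.1 g hg, cob, cob, map_add]
        have h1 := y.2.2.2 g hg
        change act r 0 ((A.decompositionSubgroup ℚ).subtype g) (X y.1) - X y.1 -
          (act r 0 ((A.decompositionSubgroup ℚ).subtype g) (X y.1) + act r 0 g (y.2 : M2 k) -
            (X y.1 + y.2)) = 0
        rw [h1]
        abel⟩)
  have hf : Function.Injective f := by
    rintro ⟨c, Y⟩ ⟨c', Y'⟩ h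
    have h1 : X c + Y = X c' + Y' := congrArg (fun z => (z.1 : M2 k)) h
    have h2 : c.1 - cob r (A.decompositionSubgroup ℚ).subtype 0 (X c + Y) =
        c'.1 - cob r (A.decompositionSubgroup ℚ).subtype 0 (X c' + Y') :=
      congrArg (fun z => (z.2 : A.decompositionSubgroup ℚ → M2 k)) h
    rw [h1] at h2
    have h3 : c = c' := Subtype.ext (sub_left_inj.mp h2)
    subst h3
    have h4 : Y = Y' := Subtype.ext (add_left_cancel h1)
    rw [h4]
  have hfin1 : Finite (unrCob r A × invI r A) := Finite.of_injective f hf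
  have hfin2 : Finite (unrCob r A) := Finite.of_injective (fun c => (c, (0 : invI r A)))
    (fun a b h => congrArg Prod.fst h)
  refine ⟨hfin2, ?_⟩
  have h1 := Nat.card_le_card_of_injective f hf
  rw [Nat.card_prod, Nat.card_prod, card_ad0] at h1
  have hpos : 0 < Nat.card (invI r A) := Nat.card_pos
  have h2 : Nat.card (unrCob r A) * Nat.card (invI r A) ≤
      Nat.card k ^ 3 * Nat.card (invI r A) := h1.trans (Nat.mul_le_mul_left _ hle)
  exact Nat.le_of_mul_le_mul_right h2 hpos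

end Count


section Unip

variable {k : Type} [Field k]

lemma mulSelf_eq_trace_det {R : Type} [CommRing R] (M : M2 R) :
    M * M = M.trace • M - M.det • (1 : M2 R) := by
  ext i j
  fin_cases i <;> fin_cases j <;>
    simp [Matrix.mul_apply, Fin.sum_univ_two, Matrix.trace_fin_two, Matrix.det_fin_two] <;> ring

lemma exists_comm_solution {N N' : M2 k} (hN : N * N = 0) (hN0 : N ≠ 0)
    (h : N * N' + N' * N = 0) : ∃ X : M2 k, X * N - N * X = N' := by
  -- `N` has trace zero and determinant zero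
  have hY : ∃ Y : M2 k, Y * N + N * Y = 1 := by
    have hdet : N.det = 0 := by
      have h1 := congrArg Matrix.det hN
      rw [Matrix.det_mul, Matrix.det_zero] at h1
      exact mul_self_eq_zero.mp h1
    have htr : N.trace = 0 := by
      have h2 := mulSelf_eq_trace_det N
      rw [hN, hdet, zero_smul, sub_zero] at h2
      exact (smul_eq_zero.mp h2.symm).resolve_right hN0
    rw [Matrix.det_fin_two] at hdet
    rw [Matrix.trace_fin_two] at htr
    have h11 : N 1 1 = - N 0 0 := by linear_combination htr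
    by_cases hb : N 0 1 = 0
    · have ha : N 0 0 = 0 := by
        rw [hb, h11, zero_mul, sub_zero] at hdet
        have : N 0 0 * N 0 0 = 0 := by linear_combination -hdet
        exact mul_self_eq_zero.mp this
      have hc : N 1 0 ≠ 0 := by
        intro hc
        apply hN0
        ext i j
        fin_cases i <;> fin_cases j <;> simp [ha, hb, hc, h11]
      refine ⟨!![0, (N 1 0)⁻¹; 0, 0], ?_⟩
      ext i j
      rw [Matrix.add_apply, Matrix.mul_apply, Matrix.mul_apply, Fin.sum_univ_two,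
        Fin.sum_univ_two]
      fin_cases i <;> fin_cases j <;> simp [ha, hb, h11, hc]
    · refine ⟨!![0, 0; (N 0 1)⁻¹, 0], ?_⟩
      ext i j
      rw [Matrix.add_apply, Matrix.mul_apply, Matrix.mul_apply, Fin.sum_univ_two,
        Fin.sum_univ_two]
      fin_cases i <;> fin_cases j <;> simp [h11, hb]
      ring
  obtain ⟨Y, hY⟩ := hY
  refine ⟨N' * Y, ?_⟩
  have h1 : N * N' = - (N' * N) := eq_neg_of_add_eq_zero_left h
  calc N' * Y * N - N * (N' * Y) = N' * Y * N - (N * N') * Y := by rw [mul_assoc N N' Y]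
    _ = N' * (Y * N + N * Y) := by rw [h1]; noncomm_ring
    _ = N' := by rw [hY, mul_one]

lemma sub_one_sq_of_charpoly {R : Type} [CommRing R] [Nontrivial R] {M : M2 R}
    (h : M.charpoly = (X - 1) ^ 2) : (M - 1) * (M - 1) = 0 := by
  obtain ⟨h1, h2⟩ := (charpoly_eq_iff M).mp h
  have h3 := mulSelf_eq_trace_det M
  rw [h1, h2, one_smul] at h3
  calc (M - 1) * (M - 1) = M * M - M - M + 1 := by noncomm_ring
    _ = 0 := by rw [h3, two_smul]; abel

/-- `(1 + N) ^ p = 1` if `N² = 0` in characteristic `p`. -/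
lemma pow_eq_one_of_sub_one_sq {R : Type} [Ring R] {p : ℕ} [Fact p.Prime] [CharP R p] {M : R}
    (h : (M - 1) * (M - 1) = 0) : M ^ p = 1 := by
  have h2 : 2 ≤ p := (Fact.out : p.Prime).two_le
  have hcomm : Commute (M - 1) 1 := Commute.one_right _
  have h1 := add_pow_char_of_commute p hcomm
  rw [sub_add_cancel, one_pow] at h1
  rw [h1]
  obtain ⟨m, rfl⟩ := Nat.exists_eq_add_of_le h2
  rw [pow_add, pow_two, h, zero_mul, zero_add]

/-- Unipotent lifts to the dual numbers have cocycles which are coboundaries on inertia. -/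
theorem exists_coboundary_of_unipotent [Finite k] {p : ℕ} [hp : Fact p.Prime] [CharP k p]
    {q : ℕ} (hq : q.Prime) (hqp : q ≠ p) {A : ValuationSubring Qbar} (hA : A.LiesOverPrime q)
    {r : GQ →* M2 k} (hr : IsFiniteLevel r) {c : GQ → M2 k}
    (hc : c ∈ Z1 r (MonoidHom.id GQ) 0)
    (hram : ∃ σ ∈ A.inertiaSubgroupIn ℚ, r σ ≠ 1)
    (hunip : ∀ σ ∈ A.inertiaSubgroupIn ℚ, (dualMat r c σ).charpoly = (X - 1) ^ 2) :
    ∃ X : M2 k, ∀ σ ∈ A.inertiaSubgroupIn ℚ, c σ = act r 0 σ X - X := by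
  classical
  let u : A.inertiaSubgroupIn ℚ →* (M2 (DualNumber k))ˣ :=
    ((defRep (⟨c, hc⟩ : Z1 r (MonoidHom.id GQ) 0)).comp
      (A.inertiaSubgroupIn ℚ).subtype).toHomUnits
  have hu : ∀ i, (u i : M2 (DualNumber k)) = dualMat r c i := fun i => rfl
  have hfinD : Finite (DualNumber k) := by
    have : Finite (k × k) := inferInstance
    exact this
  have hfinM : Finite (M2 (DualNumber k)) := finite_M2' _
  have hcharD : CharP (DualNumber k) p := charP_of_injective_algebraMap
    (algebraMap k (DualNumber k)).injective p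
  have hcharM : CharP (M2 (DualNumber k)) p := by
    unfold M2
    infer_instance
  let H := u.range
  have hH : IsPGroup p H := by
    rintro ⟨_, i, rfl⟩
    refine ⟨1, ?_⟩
    rw [pow_one]
    apply Subtype.ext
    apply Units.ext
    change (u i : M2 (DualNumber k)) ^ p = 1
    rw [hu]
    exact pow_eq_one_of_sub_one_sq (sub_one_sq_of_charpoly (hunip i i.2))
  obtain ⟨L1, hL1, h1⟩ := hr
  obtain ⟨L2, hL2, h2⟩ := hc.2.2
  have hfd : FiniteDimensional ℚ (L1 ⊔ L2 : IntermediateField ℚ Qbar) :=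
    IntermediateField.finiteDimensional_sup L1 L2
  have hcyc : IsCyclic H := isCyclic_of_inertia hq hA hqp hH u.rangeRestrict
    u.rangeRestrict_surjective (L1 ⊔ L2) (fun i hi => by
      apply Subtype.ext
      apply Units.ext
      change (u i : M2 (DualNumber k)) = 1
      rw [hu, dualMat_eq_one_iff]
      exact ⟨h1 i fun x hx => hi x ((le_sup_left : L1 ≤ L1 ⊔ L2) hx),
        h2 i fun x hx => hi x ((le_sup_right : L2 ≤ L1 ⊔ L2) hx)⟩)
  obtain ⟨⟨_, τ, rfl⟩, hgen⟩ := hcyc.exists_generator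
  -- every element is a natural power of the generator
  have hpow : ∀ i : A.inertiaSubgroupIn ℚ, ∃ n : ℕ, dualMat r c i = dualMat r c τ ^ n := by
    intro i
    have h3 := hgen ⟨u i, i, rfl⟩
    rw [← mem_powers_iff_mem_zpowers] at h3
    obtain ⟨n, hn⟩ := h3
    refine ⟨n, ?_⟩
    have h4 := congrArg (fun z : H => ((z : (M2 (DualNumber k))ˣ) : M2 (DualNumber k))) hn
    exact h4.symm
  have hfmpow : ∀ (M : M2 (DualNumber k)) (n : ℕ), fm (M ^ n) = fm M ^ n := by
    intro M n
    induction n with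
    | zero => rw [pow_zero, pow_zero, fm_one]
    | succ n ih => rw [pow_succ, pow_succ, fm_mul, ih]
  have hfmτ : fm (dualMat r c τ) = r τ := fm_dm _ _
  have hrτ : r τ ≠ 1 := by
    intro h3
    obtain ⟨σ, hσ, hσ2⟩ := hram
    obtain ⟨n, hn⟩ := hpow ⟨σ, hσ⟩
    apply hσ2
    have h4 := congrArg fm hn
    rw [hfmpow, hfmτ, h3, one_pow] at h4
    rw [← h4]
    exact (fm_dm _ _).symm
  -- the nilpotent matrices
  have hsq := sub_one_sq_of_charpoly (hunip τ τ.2)
  set N : M2 k := r τ - 1 with hN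
  set N' : M2 k := c τ * r τ with hN'
  have hfm : fm (dualMat r c τ - 1) = N := by rw [fm_sub, fm_one, hfmτ]
  have hsm : sm (dualMat r c τ - 1) = N' := by rw [sm_sub, sm_one, sub_zero, dualMat, sm_dm]
  have hNN : N * N = 0 := by
    have := congrArg fm hsq
    rw [fm_mul, hfm] at this
    rw [this]
    ext i j
    simp [fm]
  have hNN' : N * N' + N' * N = 0 := by
    have := congrArg sm hsq
    rw [sm_mul, hfm, hsm] at this
    rw [this]
    ext i j
    simp [sm]
  obtain ⟨X0, hX0⟩ := exists_comm_solution hNN (sub_ne_zero.mpr hrτ) hNN'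
  have hsemi : SemiconjBy (dm 1 X0) (dm (r τ) 0) (dualMat r c τ) := by
    have h5 : X0 * r τ = r τ * X0 + N' := by
      have h6 : r τ = N + 1 := by rw [hN, sub_add_cancel]
      rw [h6, mul_add, add_mul, mul_one, one_mul, ← hX0]
      abel
    refine dm_ext ?_ ?_
    · simp only [dualMat, fm_mul, fm_dm, one_mul, mul_one]
    · simp only [dualMat, sm_mul, fm_dm, sm_dm, mul_one, mul_zero, zero_add]
      rw [h5]
  refine ⟨-X0, fun σ hσ => ?_⟩
  obtain ⟨n, hn⟩ := hpow ⟨σ, hσ⟩
  have hs := hsemi.pow_right n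
  rw [← hn] at hs
  have hsmz : ∀ n : ℕ, dm (r τ) 0 ^ n = dm (r τ ^ n) 0 := by
    intro n
    induction n with
    | zero =>
      rw [pow_zero, pow_zero]
      exact dm_ext (by rw [fm_one, fm_dm]) (by rw [sm_one, sm_dm])
    | succ n ih =>
      rw [pow_succ, pow_succ, ih]
      exact dm_ext (by rw [fm_mul, fm_dm, fm_dm, fm_dm])
        (by rw [sm_mul, sm_dm, sm_dm, sm_dm, mul_zero, zero_mul, add_zero])
  have hrσ : r σ = r τ ^ n := by
    have h4 := congrArg fm hn
    rw [hfmpow, hfmτ] at h4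
    rw [← h4]
    exact (fm_dm _ _).symm
  rw [hsmz, ← hrσ] at hs
  have h7 : sm (dm 1 X0 * dm (r σ) 0) = sm (dualMat r c σ * dm 1 X0) := congrArg sm hs
  simp only [dualMat, sm_mul, fm_dm, sm_dm, mul_one, mul_zero, zero_add] at h7
  -- h7 : X0 * r σ = r σ * X0 + c σ * r σ
  rw [act_zero_apply, mul_neg, neg_mul, sub_neg_eq_add]
  calc c σ = c σ * (r σ * r σ⁻¹) := by rw [r_mul_inv, mul_one]
    _ = (r σ * X0 + c σ * r σ) * r σ⁻¹ - r σ * X0 * r σ⁻¹ := by noncomm_ring
    _ = X0 * (r σ * r σ⁻¹) - r σ * X0 * r σ⁻¹ := by rw [← h7, mul_assoc]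
    _ = -(r σ * X0 * r σ⁻¹) + X0 := by rw [r_mul_inv, mul_one]; abel

end Unip

section E2

variable {k : Type} [Field k]

lemma act_scalar (r : GQ →* M2 k) (σ : GQ) (a : k) :
    act r 0 σ (a • (1 : M2 k)) = a • (1 : M2 k) := by
  rw [act_zero_apply, mul_smul_comm, mul_one, smul_mul_assoc, r_mul_inv]

/-- Make a matrix trace zero by a scalar matrix. -/
lemma exists_trace_zero {p : ℕ} (hp2 : p ≠ 2) [Fact p.Prime] [CharP k p] (X : M2 k) :
    ∃ a : k, (X + a • (1 : M2 k)).trace = 0 := by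
  have h2 : (2 : k) ≠ 0 := by
    intro h
    have h3 : ((2 : ℕ) : k) = 0 := by exact_mod_cast h
    rw [CharP.cast_eq_zero_iff k p] at h3
    exact hp2 ((Nat.prime_dvd_prime_iff_eq Fact.out Nat.prime_two).mp h3)
  refine ⟨-(X.trace / 2), ?_⟩
  rw [trace_add, trace_smul, Matrix.trace_one, Fintype.card_fin, smul_eq_mul]
  push_cast
  field_simp
  ring

/-- **(E2)** : the local bound at a prime `q ≠ p` where `r` is ramified, for lifts which are
unipotent on inertia. -/
theorem localBound_unipotent [Finite k] {p : ℕ} [hp : Fact p.Prime] (hp2 : p ≠ 2) [CharP k p]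
    {q : ℕ} (hq : q.Prime) (hqp : q ≠ p) {A : ValuationSubring Qbar} (hA : A.LiesOverPrime q)
    {r : GQ →* M2 k} (hr : IsFiniteLevel r)
    (hram : ∃ σ ∈ A.inertiaSubgroupIn ℚ, r σ ≠ 1) :
    LocalBound r (A.decompositionSubgroup ℚ)
      (fun c => ∀ σ ∈ A.inertiaSubgroupIn ℚ, (dualMat r c.1 σ).charpoly = (X - 1) ^ 2) 3 := by
  obtain ⟨hfin, hle⟩ := card_unrCob_le (r := r) (A := A) hr hq hA
  refine ⟨unrCob r A, hfin, hle, fun c hc => hc.1, fun X hX => ?_, fun c hc => ?_⟩
  · exact ⟨cob_mem_Z1 _ hr 0 hX, X, hX, fun g _ => rfl⟩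
  · obtain ⟨X, hX⟩ := exists_coboundary_of_unipotent hq hqp hA hr c.2 hram hc
    obtain ⟨a, ha⟩ := exists_trace_zero (k := k) hp2 X
    refine ⟨⟨fun g => c.2.1 _, fun g h => c.2.2.1 _ _, ?_⟩, X + a • (1 : M2 k), ha, fun g hg => ?_⟩
    · obtain ⟨L, hL, h⟩ := c.2.2.2
      exact ⟨L, hL, fun g hg => h _ hg⟩
    · change c.1 g = act r 0 g (X + a • (1 : M2 k)) - (X + a • (1 : M2 k))
      rw [map_add, act_scalar, hX g hg]
      abel

end E2

end Fermat.Agent.TW
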