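import Fermat.Agent.TW.LocalOrd

set_option autoImplicit false

/-!
# The local bounds (E2), (D1) in the form needed for the assembly
-/

namespace Fermat.Agent.TW

open IsLocalRing Polynomial
open scoped Pointwise
open Fermat.Agent.S53norm (M2 HasMat IsCont toAdic)
open Fermat.Agent.Frob Fermat.Agent.Minkowski

variable {k : Type} [Field k]

lemma LocalBound.mono {r : GQ →* M2 k} {D : Subgroup GQ}
    {P P' : Z1 r (MonoidHom.id GQ) 0 → Prop} {m : ℕ} (h : LocalBound r D P m)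
    (hP : ∀ c, P' c → P c) : LocalBound r D P' m := by
  obtain ⟨Λ, h1, h2, h3, h4, h5⟩ := h
  exact ⟨Λ, h1, h2, h3, h4, fun c hc => h5 c (hP c hc)⟩

/-- Ramification of `r` at one place above `q` gives ramification at all of them. -/
lemma exists_inertia_ne_one {r : GQ →* M2 k} {q : ℕ} (hq : q.Prime)
    (h : ¬ ∀ P : ValuationSubring Qbar, P.LiesOverPrime q → ∀ σ ∈ P.inertiaSubgroupIn ℚ, r σ = 1)
    {A : ValuationSubring Qbar} (hA : A.LiesOverPrime q) :
    ∃ σ ∈ A.inertiaSubgroupIn ℚ, r σ ≠ 1 := by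
  by_contra hcon
  push Not at hcon
  apply h
  intro P hP σ hσ
  obtain ⟨g, rfl⟩ := exists_smul_eq hq hA hP
  have h1 := hcon _ (Fermat.Agent.CFT.SKummer.conj_mem_inertia hσ)
  rw [map_mul, map_mul] at h1
  have h2 : r g * (r g⁻¹ * r σ * r g) * r g⁻¹ = 1 := by rw [h1, mul_one, r_mul_inv]
  calc r σ = (r g * r g⁻¹) * r σ * (r g * r g⁻¹) := by rw [r_mul_inv, one_mul, mul_one]
    _ = r g * (r g⁻¹ * r σ * r g) * r g⁻¹ := by simp only [mul_assoc]
    _ = 1 := h2

/-- (E2) for `defAdic`. -/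
theorem localBound_isUnipotentOnInertiaAt [Finite k] {p : ℕ} [hp : Fact p.Prime] (hp2 : p ≠ 2)
    [CharP k p] {q : ℕ} (hq : q.Prime) (hqp : q ≠ p) {r : GQ →* M2 k} (hr : IsFiniteLevel r)
    (hram : ¬ ∀ P : ValuationSubring Qbar, P.LiesOverPrime q →
      ∀ σ ∈ P.inertiaSubgroupIn ℚ, r σ = 1)
    (A : ValuationSubring Qbar) (hA : A.LiesOverPrime q) :
    LocalBound r (A.decompositionSubgroup ℚ)
      (fun c => (defAdic hr c).IsUnipotentOnInertiaAt q) 3 :=
  (localBound_unipotent hp2 hq hqp hA hr (exists_inertia_ne_one hq hram hA)).mono fun c hc =>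
    (isUnipotentOnInertiaAt_iff (defAdic_hasMat hr c) q).mp hc A hA

/-- (D1) for `defAdic`. -/
theorem localBound_isStrictOrdinaryAt [Finite k] {p : ℕ} [hp : Fact p.Prime] (hp2 : p ≠ 2)
    [CharP k p] {r : GQ →* M2 k} (hr : IsFiniteLevel r) (hcyc : CycDet p r)
    (A : ValuationSubring Qbar) (hA : A.LiesOverPrime p) :
    LocalBound r (A.decompositionSubgroup ℚ)
      (fun c => (defAdic hr c).IsStrictOrdinaryAt p) 4 :=
  (localBound_strictOrd hp2 hA hr hcyc).mono fun c hc =>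
    strictOrdLift_of_isStrictOrdinaryAt (CharP.cast_eq_zero k p) (defAdic_hasMat hr c) hc hA

/-- non-unramifiedness of `ρbar` in matrix form. -/
lemma not_unramified_matrix {ρbar : ResidualGaloisRep k} {r : GQ →* M2 k}
    (hr : HasMat (ρbar.ρ : GQ → _) r) {q : ℕ} (h : ¬ ρbar.IsUnramifiedAt q) :
    ¬ ∀ P : ValuationSubring Qbar, P.LiesOverPrime q →
      ∀ σ ∈ P.inertiaSubgroupIn ℚ, r σ = 1 := by
  intro h1
  apply h
  intro P hP σ hσ
  obtain ⟨e, he⟩ := hr
  refine LinearMap.ext fun v => e.injective ?_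
  rw [he, h1 P hP σ hσ, Matrix.one_mulVec, Module.End.one_apply]

end Fermat.Agent.TW
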