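import Fermat.Agent.TW.Tangent

set_option autoImplicit false

/-!
# S56: common definitions

Everything is expressed with matrices: `r : GQ →* M2 k` is the matrix of `ρbar` in a fixed basis,
`ad⁰` is the space of trace-zero matrices and `ad⁰(j)` is its twist by `det r ^ j`
(`j = 0` : `ad⁰`, `j = 1` : `ad⁰(1)`).

A group `H` with a homomorphism `ι : H →* GQ` is used to treat at the same time
* the global group (`ι = MonoidHom.id GQ`),
* the decomposition groups `D ≤ GQ` (`ι = D.subtype`),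
* the abstract local Galois groups (`ι = localGaloisToGlobal q`).
-/

namespace Fermat.Agent.TW

open IsLocalRing Matrix
open Fermat.Agent.S53norm (GQ M2 HasMat IsCont toAdic)

section Cocycles

variable {k : Type} [Field k] (r : GQ →* M2 k)

lemma r_mul_inv (σ : GQ) : r σ * r σ⁻¹ = 1 := by rw [← map_mul, mul_inv_cancel, map_one]

lemma r_inv_mul (σ : GQ) : r σ⁻¹ * r σ = 1 := by rw [← map_mul, inv_mul_cancel, map_one]

lemma det_mul_det_inv (σ : GQ) : (r σ).det * (r σ⁻¹).det = 1 := by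
  rw [← det_mul, r_mul_inv, det_one]

lemma det_ne_zero (σ : GQ) : (r σ).det ≠ 0 := left_ne_zero_of_mul_eq_one (det_mul_det_inv r σ)

/-- The action of `σ` on matrices: conjugation by `r σ` twisted by `det (r σ) ^ j`. -/
noncomputable def act (j : ℕ) (σ : GQ) : M2 k →ₗ[k] M2 k where
  toFun X := (r σ).det ^ j • (r σ * X * r σ⁻¹)
  map_add' X Y := by rw [mul_add, add_mul, smul_add]
  map_smul' a X := by
    rw [RingHom.id_apply, Matrix.mul_smul, Matrix.smul_mul, smul_comm]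

lemma act_apply (j : ℕ) (σ : GQ) (X : M2 k) :
    act r j σ X = (r σ).det ^ j • (r σ * X * r σ⁻¹) := rfl

@[simp] lemma act_zero_apply (σ : GQ) (X : M2 k) : act r 0 σ X = r σ * X * r σ⁻¹ := by
  rw [act_apply, pow_zero, one_smul]

lemma act_one_apply (σ : GQ) (X : M2 k) : act r 1 σ X = (r σ).det • (r σ * X * r σ⁻¹) := by
  rw [act_apply, pow_one]

@[simp] lemma act_one (j : ℕ) (X : M2 k) : act r j 1 X = X := by
  rw [act_apply, inv_one, map_one, det_one, one_pow, one_smul, one_mul, mul_one]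

lemma act_mul (j : ℕ) (σ τ : GQ) (X : M2 k) : act r j (σ * τ) X = act r j σ (act r j τ X) := by
  rw [act_apply, act_apply, act_apply, _root_.mul_inv_rev, map_mul, map_mul, det_mul, mul_pow,
    Matrix.mul_smul, Matrix.smul_mul, smul_smul]
  simp only [mul_assoc]

@[simp] lemma act_inv_act (j : ℕ) (σ : GQ) (X : M2 k) : act r j σ⁻¹ (act r j σ X) = X := by
  rw [← act_mul, inv_mul_cancel, act_one]

@[simp] lemma act_act_inv (j : ℕ) (σ : GQ) (X : M2 k) : act r j σ (act r j σ⁻¹ X) = X := by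
  rw [← act_mul, mul_inv_cancel, act_one]

@[simp] lemma trace_act (j : ℕ) (σ : GQ) (X : M2 k) :
    (act r j σ X).trace = (r σ).det ^ j * X.trace := by
  rw [act_apply, trace_smul, trace_mul_cycle, r_inv_mul, one_mul, smul_eq_mul]

/-- Trace-zero matrices. -/
def Ad0 (k : Type) [Field k] : Submodule k (M2 k) where
  carrier := {X | X.trace = 0}
  add_mem' {X Y} hX hY := by
    show (X + Y).trace = 0
    rw [trace_add, show X.trace = 0 from hX, show Y.trace = 0 from hY, add_zero]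
  zero_mem' := trace_zero _ _
  smul_mem' a X hX := by
    show (a • X).trace = 0
    rw [trace_smul, show X.trace = 0 from hX, smul_zero]

lemma mem_Ad0 {X : M2 k} : X ∈ Ad0 k ↔ X.trace = 0 := Iff.rfl

lemma act_mem {j : ℕ} (σ : GQ) {X : M2 k} (hX : X ∈ Ad0 k) : act r j σ X ∈ Ad0 k := by
  rw [mem_Ad0, trace_act, mem_Ad0.1 hX, mul_zero]

/-- `c` vanishes on the elements which act trivially on some finite extension of `ℚ`. -/
def Smooth {H : Type} [Group H] (ι : H →* GQ) {X : Type} [Zero X] (c : H → X) : Prop :=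
  ∃ L : IntermediateField ℚ (AlgebraicClosure ℚ), FiniteDimensional ℚ L ∧
    ∀ h : H, (∀ x ∈ L, ι h x = x) → c h = 0

variable {H : Type} [Group H] (ι : H →* GQ)

/-- Continuous cocycles of `H` (acting through `ι`) with values in `ad⁰(j)`. -/
def Z1 (j : ℕ) : Submodule k (H → M2 k) where
  carrier := {c | (∀ g, (c g).trace = 0) ∧ (∀ g h, c (g * h) = c g + act r j (ι g) (c h)) ∧
    Smooth ι c}
  add_mem' := by
    rintro c c' ⟨h1, h2, L, hL, h3⟩ ⟨h1', h2', L', hL', h3'⟩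
    refine ⟨fun g => ?_, fun g h => ?_, L ⊔ L', IntermediateField.finiteDimensional_sup L L',
      fun g hg => ?_⟩
    · rw [Pi.add_apply, trace_add, h1, h1', add_zero]
    · rw [Pi.add_apply, Pi.add_apply, Pi.add_apply, h2, h2', map_add]
      abel
    · rw [Pi.add_apply, h3 g fun x hx => hg x ((le_sup_left : L ≤ L ⊔ L') hx),
        h3' g fun x hx => hg x ((le_sup_right : L' ≤ L ⊔ L') hx), add_zero]
  zero_mem' := ⟨fun g => trace_zero _ _, fun g h => by simp, ⊥, inferInstance, fun _ _ => rfl⟩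
  smul_mem' := by
    rintro a c ⟨h1, h2, L, hL, h3⟩
    refine ⟨fun g => ?_, fun g h => ?_, L, hL, fun g hg => ?_⟩
    · rw [Pi.smul_apply, trace_smul, h1, smul_zero]
    · rw [Pi.smul_apply, Pi.smul_apply, Pi.smul_apply, h2, map_smul, smul_add]
    · rw [Pi.smul_apply, h3 g hg, smul_zero]

variable {r ι}

lemma mem_Z1 {j : ℕ} {c : H → M2 k} : c ∈ Z1 r ι j ↔ (∀ g, (c g).trace = 0) ∧
    (∀ g h, c (g * h) = c g + act r j (ι g) (c h)) ∧ Smooth ι c := Iff.rfl

lemma Z1_one {j : ℕ} {c : H → M2 k} (hc : c ∈ Z1 r ι j) : c 1 = 0 := by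
  have h1 := hc.2.1 1 1
  rw [mul_one, map_one, act_one] at h1
  exact left_eq_add.1 h1

lemma Z1_inv {j : ℕ} {c : H → M2 k} (hc : c ∈ Z1 r ι j) (g : H) :
    c g⁻¹ = - act r j (ι g)⁻¹ (c g) := by
  have h1 := hc.2.1 g⁻¹ g
  rw [inv_mul_cancel, Z1_one hc, map_inv] at h1
  exact eq_neg_of_add_eq_zero_left h1.symm

/-- Restriction of cocycles along `f : H' →* H`. -/
noncomputable def resZ1 {H' : Type} [Group H'] (f : H' →* H) (j : ℕ) :
    Z1 r ι j →ₗ[k] Z1 r (ι.comp f) j where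
  toFun c := ⟨fun h => c.1 (f h), fun g => c.2.1 _, fun g h => by
    show c.1 (f (g * h)) = _
    rw [map_mul, c.2.2.1]; rfl, by
    obtain ⟨L, hL, h⟩ := c.2.2.2
    exact ⟨L, hL, fun g hg => h _ hg⟩⟩
  map_add' _ _ := rfl
  map_smul' _ _ := rfl

@[simp] lemma resZ1_apply {H' : Type} [Group H'] (f : H' →* H) (j : ℕ) (c : Z1 r ι j) (h : H') :
    (resZ1 f j c).1 h = c.1 (f h) := rfl

variable (r ι)

/-- The coboundary of `X`. -/
noncomputable def cob (j : ℕ) (X : M2 k) : H → M2 k := fun g => act r j (ι g) X - X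

/-- `r` is trivial on the automorphisms fixing a finite extension. -/
def IsFiniteLevel : Prop :=
  ∃ L : IntermediateField ℚ (AlgebraicClosure ℚ), FiniteDimensional ℚ L ∧
    ∀ σ : GQ, (∀ x ∈ L, σ x = x) → r σ = 1

variable {r}

lemma cob_mem_Z1 (hr : IsFiniteLevel r) (j : ℕ) {X : M2 k} (hX : X.trace = 0) :
    cob r ι j X ∈ Z1 r ι j := by
  obtain ⟨L, hL, h⟩ := hr
  refine ⟨fun g => ?_, fun g h => ?_, L, hL, fun g hg => ?_⟩
  · rw [cob, trace_sub, trace_act, hX, mul_zero, sub_zero]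
  · simp only [cob]
    rw [map_mul, act_mul, map_sub]
    abel
  · have h1 : ι g⁻¹ ∈ MonoidHom.ker r := by
      rw [map_inv]
      exact Subgroup.inv_mem _ (MonoidHom.mem_ker.2 (h _ hg))
    have h2 : r (ι g)⁻¹ = 1 := by rw [← map_inv]; exact h1
    rw [cob, act_apply, h _ hg, h2, det_one, one_pow, one_smul, one_mul, mul_one, sub_self]

end Cocycles

section Deformations

variable {k : Type} [Field k] {r : GQ →* M2 k}

/-- The deformation `(1 + ε c) r` of `r` to the dual numbers attached to a cocycle. -/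
noncomputable def defRep (c : Z1 r (MonoidHom.id GQ) 0) : GQ →* M2 (DualNumber k) where
  toFun σ := dualMat r c.1 σ
  map_one' := by
    refine dm_ext ?_ ?_
    · rw [dualMat, fm_dm, map_one, fm_one]
    · rw [dualMat, sm_dm, Z1_one c.2, zero_mul, sm_one]
  map_mul' σ τ := by
    have h1 : c.1 (σ * τ) = c.1 σ + r σ * c.1 τ * r σ⁻¹ := by
      have := c.2.2.1 σ τ
      rwa [act_zero_apply] at this
    refine dm_ext ?_ ?_
    · simp only [dualMat, fm_mul, fm_dm, map_mul]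
    · simp only [dualMat, sm_mul, fm_dm, sm_dm, map_mul, h1]
      rw [add_mul, add_comm]
      congr 1
      · rw [mul_assoc (r σ * c.1 τ), ← mul_assoc (r σ⁻¹), r_inv_mul, one_mul, mul_assoc]
      · rw [mul_assoc]

lemma defRep_apply (c : Z1 r (MonoidHom.id GQ) 0) (σ : GQ) :
    defRep c σ = dualMat r c.1 σ := rfl

lemma isCont_defRep (hr : IsFiniteLevel r) (c : Z1 r (MonoidHom.id GQ) 0) :
    IsCont (defRep c : GQ → M2 (DualNumber k)) := by
  intro n
  obtain ⟨L, hL, h⟩ := hr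
  obtain ⟨L', hL', h'⟩ := c.2.2.2
  refine ⟨L ⊔ L', IntermediateField.finiteDimensional_sup L L', fun σ hσ => ?_⟩
  have h1 : r σ = 1 := h σ fun x hx => hσ x ((le_sup_left : L ≤ L ⊔ L') hx)
  have h2 : c.1 σ = 0 := h' σ fun x hx => hσ x ((le_sup_right : L' ≤ L ⊔ L') hx)
  intro i j
  have h3 : defRep c σ = 1 := dm_ext (by rw [defRep_apply, dualMat, fm_dm, h1, fm_one])
    (by rw [defRep_apply, dualMat, sm_dm, h2, zero_mul, sm_one])
  rw [h3, sub_self]
  exact Ideal.zero_mem _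

/-- The deformation attached to a cocycle, as a `GaloisRepAdic`. -/
noncomputable def defAdic (hr : IsFiniteLevel r) (c : Z1 r (MonoidHom.id GQ) 0) :
    GaloisRepAdic (DualNumber k) :=
  toAdic (defRep c) (isCont_defRep hr c)

lemma defAdic_hasMat (hr : IsFiniteLevel r) (c : Z1 r (MonoidHom.id GQ) 0) :
    HasMat ((defAdic hr c).ρ : GQ → _) (dualMat r c.1) :=
  Fermat.Agent.S53norm.toAdic_hasMat (defRep c) (isCont_defRep hr c)

lemma isCocyc_of_mem (c : Z1 r (MonoidHom.id GQ) 0) : IsCocyc r c.1 := fun s t => by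
  have := c.2.2.1 s t
  rwa [act_zero_apply] at this

lemma mem_Z1_of_isCocyc {c : GQ → M2 k} (h1 : IsCocyc r c) (h2 : IsLevel c)
    (h3 : ∀ σ, (c σ).trace = 0) : c ∈ Z1 r (MonoidHom.id GQ) 0 :=
  ⟨h3, fun s t => by rw [act_zero_apply]; exact h1 s t, h2⟩

end Deformations

section Interface

variable {k : Type} [Field k]

/-- `det r` is the mod `p` cyclotomic character. -/
def CycDet (p : ℕ) (r : GQ →* M2 k) : Prop :=
  ∀ (σ : GQ) (a : ℕ), (∀ μ : AlgebraicClosure ℚ, μ ^ p = 1 → σ μ = μ ^ a) → (r σ).det = (a : k)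

/-- No line over `k̄` is stable under a subgroup of index at most two. -/
def NoLine (r : GQ →* M2 k) : Prop :=
  ∀ G : Subgroup GQ, (G.index = 1 ∨ G.index = 2) → ∀ v : Fin 2 → AlgebraicClosure k, v ≠ 0 →
    ¬ ∀ σ ∈ G, ∃ a : AlgebraicClosure k,
      ((r σ).map (algebraMap k (AlgebraicClosure k))) *ᵥ v = a • v

/-- Existence of Taylor-Wiles elements (group theory, part B). -/
def TWElements (p : ℕ) (r : GQ →* M2 k) : Prop :=
  ∀ N : ℕ, ∃ σ : GQ, (∀ μ : AlgebraicClosure ℚ, μ ^ p ^ N = 1 → σ μ = μ) ∧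
    (r σ).trace ^ 2 ≠ 4 * (r σ).det

/-- Taylor-Wiles elements detect classes of `H¹(ℚ, ad⁰(1))` (group theory, part B). -/
def TWDetect (p : ℕ) (r : GQ →* M2 k) : Prop :=
  ∀ N : ℕ, ∀ ψ ∈ Z1 r (MonoidHom.id GQ) 1,
    (∀ X : M2 k, X.trace = 0 → ψ ≠ cob r (MonoidHom.id GQ) 1 X) →
    ∃ σ : GQ, (∀ μ : AlgebraicClosure ℚ, μ ^ p ^ N = 1 → σ μ = μ) ∧
      (r σ).trace ^ 2 ≠ 4 * (r σ).det ∧
      ∀ X : M2 k, X.trace = 0 → ψ σ ≠ act r 1 σ X - X

/-- `c` vanishes on the inertia groups outside `S`. -/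
def UnramOutside (S : Finset ℕ) {X : Type} [Zero X] (c : GQ → X) : Prop :=
  ∀ q : ℕ, q.Prime → q ∉ S → ∀ A : ValuationSubring (AlgebraicClosure ℚ), A.LiesOverPrime q →
    ∀ σ ∈ A.inertiaSubgroupIn ℚ, c σ = 0

/-- The restrictions to `D` of the global `ad⁰`-cocycles with the property `P` lie in a group of
cocycles with at most `#k ^ m` elements (which also contains the coboundaries). -/
def LocalBound (r : GQ →* M2 k) (D : Subgroup GQ) (P : Z1 r (MonoidHom.id GQ) 0 → Prop)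
    (m : ℕ) : Prop :=
  ∃ Λ : AddSubgroup (D → M2 k), Finite Λ ∧ Nat.card Λ ≤ Nat.card k ^ m ∧
    (∀ c ∈ Λ, c ∈ Z1 r D.subtype 0) ∧
    (∀ X : M2 k, X.trace = 0 → cob r D.subtype 0 X ∈ Λ) ∧
    ∀ c : Z1 r (MonoidHom.id GQ) 0, P c → (fun σ : D => c.1 σ) ∈ Λ

/-- The cocycles unramified outside `T ∪ Q` satisfying the local conditions `Λ q` at `q ∈ T`
(and no condition at `q ∈ Q`). -/
def SelSet (r : GQ →* M2 k) (T Q : Finset ℕ)
    (D : ℕ → Subgroup GQ) (Λ : ∀ q, AddSubgroup (D q → M2 k)) :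
    Set (Z1 r (MonoidHom.id GQ) 0) :=
  {c | UnramOutside (T ∪ Q) c.1 ∧ ∀ q ∈ T, (fun σ : D q => c.1 (σ : GQ)) ∈ Λ q}

/-- The Greenberg-Wiles inequality in the form used for `ad⁰`. -/
def GWad (p : ℕ) (r : GQ →* M2 k) : Prop :=
  ∀ (T Q : Finset ℕ) (A : ℕ → ValuationSubring (AlgebraicClosure ℚ))
    (Λ : ∀ q, AddSubgroup ((A q).decompositionSubgroup ℚ → M2 k)),
    (∀ q ∈ T ∪ Q, q.Prime) → Disjoint T Q → p ∈ T →
    (∀ q ∈ T ∪ Q, (A q).LiesOverPrime q) →
    UnramOutside T (fun σ => r σ - 1) →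
    (∀ q ∈ T, Finite (Λ q)) →
    (∀ q ∈ T, ∀ c ∈ Λ q, c ∈ Z1 r ((A q).decompositionSubgroup ℚ).subtype 0) →
    (∀ q ∈ T, ∀ X : M2 k, X.trace = 0 →
      cob r ((A q).decompositionSubgroup ℚ).subtype 0 X ∈ Λ q) →
    (∀ ψ ∈ Z1 r (MonoidHom.id GQ) 1, UnramOutside (T ∪ Q) ψ →
      (∀ q ∈ Q, ∃ X : M2 k, X.trace = 0 ∧
        ∀ σ ∈ (A q).decompositionSubgroup ℚ, ψ σ = act r 1 σ X - X) →
      ∃ X : M2 k, X.trace = 0 ∧ ψ = cob r (MonoidHom.id GQ) 1 X) →
    (SelSet r T Q (fun q => (A q).decompositionSubgroup ℚ) Λ).Finite ∧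
    Nat.card (SelSet r T Q (fun q => (A q).decompositionSubgroup ℚ) Λ) *
        Nat.card k ^ (3 * T.card + 1) ≤
      Nat.card k ^ 3 * (∏ q ∈ T, Nat.card (Λ q)) *
        ∏ q ∈ Q, Nat.card {X : M2 k // X.trace = 0 ∧
          ∀ σ ∈ (A q).decompositionSubgroup ℚ, act r 1 σ X = X}

end Interface

end Fermat.Agent.TW
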