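import Fermat.Agent.TW.Finite
import Fermat.Agent.CFT.SKummer.Count
import Fermat.Agent.PT.CycloChar

set_option autoImplicit false

/-!
# Finiteness of `H¹(G_{K,S}, 𝔽_p)`
-/

namespace Fermat.Agent.TW

open ExtCitation IsDedekindDomain
open scoped Pointwise NumberField
open Fermat.Agent.S53norm (GQ M2 HasMat dualAlg)
open Fermat.Agent.PT (LevelSys LC1 Discrete)
open Fermat.Agent.CFT Fermat.Agent.CFT.SKummer

lemma finite_SK (S : Finset Nat.Primes) (K : IntermediateField ℚ (AlgebraicClosure ℚ))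
    [NumberField K] : (SK S K).Finite := by
  have h1 : SK S K ⊆ ⋃ q ∈ S, {v | v.asIdeal ∣ Ideal.span {((q : ℕ) : 𝓞 K)}} := by
    rintro v ⟨q, hq, hv⟩
    refine Set.mem_biUnion hq ?_
    show v.asIdeal ∣ Ideal.span {((q : ℕ) : 𝓞 K)}
    rw [Ideal.dvd_span_singleton]
    exact hv
  refine Set.Finite.subset (Set.Finite.biUnion S.finite_toSet fun q _ => ?_) h1
  refine Ideal.finite_factors ?_
  rw [Ne, Ideal.zero_eq_bot, Ideal.span_singleton_eq_bot]
  exact_mod_cast q.2.ne_zero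

lemma card_H1_ne_zero {S : Finset Nat.Primes} {K : IntermediateField ℚ (AlgebraicClosure ℚ)}
    [NumberField K] {p : Nat.Primes} (hK : K ≤ Omega S) (hpS : p ∈ S) {ζ : K}
    (hζ : IsPrimitiveRoot ζ (p : ℕ)) :
    Nat.card (PT.H1 (levS S K) (Bridge.triv (p : ℕ) K.fixingSubgroup)) ≠ 0 := by
  rw [card_H1 hK hpS hζ]
  have hfin := finite_SK S K
  have hcoe : ((hfin.toFinset : Finset (HeightOneSpectrum (𝓞 K))) :
      Set (HeightOneSpectrum (𝓞 K))) = SK S K := hfin.coe_toFinset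
  have hp0 : (p : ℕ) ≠ 0 := p.2.ne_zero
  rw [← hcoe, SUnits.relIndex_selS _ hp0, SUnits.index_pow_sunits _ hp0]
  refine mul_ne_zero (mul_ne_zero (pow_ne_zero _ hp0) ?_) ?_
  · have : NeZero (p : ℕ) := ⟨hp0⟩
    exact Nat.card_pos.ne'
  · exact Nat.card_pos.ne'

variable {p : ℕ} [hp : Fact p.Prime]

/-- `B¹ = 0` for the trivial action. -/
lemma finite_Z1_of_finite_H1 {G : Type} [Group G] {𝓛 : LevelSys G}
    (h : Finite (PT.H1 𝓛 (Bridge.triv p G))) : Finite (PT.Z1 𝓛 (Bridge.triv p G)) := by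
  refine Finite.of_injective (fun c => PT.H1mk 𝓛 (Bridge.triv p G) c) fun c c' hcc => ?_
  have h1 : PT.H1mk 𝓛 (Bridge.triv p G) (c - c') = 0 := by
    rw [map_sub, sub_eq_zero]
    exact hcc
  rw [PT.H1mk_eq_zero] at h1
  obtain ⟨m, hm⟩ := h1
  refine Subtype.ext (funext fun g => ?_)
  have h2 := hm g
  rw [Representation.trivial_apply, sub_self] at h2
  exact sub_eq_zero.1 h2

/-- `Hom(G_{K,S}, 𝔽_p)` is finite. -/
theorem homFin (p : ℕ) [hp : Fact p.Prime] : HomFin p := by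
  intro S hpS U hU
  obtain ⟨F, hF, hFU⟩ := hU
  have hF1 := hF.1
  obtain ⟨ζ, hζ⟩ := PT.Frozen.exists_primitive p
  have hfd : FiniteDimensional ℚ (IntermediateField.adjoin ℚ {ζ}) :=
    IntermediateField.adjoin.finiteDimensional (Algebra.IsIntegral.isIntegral ζ)
  set K := F ⊔ IntermediateField.adjoin ℚ {ζ} with hKdef
  have hK : K ≤ Omega S :=
    sup_le (le_Omega hF) (PT.Frozen.adjoin_root_le_Omega hpS hζ.pow_eq_one)
  have hKfd : FiniteDimensional ℚ K := IntermediateField.finiteDimensional_sup _ _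
  have hKnf : NumberField K := ⟨⟩
  have hζK : ζ ∈ K := (le_sup_right : _ ≤ K) (IntermediateField.mem_adjoin_simple_self ℚ ζ)
  have hζ' : IsPrimitiveRoot (⟨ζ, hζK⟩ : K) p :=
    IsPrimitiveRoot.of_map_of_injective (f := algebraMap K (AlgebraicClosure ℚ)) hζ
      (algebraMap K (AlgebraicClosure ℚ)).injective
  refine ⟨K.fixingSubgroup, fixingSubgroup_mem_sLevels hK,
    (IntermediateField.fixingSubgroup_antitone le_sup_left).trans hFU, ?_⟩
  apply finite_Z1_of_finite_H1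
  have h1 := card_H1_ne_zero (p := pPrime p) hK hpS hζ'
  exact (Nat.card_ne_zero.1 h1).2

theorem dualFin (p : ℕ) [Fact p.Prime] : DualFin p := dualFin_of_homFin (homFin p)

end Fermat.Agent.TW
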