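import Fermat.Agent.TW.PUnits
import Fermat.Agent.TW.LocalUnip
import Mathlib.NumberTheory.LegendreSymbol.AddCharacter

set_option autoImplicit false

/-!
# Local cocycles at `p` : strictly ordinary lifts  (D1)
-/

namespace Fermat.Agent.TW

open IsLocalRing Polynomial
open scoped Pointwise
open Fermat.Agent.S53norm (M2 HasMat IsCont toAdic)
open Fermat.Agent.Frob Fermat.Agent.Minkowski

section Mu

variable {A : ValuationSubring Qbar} {p : ℕ}

/-- Level-constant cocycles of the decomposition group with values in `μ_p`. -/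
def MuCocyc (A : ValuationSubring Qbar) (p : ℕ) : Set (A.decompositionSubgroup ℚ → Qbar) :=
  {c | (∀ g, c g ^ p = 1) ∧ (∀ g h, c (g * h) = c g * (g : GQ) (c h)) ∧
    ∃ L : IntermediateField ℚ Qbar, FiniteDimensional ℚ L ∧
      ∀ g : A.decompositionSubgroup ℚ, (∀ x ∈ L, (g : GQ) x = x) → c g = 1}

lemma zpow_eq_of_pow_eq_one {x : Qbar} (hx : x ^ p = 1) (hp0 : p ≠ 0) (m : ℤ) :
    x ^ m = x ^ ((m : ZMod p).val) := by
  have hx0 : x ≠ 0 := by
    rintro rfl
    rw [zero_pow hp0] at hx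
    exact zero_ne_one hx
  have : NeZero p := ⟨hp0⟩
  have h1 : ((((m : ZMod p).val : ℕ) : ℤ) : ZMod p) = (m : ZMod p) := by
    rw [Int.cast_natCast, ZMod.natCast_zmod_val]
  obtain ⟨c, hc⟩ := (ZMod.intCast_eq_intCast_iff_dvd_sub _ _ p).mp h1
  have h2 : m = ((m : ZMod p).val : ℤ) + (p : ℤ) * c := by linarith
  calc x ^ m = x ^ (((m : ZMod p).val : ℤ) + (p : ℤ) * c) := by rw [← h2]
    _ = x ^ ((m : ZMod p).val) := by
      rw [zpow_add₀ hx0, zpow_mul, zpow_natCast, zpow_natCast, hx, one_zpow, mul_one]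

theorem card_muCocyc_le (hp : p.Prime) (hp2 : p ≠ 2) (hA : A.LiesOverPrime p) :
    Finite (MuCocyc A p) ∧ Nat.card (MuCocyc A p) ≤ p ^ 3 := by
  classical
  have : NeZero p := ⟨hp.ne_zero⟩
  obtain ⟨π, hπ⟩ := IsAlgClosed.exists_pow_nat_eq ((p : ℕ) : Qbar) hp.pos
  obtain ⟨η, hη⟩ := IsAlgClosed.exists_pow_nat_eq (1 + (p : ℕ) : Qbar) hp.pos
  have hpQ : ((p : ℕ) : Qbar) ≠ 0 := by exact_mod_cast hp.ne_zero
  have h1pQ : (1 + (p : ℕ) : Qbar) ≠ 0 := by
    have h1 : ((1 + p : ℕ) : Qbar) ≠ 0 := Nat.cast_ne_zero.mpr (by omega)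
    push_cast at h1
    exact h1
  have hπ0 : π ≠ 0 := by
    rintro rfl
    rw [zero_pow hp.ne_zero] at hπ
    exact hpQ hπ.symm
  have hη0 : η ≠ 0 := by
    rintro rfl
    rw [zero_pow hp.ne_zero] at hη
    exact h1pQ hη.symm
  have hπg : ∀ g : GQ, (g π / π) ^ p = 1 := fun g => by
    rw [div_pow, ← map_pow, hπ, map_natCast, div_self hpQ]
  have hηg : ∀ g : GQ, (g η / η) ^ p = 1 := fun g => by
    rw [div_pow, ← map_pow, hη, map_add, map_one, map_natCast, div_self h1pQ]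
  have key : ∀ c : MuCocyc A p, ∃ d : rootsOfUnity p Qbar × ZMod p × ZMod p,
      ∀ g : A.decompositionSubgroup ℚ, c.1 g =
        ((g : GQ) ((d.1 : Qbarˣ) : Qbar) / ((d.1 : Qbarˣ) : Qbar)) * ((g : GQ) π / π) ^ d.2.1.val *
          ((g : GQ) η / η) ^ d.2.2.val := by
    rintro ⟨c, hc1, hc2, L, hL, hc3⟩
    let c' : GQ → Qbar := fun g => if hg : g ∈ A.decompositionSubgroup ℚ then c ⟨g, hg⟩ else 1
    have hc' : ∀ g : A.decompositionSubgroup ℚ, c' g = c g := fun g => by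
      simp only [c', dif_pos g.2]
    obtain ⟨z, hz0, hz⟩ := exists_hilbert90 (A.decompositionSubgroup ℚ) c'
      (fun g hg h0 => by
        have h1 := hc1 ⟨g, hg⟩
        rw [← hc', h0, zero_pow hp.ne_zero] at h1
        exact zero_ne_one h1)
      (fun g hg h hh => by
        have h1 := hc2 ⟨g, hg⟩ ⟨h, hh⟩
        rw [← hc', ← hc', ← hc'] at h1
        exact h1) L
      (fun g hg hfix => by rw [hc' ⟨g, hg⟩]; exact hc3 ⟨g, hg⟩ hfix)
    have hzp : ∀ g ∈ A.decompositionSubgroup ℚ, g (z ^ p) = z ^ p := by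
      intro g hg
      rw [map_pow, hz g hg, mul_pow, hc' ⟨g, hg⟩, hc1, one_mul]
    obtain ⟨m, n, w, hw0, hw, hy⟩ := exists_decomp_fixed hp hp2 hA (pow_ne_zero _ hz0) hzp
    set ζ : Qbar := z / (π ^ m * η ^ n * w) with hζ
    have hden : π ^ m * η ^ n * w ≠ 0 :=
      mul_ne_zero (mul_ne_zero (zpow_ne_zero _ hπ0) (zpow_ne_zero _ hη0)) hw0
    have hζp : ζ ^ p = 1 := by
      rw [hζ, div_pow, hy, mul_pow, mul_pow, ← zpow_natCast (π ^ m), ← zpow_natCast (η ^ n),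
        ← zpow_mul, ← zpow_mul, mul_comm m, mul_comm n, zpow_mul, zpow_mul, zpow_natCast,
        zpow_natCast, hπ, hη]
      apply div_self
      exact mul_ne_zero (mul_ne_zero (zpow_ne_zero _ hpQ) (zpow_ne_zero _ h1pQ))
        (pow_ne_zero _ hw0)
    have hζ0 : ζ ≠ 0 := div_ne_zero hz0 hden
    let ζ' : rootsOfUnity p Qbar := ⟨Units.mk0 ζ hζ0, by
      rw [mem_rootsOfUnity]; exact Units.ext hζp⟩
    refine ⟨⟨ζ', (m : ZMod p), (n : ZMod p)⟩, fun g => ?_⟩
    change c g = ((g : GQ) ζ / ζ) * ((g : GQ) π / π) ^ ((m : ZMod p)).val *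
          ((g : GQ) η / η) ^ ((n : ZMod p)).val
    rw [← zpow_eq_of_pow_eq_one (hπg g) hp.ne_zero, ← zpow_eq_of_pow_eq_one (hηg g) hp.ne_zero]
    have h1 := hz g g.2
    rw [hc'] at h1
    have hz' : z = ζ * (π ^ m * η ^ n * w) := by rw [hζ, div_mul_cancel₀ _ hden]
    have h2 : c g = (g : GQ) z / z := by rw [h1, mul_div_assoc, div_self hz0, mul_one]
    rw [h2, hz', map_mul, map_mul, map_mul, map_zpow₀, map_zpow₀, hw g g.2, div_zpow, div_zpow]
    have hπm := zpow_ne_zero m hπ0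
    have hηn := zpow_ne_zero n hη0
    field_simp
  choose d hd using key
  have hinj : Function.Injective d := by
    intro c c' h
    apply Subtype.ext
    funext g
    rw [hd, hd, h]
  have hcardμ : Nat.card (rootsOfUnity p Qbar) = p := by
    obtain ⟨ζ, hζ⟩ := HasEnoughRootsOfUnity.exists_primitiveRoot Qbar p
    exact hζ.card_rootsOfUnity
  have hfin : Finite (rootsOfUnity p Qbar) := Nat.finite_of_card_ne_zero (by
    rw [hcardμ]; exact hp.ne_zero)
  refine ⟨Finite.of_injective d hinj, ?_⟩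
  have h1 := Nat.card_le_card_of_injective d hinj
  rw [Nat.card_prod, Nat.card_prod, hcardμ, Nat.card_zmod] at h1
  calc _ ≤ _ := h1
    _ = p ^ 3 := by ring

end Mu

section Chi

variable {k : Type} [Field k] {A : ValuationSubring Qbar} {p : ℕ}

/-- Level-constant cocycles of the decomposition group with values in `k(det r)`. -/
def ChiCocyc (r : GQ →* M2 k) (A : ValuationSubring Qbar) :
    AddSubgroup (A.decompositionSubgroup ℚ → k) where
  carrier := {y | (∀ g h : A.decompositionSubgroup ℚ, y (g * h) = y g + (r g).det * y h) ∧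
    Smooth (A.decompositionSubgroup ℚ).subtype y}
  zero_mem' := ⟨fun g h => by simp, ⊥, inferInstance, fun _ _ => rfl⟩
  add_mem' := by
    rintro a b ⟨ha, L, hL, ha2⟩ ⟨hb, L', hL', hb2⟩
    refine ⟨fun g h => ?_, L ⊔ L', IntermediateField.finiteDimensional_sup L L', fun g hg => ?_⟩
    · rw [Pi.add_apply, ha, hb, Pi.add_apply, Pi.add_apply]
      ring
    · rw [Pi.add_apply, ha2 g fun x hx => hg x ((le_sup_left : L ≤ L ⊔ L') hx),
        hb2 g fun x hx => hg x ((le_sup_right : L' ≤ L ⊔ L') hx), add_zero]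
  neg_mem' := by
    rintro a ⟨ha, L, hL, ha2⟩
    refine ⟨fun g h => ?_, L, hL, fun g hg => ?_⟩
    · rw [Pi.neg_apply, ha, Pi.neg_apply, Pi.neg_apply]
      ring
    · rw [Pi.neg_apply, ha2 g hg, neg_zero]

theorem card_chiCocyc_le [Finite k] [hp : Fact p.Prime] (hp2 : p ≠ 2) [CharP k p]
    (hA : A.LiesOverPrime p) {r : GQ →* M2 k} (hcyc : CycDet p r) :
    Finite (ChiCocyc r A) ∧ Nat.card (ChiCocyc r A) ≤ Nat.card k ^ 3 := by
  classical
  let algk : Algebra (ZMod p) k := ZMod.algebra k p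
  have : NeZero p := ⟨hp.out.ne_zero⟩
  let b := Module.finBasis (ZMod p) k
  obtain ⟨ζ, hζ⟩ := HasEnoughRootsOfUnity.exists_primitiveRoot Qbar p
  let e : AddChar (ZMod p) Qbar := AddChar.zmodChar p hζ.pow_eq_one
  have he : ∀ x : ZMod p, e x = ζ ^ x.val := fun x => AddChar.zmodChar_apply hζ.pow_eq_one x
  have hep : ∀ x : ZMod p, e x ^ p = 1 := fun x => by
    rw [he, ← pow_mul, mul_comm, pow_mul, hζ.pow_eq_one, one_pow]
  have heinj : Function.Injective e := by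
    intro x y h
    rw [he, he] at h
    exact ZMod.val_injective p (hζ.pow_inj (ZMod.val_lt x) (ZMod.val_lt y) h)
  let f : ChiCocyc r A → (Fin (Module.finrank (ZMod p) k) → MuCocyc A p) := fun y j =>
    ⟨fun g => e (b.repr (y.1 g) j), fun g => hep _, fun g h => by
      obtain ⟨a, ha⟩ := exists_root_exponent p (g : GQ)
      change e (b.repr (y.1 (g * h)) j) = e (b.repr (y.1 g) j) * (g : GQ) (e (b.repr (y.1 h) j))
      rw [ha _ (hep _), ← AddChar.map_nsmul_eq_pow, ← AddChar.map_add_eq_mul]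
      congr 1
      rw [y.2.1, hcyc g a ha]
      have h1 : (a : k) * y.1 h = (a : ℕ) • y.1 h := (nsmul_eq_mul _ _).symm
      rw [h1, map_add, map_nsmul]
      rfl, by
      obtain ⟨L, hL, h⟩ := y.2.2
      refine ⟨L, hL, fun g hg => ?_⟩
      change e (b.repr (y.1 g) j) = 1
      rw [h g hg, map_zero]
      exact AddChar.map_zero_eq_one e⟩
  have hf : Function.Injective f := by
    intro y y' h
    apply Subtype.ext
    funext g
    apply b.repr.injective
    ext j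
    apply heinj
    have h1 := congrArg (fun z => (z j : A.decompositionSubgroup ℚ → Qbar) g) h
    exact h1
  obtain ⟨hfin, hle⟩ := card_muCocyc_le (A := A) hp.out hp2 hA
  refine ⟨Finite.of_injective f hf, ?_⟩
  have h1 := Nat.card_le_card_of_injective f hf
  rw [Nat.card_fun, Nat.card_fin] at h1
  calc _ ≤ _ := h1
    _ ≤ (p ^ 3) ^ Module.finrank (ZMod p) k := Nat.pow_le_pow_left hle _
    _ = Nat.card k ^ 3 := by
      have h2 : Nat.card k = p ^ Module.finrank (ZMod p) k := by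
        rw [Module.natCard_eq_pow_finrank (K := ZMod p) (V := k), Nat.card_zmod]
      rw [h2, ← pow_mul, ← pow_mul, mul_comm]

end Chi


section Ord

variable {k : Type} [Field k]

/-- Conjugation by a unit. -/
def cj {R : Type} [CommRing R] (Q : (M2 R)ˣ) (M : M2 R) : M2 R := Q.val * M * Q⁻¹.val

lemma cj_def {R : Type} [CommRing R] (Q : (M2 R)ˣ) (M : M2 R) : cj Q M = Q.val * M * Q⁻¹.val := rfl

lemma cj_mul {R : Type} [CommRing R] (Q : (M2 R)ˣ) (M N : M2 R) :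
    cj Q (M * N) = cj Q M * cj Q N := by
  have h : Q⁻¹.val * Q.val = 1 := Units.inv_mul _
  simp only [cj]
  calc Q.val * (M * N) * Q⁻¹.val = Q.val * M * 1 * N * Q⁻¹.val := by noncomm_ring
    _ = Q.val * M * (Q⁻¹.val * Q.val) * N * Q⁻¹.val := by rw [h]
    _ = _ := by simp only [mul_assoc]

lemma cj_add {R : Type} [CommRing R] (Q : (M2 R)ˣ) (M N : M2 R) :
    cj Q (M + N) = cj Q M + cj Q N := by
  simp only [cj]; noncomm_ring

lemma cj_sub {R : Type} [CommRing R] (Q : (M2 R)ˣ) (M N : M2 R) :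
    cj Q (M - N) = cj Q M - cj Q N := by
  simp only [cj]; noncomm_ring

lemma cj_smul {R : Type} [CommRing R] (Q : (M2 R)ˣ) (a : R) (M : M2 R) :
    cj Q (a • M) = a • cj Q M := by
  simp only [cj]
  rw [mul_smul_comm, smul_mul_assoc]

lemma cj_one {R : Type} [CommRing R] (Q : (M2 R)ˣ) : cj Q 1 = 1 := by
  simp only [cj]
  rw [mul_one, Units.mul_inv]

lemma cj_cj {R : Type} [CommRing R] (P Q : (M2 R)ˣ) (M : M2 R) :
    cj P (cj Q M) = cj (P * Q) M := by
  simp only [cj, _root_.mul_inv_rev, Units.val_mul]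
  noncomm_ring

lemma cj_unit_one {R : Type} [CommRing R] (M : M2 R) : cj 1 M = M := by
  simp [cj]

lemma cj_trace {R : Type} [CommRing R] (Q : (M2 R)ˣ) (M : M2 R) :
    (cj Q M).trace = M.trace := by
  rw [cj, Matrix.trace_mul_cycle, Units.inv_mul, one_mul]

lemma cj_det {R : Type} [CommRing R] (Q : (M2 R)ˣ) (M : M2 R) :
    (cj Q M).det = M.det := by
  have h : Q⁻¹.val * Q.val = 1 := Units.inv_mul _
  rw [cj, Matrix.det_mul, Matrix.det_mul, mul_comm, ← mul_assoc, ← Matrix.det_mul, h,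
    Matrix.det_one, one_mul]

/-- `(1 + ε c) r` is strictly ordinary at the place `A` (matrix form). -/
def StrictOrdLift (p : ℕ) (A : ValuationSubring Qbar) (r c : GQ → M2 k) : Prop :=
  ∃ Q : (M2 (DualNumber k))ˣ, ∀ σ ∈ A.decompositionSubgroup ℚ,
    cj Q (dualMat r c σ) 1 0 = 0 ∧
    (σ ∈ A.inertiaSubgroupIn ℚ → cj Q (dualMat r c σ) 1 1 = 1) ∧
    ∀ a : ℕ, (∀ μ : AlgebraicClosure ℚ, μ ^ p = 1 → σ μ = μ ^ a) →
      cj Q (dualMat r c σ) 0 0 = (a : DualNumber k) * cj Q (dualMat r c σ) 1 1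

/-- `r` is strictly ordinary at `A` with respect to the basis given by `Q`. -/
def OrdBasis (p : ℕ) (A : ValuationSubring Qbar) (r : GQ → M2 k) (Q : (M2 k)ˣ) : Prop :=
  ∀ σ ∈ A.decompositionSubgroup ℚ,
    cj Q (r σ) 1 0 = 0 ∧
    (σ ∈ A.inertiaSubgroupIn ℚ → cj Q (r σ) 1 1 = 1) ∧
    ∀ a : ℕ, (∀ μ : AlgebraicClosure ℚ, μ ^ p = 1 → σ μ = μ ^ a) →
      cj Q (r σ) 0 0 = (a : k) * cj Q (r σ) 1 1

/-- The constant part of a unit. -/
def fmUnit (Q : (M2 (DualNumber k))ˣ) : (M2 k)ˣ where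
  val := fm Q.val
  inv := fm Q⁻¹.val
  val_inv := by rw [← fm_mul, Units.mul_inv, fm_one]
  inv_val := by rw [← fm_mul, Units.inv_mul, fm_one]

lemma fm_cj (Q : (M2 (DualNumber k))ˣ) (M : M2 (DualNumber k)) :
    fm (cj Q M) = cj (fmUnit Q) (fm M) := by
  rw [cj, fm_mul, fm_mul]
  rfl

omit [Field k] in
lemma fm_apply (M : M2 (DualNumber k)) (i j : Fin 2) : fm M i j = TrivSqZeroExt.fst (M i j) := rfl

omit [Field k] in
lemma sm_apply (M : M2 (DualNumber k)) (i j : Fin 2) : sm M i j = TrivSqZeroExt.snd (M i j) := rfl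

lemma two_ne_zero_of_char {p : ℕ} [Fact p.Prime] (hp2 : p ≠ 2) [CharP k p] : (2 : k) ≠ 0 := by
  intro h
  have h3 : ((2 : ℕ) : k) = 0 := by exact_mod_cast h
  rw [CharP.cast_eq_zero_iff k p] at h3
  exact hp2 ((Nat.prime_dvd_prime_iff_eq Fact.out Nat.prime_two).mp h3)

/-- The matrix `Q (c - cob Y) Q⁻¹` for a strictly ordinary lift. -/
lemma exists_cob_of_strictOrd {p : ℕ} [Fact p.Prime] (hp2 : p ≠ 2) [CharP k p]
    {A : ValuationSubring Qbar} {r : GQ →* M2 k} {c : GQ → M2 k} (htr : ∀ σ, (c σ).trace = 0)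
    (hc : StrictOrdLift p A r c) :
    ∃ q0 : (M2 k)ˣ, OrdBasis p A r q0 ∧ ∃ Y : M2 k, ∀ σ ∈ A.decompositionSubgroup ℚ,
      ∃ y : k, cj q0 (c σ - (act r 0 σ Y - Y)) = y • !![0, 1; 0, 0] := by
  obtain ⟨Q, hQ⟩ := hc
  have hfm : ∀ σ, fm (cj Q (dualMat r c σ)) = cj (fmUnit Q) (r σ) := by
    intro σ
    rw [fm_cj, dualMat, fm_dm]
  have hord : OrdBasis p A r (fmUnit Q) := by
    intro σ hσ
    obtain ⟨h1, h2, h3⟩ := hQ σ hσ
    rw [← hfm]
    refine ⟨?_, fun hσI => ?_, fun a ha => ?_⟩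
    · rw [fm_apply, h1, TrivSqZeroExt.fst_zero]
    · rw [fm_apply, h2 hσI, TrivSqZeroExt.fst_one]
    · rw [fm_apply, fm_apply, h3 a ha, TrivSqZeroExt.fst_mul, TrivSqZeroExt.fst_natCast]
  refine ⟨fmUnit Q, hord, ?_⟩
  set q0 : (M2 k)ˣ := fmUnit Q with hq0
  have hq0' : q0⁻¹.val * q0.val = 1 := Units.inv_mul _
  have hq0'' : q0.val * q0⁻¹.val = 1 := Units.mul_inv _
  -- `Q = q0 (1 + ε Y)`, `c' = c + Y - r Y r⁻¹`
  set Y : M2 k := q0⁻¹.val * sm Q.val with hY
  have hQdm : Q.val = dm q0.val (q0.val * Y) := by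
    refine dm_ext ?_ ?_
    · rw [fm_dm]; rfl
    · rw [sm_dm, hY, ← mul_assoc, hq0'', one_mul]
  have hQinv : Q⁻¹.val = dm q0⁻¹.val (-(Y * q0⁻¹.val)) := by
    have h1 : Q.val * dm q0⁻¹.val (-(Y * q0⁻¹.val)) = 1 := by
      rw [hQdm]
      refine dm_ext ?_ ?_
      · rw [fm_mul, fm_dm, fm_dm, hq0'', fm_one]
      · rw [sm_mul, fm_dm, fm_dm, sm_dm, sm_dm, sm_one]
        noncomm_ring
    calc Q⁻¹.val = Q⁻¹.val * (Q.val * dm q0⁻¹.val (-(Y * q0⁻¹.val))) := by rw [h1, mul_one]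
      _ = _ := by rw [← mul_assoc, Units.inv_mul, one_mul]
  refine ⟨Y, fun σ hσ => ?_⟩
  obtain ⟨h1, h2, h3⟩ := hQ σ hσ
  obtain ⟨g1, g2, g3⟩ := hord σ hσ
  have hfmM := hfm σ
  have hsmM : sm (cj Q (dualMat r c σ)) = cj q0 (c σ - (act r 0 σ Y - Y)) * cj q0 (r σ) := by
    rw [← cj_mul]
    have h5 : (c σ - (act r 0 σ Y - Y)) * r σ = c σ * r σ + Y * r σ - r σ * Y := by
      rw [act_zero_apply]
      have h6 : r σ * Y * r σ⁻¹ * r σ = r σ * Y := by rw [mul_assoc, r_inv_mul, mul_one]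
      calc _ = c σ * r σ - r σ * Y * r σ⁻¹ * r σ + Y * r σ := by noncomm_ring
        _ = _ := by rw [h6]; abel
    rw [h5, cj, cj, hQinv, hQdm, dualMat]
    simp only [sm_mul, fm_mul, fm_dm, sm_dm]
    noncomm_ring
  set m : M2 k := cj q0 (r σ) with hm
  set M : M2 (DualNumber k) := cj Q (dualMat r c σ) with hM
  set c1 : M2 k := cj q0 (c σ - (act r 0 σ Y - Y)) with hc1
  -- entries
  have hdet0 : m 0 0 * m 1 1 ≠ 0 := by
    have := det_ne_zero r σ
    rwa [← cj_det q0, ← hm, Matrix.det_fin_two, g1, mul_zero, sub_zero] at this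
  have hm00 := left_ne_zero_of_mul hdet0
  have hm11 := right_ne_zero_of_mul hdet0
  have e10 : c1 1 0 = 0 := by
    have h4 : sm M 1 0 = 0 := by rw [sm_apply, h1, TrivSqZeroExt.snd_zero]
    rw [hsmM, Matrix.mul_apply, Fin.sum_univ_two, g1, mul_zero, add_zero] at h4
    exact (mul_eq_zero.mp h4).resolve_right hm00
  obtain ⟨a, ha⟩ := exists_root_exponent p σ
  have e00 : c1 0 0 = c1 1 1 := by
    have h4 : sm M 0 0 = (a : k) * sm M 1 1 := by
      rw [sm_apply, sm_apply, h3 a ha, TrivSqZeroExt.snd_mul, TrivSqZeroExt.fst_natCast,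
        TrivSqZeroExt.snd_natCast]
      simp
    have h5 : m 0 0 = (a : k) * m 1 1 := g3 a ha
    rw [hsmM, Matrix.mul_apply, Fin.sum_univ_two, Matrix.mul_apply, Fin.sum_univ_two, g1, e10,
      mul_zero, add_zero, zero_mul, zero_add, h5] at h4
    have ha0 : (a : k) ≠ 0 := by
      intro h6
      rw [h6, zero_mul] at h5
      exact hm00 h5
    have h6 : (c1 0 0 - c1 1 1) * ((a : k) * m 1 1) = 0 := by linear_combination h4
    exact sub_eq_zero.mp ((mul_eq_zero.mp h6).resolve_right (mul_ne_zero ha0 hm11))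
  have htr1 : c1 0 0 + c1 1 1 = 0 := by
    have h4 : c1.trace = 0 := by
      rw [hc1, cj_trace, Matrix.trace_sub, Matrix.trace_sub,
        trace_act, pow_zero, one_mul, sub_self, sub_zero, htr]
    rwa [Matrix.trace_fin_two] at h4
  have h2k : (2 : k) ≠ 0 := two_ne_zero_of_char (k := k) hp2
  have e11 : c1 1 1 = 0 := by
    rw [e00] at htr1
    have : (2 : k) * c1 1 1 = 0 := by linear_combination htr1
    exact (mul_eq_zero.mp this).resolve_left h2k
  refine ⟨c1 0 1, ?_⟩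
  ext i j
  fin_cases i <;> fin_cases j
  · simp [e00, e11]
  · simp
  · simpa using e10
  · simpa using e11

end Ord


section OrdCount

variable {k : Type} [Field k] {p : ℕ} {A : ValuationSubring Qbar} {r : GQ →* M2 k}

lemma mul_apply_fin_two {R : Type} [CommRing R] (M N : M2 R) (i j : Fin 2) :
    (M * N) i j = M i 0 * N 0 j + M i 1 * N 1 j := by
  rw [Matrix.mul_apply, Fin.sum_univ_two]

/-- Uniqueness of the stable line of a strictly ordinary representation. -/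
lemma ordBasis_unique [hp : Fact p.Prime] (hp2 : p ≠ 2) [CharP k p] (hA : A.LiesOverPrime p)
    {Q Q' : (M2 k)ˣ} (h : OrdBasis p A r Q) (h' : OrdBasis p A r Q') :
    (Q' * Q⁻¹).val 1 0 = 0 := by
  have : NeZero p := ⟨hp.out.ne_zero⟩
  obtain ⟨ζ, hζ⟩ := HasEnoughRootsOfUnity.exists_primitiveRoot Qbar p
  obtain ⟨σ, hσ, hσζ⟩ := exists_inertia_ne hp.out hp2 hA hζ.pow_eq_one
    (hζ.ne_one hp.out.one_lt)
  have hσD := inertia_le_decomp hσ
  obtain ⟨a, ha⟩ := exists_root_exponent p σ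
  have ha1 : (a : k) ≠ 1 := by
    intro h1
    apply hσζ
    have h2 : ((a : ℕ) : k) = ((1 : ℕ) : k) := by rw [h1, Nat.cast_one]
    rw [CharP.natCast_eq_natCast k p] at h2
    rw [ha ζ hζ.pow_eq_one]
    have h3 := pow_eq_pow_mod a hζ.pow_eq_one
    rw [h3, h2, Nat.mod_eq_of_lt hp.out.one_lt, pow_one]
  obtain ⟨g1, g2, g3⟩ := h σ hσD
  obtain ⟨g1', g2', g3'⟩ := h' σ hσD
  set m := cj Q (r σ) with hm
  set m' := cj Q' (r σ) with hm'
  set T : M2 k := (Q' * Q⁻¹).val with hT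
  have h4 : T * m = m' * T := by
    have h5 : Q⁻¹.val * Q.val = 1 := Units.inv_mul _
    have h6 : Q'⁻¹.val * Q'.val = 1 := Units.inv_mul _
    rw [hT, hm, hm', cj, cj, Units.val_mul]
    calc Q'.val * Q⁻¹.val * (Q.val * r σ * Q⁻¹.val) = Q'.val * (Q⁻¹.val * Q.val) * r σ * Q⁻¹.val := by
          noncomm_ring
      _ = Q'.val * r σ * 1 * Q⁻¹.val := by rw [h5]; noncomm_ring
      _ = Q'.val * r σ * (Q'⁻¹.val * Q'.val) * Q⁻¹.val := by rw [h6]
      _ = _ := by noncomm_ring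
  have h5 := congrFun (congrFun h4 1) 0
  rw [mul_apply_fin_two, mul_apply_fin_two, g1, g1', g2' hσ, g3 a ha, g2 hσ] at h5
  have h6 : T 1 0 * ((a : k) - 1) = 0 := by linear_combination h5
  exact (mul_eq_zero.mp h6).resolve_right (sub_ne_zero.mpr ha1)

/-- Conjugation by an upper triangular matrix preserves the line of strictly upper triangular
matrices. -/
lemma cj_upper {T : (M2 k)ˣ} (hT : T.val 1 0 = 0) :
    ∃ y : k, cj T⁻¹ !![0, 1; 0, 0] = y • !![0, 1; 0, 0] := by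
  have hinv : T⁻¹.val * T.val = 1 := Units.inv_mul _
  have h00 := congrFun (congrFun hinv 0) 0
  have h10 := congrFun (congrFun hinv 1) 0
  rw [mul_apply_fin_two, hT, mul_zero, add_zero, Matrix.one_apply_eq] at h00
  rw [mul_apply_fin_two, hT, mul_zero, add_zero, Matrix.one_apply_ne (by decide)] at h10
  have hT00 : T.val 0 0 ≠ 0 := right_ne_zero_of_mul_eq_one h00
  have hi10 : T⁻¹.val 1 0 = 0 := (mul_eq_zero.mp h10).resolve_right hT00
  refine ⟨T⁻¹.val 0 0 * T.val 1 1, ?_⟩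
  rw [cj, inv_inv]
  ext i j
  rw [mul_apply_fin_two, mul_apply_fin_two, mul_apply_fin_two, Matrix.smul_apply]
  fin_cases i <;> fin_cases j <;> simp [hT, hi10]

/-- The nilpotent matrix attached to an ordinary basis. -/
def nilE (Q : (M2 k)ˣ) : M2 k := cj Q⁻¹ !![0, 1; 0, 0]

lemma cj_inv_cj (Q : (M2 k)ˣ) (M : M2 k) : cj Q⁻¹ (cj Q M) = M := by
  rw [cj_cj, inv_mul_cancel, cj_unit_one]

lemma cj_cj_inv (Q : (M2 k)ˣ) (M : M2 k) : cj Q (cj Q⁻¹ M) = M := by
  rw [cj_cj, mul_inv_cancel, cj_unit_one]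

lemma nilE_ne_zero (Q : (M2 k)ˣ) : nilE Q ≠ 0 := by
  intro h
  have h1 := congrArg (cj Q) h
  rw [nilE, cj_cj_inv] at h1
  have h2 := congrFun (congrFun h1 0) 1
  simp [cj] at h2

lemma nilE_trace (Q : (M2 k)ˣ) : (nilE Q).trace = 0 := by
  rw [nilE, cj_trace, Matrix.trace_fin_two]
  simp

/-- The action of the decomposition group on the nilpotent line. -/
lemma act_nilE [hp : Fact p.Prime] (hcyc : CycDet p r) {Q : (M2 k)ˣ} (h : OrdBasis p A r Q)
    {σ : GQ} (hσ : σ ∈ A.decompositionSubgroup ℚ) :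
    act r 0 σ (nilE Q) = (r σ).det • nilE Q := by
  obtain ⟨a, ha⟩ := exists_root_exponent p σ
  obtain ⟨g1, g2, g3⟩ := h σ hσ
  have h3 := g3 a ha
  have hm : cj Q (r σ) * !![0, 1; 0, 0] = (a : k) • (!![0, 1; 0, 0] * cj Q (r σ)) := by
    ext i j
    rw [Matrix.smul_apply, mul_apply_fin_two, mul_apply_fin_two]
    fin_cases i <;> fin_cases j <;> simp [g1, h3]
  have h4 : r σ * nilE Q = (a : k) • (nilE Q * r σ) := by
    have h5 := congrArg (cj Q⁻¹) hm
    rwa [cj_mul, cj_smul, cj_mul, cj_inv_cj] at h5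
  rw [act_zero_apply, h4, smul_mul_assoc, mul_assoc, r_mul_inv, mul_one, hcyc σ a ha]

/-- The upper triangular matrices. -/
def upB (Q : (M2 k)ˣ) (s t : k) : M2 k := cj Q⁻¹ !![s, t; 0, -s]

lemma upB_trace (Q : (M2 k)ˣ) (s t : k) : (upB Q s t).trace = 0 := by
  rw [upB, cj_trace, Matrix.trace_fin_two]
  simp

lemma upB_inj (Q : (M2 k)ˣ) {s t s' t' : k} (h : upB Q s t = upB Q s' t') : s = s' ∧ t = t' := by
  have h1 := congrArg (cj Q) h
  rw [upB, upB, cj_cj_inv, cj_cj_inv] at h1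
  exact ⟨congrFun (congrFun h1 0) 0, congrFun (congrFun h1 0) 1⟩

lemma cob_upB [hp : Fact p.Prime] {Q : (M2 k)ˣ} (h : OrdBasis p A r Q) (s t : k)
    {σ : GQ} (hσ : σ ∈ A.decompositionSubgroup ℚ) :
    ∃ y : k, act r 0 σ (upB Q s t) - upB Q s t = y • nilE Q := by
  obtain ⟨a, ha⟩ := exists_root_exponent p σ
  obtain ⟨g1, g2, g3⟩ := h σ hσ
  have hdet0 : cj Q (r σ) 0 0 * cj Q (r σ) 1 1 ≠ 0 := by
    have := det_ne_zero r σ
    rwa [← cj_det Q, Matrix.det_fin_two, g1, mul_zero, sub_zero] at this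
  have hm11 := right_ne_zero_of_mul hdet0
  set m := cj Q (r σ) with hm
  set x : k := m 0 0 * t - m 0 1 * s - (s * m 0 1 + t * m 1 1) with hx
  have h1 : m * !![s, t; 0, -s] - !![s, t; 0, -s] * m =
      (x * (m 1 1)⁻¹) • (!![0, 1; 0, 0] * m) := by
    ext i j
    rw [Matrix.smul_apply, Matrix.sub_apply, mul_apply_fin_two, mul_apply_fin_two,
      mul_apply_fin_two]
    fin_cases i <;> fin_cases j
    · simp [g1]; ring
    · simp [hx]; field_simp; ring
    · simp [g1]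
    · simp [g1]; ring
  have h2 : r σ * upB Q s t - upB Q s t * r σ = (x * (m 1 1)⁻¹) • (nilE Q * r σ) := by
    have h5 := congrArg (cj Q⁻¹) h1
    rwa [cj_sub, cj_mul, cj_mul, cj_smul, cj_mul, hm, cj_inv_cj] at h5
  refine ⟨x * (m 1 1)⁻¹, ?_⟩
  calc act r 0 σ (upB Q s t) - upB Q s t
      = (r σ * upB Q s t - upB Q s t * r σ) * r σ⁻¹ := by
        rw [act_zero_apply, sub_mul, mul_assoc (upB Q s t), r_mul_inv, mul_one]
    _ = _ := by rw [h2, smul_mul_assoc, mul_assoc, r_mul_inv, mul_one]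

/-- Cocycles which, up to a coboundary, take values in the nilpotent line. -/
def ordCob (r : GQ →* M2 k) (A : ValuationSubring Qbar) (Q : (M2 k)ˣ) :
    AddSubgroup (A.decompositionSubgroup ℚ → M2 k) where
  carrier := {c | c ∈ Z1 r (A.decompositionSubgroup ℚ).subtype 0 ∧ ∃ X : M2 k, X.trace = 0 ∧
    ∀ g, ∃ y : k, c g - cob r (A.decompositionSubgroup ℚ).subtype 0 X g = y • nilE Q}
  zero_mem' := ⟨zero_mem _, 0, Matrix.trace_zero _ _, fun g => ⟨0, by
    rw [cob, map_zero, sub_zero, zero_smul, Pi.zero_apply, sub_zero]⟩⟩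
  add_mem' := by
    rintro a b ⟨ha, X, hX, ha2⟩ ⟨hb, Y, hY, hb2⟩
    refine ⟨add_mem ha hb, X + Y, by rw [Matrix.trace_add, hX, hY, add_zero], fun g => ?_⟩
    obtain ⟨y, hy⟩ := ha2 g
    obtain ⟨z, hz⟩ := hb2 g
    refine ⟨y + z, ?_⟩
    rw [add_smul, ← hy, ← hz, Pi.add_apply, cob, cob, cob, map_add]
    abel
  neg_mem' := by
    rintro a ⟨ha, X, hX, ha2⟩
    refine ⟨neg_mem ha, -X, by rw [Matrix.trace_neg, hX, neg_zero], fun g => ?_⟩
    obtain ⟨y, hy⟩ := ha2 g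
    refine ⟨-y, ?_⟩
    rw [neg_smul, ← hy, Pi.neg_apply, cob, cob, map_neg]
    abel

lemma exists_chiCocyc (hcyc : CycDet p r) [hp : Fact p.Prime] {Q : (M2 k)ˣ}
    (h : OrdBasis p A r Q) {c : A.decompositionSubgroup ℚ → M2 k}
    (hc : c ∈ Z1 r (A.decompositionSubgroup ℚ).subtype 0)
    (hy : ∀ g, ∃ y : k, c g = y • nilE Q) :
    ∃ y : ChiCocyc r A, ∀ g, c g = y.1 g • nilE Q := by
  choose y hy using hy
  have hE := nilE_ne_zero Q
  have hinj : ∀ a b : k, a • nilE Q = b • nilE Q → a = b := fun a b hab => by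
    have h1 : (a - b) • nilE Q = 0 := by rw [sub_smul, hab, sub_self]
    exact sub_eq_zero.mp ((smul_eq_zero.mp h1).resolve_right hE)
  refine ⟨⟨y, fun g h' => ?_, ?_⟩, hy⟩
  · apply hinj
    rw [← hy, Z1_mul hc, hy g, hy h', map_smul, Subgroup.coe_subtype, act_nilE hcyc h g.2,
      add_smul, smul_smul, mul_comm]
  · obtain ⟨L, hL, h2⟩ := hc.2.2
    refine ⟨L, hL, fun g hg => ?_⟩
    have h3 := h2 g hg
    rw [hy] at h3
    exact (smul_eq_zero.mp h3).resolve_right hE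

theorem card_ordCob_le [Finite k] [hp : Fact p.Prime] (hp2 : p ≠ 2) [CharP k p]
    (hA : A.LiesOverPrime p) (hr : IsFiniteLevel r) (hcyc : CycDet p r) {Q : (M2 k)ˣ}
    (h : OrdBasis p A r Q) :
    Finite (ordCob r A Q) ∧ Nat.card (ordCob r A Q) ≤ Nat.card k ^ 4 := by
  have hfM : Finite (M2 k) := finite_M2' k
  obtain ⟨hfin, hle⟩ := card_chiCocyc_le (A := A) hp2 hA hcyc
  have hex : ∀ c : ordCob r A Q, ∃ X : M2 k, X.trace = 0 ∧
    ∀ g, ∃ y : k, c.1 g - cob r (A.decompositionSubgroup ℚ).subtype 0 X g = y • nilE Q :=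
    fun c => c.2.2
  choose X hX0 hX using hex
  have htr : ∀ (c : ordCob r A Q) (s t : k), (X c + upB Q s t).trace = 0 := fun c s t => by
    rw [Matrix.trace_add, hX0, upB_trace, add_zero]
  have hex2 : ∀ (z : ordCob r A Q × (k × k)), ∃ y : ChiCocyc r A, ∀ g,
      (z.1.1 - cob r (A.decompositionSubgroup ℚ).subtype 0 (X z.1 + upB Q z.2.1 z.2.2)) g =
        y.1 g • nilE Q := by
    rintro ⟨c, s, t⟩
    refine exists_chiCocyc hcyc h (sub_mem c.2.1 (cob_mem_Z1 _ hr 0 (htr c s t))) fun g => ?_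
    obtain ⟨y, hy⟩ := hX c g
    obtain ⟨z, hz⟩ := cob_upB h s t g.2
    refine ⟨y - z, ?_⟩
    rw [sub_smul, ← hy, ← hz, Pi.sub_apply, cob, cob, map_add]
    simp only [Subgroup.coe_subtype]
    abel
  choose Y hY using hex2
  let f : ordCob r A Q × (k × k) → {X : M2 k // X.trace = 0} × ChiCocyc r A := fun z =>
    (⟨X z.1 + upB Q z.2.1 z.2.2, htr _ _ _⟩, Y z)
  have hf : Function.Injective f := by
    intro z z' hzz
    have h1 : X z.1 + upB Q z.2.1 z.2.2 = X z'.1 + upB Q z'.2.1 z'.2.2 :=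
      congrArg (fun w => (w.1 : M2 k)) hzz
    have h2 : Y z = Y z' := congrArg Prod.snd hzz
    have h3 : z.1 = z'.1 := by
      apply Subtype.ext
      funext g
      have h4 := hY z g
      have h5 := hY z' g
      rw [h2, ← h5, h1, Pi.sub_apply, Pi.sub_apply] at h4
      exact sub_left_inj.mp h4
    rw [h3] at h1
    have h6 := upB_inj Q (add_left_cancel h1)
    exact Prod.ext h3 (Prod.ext h6.1 h6.2)
  have hfin1 : Finite (ordCob r A Q × (k × k)) := Finite.of_injective f hf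
  have hfin2 : Finite (ordCob r A Q) := Finite.of_injective (fun c => (c, ((0, 0) : k × k)))
    (fun a b h => congrArg Prod.fst h)
  refine ⟨hfin2, ?_⟩
  have h1 := Nat.card_le_card_of_injective f hf
  rw [Nat.card_prod, Nat.card_prod, Nat.card_prod, card_ad0] at h1
  have hpos : 0 < Nat.card k := Nat.card_pos
  have h2 : Nat.card (ordCob r A Q) * (Nat.card k * Nat.card k) ≤
      Nat.card k ^ 4 * (Nat.card k * Nat.card k) := by
    calc _ ≤ _ := h1
      _ ≤ Nat.card k ^ 3 * Nat.card k ^ 3 := Nat.mul_le_mul_left _ hle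
      _ = _ := by ring
  exact Nat.le_of_mul_le_mul_right h2 (Nat.mul_pos hpos hpos)

/-- **(D1)** : the local bound at `p` for strictly ordinary lifts. -/
theorem localBound_strictOrd [Finite k] [hp : Fact p.Prime] (hp2 : p ≠ 2) [CharP k p]
    (hA : A.LiesOverPrime p) (hr : IsFiniteLevel r) (hcyc : CycDet p r) :
    LocalBound r (A.decompositionSubgroup ℚ) (fun c => StrictOrdLift p A r c.1) 4 := by
  have hfM : Finite (M2 k) := finite_M2' k
  by_cases hex : ∃ c : Z1 r (MonoidHom.id GQ) 0, StrictOrdLift p A r c.1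
  · obtain ⟨c0, hc0⟩ := hex
    obtain ⟨Q, hQ, -⟩ := exists_cob_of_strictOrd hp2 c0.2.1 hc0
    obtain ⟨hfin, hle⟩ := card_ordCob_le (A := A) hp2 hA hr hcyc hQ
    refine ⟨ordCob r A Q, hfin, hle, fun c hc => hc.1, fun X hX => ?_, fun c hc => ?_⟩
    · exact ⟨cob_mem_Z1 _ hr 0 hX, X, hX, fun g => ⟨0, by rw [sub_self, zero_smul]⟩⟩
    · obtain ⟨Q', hQ', Y, hY⟩ := exists_cob_of_strictOrd hp2 c.2.1 hc
      obtain ⟨a, ha⟩ := exists_trace_zero (k := k) hp2 Y
      refine ⟨⟨fun g => c.2.1 _, fun g h => c.2.2.1 _ _, ?_⟩, Y + a • (1 : M2 k), ha, fun g => ?_⟩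
      · obtain ⟨L, hL, h⟩ := c.2.2.2
        exact ⟨L, hL, fun g hg => h _ hg⟩
      · obtain ⟨y, hy⟩ := hY g g.2
        obtain ⟨z, hz⟩ := cj_upper (T := Q' * Q⁻¹) (ordBasis_unique hp2 hA hQ hQ')
        refine ⟨y * z, ?_⟩
        have h1 : cob r (A.decompositionSubgroup ℚ).subtype 0 (Y + a • (1 : M2 k)) g =
            act r 0 g Y - Y := by
          rw [cob, map_add, Subgroup.coe_subtype, act_scalar]
          abel
        rw [h1]
        have h2 : c.1 g - (act r 0 g Y - Y) = cj Q⁻¹ (cj (Q' * Q⁻¹)⁻¹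
            (cj Q' (c.1 g - (act r 0 g Y - Y)))) := by
          rw [cj_cj, cj_cj]
          have : Q⁻¹ * (Q' * Q⁻¹)⁻¹ * Q' = 1 := by group
          rw [this, cj_unit_one]
        rw [h2, hy, cj_smul, hz, smul_smul, cj_smul]
        rfl
  · refine ⟨(AddMonoidHom.mk' (fun X : {X : M2 k // X ∈ Ad0 k} =>
      cob r (A.decompositionSubgroup ℚ).subtype 0 X.1) (fun X Y => ?_)).range, ?_, ?_, ?_, ?_, ?_⟩
    · funext g
      change cob r _ 0 (X.1 + Y.1) g = cob r _ 0 X.1 g + cob r _ 0 Y.1 g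
      rw [cob, cob, cob, map_add]
      abel
    · exact Finite.of_surjective _ (AddMonoidHom.rangeRestrict_surjective _)
    · refine (Nat.card_le_card_of_surjective _ (AddMonoidHom.rangeRestrict_surjective _)).trans ?_
      have h1 : Nat.card {X : M2 k // X ∈ Ad0 k} = Nat.card k ^ 3 := card_ad0
      rw [h1]
      exact Nat.pow_le_pow_right Nat.card_pos (by norm_num)
    · rintro _ ⟨X, rfl⟩
      exact cob_mem_Z1 _ hr 0 X.2
    · intro X hX
      exact ⟨⟨X, hX⟩, rfl⟩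
    · intro c hc
      exact absurd ⟨c, hc⟩ hex

end OrdCount


section Bridge

variable {k : Type} [Field k]

/-- Strict ordinarity of `(1 + ε c) r` in matrix form. -/
theorem strictOrdLift_of_isStrictOrdinaryAt {p : ℕ} (hpk : (p : k) = 0)
    {ρ : GaloisRepAdic (DualNumber k)} {r c : GQ → M2 k}
    (h : HasMat (ρ.ρ : GQ → _) (dualMat r c)) (hρ : ρ.IsStrictOrdinaryAt p)
    {A : ValuationSubring Qbar} (hA : A.LiesOverPrime p) : StrictOrdLift p A r c := by
  obtain ⟨r', hr', h'⟩ := ((isStrictOrdinaryAt_iff p).mp hρ).2 A hA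
  obtain ⟨U, hU⟩ := h.exists_conj hr'
  have hcj : ∀ σ, cj U (dualMat r c σ) = r' σ := by
    intro σ
    rw [cj, hU, mul_assoc, Units.mul_inv, mul_one]
  refine ⟨U, fun σ hσ => ?_⟩
  obtain ⟨h1, h2, h3⟩ := h' σ hσ
  rw [hcj]
  refine ⟨h1, h2, fun a ha => ?_⟩
  have h4 := h3 1 a (by simpa using ha)
  have h5 : ((p ^ 1 : ℕ) : DualNumber k) = 0 := by
    rw [pow_one]
    have h6 : ((p : ℕ) : DualNumber k) = TrivSqZeroExt.inl (p : k) := by simp
    rw [h6, hpk, TrivSqZeroExt.inl_zero]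
  rw [h5, Ideal.span_singleton_zero, Ideal.mem_bot, sub_eq_zero] at h4
  exact h4

end Bridge

end Fermat.Agent.TW
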