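import Fermat.Agent.TW.KummerTame
import Mathlib.RingTheory.Polynomial.Cyclotomic.Eval
import Mathlib.RingTheory.RootsOfUnity.Lemmas

set_option autoImplicit false

/-!
# `p`-th powers in the decomposition field of a place above `p`

`A` is a place of `ℚ̄` above `p`, `D` the decomposition group. Every element of the fixed field of
`D` is `p ^ m * (1 + p) ^ n * w ^ p` with `w` fixed by `D`. Consequently there are at most `p ^ 3`
level-constant cocycles `D → μ_p`.
-/

namespace Fermat.Agent.TW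

open scoped Pointwise
open Fermat.Agent.Frob Fermat.Agent.Minkowski

variable {A : ValuationSubring Qbar} {p : ℕ}

lemma val_rootOfUnity {n : ℕ} (hn : n ≠ 0) {ζ : Qbar} (hζ : ζ ^ n = 1) : A.valuation ζ = 1 := by
  have h : A.valuation ζ ^ n = 1 := by rw [← map_pow, hζ, map_one]
  exact (pow_eq_one_iff.mp h).resolve_right hn

lemma val_one_sub_pow_le {ζ : Qbar} (hζ : A.valuation ζ ≤ 1) (i : ℕ) :
    A.valuation (1 - ζ ^ i) ≤ A.valuation (1 - ζ) := by
  have h1 : (1 - ζ ^ i) = (∑ j ∈ Finset.range i, ζ ^ j) * (1 - ζ) := by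
    have := geom_sum_mul ζ i
    linear_combination this
  have h2 : A.valuation (∑ j ∈ Finset.range i, ζ ^ j) ≤ 1 := by
    rw [A.valuation_le_one_iff]
    exact sum_mem fun j _ => pow_mem ((A.valuation_le_one_iff ζ).mp hζ) j
  rw [h1, map_mul]
  calc A.valuation (∑ j ∈ Finset.range i, ζ ^ j) * A.valuation (1 - ζ)
      ≤ 1 * A.valuation (1 - ζ) := mul_le_mul_left h2 _
    _ = _ := one_mul _

/-- The valuation of `1 - ζ`. -/
lemma val_one_sub_zeta (hp : p.Prime) {ζ : Qbar} (hζ : ζ ^ p = 1) (hζ1 : ζ ≠ 1) :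
    A.valuation (1 - ζ) ^ (p - 1) = A.valuation (p : Qbar) := by
  have hpf : Fact p.Prime := ⟨hp⟩
  have hprim : IsPrimitiveRoot ζ p := by
    have h1 : orderOf ζ = p := orderOf_eq_prime hζ hζ1
    rw [← h1]
    exact IsPrimitiveRoot.orderOf ζ
  have hp1 : 1 < p := hp.one_lt
  obtain ⟨m, rfl⟩ : ∃ m, p = m + 1 := ⟨p - 1, by omega⟩
  have hprod := hprim.prod_one_sub_pow_eq_order
  have hζv : A.valuation ζ ≤ 1 := (val_rootOfUnity hp.ne_zero hζ).le
  have heq : ∀ k ∈ Finset.range m, A.valuation (1 - ζ ^ (k + 1)) = A.valuation (1 - ζ) := by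
    intro k hk
    rw [Finset.mem_range] at hk
    apply le_antisymm (val_one_sub_pow_le hζv _)
    have hcop : Nat.Coprime (k + 1) (m + 1) := by
      apply Nat.Coprime.symm
      rw [hp.coprime_iff_not_dvd]
      intro h
      have := Nat.le_of_dvd (by omega) h
      omega
    have hprim2 : IsPrimitiveRoot (ζ ^ (k + 1)) (m + 1) := hprim.pow_of_coprime _ hcop
    have : NeZero (m + 1) := ⟨by omega⟩
    obtain ⟨i, -, hi⟩ := hprim2.eq_pow_of_pow_eq_one hζ
    have h3 := val_one_sub_pow_le (A := A) (ζ := ζ ^ (k + 1))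
      (val_rootOfUnity hp.ne_zero hprim2.pow_eq_one).le i
    rwa [hi] at h3
  rw [Nat.add_sub_cancel]
  have h4 := congrArg A.valuation hprod
  rw [map_prod, Finset.prod_congr rfl heq, Finset.prod_const, Finset.card_range] at h4
  rw [h4]
  push_cast
  rfl

lemma val_p_lt_one (hA : A.LiesOverPrime p) : A.valuation (p : Qbar) < 1 :=
  (ValuationSubring.mem_nonunits_iff A).mp hA

lemma val_p_pos (hp : p.Prime) : 0 < A.valuation (p : Qbar) := by
  rw [zero_lt_iff, Ne, Valuation.zero_iff]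
  exact_mod_cast hp.ne_zero

/-- The inertia group at `p` acts non-trivially on `μ_p`, `p ≠ 2`. -/
theorem exists_inertia_ne (hp : p.Prime) (hp2 : p ≠ 2) (hA : A.LiesOverPrime p) {ζ : Qbar}
    (hζ : ζ ^ p = 1) (hζ1 : ζ ≠ 1) : ∃ σ ∈ A.inertiaSubgroupIn ℚ, σ ζ ≠ ζ := by
  by_contra hcon
  push Not at hcon
  obtain ⟨n, hn⟩ := exists_valuation_eq_zpow_of_fixed hp hA (x := 1 - ζ)
    (fun σ hσ => by rw [map_sub, map_one, hcon σ hσ]) (sub_ne_zero.mpr (Ne.symm hζ1))
  have h1 := val_one_sub_zeta (A := A) hp hζ hζ1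
  rw [hn, ← zpow_natCast, ← zpow_mul] at h1
  have h2 : A.valuation (p : Qbar) ^ (n * ((p - 1 : ℕ) : ℤ)) = A.valuation (p : Qbar) ^ (1 : ℤ) := by
    rw [zpow_one]; exact h1
  have h3 := zpow_right_injective₀ (val_p_pos hp) (val_p_lt_one hA).ne h2
  have h4 : ((p - 1 : ℕ) : ℤ) ∣ 1 := Dvd.intro_left n h3
  have h5 : (p - 1 : ℕ) ∣ 1 := by exact_mod_cast h4
  have h6 := Nat.dvd_one.mp h5
  have := hp.two_le
  omega

/-- A `p`-th root of `1 + x` near `1`. -/
lemma exists_root_near_one (hp : p.Prime) (x : Qbar) :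
    ∃ w : Qbar, w ^ p = 1 + x ∧ A.valuation (w - 1) ^ p ≤ A.valuation x := by
  classical
  have : NeZero p := ⟨hp.ne_zero⟩
  obtain ⟨w, hw⟩ := IsAlgClosed.exists_pow_nat_eq (1 + x) hp.pos
  obtain ⟨ζ, hζ⟩ := HasEnoughRootsOfUnity.exists_primitiveRoot Qbar p
  have hprod := hζ.pow_sub_pow_eq_prod_sub_mul 1 w hp.pos
  rw [one_pow, hw] at hprod
  have hne : (Polynomial.nthRootsFinset p (1 : Qbar)).Nonempty :=
    ⟨1, by rw [Polynomial.mem_nthRootsFinset hp.pos]; exact one_pow p⟩
  obtain ⟨η, hη, hmin⟩ := Finset.exists_min_image (Polynomial.nthRootsFinset p (1 : Qbar))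
    (fun η => A.valuation (1 - η * w)) hne
  refine ⟨η * w, ?_, ?_⟩
  · rw [Polynomial.mem_nthRootsFinset hp.pos] at hη
    rw [mul_pow, hη, hw, one_mul]
  · have h1 : A.valuation x = ∏ η ∈ Polynomial.nthRootsFinset p (1 : Qbar),
        A.valuation (1 - η * w) := by
      rw [← map_prod, ← hprod, ← Valuation.map_neg]
      congr 1
      ring
    rw [h1, ← neg_sub, Valuation.map_neg]
    have h2 := Finset.pow_card_le_prod (Polynomial.nthRootsFinset p (1 : Qbar))
      (fun η => A.valuation (1 - η * w)) (A.valuation (1 - η * w)) hmin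
    rwa [hζ.card_nthRootsFinset] at h2


/-- An element of `A` fixed by the decomposition group is congruent to an integer. -/
lemma exists_nat_approx (hp : p.Prime) (hA : A.LiesOverPrime p) {t : Qbar}
    (ht : A.valuation t ≤ 1) (hfix : ∀ g ∈ A.decompositionSubgroup ℚ, g t = t) :
    ∃ n : ℕ, A.valuation (t - n) < 1 := by
  have hpf : Fact p.Prime := ⟨hp⟩
  obtain ⟨φ, hφ⟩ := exists_isFrobeniusAt hp hA
  have htA : t ∈ A := (A.valuation_le_one_iff t).mp ht
  have h1 := frob_sub_mem hφ htA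
  rw [hfix φ hφ.mem_decompositionSubgroup] at h1
  have hchar : CharP (IsLocalRing.ResidueField A) p := by
    apply charP_of_prime_natCast_eq_zero hp
    have := (IsLocalRing.residue_eq_zero_iff (p : A)).mpr
      (Fermat.Agent.GalRep.natCast_mem_nonunits_of_dvd hA)
    rwa [map_natCast] at this
  set x : IsLocalRing.ResidueField A := IsLocalRing.residue A ⟨t, htA⟩ with hx
  have h2 : x ^ p = x := by
    obtain ⟨h3, h4⟩ := (ValuationSubring.mem_nonunits_iff_exists_mem_maximalIdeal).mp h1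
    have h5 : (⟨t, htA⟩ - ⟨t, htA⟩ ^ p : A) ∈ IsLocalRing.maximalIdeal A := h4
    rw [← IsLocalRing.residue_eq_zero_iff, map_sub, map_pow, sub_eq_zero] at h5
    exact h5.symm
  have h6 : x ∈ (⊥ : Subfield (IsLocalRing.ResidueField A)) :=
    (Subfield.mem_bot_iff_pow_eq_self (IsLocalRing.ResidueField A) p).mpr h2
  rw [← ZMod.fieldRange_castHom_eq_bot p] at h6
  obtain ⟨z, hz⟩ := h6
  refine ⟨z.val, ?_⟩
  have h7 : IsLocalRing.residue A (⟨t, htA⟩ - ((z.val : ℕ) : A)) = 0 := by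
    rw [map_sub, map_natCast, ← hx, ← hz, sub_eq_zero]
    have h8 := ZMod.natCast_zmod_val z
    nth_rewrite 1 [← h8]
    exact map_natCast _ _
  rw [IsLocalRing.residue_eq_zero_iff] at h7
  rw [← ValuationSubring.mem_nonunits_iff, ValuationSubring.mem_nonunits_iff_exists_mem_maximalIdeal]
  exact ⟨_, h7⟩

/-- discreteness of the valuation on the decomposition field. -/
lemma val_le_of_lt_one (hp : p.Prime) (hA : A.LiesOverPrime p) {x : Qbar}
    (hx : A.valuation x < 1) (hfix : ∀ g ∈ A.decompositionSubgroup ℚ, g x = x) :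
    A.valuation x ≤ A.valuation (p : Qbar) := by
  by_cases hx0 : x = 0
  · rw [hx0, map_zero]
    exact zero_le
  obtain ⟨n, hn⟩ := exists_valuation_eq_zpow_of_fixed hp hA
    (fun σ hσ => hfix σ (inertia_le_decomp hσ)) hx0
  rw [hn] at hx ⊢
  have h1 := zpow_right_strictAnti₀ (val_p_pos (A := A) hp) (val_p_lt_one hA)
  have h2 : 0 < n := by
    rw [← h1.lt_iff_gt, zpow_zero]
    exact hx
  calc A.valuation (p : Qbar) ^ n ≤ A.valuation (p : Qbar) ^ (1 : ℤ) := h1.antitone h2
    _ = _ := zpow_one _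

lemma val_one_add {x : Qbar} (hx : A.valuation x < 1) : A.valuation (1 + x) = 1 :=
  A.valuation.map_one_add_of_lt hx

/-- `1 + p²x` is a `p`-th power in the decomposition field. -/
lemma exists_root_fixed (hp : p.Prime) (hp2 : p ≠ 2) (hA : A.LiesOverPrime p) {x : Qbar}
    (hx : A.valuation x ≤ A.valuation (p : Qbar) ^ 2)
    (hfix : ∀ g ∈ A.decompositionSubgroup ℚ, g x = x) :
    ∃ w : Qbar, w ^ p = 1 + x ∧ A.valuation w = 1 ∧ ∀ g ∈ A.decompositionSubgroup ℚ, g w = w := by
  obtain ⟨w, hw, hwv⟩ := exists_root_near_one (A := A) hp x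
  have hplt := val_p_lt_one hA
  have hxlt : A.valuation x < 1 := lt_of_le_of_lt hx (pow_lt_one₀ zero_le hplt two_ne_zero)
  have hw1 : A.valuation w = 1 := by
    have h1 : A.valuation w ^ p = 1 := by rw [← map_pow, hw, val_one_add hxlt]
    exact (pow_eq_one_iff.mp h1).resolve_right hp.ne_zero
  have hw0 : w ≠ 0 := by
    rintro rfl
    rw [map_zero] at hw1
    exact zero_ne_one hw1
  refine ⟨w, hw, hw1, fun g hg => ?_⟩
  by_contra hne
  set ζ := g w / w with hζdef
  have hζ1 : ζ ≠ 1 := by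
    intro h
    apply hne
    rwa [hζdef, div_eq_one_iff_eq hw0] at h
  have hζ : ζ ^ p = 1 := by
    rw [hζdef, div_pow, ← map_pow, hw, map_add, map_one, hfix g hg, ← hw,
      div_self (pow_ne_zero _ hw0)]
  have h1 := val_one_sub_zeta (A := A) hp hζ hζ1
  have h2 : A.valuation (1 - ζ) ≤ A.valuation (w - 1) := by
    have h3 : 1 - ζ = ((w - 1) - g (w - 1)) / w := by
      rw [hζdef, map_sub, map_one]
      field_simp
      ring
    rw [h3, map_div₀, hw1, div_one]
    refine (A.valuation.map_sub _ _).trans ?_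
    rw [val_decomp_eq hg, max_self]
  have h4 : A.valuation (p : Qbar) ^ p ≤ A.valuation (p : Qbar) ^ (2 * (p - 1)) := by
    calc A.valuation (p : Qbar) ^ p = (A.valuation (1 - ζ) ^ (p - 1)) ^ p := by rw [h1]
      _ ≤ (A.valuation (w - 1) ^ (p - 1)) ^ p := pow_le_pow_left' (pow_le_pow_left' h2 _) _
      _ = (A.valuation (w - 1) ^ p) ^ (p - 1) := by rw [← pow_mul, ← pow_mul, mul_comm]
      _ ≤ (A.valuation (p : Qbar) ^ 2) ^ (p - 1) := pow_le_pow_left' (hwv.trans hx) _
      _ = _ := by rw [pow_mul]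
  have h5 : 2 * (p - 1) ≤ p := by
    by_contra h6
    push Not at h6
    have h7 := pow_lt_pow_right_of_lt_one₀ (val_p_pos (A := A) hp) hplt h6
    exact absurd h4 (not_le.mpr h7)
  have := hp.two_le
  omega

/-- **Units of the decomposition field at `p`** modulo `p`-th powers. -/
theorem exists_decomp_fixed (hp : p.Prime) (hp2 : p ≠ 2) (hA : A.LiesOverPrime p) {y : Qbar}
    (hy0 : y ≠ 0) (hfix : ∀ g ∈ A.decompositionSubgroup ℚ, g y = y) :
    ∃ m n : ℤ, ∃ w : Qbar, w ≠ 0 ∧ (∀ g ∈ A.decompositionSubgroup ℚ, g w = w) ∧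
      y = (p : Qbar) ^ m * (1 + p : Qbar) ^ n * w ^ p := by
  obtain ⟨φ, hφ⟩ := exists_isFrobeniusAt hp hA
  have hplt := val_p_lt_one hA
  have hppos := val_p_pos (A := A) hp
  have hpQ : (p : Qbar) ≠ 0 := by exact_mod_cast hp.ne_zero
  obtain ⟨m, hm⟩ := exists_valuation_eq_zpow_of_fixed hp hA
    (fun σ hσ => hfix σ (inertia_le_decomp hσ)) hy0
  set u : Qbar := y / (p : Qbar) ^ m with hu
  have hu0 : u ≠ 0 := div_ne_zero hy0 (zpow_ne_zero _ hpQ)
  have huv : A.valuation u = 1 := by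
    rw [hu, map_div₀, map_zpow₀, hm, div_self]
    exact zpow_ne_zero _ hppos.ne'
  have hufix : ∀ g ∈ A.decompositionSubgroup ℚ, g u = u := by
    intro g hg
    rw [hu, map_div₀, map_zpow₀, map_natCast, hfix g hg]
  -- u ^ (p - 1) is congruent to one
  have h1 : A.valuation (u ^ (p - 1) - 1) < 1 := by
    have h2 := frob_sub_mem hφ ((A.valuation_le_one_iff u).mp huv.le)
    rw [hufix φ hφ.mem_decompositionSubgroup, ValuationSubring.mem_nonunits_iff] at h2
    have h3 : u - u ^ p = -(u * (u ^ (p - 1) - 1)) := by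
      have : u ^ p = u * u ^ (p - 1) := by
        rw [← pow_succ', Nat.sub_add_cancel hp.one_le]
      rw [this]; ring
    rwa [h3, Valuation.map_neg, map_mul, huv, one_mul] at h2
  have hx1fix : ∀ g ∈ A.decompositionSubgroup ℚ, g (u ^ (p - 1) - 1) = u ^ (p - 1) - 1 := by
    intro g hg
    rw [map_sub, map_pow, map_one, hufix g hg]
  have h4 := val_le_of_lt_one hp hA h1 hx1fix
  set t : Qbar := (u ^ (p - 1) - 1) / p with ht
  have htv : A.valuation t ≤ 1 := by
    rw [ht, map_div₀]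
    exact (div_le_one₀ hppos).mpr h4
  have htfix : ∀ g ∈ A.decompositionSubgroup ℚ, g t = t := by
    intro g hg
    rw [ht, map_div₀, hx1fix g hg, map_natCast]
  obtain ⟨n, hn⟩ := exists_nat_approx hp hA htv htfix
  have hn2 := val_le_of_lt_one hp hA hn (fun g hg => by rw [map_sub, map_natCast, htfix g hg])
  -- compare with (1 + p) ^ n
  obtain ⟨s, hs⟩ : ∃ s : ℕ, (1 + p) ^ n = 1 + n * p + p ^ 2 * s := by
    clear hn hn2
    induction n with
    | zero => exact ⟨0, by ring⟩
    | succ n ih =>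
      obtain ⟨s, hs⟩ := ih
      refine ⟨s * (1 + p) + n, ?_⟩
      rw [pow_succ, hs]; ring
  have hsQ : (1 + p : Qbar) ^ n = 1 + n * p + p ^ 2 * s := by exact_mod_cast hs
  have hpv1 : A.valuation (1 + p : Qbar) = 1 := val_one_add hplt
  have h1p0 : (1 + p : Qbar) ≠ 0 := by
    intro h
    rw [h, map_zero] at hpv1
    exact zero_ne_one hpv1
  set x2 : Qbar := (u ^ (p - 1) - (1 + p : Qbar) ^ n) / (1 + p : Qbar) ^ n with hx2
  have hx2v : A.valuation x2 ≤ A.valuation (p : Qbar) ^ 2 := by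
    rw [hx2, map_div₀, map_pow, hpv1, one_pow, div_one]
    have h5 : u ^ (p - 1) - (1 + p : Qbar) ^ n = p * (t - n) - p ^ 2 * s := by
      rw [hsQ, ht]
      field_simp
      ring
    rw [h5]
    refine (A.valuation.map_sub _ _).trans (max_le ?_ ?_)
    · rw [map_mul, pow_two]
      exact mul_le_mul_right hn2 _
    · rw [map_mul, map_pow]
      have hsv : A.valuation (s : Qbar) ≤ 1 := by
        rw [A.valuation_le_one_iff]
        exact natCast_mem A s
      calc A.valuation (p : Qbar) ^ 2 * A.valuation (s : Qbar)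
          ≤ A.valuation (p : Qbar) ^ 2 * 1 := mul_le_mul_right hsv _
        _ = _ := mul_one _
  have hx2fix : ∀ g ∈ A.decompositionSubgroup ℚ, g x2 = x2 := by
    intro g hg
    rw [hx2, map_div₀, map_sub, map_pow, map_pow, map_add, map_one, map_natCast, hufix g hg]
  obtain ⟨w, hw, hwv, hwfix⟩ := exists_root_fixed hp hp2 hA hx2v hx2fix
  have hw0 : w ≠ 0 := by
    rintro rfl
    rw [map_zero] at hwv
    exact zero_ne_one hwv
  refine ⟨m, -n, u / w, div_ne_zero hu0 hw0, fun g hg => ?_, ?_⟩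
  · rw [map_div₀, hufix g hg, hwfix g hg]
  · have h6 : u ^ (p - 1) = (1 + p : Qbar) ^ n * w ^ p := by
      rw [hw, hx2]
      field_simp
      ring
    have h7 : u ^ p = u * u ^ (p - 1) := by
      rw [← pow_succ', Nat.sub_add_cancel hp.one_le]
    have h8 : y = (p : Qbar) ^ m * u := by
      rw [hu]
      field_simp
    rw [div_pow, h7, h6, zpow_neg, zpow_natCast, h8]
    field_simp

end Fermat.Agent.TW
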