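import Mathlib
import Fermat.Agent.TW.Tangent
import Fermat.Agent.TW.Conditions

set_option autoImplicit false

/-!
# Counting version of the tangent space bound
-/

namespace Fermat.Agent.TW

open IsLocalRing Matrix Fermat.Agent.S53norm GaloisRep

section Cobound

variable {k : Type} [Field k]

/-- The coboundary map. -/
noncomputable def coboundLin (r : GQ → M2 k) : M2 k →ₗ[k] (GQ → M2 k) where
  toFun X := fun s => X - r s * X * r s⁻¹
  map_add' X Y := by
    ext1 s
    simp only [Pi.add_apply]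
    noncomm_ring
  map_smul' a X := by
    ext1 s
    simp only [Pi.smul_apply, RingHom.id_apply, smul_sub, mul_smul_comm, smul_mul_assoc]

lemma mem_range_coboundLin {r c : GQ → M2 k} :
    c ∈ LinearMap.range (coboundLin r) ↔ c ∈ cobound r := by
  rw [mem_cobound]
  constructor
  · rintro ⟨X, rfl⟩
    exact ⟨X, fun s => rfl⟩
  · rintro ⟨X, hX⟩
    exact ⟨X, (funext hX).symm⟩

lemma finrank_ker_coboundLin {ρbar : ResidualGaloisRep k} (habs : ρbar.IsAbsolutelyIrreducible)
    {r : GQ → M2 k} (hr : HasMat (ρbar.ρ : GQ → _) r) :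
    Module.finrank k (LinearMap.ker (coboundLin r)) = 1 := by
  have hinv' : ∀ s, r s⁻¹ * r s = 1 := fun s => by
    rw [← hr.map_mul, inv_mul_cancel, hr.map_one]
  have hinv : ∀ s, r s * r s⁻¹ = 1 := fun s => by
    rw [← hr.map_mul, mul_inv_cancel, hr.map_one]
  have h1 : LinearMap.ker (coboundLin r) = Submodule.span k {(1 : M2 k)} := by
    ext X
    rw [LinearMap.mem_ker, Submodule.mem_span_singleton]
    constructor
    · intro h
      have h2 : ∀ s, X * r s = r s * X := by
        intro s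
        have h3 : X - r s * X * r s⁻¹ = 0 := congrFun h s
        have h4 : X = r s * X * r s⁻¹ := sub_eq_zero.mp h3
        calc X * r s = (r s * X * r s⁻¹) * r s := by rw [← h4]
          _ = r s * X * (r s⁻¹ * r s) := by rw [mul_assoc]
          _ = r s * X := by rw [hinv', mul_one]
      have h3 := scalar_of_commute habs hr X h2
      exact ⟨_, h3.symm⟩
    · rintro ⟨a, rfl⟩
      ext1 s
      show a • (1 : M2 k) - r s * (a • (1 : M2 k)) * r s⁻¹ = 0
      rw [mul_smul_comm, mul_one, smul_mul_assoc, hinv, sub_self]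
  rw [h1]
  exact finrank_span_singleton one_ne_zero

lemma card_cobound [Finite k] {ρbar : ResidualGaloisRep k} (habs : ρbar.IsAbsolutelyIrreducible)
    {r : GQ → M2 k} (hr : HasMat (ρbar.ρ : GQ → _) r) :
    Nat.card (cobound r) = Nat.card k ^ 3 := by
  have h1 := LinearMap.finrank_range_add_finrank_ker (coboundLin r)
  rw [finrank_ker_coboundLin habs hr, Module.finrank_matrix] at h1
  simp only [Fintype.card_fin, Module.finrank_self] at h1
  have h2 : Module.finrank k (LinearMap.range (coboundLin r)) = 3 := by omega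
  have h3 : Nat.card (LinearMap.range (coboundLin r)) = Nat.card k ^ 3 := by
    rw [Module.natCard_eq_pow_finrank (K := k), h2]
  rw [← h3]
  exact Nat.card_congr (Equiv.subtypeEquivRight fun c => mem_range_coboundLin.symm)

end Cobound

section Main

variable {𝒪 : Type} [CommRing 𝒪] [IsDomain 𝒪] [IsDiscreteValuationRing 𝒪]
  [IsAdicComplete (maximalIdeal 𝒪) 𝒪] [Finite (ResidueField 𝒪)]
  {ρbar : ResidualGaloisRep (ResidueField 𝒪)}
    {𝒟 : ∀ ⦃A : Type⦄ [CommRing A] [IsLocalRing A] [Algebra 𝒪 A], GaloisRepAdic A → Prop}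

/-- **Part (G)**, counting version. -/
theorem exists_surjective_of_card_cocycles (DQ : DeformationRingData 𝒪 ρbar 𝒟)
    {rbar : GQ → M2 (ResidueField 𝒪)} (hrbar : HasMat (ρbar.ρ : GQ → _) rbar)
    (hstab : letI := dualAlg 𝒪
      ∀ (φ : DQ.R →ₐ[𝒪] DualNumber (ResidueField 𝒪))
        (hφ : IsLocalHom (φ : DQ.R →+* DualNumber (ResidueField 𝒪))),
        𝒟 (DQ.ρ.baseChangeAlong (φ : DQ.R →+* DualNumber (ResidueField 𝒪)) hφ))
    (Z : AddSubgroup (GQ → M2 (ResidueField 𝒪)))
    (hZ : letI := dualAlg 𝒪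
      ∀ (c : GQ → M2 (ResidueField 𝒪)) (ρ : GaloisRepAdic (DualNumber (ResidueField 𝒪))),
        IsCocyc rbar c → IsLevel c → 𝒟 ρ → HasMat (ρ.ρ : GQ → _) (dualMat rbar c) → c ∈ Z)
    (hB : cobound rbar ≤ Z) (hfin : Finite Z)
    (r : ℕ) (hcard : Nat.card Z ≤ Nat.card (ResidueField 𝒪) ^ (r + 3)) :
    ∃ γ : MvPowerSeries (Fin r) 𝒪 →ₐ[𝒪] DQ.R, Function.Surjective γ := by
  have h1 : Nat.card (cobound rbar) * (cobound rbar).relIndex Z = Nat.card Z := by
    have := AddSubgroup.relIndex_mul_relIndex ⊥ (cobound rbar) Z bot_le hB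
    rwa [AddSubgroup.relIndex_bot_left, AddSubgroup.relIndex_bot_left] at this
  rw [card_cobound DQ.absIrr hrbar] at h1
  have hpos : 0 < Nat.card Z := Nat.card_pos
  have hq : 0 < Nat.card (ResidueField 𝒪) ^ 3 := pow_pos Nat.card_pos 3
  refine exists_surjective_of_relIndex DQ hrbar hstab Z hZ r ?_ ?_
  · intro h0
    rw [h0, mul_zero] at h1
    exact hpos.ne h1
  · rw [← h1, pow_add, mul_comm] at hcard
    exact Nat.le_of_mul_le_mul_right hcard hq

end Main

end Fermat.Agent.TW
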