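import Mathlib
import Fermat.Agent.TW.Defs
import Fermat.Agent.TW.TangentCard

set_option autoImplicit false

/-!
# The tangent space bound in the language of `Fermat.Agent.TW.Defs`
-/

namespace Fermat.Agent.TW

open IsLocalRing Matrix Fermat.Agent.S53norm GaloisRep

section Adic

variable {A : Type} [CommRing A] [IsLocalRing A] {ρ ρ' : GaloisRepAdic A}

/-- Strictly ordinary representations in a given matrix form. -/
lemma exists_unit_of_isStrictOrdinaryAt {r : GQ → M2 A} (h : HasMat (ρ.ρ : GQ → _) r) {p : ℕ}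
    (hord : ρ.IsStrictOrdinaryAt p) {P : ValuationSubring (AlgebraicClosure ℚ)}
    (hP : P.LiesOverPrime p) :
    ∃ U : (M2 A)ˣ, ∀ σ ∈ P.decompositionSubgroup ℚ,
      ((U : M2 A) * r σ * ((U⁻¹ : (M2 A)ˣ) : M2 A)) 1 0 = 0 ∧
      (σ ∈ P.inertiaSubgroupIn ℚ → ((U : M2 A) * r σ * ((U⁻¹ : (M2 A)ˣ) : M2 A)) 1 1 = 1) ∧
      ∀ n a : ℕ, (∀ μ : AlgebraicClosure ℚ, μ ^ p ^ n = 1 → σ μ = μ ^ a) →
        ((U : M2 A) * r σ * ((U⁻¹ : (M2 A)ˣ) : M2 A)) 0 0 -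
          (a : A) * ((U : M2 A) * r σ * ((U⁻¹ : (M2 A)ˣ) : M2 A)) 1 1 ∈
            Ideal.span {((p ^ n : ℕ) : A)} := by
  obtain ⟨r', hr', h'⟩ := ((isStrictOrdinaryAt_iff p).mp hord).2 P hP
  obtain ⟨U, hU⟩ := h.exists_conj hr'
  refine ⟨U, fun σ hσ => ?_⟩
  have h1 : (U : M2 A) * r σ * ((U⁻¹ : (M2 A)ˣ) : M2 A) = r' σ := by
    rw [hU, mul_assoc, Units.mul_inv, mul_one]
  rw [h1]
  exact h' σ hσ

lemma HasMat.of_isEquiv_symm {r : GQ → M2 A} (h : HasMat (ρ'.ρ : GQ → _) r)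
    (he : ρ.IsEquiv ρ') : HasMat (ρ.ρ : GQ → _) r := by
  obtain ⟨e⟩ := he
  exact h.of_isEquiv ⟨e.symm⟩

lemma detIsCyclotomic_of_isEquiv (he : ρ.IsEquiv ρ') {p : ℕ} (h : ρ.DetIsCyclotomic p) :
    ρ'.DetIsCyclotomic p := by
  obtain ⟨r, hr⟩ := exists_hasMat_adic ρ
  exact (detIsCyclotomic_iff (hr.of_isEquiv he) p).mpr ((detIsCyclotomic_iff hr p).mp h)

lemma isUnramifiedAt_of_isEquiv (he : ρ.IsEquiv ρ') {q : ℕ} (h : ρ.IsUnramifiedAt q) :
    ρ'.IsUnramifiedAt q := by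
  obtain ⟨r, hr⟩ := exists_hasMat_adic ρ
  exact (isUnramifiedAt_iff (hr.of_isEquiv he) q).mpr ((isUnramifiedAt_iff hr q).mp h)

lemma isUnipotentOnInertiaAt_of_isEquiv (he : ρ.IsEquiv ρ') {q : ℕ}
    (h : ρ.IsUnipotentOnInertiaAt q) : ρ'.IsUnipotentOnInertiaAt q := by
  obtain ⟨r, hr⟩ := exists_hasMat_adic ρ
  exact (isUnipotentOnInertiaAt_iff (hr.of_isEquiv he) q).mpr
    ((isUnipotentOnInertiaAt_iff hr q).mp h)

lemma isStrictOrdinaryAt_of_isEquiv (he : ρ.IsEquiv ρ') {p : ℕ}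
    (h : ρ.IsStrictOrdinaryAt p) : ρ'.IsStrictOrdinaryAt p := by
  rw [isStrictOrdinaryAt_iff] at h ⊢
  refine ⟨h.1, fun P hP => ?_⟩
  obtain ⟨r', hr', h'⟩ := h.2 P hP
  exact ⟨r', hr'.of_isEquiv he, h'⟩

end Adic

section Main

variable {𝒪 : Type} [CommRing 𝒪] [IsDomain 𝒪] [IsDiscreteValuationRing 𝒪]
  [IsAdicComplete (maximalIdeal 𝒪) 𝒪] [Finite (ResidueField 𝒪)]
  {ρbar : ResidualGaloisRep (ResidueField 𝒪)}
    {𝒟 : ∀ ⦃A : Type⦄ [CommRing A] [IsLocalRing A] [Algebra 𝒪 A], GaloisRepAdic A → Prop}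

/-- `r` is of finite level if it is the matrix of a residual representation. -/
lemma isFiniteLevel_of_hasMat {k : Type} [Field k] {ρbar : ResidualGaloisRep k}
    {r : GQ →* M2 k} (hr : HasMat (ρbar.ρ : GQ → _) r) : IsFiniteLevel r := by
  obtain ⟨L, hL, h⟩ := ρbar.factorsThroughFiniteLevel
  refine ⟨L, hL, fun σ hσ => ?_⟩
  obtain ⟨e, he⟩ := hr
  refine mat_ext fun v => ?_
  have h2 := he σ (e.symm v)
  rw [h σ hσ, Module.End.one_apply, LinearEquiv.apply_symm_apply] at h2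
  rw [← h2, Matrix.one_mulVec]

lemma cob_eq_coboundLin {k : Type} [Field k] (r : GQ →* M2 k) (X : M2 k) :
    cob r (MonoidHom.id GQ) 0 X = - coboundLin (r : GQ → M2 k) X := by
  ext1 σ
  show act r 0 σ X - X = -(X - r σ * X * r σ⁻¹)
  rw [act_zero_apply, neg_sub]

lemma card_Ad0 (k : Type) [Field k] [Finite k] : Nat.card (Ad0 k) = Nat.card k ^ 3 := by
  have h1 : Ad0 k = LinearMap.ker (Matrix.traceLinearMap (Fin 2) k k) := by
    ext X
    rw [mem_Ad0, LinearMap.mem_ker]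
    rfl
  have h2 : LinearMap.range (Matrix.traceLinearMap (Fin 2) k k) = ⊤ := by
    rw [LinearMap.range_eq_top]
    intro a
    refine ⟨Matrix.of ![![a, 0], ![0, 0]], ?_⟩
    rw [Matrix.traceLinearMap_apply, Matrix.trace_fin_two]
    simp
  have h3 := LinearMap.finrank_range_add_finrank_ker (Matrix.traceLinearMap (Fin 2) k k)
  rw [h2, finrank_top, Module.finrank_self, Module.finrank_matrix] at h3
  simp only [Fintype.card_fin, Module.finrank_self] at h3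
  have h4 : Module.finrank k (LinearMap.ker (Matrix.traceLinearMap (Fin 2) k k)) = 3 := by omega
  rw [Module.natCard_eq_pow_finrank (K := k), h1, h4]

/-- **Part (G)** in terms of `Z1`: counting tangent vectors with cocycles. -/
theorem card_tangent_mul_le (DQ : DeformationRingData 𝒪 ρbar 𝒟) {p : ℕ} [Fact p.Prime]
    (hp2 : p ≠ 2) (hp : (p : ResidueField 𝒪) = 0)
    {r : GQ →* M2 (ResidueField 𝒪)} (hr : HasMat (ρbar.ρ : GQ → _) r) (hlev : IsFiniteLevel r)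
    (hstab : letI := dualAlg 𝒪
      ∀ (φ : DQ.R →ₐ[𝒪] DualNumber (ResidueField 𝒪))
        (hφ : IsLocalHom (φ : DQ.R →+* DualNumber (ResidueField 𝒪))),
        𝒟 (DQ.ρ.baseChangeAlong (φ : DQ.R →+* DualNumber (ResidueField 𝒪)) hφ))
    (hequiv : letI := dualAlg 𝒪
      ∀ (ρ ρ' : GaloisRepAdic (DualNumber (ResidueField 𝒪))), ρ.IsEquiv ρ' → 𝒟 ρ → 𝒟 ρ')
    (hcyc : letI := dualAlg 𝒪
      ∀ ρ : GaloisRepAdic (DualNumber (ResidueField 𝒪)), 𝒟 ρ → ρ.DetIsCyclotomic p)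
    (S : Set (Z1 r (MonoidHom.id GQ) 0)) (hfin : S.Finite)
    (hS : letI := dualAlg 𝒪
      ∀ c : Z1 r (MonoidHom.id GQ) 0, 𝒟 (defAdic hlev c) → c ∈ S) :
    Nat.card {f : DQ.R →+* DualNumber (ResidueField 𝒪) // f.comp (algebraMap 𝒪 DQ.R) =
        (algebraMap (ResidueField 𝒪) (DualNumber (ResidueField 𝒪))).comp (residue 𝒪)} *
      Nat.card (ResidueField 𝒪) ^ 3 ≤ Nat.card S := by
  let _ := dualAlg 𝒪
  obtain ⟨C, hC1, hC2, hC3, hC4⟩ := exists_cocycle_map DQ hr hstab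
  let T := {f : DQ.R →+* DualNumber (ResidueField 𝒪) // f.comp (algebraMap 𝒪 DQ.R) =
        (algebraMap (ResidueField 𝒪) (DualNumber (ResidueField 𝒪))).comp (residue 𝒪)}
  let ρf : T → GaloisRepAdic (DualNumber (ResidueField 𝒪)) := fun f =>
    DQ.ρ.baseChangeAlong f.1 (isLocalHom_of_compat f.2)
  have hD : ∀ f : T, 𝒟 (ρf f) := fun f =>
    hstab { f.1 with commutes' := fun z => RingHom.congr_fun f.2 z } (isLocalHom_of_compat f.2)
  have htr : ∀ (f : T) (σ : GQ), (C f σ).trace = 0 := fun f σ =>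
    trace_eq_zero_of_detIsCyclotomic hp (fun s => r_mul_inv r s) (hC3 f) (hcyc _ (hD f)) σ
  have hCZ : ∀ f : T, C f ∈ Z1 r (MonoidHom.id GQ) 0 := fun f =>
    mem_Z1_of_isCocyc (hC1 f) (hC2 f) (htr f)
  let Φ : T × (Ad0 (ResidueField 𝒪)) → Z1 r (MonoidHom.id GQ) 0 := fun x =>
    ⟨C x.1, hCZ x.1⟩ + ⟨cob r (MonoidHom.id GQ) 0 x.2.1, cob_mem_Z1 _ hlev 0 x.2.2⟩
  have hΦ : ∀ x σ, (Φ x).1 σ = C x.1 σ + (r σ * x.2.1 * r σ⁻¹ - x.2.1) := by
    intro x σ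
    show C x.1 σ + (act r 0 σ x.2.1 - x.2.1) = _
    rw [act_zero_apply]
  have hΦS : ∀ x, Φ x ∈ S := by
    rintro ⟨f, X⟩
    apply hS
    refine hequiv (ρf f) _ ?_ (hD f)
    have h1 : ∀ s, (Φ (f, X)).1 s - C f s = (-X.1) - r s * (-X.1) * r s⁻¹ := by
      intro s
      rw [hΦ, mul_neg, neg_mul]
      abel
    have h2 := dunit_mul_dualMat (fun s => r_inv_mul r s) h1
    have h3 : HasMat ((ρf f).ρ : GQ → _) (dualMat r (Φ (f, X)).1) := by
      refine ((hC3 f).conj (dunit (-X.1))).of_eq fun s => ?_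
      rw [h2, mul_assoc, Units.mul_inv, mul_one]
    exact isEquiv_of_hasMat h3 (defAdic_hasMat hlev _)
  have hinj : Function.Injective Φ := by
    rintro ⟨f, X⟩ ⟨g, Y⟩ h
    have h1 : ∀ s, C g s - C f s = (X.1 - Y.1 : M2 _) * (-1) -
        r s * ((X.1 - Y.1 : M2 _) * (-1)) * r s⁻¹ := by
      intro s
      have h2 : (Φ (f, X)).1 s = (Φ (g, Y)).1 s := by rw [h]
      rw [hΦ, hΦ] at h2
      have h3 : C g s = C f s + (r s * X.1 * r s⁻¹ - X.1) - (r s * Y.1 * r s⁻¹ - Y.1) := by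
        rw [h2]; abel
      rw [h3]
      noncomm_ring
    have h2 : f = g := hC4 f g ⟨_, h1⟩
    subst h2
    have h3 : ∀ s, (X.1 - Y.1) * r s = r s * (X.1 - Y.1) := by
      intro s
      have h4 := h1 s
      rw [sub_self] at h4
      have h5 : (X.1 - Y.1 : M2 _) = r s * (X.1 - Y.1) * r s⁻¹ := by
        have : (X.1 - Y.1 : M2 _) - r s * (X.1 - Y.1) * r s⁻¹ = 0 := by
          have h6 : (X.1 - Y.1 : M2 _) * (-1) - r s * ((X.1 - Y.1 : M2 _) * (-1)) * r s⁻¹ =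
              -((X.1 - Y.1 : M2 _) - r s * (X.1 - Y.1) * r s⁻¹) := by
            noncomm_ring
          rw [h6] at h4
          exact neg_eq_zero.mp h4.symm
        exact sub_eq_zero.mp this
      calc (X.1 - Y.1) * r s = (r s * (X.1 - Y.1) * r s⁻¹) * r s := by rw [← h5]
        _ = r s * (X.1 - Y.1) * (r s⁻¹ * r s) := by rw [mul_assoc]
        _ = r s * (X.1 - Y.1) := by rw [r_inv_mul, mul_one]
    have h4 := scalar_of_commute DQ.absIrr hr _ h3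
    have h5 : (X.1 - Y.1 : M2 _).trace = 0 := by
      rw [Matrix.trace_sub, mem_Ad0.mp X.2, mem_Ad0.mp Y.2, sub_zero]
    have h6 : (2 : ResidueField 𝒪) ≠ 0 := by
      intro h2
      have hchar : CharP (ResidueField 𝒪) p := by
        exact (CharP.charP_iff_prime_eq_zero (Fact.out : p.Prime)).mpr hp
      have h7 : p ∣ 2 := (CharP.cast_eq_zero_iff (ResidueField 𝒪) p 2).mp (by exact_mod_cast h2)
      exact hp2 ((Nat.prime_dvd_prime_iff_eq Fact.out Nat.prime_two).mp h7)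
    have h7 : (X.1 - Y.1 : M2 _) 1 1 = 0 := by
      rw [h4, Matrix.trace_smul, Matrix.trace_one, Fintype.card_fin, smul_eq_mul] at h5
      rcases mul_eq_zero.mp h5 with h8 | h8
      · exact h8
      · exact absurd (by exact_mod_cast h8) h6
    have h8 : X.1 - Y.1 = 0 := by rw [h4, h7, zero_smul]
    have h9 : X = Y := Subtype.ext (sub_eq_zero.mp h8)
    rw [h9]
  have hcardAd := card_Ad0 (ResidueField 𝒪)
  have hfinS : Finite S := hfin
  have h1 := Nat.card_le_card_of_injective (fun x => (⟨Φ x, hΦS x⟩ : S))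
    (fun x y hxy => hinj (Subtype.mk.inj hxy))
  rw [Nat.card_prod, hcardAd] at h1
  exact h1

/-- **Part (G)** in terms of `Z1`: the deformation ring is a quotient of a power series ring. -/
theorem exists_surjective_of_card_Z1 (DQ : DeformationRingData 𝒪 ρbar 𝒟) {p : ℕ} [Fact p.Prime]
    (hp2 : p ≠ 2) (hp : (p : ResidueField 𝒪) = 0)
    {r : GQ →* M2 (ResidueField 𝒪)} (hr : HasMat (ρbar.ρ : GQ → _) r) (hlev : IsFiniteLevel r)
    (hstab : letI := dualAlg 𝒪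
      ∀ (φ : DQ.R →ₐ[𝒪] DualNumber (ResidueField 𝒪))
        (hφ : IsLocalHom (φ : DQ.R →+* DualNumber (ResidueField 𝒪))),
        𝒟 (DQ.ρ.baseChangeAlong (φ : DQ.R →+* DualNumber (ResidueField 𝒪)) hφ))
    (hequiv : letI := dualAlg 𝒪
      ∀ (ρ ρ' : GaloisRepAdic (DualNumber (ResidueField 𝒪))), ρ.IsEquiv ρ' → 𝒟 ρ → 𝒟 ρ')
    (hcyc : letI := dualAlg 𝒪
      ∀ ρ : GaloisRepAdic (DualNumber (ResidueField 𝒪)), 𝒟 ρ → ρ.DetIsCyclotomic p)
    (S : Set (Z1 r (MonoidHom.id GQ) 0)) (hfin : S.Finite)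
    (hS : letI := dualAlg 𝒪
      ∀ c : Z1 r (MonoidHom.id GQ) 0, 𝒟 (defAdic hlev c) → c ∈ S)
    (n : ℕ) (hcard : Nat.card S ≤ Nat.card (ResidueField 𝒪) ^ (n + 3)) :
    ∃ γ : MvPowerSeries (Fin n) 𝒪 →ₐ[𝒪] DQ.R, Function.Surjective γ := by
  have h1 := (card_tangent_mul_le DQ hp2 hp hr hlev hstab hequiv hcyc S hfin hS).trans hcard
  rw [pow_add] at h1
  exact exists_surjective_of_card DQ.residue_surjective n
    (Nat.le_of_mul_le_mul_right h1 (pow_pos Nat.card_pos 3))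

omit [Finite (ResidueField 𝒪)] in
/-- If a deformation ring exists, the trivial deformation to the dual numbers is of the given
type. -/
theorem defAdic_zero_of_data (DQ : DeformationRingData 𝒪 ρbar 𝒟)
    {r : GQ →* M2 (ResidueField 𝒪)} (hr : HasMat (ρbar.ρ : GQ → _) r) (hlev : IsFiniteLevel r)
    (hstab : letI := dualAlg 𝒪
      ∀ (φ : DQ.R →ₐ[𝒪] DualNumber (ResidueField 𝒪))
        (hφ : IsLocalHom (φ : DQ.R →+* DualNumber (ResidueField 𝒪))),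
        𝒟 (DQ.ρ.baseChangeAlong (φ : DQ.R →+* DualNumber (ResidueField 𝒪)) hφ))
    (hequiv : letI := dualAlg 𝒪
      ∀ (ρ ρ' : GaloisRepAdic (DualNumber (ResidueField 𝒪))), ρ.IsEquiv ρ' → 𝒟 ρ → 𝒟 ρ') :
    letI := dualAlg 𝒪
    𝒟 (defAdic hlev (0 : Z1 r (MonoidHom.id GQ) 0)) := by
  let _ := dualAlg 𝒪
  obtain ⟨D, hD⟩ := exists_nfData_of DQ.absIrr hr
  obtain ⟨rR, hrR, hlift, -⟩ := D.exists_normalForm DQ.residual_isEquiv
  obtain ⟨π, hπ⟩ := exists_aug (𝒪 := 𝒪) (R := DQ.R) DQ.residue_surjective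
  let f : DQ.R →+* DualNumber (ResidueField 𝒪) :=
    (TrivSqZeroExt.inlHom (ResidueField 𝒪) (ResidueField 𝒪)).comp (π : DQ.R →+* ResidueField 𝒪)
  have hf : f.comp (algebraMap 𝒪 DQ.R) =
      (algebraMap (ResidueField 𝒪) (DualNumber (ResidueField 𝒪))).comp (residue 𝒪) := by
    refine RingHom.ext fun c => ?_
    show TrivSqZeroExt.inl (π (algebraMap 𝒪 DQ.R c)) = TrivSqZeroExt.inl (residue 𝒪 c)
    rw [Fermat.Agent.S53rep.residue_eq_pi_algebraMap]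
  have hloc : IsLocalHom f := isLocalHom_of_compat hf
  obtain ⟨c, -, -, hc⟩ := exists_cocycle DQ hrR hr
    (fun σ a b z hz => hlift σ a b z (by rw [hz, hD])) f hloc hf
  have h1 : ∀ σ, (rR σ).map f = dualMat r (0 : GQ → M2 (ResidueField 𝒪)) σ := by
    intro σ
    refine dm_ext ?_ ?_
    · rw [hc σ, dualMat, dualMat, fm_dm, fm_dm]
    · rw [dualMat, sm_dm]
      ext a b
      show TrivSqZeroExt.snd (f (rR σ a b)) = _
      have : TrivSqZeroExt.snd (f (rR σ a b)) = 0 := TrivSqZeroExt.snd_inl _ _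
      rw [this]
      simp
  have h2 : HasMat ((DQ.ρ.baseChangeAlong f hloc).ρ : GQ → _)
      (dualMat r (0 : Z1 r (MonoidHom.id GQ) 0).1) := (hrR.baseChangeAlong f hloc).of_eq h1
  exact hequiv _ _ (isEquiv_of_hasMat h2 (defAdic_hasMat hlev 0))
    (hstab { f with commutes' := fun z => RingHom.congr_fun hf z } hloc)

end Main

section StrictOrdinary

variable {𝒪 : Type} [CommRing 𝒪] [IsDomain 𝒪] [IsDiscreteValuationRing 𝒪]
  [IsAdicComplete (maximalIdeal 𝒪) 𝒪] [Finite (ResidueField 𝒪)]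
  {ρbar : ResidualGaloisRep (ResidueField 𝒪)}

omit [IsDomain 𝒪] [IsDiscreteValuationRing 𝒪] [IsAdicComplete (maximalIdeal 𝒪) 𝒪]
  [Finite (ResidueField 𝒪)] in
lemma strictOrdinary_isEquiv [IsLocalRing 𝒪] {p : ℕ} {T S' : Finset ℕ} {A : Type} [CommRing A] [IsLocalRing A]
    [Algebra 𝒪 A] {ρ ρ' : GaloisRepAdic A} (he : ρ.IsEquiv ρ')
    (h : strictOrdinaryCondition 𝒪 p S' ρ ∧
            ∀ q ∈ T, q.Prime → q ≠ p → ρ.IsUnipotentOnInertiaAt q) :
    strictOrdinaryCondition 𝒪 p S' ρ' ∧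
            ∀ q ∈ T, q.Prime → q ≠ p → ρ'.IsUnipotentOnInertiaAt q := by
  obtain ⟨⟨h1, h2, h3⟩, h4⟩ := h
  exact ⟨⟨detIsCyclotomic_of_isEquiv he h1, isStrictOrdinaryAt_of_isEquiv he h2,
      fun q hq hqS => isUnramifiedAt_of_isEquiv he (h3 q hq hqS)⟩,
      fun q hq hq1 hq2 => isUnipotentOnInertiaAt_of_isEquiv he (h4 q hq hq1 hq2)⟩

omit [Finite (ResidueField 𝒪)] in
/-- If a strict ordinary deformation ring exists, then `r` is strictly ordinary and unipotent. -/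
theorem strictOrdinary_zero_of_data {p : ℕ} (T S' : Finset ℕ)
    (DQ : DeformationRingData 𝒪 ρbar (fun _A _ _ _ ρ =>
          strictOrdinaryCondition 𝒪 p S' ρ ∧
            ∀ q ∈ T, q.Prime → q ≠ p → ρ.IsUnipotentOnInertiaAt q))
    {r : GQ →* M2 (ResidueField 𝒪)} (hr : HasMat (ρbar.ρ : GQ → _) r) (hlev : IsFiniteLevel r) :
    (defAdic hlev (0 : Z1 r (MonoidHom.id GQ) 0)).IsStrictOrdinaryAt p ∧
      ∀ q ∈ T, q.Prime → q ≠ p →
        (defAdic hlev (0 : Z1 r (MonoidHom.id GQ) 0)).IsUnipotentOnInertiaAt q := by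
  let _ := dualAlg 𝒪
  have h := defAdic_zero_of_data DQ hr hlev
    (fun φ hφ => ⟨strictOrdinaryCondition_baseChange _ hφ DQ.isOfType.1, fun q hq hq1 hq2 =>
      isUnipotentOnInertiaAt_baseChange _ hφ (DQ.isOfType.2 q hq hq1 hq2)⟩)
    (fun ρ ρ' he h => strictOrdinary_isEquiv he h)
  exact ⟨h.1.2.1, h.2⟩

/-- **Part (G)** for the strict ordinary condition of S56. -/
theorem exists_surjective_strictOrdinary {p : ℕ} [Fact p.Prime]
    (hp2 : p ≠ 2) (hp : (p : ResidueField 𝒪) = 0) (T S' : Finset ℕ)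
    (DQ : DeformationRingData 𝒪 ρbar (fun _A _ _ _ ρ =>
          strictOrdinaryCondition 𝒪 p S' ρ ∧
            ∀ q ∈ T, q.Prime → q ≠ p → ρ.IsUnipotentOnInertiaAt q))
    {r : GQ →* M2 (ResidueField 𝒪)} (hr : HasMat (ρbar.ρ : GQ → _) r) (hlev : IsFiniteLevel r)
    (S : Set (Z1 r (MonoidHom.id GQ) 0)) (hfin : S.Finite)
    (hS : ∀ c : Z1 r (MonoidHom.id GQ) 0, (defAdic hlev c).IsStrictOrdinaryAt p →
      UnramOutside S' c.1 →
      (∀ q ∈ T, q.Prime → q ≠ p → (defAdic hlev c).IsUnipotentOnInertiaAt q) → c ∈ S)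
    (n : ℕ) (hcard : Nat.card S ≤ Nat.card (ResidueField 𝒪) ^ (n + 3)) :
    ∃ γ : MvPowerSeries (Fin n) 𝒪 →ₐ[𝒪] DQ.R, Function.Surjective γ := by
  let _ := dualAlg 𝒪
  refine exists_surjective_of_card_Z1 DQ hp2 hp hr hlev ?_ ?_ ?_ S hfin ?_ n hcard
  · intro φ hφ
    exact ⟨strictOrdinaryCondition_baseChange _ hφ DQ.isOfType.1, fun q hq hq1 hq2 =>
      isUnipotentOnInertiaAt_baseChange _ hφ (DQ.isOfType.2 q hq hq1 hq2)⟩
  · intro ρ ρ' he h
    exact strictOrdinary_isEquiv he h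
  · rintro ρ ⟨⟨h1, -, -⟩, -⟩
    exact h1
  · rintro c ⟨⟨h1, h2, h3⟩, h4⟩
    refine hS c h2 (fun q hq hqS P hP σ hσ => ?_) h4
    exact (eq_zero_of_isUnramifiedAt (defAdic_hasMat hlev c) (h3 q hq hqS) hP hσ).2

end StrictOrdinary

section Flat

variable {𝒪 : Type} [CommRing 𝒪] [IsDomain 𝒪] [IsDiscreteValuationRing 𝒪]
  [IsAdicComplete (maximalIdeal 𝒪) 𝒪] [Finite (ResidueField 𝒪)]
  {ρbar : ResidualGaloisRep (ResidueField 𝒪)}

end Flat

end Fermat.Agent.TW
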