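import Fermat.Agent.TW.Core
import Fermat.Agent.TW.TangentDefs
import Fermat.Agent.PT.Dual
import Fermat.Agent.CFT.Bridge.Levels
import Fermat.Agent.CFT.SKummer.Omega
import Fermat.Prelude.Def_GroupCohomology_ContinuousUnramified
import Fermat.Prelude.Def_GaloisRep_ComplexConjugation

set_option autoImplicit false

/-!
# S56: from the general Greenberg-Wiles inequality to `GWad`
-/

namespace Fermat.Agent.TW

open Matrix ExtCitation
open scoped Pointwise
open Fermat.Agent.S53norm (GQ M2)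
open Fermat.Agent.PT (LevelSys LC1 Discrete)
open Fermat.Agent.CFT.Bridge (galLevels)

/-- The primes in a finite set of natural numbers. -/
def toPrimes (S : Finset ℕ) : Finset Nat.Primes := S.subtype Nat.Prime

lemma mem_toPrimes {S : Finset ℕ} {q : Nat.Primes} : q ∈ toPrimes S ↔ (q : ℕ) ∈ S :=
  Finset.mem_subtype

/-- The level system of `Gal(ℚ_S/ℚ)`, on `GQ`. -/
def levelsS (S : Finset Nat.Primes) : LevelSys GQ where
  carrier := {U | ∃ F : IntermediateField ℚ (AlgebraicClosure ℚ), F.IsUnramifiedOutside S ∧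
    F.fixingSubgroup ≤ U}
  top_mem' := ⟨⊥, IntermediateField.isUnramifiedOutside_bot S, le_top⟩
  inf_mem' := by
    rintro U V ⟨E, hE, hEU⟩ ⟨E', hE', hEV⟩
    refine ⟨E ⊔ E', hE.sup hE', ?_⟩
    rw [IntermediateField.fixingSubgroup_sup]
    exact inf_le_inf hEU hEV
  mono' := by
    rintro U V ⟨E, hE, hEU⟩ h
    exact ⟨E, hE, hEU.trans h⟩
  exists_normal' := by
    rintro U ⟨E, hE, hEU⟩
    have := hE.1
    obtain ⟨L, hEL, hL, hLgal, hLO⟩ := CFT.SKummer.exists_galois_of_stable E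
      (CFT.SKummer.Omega S) (CFT.SKummer.le_Omega hE)
      (fun g x hx => CFT.SKummer.map_mem_Omega g hx)
    refine ⟨L.fixingSubgroup, ⟨L, CFT.SKummer.isUnramifiedOutside_iff.2 hLO, le_rfl⟩,
      (IntermediateField.fixingSubgroup_antitone hEL).trans hEU, ?_⟩
    infer_instance
  finiteIndex' := by
    rintro U ⟨E, hE, hEU⟩
    have := hE.1
    have h1 : E.fixingSubgroup.FiniteIndex := ⟨by
      rw [← IntermediateField.finrank_eq_fixingSubgroup_index]
      exact Module.finrank_pos.ne'⟩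
    exact Subgroup.finiteIndex_of_le hEU

/-- The local level system on `Gal(ℚ̄_q/ℚ_q)` (all open subgroups). -/
noncomputable abbrev levelsLoc (q : Nat.Primes) : LevelSys (primeLocalGaloisGroup q) :=
  (galLevels ℚ (AlgebraicClosure ℚ)).comap (primeLocalToGlobal q)

/-- **The general Greenberg-Wiles inequality**, in terms of cocycles. -/
def GWcoc (p : ℕ) [Fact p.Prime] : Prop :=
  ∀ (S T : Finset Nat.Primes), T ⊆ S → pPrime p ∈ T →
  ∀ (M M' : Type) [AddCommGroup M] [Module (ZMod p) M] [Finite M]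
    [AddCommGroup M'] [Module (ZMod p) M'] [Finite M']
    (ρ : Representation (ZMod p) GQ M) (ρ' : Representation (ZMod p) GQ M')
    (B : M →ₗ[ZMod p] M' →ₗ[ZMod p] ZMod p),
    (∀ m, (∀ m', B m m' = 0) → m = 0) → (∀ m', (∀ m, B m m' = 0) → m' = 0) →
    (∀ g m m', B (ρ g m) (ρ' g m') = (cycloChar p g : ZMod p) * B m m') →
    Discrete (levelsS T) ρ → Discrete (levelsS T) ρ' →
    ∀ Λ : ∀ q : Nat.Primes, Submodule (ZMod p) (primeLocalGaloisGroup q → M),
    (∀ q ∈ T, Finite (Λ q)) →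
    (∀ q ∈ T, Λ q ≤ PT.Z1 (levelsLoc q) (ρ.comp (primeLocalToGlobal q))) →
    (∀ q ∈ T, PT.B1 (ρ.comp (primeLocalToGlobal q)) ≤ Λ q) →
    (∀ y ∈ PT.Z1 (levelsS S) ρ', (∀ q ∈ S \ T, (fun h => y (primeLocalToGlobal q h)) ∈
      PT.B1 (ρ'.comp (primeLocalToGlobal q))) → y ∈ PT.B1 ρ') →
    ∀ Sel : Submodule (ZMod p) (GQ → M),
      (∀ c, c ∈ Sel ↔ c ∈ PT.Z1 (levelsS S) ρ ∧
        ∀ q ∈ T, (fun h => c (primeLocalToGlobal q h)) ∈ Λ q) →
    Finite Sel ∧
    Module.finrank (ZMod p) Sel +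
        Module.finrank (ZMod p) (LinearMap.ker (ρ complexConjugation - LinearMap.id)) +
        T.card * Module.finrank (ZMod p) M ≤
      Module.finrank (ZMod p) M + ∑ q ∈ T, Module.finrank (ZMod p) (Λ q) +
        ∑ q ∈ S \ T, Module.finrank (ZMod p)
          (Representation.invariants (ρ'.comp (primeLocalToGlobal q)))

section AdRep

variable {k : Type} [Field k] (p : ℕ) [Algebra (ZMod p) k] (r : GQ →* M2 k)

/-- `ad⁰(j)` as a representation over `𝔽_p`. -/
noncomputable def adRep (j : ℕ) : Representation (ZMod p) GQ (Ad0 k) where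
  toFun σ := ((act r j σ).restrict (p := Ad0 k) (q := Ad0 k)
    (fun _ hX => act_mem r σ hX)).restrictScalars (ZMod p)
  map_one' := by
    refine LinearMap.ext fun X => Subtype.ext ?_
    exact act_one r j X.1
  map_mul' σ τ := by
    refine LinearMap.ext fun X => Subtype.ext ?_
    exact act_mul r j σ τ X.1

@[simp] lemma adRep_apply (j : ℕ) (σ : GQ) (X : Ad0 k) :
    (adRep p r j σ X : M2 k) = act r j σ X := rfl

/-- The trace pairing `ad⁰ × ad⁰(1) → 𝔽_p(1)`. -/
noncomputable def adPair : Ad0 k →ₗ[ZMod p] Ad0 k →ₗ[ZMod p] ZMod p :=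
  LinearMap.mk₂ (ZMod p) (fun X Y => Algebra.trace (ZMod p) k ((X : M2 k) * (Y : M2 k)).trace)
    (fun X X' Y => by
      rw [Submodule.coe_add, add_mul, trace_add, map_add])
    (fun a X Y => by
      rw [Submodule.coe_smul_of_tower, smul_mul_assoc, trace_smul, map_smul])
    (fun X Y Y' => by
      rw [Submodule.coe_add, mul_add, trace_add, map_add])
    (fun a X Y => by
      rw [Submodule.coe_smul_of_tower, mul_smul_comm, trace_smul, map_smul])

lemma adPair_apply (X Y : Ad0 k) :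
    adPair p X Y = Algebra.trace (ZMod p) k ((X : M2 k) * (Y : M2 k)).trace := rfl

lemma trace_mul_ad (X : M2 k) (h2 : (2 : k) ≠ 0) (hX : X.trace = 0)
    (h : ∀ Y : M2 k, Y.trace = 0 → (X * Y).trace = 0) : X = 0 := by
  have h11 : X 1 1 = - X 0 0 := by
    rw [Matrix.trace_fin_two] at hX
    linear_combination hX
  have e1 := h !![0, 1; 0, 0] (by simp [Matrix.trace_fin_two])
  have e2 := h !![0, 0; 1, 0] (by simp [Matrix.trace_fin_two])
  have e3 := h !![1, 0; 0, -1] (by simp [Matrix.trace_fin_two])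
  simp [Matrix.trace_fin_two, Matrix.mul_apply, Fin.sum_univ_two] at e1 e2 e3
  rw [h11, neg_neg, ← two_mul] at e3
  have h00 : X 0 0 = 0 := (mul_eq_zero.1 e3).resolve_left h2
  ext i j
  fin_cases i <;> fin_cases j
  · exact h00
  · exact e2
  · exact e1
  · show X 1 1 = 0
    rw [h11, h00, neg_zero]

lemma adPair_symm (X Y : Ad0 k) : adPair p X Y = adPair p Y X := by
  rw [adPair_apply, adPair_apply, trace_mul_comm]

variable [hp : Fact p.Prime]

lemma adPair_left [Finite k] (h2 : (2 : k) ≠ 0) (X : Ad0 k) (h : ∀ Y, adPair p X Y = 0) :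
    X = 0 := by
  refine Subtype.ext (trace_mul_ad X.1 h2 X.2 fun Y hY => ?_)
  by_contra hne
  have : FiniteDimensional (ZMod p) k := Module.Finite.of_finite
  have h3 : ∀ a : k, Algebra.trace (ZMod p) k (((X : M2 k) * Y).trace * a) = 0 := by
    intro a
    have h4 := h ⟨a • Y, (Ad0 k).smul_mem a hY⟩
    rw [adPair_apply] at h4
    show Algebra.trace (ZMod p) k (((X : M2 k) * Y).trace * a) = 0
    rw [mul_comm, ← smul_eq_mul, ← trace_smul, ← mul_smul_comm]
    exact h4
  have h5 := (traceForm_nondegenerate (ZMod p) k).1 _ h3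
  exact hne h5

lemma adPair_right [Finite k] (h2 : (2 : k) ≠ 0) (Y : Ad0 k) (h : ∀ X, adPair p X Y = 0) :
    Y = 0 :=
  adPair_left p h2 Y fun X => by rw [adPair_symm]; exact h X

lemma cycloExp_spec (σ : GQ) (μ : AlgebraicClosure ℚ) (hμ : μ ^ p = 1) :
    σ μ = μ ^ (cycloExp p σ) := by
  have : NeZero p := ⟨hp.out.ne_zero⟩
  have hu : IsUnit μ := IsUnit.of_pow_eq_one hμ hp.out.ne_zero
  obtain ⟨u, rfl⟩ := hu
  have hu' : u ∈ rootsOfUnity p (AlgebraicClosure ℚ) := by
    rw [mem_rootsOfUnity]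
    exact Units.ext (by simpa using hμ)
  exact modularCyclotomicCharacter.spec (AlgebraicClosure ℚ) (card_rootsOfUnity_eq_self p)
    (σ : AlgebraicClosure ℚ ≃+* AlgebraicClosure ℚ) hu'

lemma det_eq_cycloChar (hdet : CycDet p r) (σ : GQ) :
    (r σ).det = algebraMap (ZMod p) k (cycloChar p σ : ZMod p) := by
  rw [hdet σ _ (cycloExp_spec p σ), coe_cycloChar, map_natCast]

lemma adPair_equivariant (hdet : CycDet p r) (g : GQ) (X Y : Ad0 k) :
    adPair p (adRep p r 0 g X) (adRep p r 1 g Y) =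
      (cycloChar p g : ZMod p) * adPair p X Y := by
  rw [adPair_apply, adPair_apply, adRep_apply, adRep_apply, act_zero_apply, act_one_apply,
    mul_smul_comm, trace_smul, det_eq_cycloChar p r hdet, algebraMap_smul, map_smul, smul_eq_mul]
  congr 2
  rw [show r g * (X : M2 k) * r g⁻¹ * (r g * (Y : M2 k) * r g⁻¹) =
    r g * ((X : M2 k) * (Y : M2 k)) * r g⁻¹ by
      simp only [mul_assoc]
      rw [← mul_assoc (r g⁻¹) (r g), r_inv_mul, one_mul]]
  rw [trace_mul_cycle, r_inv_mul, one_mul]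

end AdRep

section Conj

variable {k : Type} [Field k] (p : ℕ) [hp : Fact p.Prime] {r : GQ →* M2 k}

lemma complexConjugation_root {ζ : AlgebraicClosure ℚ} (hζ : ζ ^ p = 1) :
    complexConjugation ζ = ζ ^ (p - 1) := by
  have hp0 := hp.out.ne_zero
  have h1 : complexConjugation ζ = ζ⁻¹ := by
    apply complexEmbedding.toRingHom.injective
    change complexEmbedding (complexConjugation ζ) = complexEmbedding ζ⁻¹
    rw [complexEmbedding_complexConjugation, map_inv₀]
    have h2 : (complexEmbedding ζ) ^ p = 1 := by rw [← map_pow, hζ, map_one]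
    have h3 : ‖complexEmbedding ζ‖ = 1 := Complex.norm_eq_one_of_pow_eq_one h2 hp0
    rw [Complex.inv_def, Complex.normSq_eq_norm_sq, h3]
    simp
  rw [h1]
  apply inv_eq_of_mul_eq_one_right
  rw [← pow_succ', Nat.sub_add_cancel hp.out.one_lt.le, hζ]

lemma det_complexConjugation [CharP k p] (hdet : CycDet p r) :
    (r complexConjugation).det = -1 := by
  rw [hdet complexConjugation (p - 1) fun μ hμ => complexConjugation_root p hμ,
    Nat.cast_sub hp.out.one_lt.le, CharP.cast_eq_zero, Nat.cast_one, zero_sub]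

lemma trace_complexConjugation [CharP k p] (hdet : CycDet p r) :
    (r complexConjugation).trace = 0 := by
  have h1 : r complexConjugation * r complexConjugation = 1 := by
    rw [← map_mul, complexConjugation_mul_self, map_one]
  rw [mat_sq, det_complexConjugation p hdet, neg_one_smul, sub_neg_eq_add, add_eq_right] at h1
  by_contra h
  rw [smul_eq_zero] at h1
  have h2 := h1.resolve_left h
  have h3 := det_complexConjugation p hdet
  rw [h2, det_zero] at h3
  exact one_ne_zero (neg_eq_zero.1 h3.symm)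

/-- The invariants of complex conjugation on `ad⁰` have at least `#k` elements. -/
lemma card_le_ker [Finite k] [CharP k p] [Algebra (ZMod p) k] (hdet : CycDet p r) :
    Nat.card k ≤ Nat.card (LinearMap.ker (adRep p r 0 complexConjugation - LinearMap.id)) := by
  have htr := trace_complexConjugation p hdet
  have hfin : Finite (Ad0 k) := inferInstance
  refine Nat.card_le_card_of_injective
    (fun a => ⟨⟨a • r complexConjugation, (Ad0 k).smul_mem a htr⟩, ?_⟩) ?_
  · rw [LinearMap.mem_ker, LinearMap.sub_apply, LinearMap.id_apply, sub_eq_zero]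
    refine Subtype.ext ?_
    rw [adRep_apply, act_zero_apply]
    show r complexConjugation * (a • r complexConjugation) * r complexConjugation⁻¹ =
      a • r complexConjugation
    rw [mul_smul_comm, smul_mul_assoc, mul_assoc, r_mul_inv, mul_one]
  · intro a b hab
    have h1 : a • r complexConjugation = b • r complexConjugation :=
      congrArg (fun x => ((x : LinearMap.ker (adRep p r 0 complexConjugation -
        LinearMap.id)) : Ad0 k).1) hab
    have h2 : r complexConjugation ≠ 0 := by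
      intro h
      have h3 := det_complexConjugation p hdet
      rw [h, det_zero] at h3
      exact one_ne_zero (neg_eq_zero.1 h3.symm)
    exact smul_left_injective _ h2 h1

end Conj

section Levels

lemma mem_levelsS_of {S : Finset Nat.Primes} {U : Subgroup GQ}
    (hU : U ∈ galLevels ℚ (AlgebraicClosure ℚ))
    (h : ∀ q : Nat.Primes, q ∉ S → ∀ A : ValuationSubring (AlgebraicClosure ℚ),
      A.LiesOverPrime (q : ℕ) → A.inertiaSubgroupIn ℚ ≤ U) : U ∈ levelsS S := by
  refine ⟨IntermediateField.fixedField U, ⟨CFT.Bridge.fixedField_finite_of_mem hU,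
    fun q hq A hA => ?_⟩, (CFT.Bridge.fixingSubgroup_fixedField_of_mem hU).le⟩
  rw [CFT.Bridge.fixingSubgroup_fixedField_of_mem hU]
  exact h q hq A hA

lemma mem_galLevels_of {U : Subgroup GQ} {L : IntermediateField ℚ (AlgebraicClosure ℚ)}
    (hL : FiniteDimensional ℚ L) (h : ∀ σ : GQ, (∀ x ∈ L, σ x = x) → σ ∈ U) :
    U ∈ galLevels ℚ (AlgebraicClosure ℚ) :=
  ⟨L, hL, fun σ hσ => h σ fun x hx => (IntermediateField.mem_fixingSubgroup_iff L σ).1 hσ x hx⟩

variable {k : Type} [Field k] {p : ℕ} [Algebra (ZMod p) k] {r : GQ →* M2 k}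

lemma r_inv_eq_one {σ : GQ} (h : r σ = 1) : r σ⁻¹ = 1 := by
  have := r_mul_inv r σ
  rwa [h, one_mul] at this

lemma act_eq_self {j : ℕ} {σ : GQ} (h : r σ = 1) (X : M2 k) : act r j σ X = X := by
  rw [act_apply, h, r_inv_eq_one h, det_one, one_pow, one_smul, one_mul, mul_one]

/-- Global cocycles: from `Z1` to level-constant cocycles. -/
lemma lift_mem_Z1 (hr : IsFiniteLevel r) {S : Finset ℕ}
    (hrS : UnramOutside S (fun σ => r σ - 1)) {j : ℕ} {c : GQ → M2 k}
    (hc : c ∈ Z1 r (MonoidHom.id GQ) j) (hcS : UnramOutside S c) :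
    (fun σ => (⟨c σ, hc.1 σ⟩ : Ad0 k)) ∈
      PT.Z1 (levelsS (toPrimes S)) (adRep p r j) := by
  obtain ⟨L, hL, h⟩ := hr
  obtain ⟨L', hL', h'⟩ := hc.2.2
  let N : Subgroup GQ :=
    { carrier := {σ | r σ = 1 ∧ c σ = 0}
      one_mem' := ⟨map_one r, Z1_one hc⟩
      mul_mem' := by
        rintro σ τ ⟨h1, h2⟩ ⟨h1', h2'⟩
        refine ⟨by rw [map_mul, h1, h1', mul_one], ?_⟩
        rw [hc.2.1, h2, h2', map_zero, add_zero]
      inv_mem' := by
        rintro σ ⟨h1, h2⟩
        refine ⟨r_inv_eq_one h1, ?_⟩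
        rw [Z1_inv hc, h2, map_zero, neg_zero] }
  have hN : N ∈ levelsS (toPrimes S) := by
    refine mem_levelsS_of (mem_galLevels_of (L := L ⊔ L')
      (IntermediateField.finiteDimensional_sup L L') fun σ hσ => ⟨?_, ?_⟩) ?_
    · exact h σ fun x hx => hσ x ((le_sup_left : L ≤ L ⊔ L') hx)
    · exact h' σ fun x hx => hσ x ((le_sup_right : L' ≤ L ⊔ L') hx)
    · intro q hq A hA σ hσ
      have hq' : (q : ℕ) ∉ S := fun h => hq (mem_toPrimes.2 h)
      exact ⟨sub_eq_zero.1 (hrS q q.2 hq' A hA σ hσ), hcS q q.2 hq' A hA σ hσ⟩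
  refine ⟨⟨N, hN, fun g s hs => Subtype.ext ?_⟩, fun g s => Subtype.ext ?_⟩
  · show c (g * s) = c g
    rw [hc.2.1, hs.2, map_zero, add_zero]
  · show c (g * s) = act r j g (c s) + c g
    rw [hc.2.1, add_comm]
    rfl

/-- Global cocycles: from level-constant cocycles to `Z1`. -/
lemma coe_mem_Z1 {S : Finset ℕ} {j : ℕ} {c : GQ → Ad0 k}
    (hc : c ∈ PT.Z1 (levelsS (toPrimes S)) (adRep p r j)) :
    (fun σ => (c σ : M2 k)) ∈ Z1 r (MonoidHom.id GQ) j ∧ UnramOutside S (fun σ => (c σ : M2 k)) := by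
  obtain ⟨⟨U, ⟨F, hF, hFU⟩, hU⟩, hcoc⟩ := hc
  have hc1 : c 1 = 0 := by
    have := hcoc 1 1
    rw [mul_one, map_one, Module.End.one_apply] at this
    exact left_eq_add.1 this
  have hzero : ∀ σ ∈ F.fixingSubgroup, c σ = 0 := fun σ hσ => by
    have := hU 1 σ (hFU hσ)
    rwa [one_mul, hc1] at this
  refine ⟨⟨fun g => (c g).2, fun g h => ?_, F, hF.1, fun σ hσ => ?_⟩, ?_⟩
  · show (c (g * h) : M2 k) = c g + act r j g (c h)
    rw [hcoc, Submodule.coe_add, adRep_apply, add_comm]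
  · have h1 : c σ = 0 := hzero σ ((IntermediateField.mem_fixingSubgroup_iff F σ).2 hσ)
    show (c σ : M2 k) = 0
    rw [h1]; rfl
  · intro q hq hqS A hA σ hσ
    have h1 : c σ = 0 := hzero σ (hF.2 ⟨q, hq⟩
      (fun h => hqS (mem_toPrimes.1 h)) A hA hσ)
    show (c σ : M2 k) = 0
    rw [h1]; rfl

/-- Local cocycles. -/
lemma local_lift_mem_Z1 {H : Type} [Group H] {ι : H →* GQ} {j : ℕ} {c : H → M2 k}
    (hc : c ∈ Z1 r ι j) :
    (fun h => (⟨c h, hc.1 h⟩ : Ad0 k)) ∈
      PT.Z1 ((galLevels ℚ (AlgebraicClosure ℚ)).comap ι) ((adRep p r j).comp ι) := by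
  obtain ⟨L', hL', h'⟩ := hc.2.2
  refine ⟨⟨L'.fixingSubgroup.comap ι, ⟨L'.fixingSubgroup, ⟨L', hL', le_rfl⟩, le_rfl⟩,
    fun g s hs => Subtype.ext ?_⟩, fun g s => Subtype.ext ?_⟩
  · show c (g * s) = c g
    rw [hc.2.1, h' s fun x hx => (IntermediateField.mem_fixingSubgroup_iff L' _).1 hs x hx,
      map_zero, add_zero]
  · show c (g * s) = act r j (ι g) (c s) + c g
    rw [hc.2.1, add_comm]

lemma adRep_discrete (hr : IsFiniteLevel r) {T : Finset ℕ}
    (hrT : UnramOutside T (fun σ => r σ - 1)) (j : ℕ) :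
    Discrete (levelsS (toPrimes T)) (adRep p r j) := by
  obtain ⟨L, hL, h⟩ := hr
  intro X
  refine ⟨MonoidHom.ker r, mem_levelsS_of (mem_galLevels_of hL fun σ hσ => h σ hσ) ?_,
    fun s hs => Subtype.ext (act_eq_self (MonoidHom.mem_ker.1 hs) _)⟩
  intro q hq A hA σ hσ
  have hq' : (q : ℕ) ∉ T := fun h => hq (mem_toPrimes.2 h)
  exact MonoidHom.mem_ker.2 (sub_eq_zero.1 (hrT q q.2 hq' A hA σ hσ))

end Levels

section Transport

variable {k : Type} [Field k] {r : GQ →* M2 k} {H : Type} [Group H] {ι : H →* GQ}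
  {D : Subgroup GQ} {g : GQ}

variable (r) in
/-- Transport of functions on `D` to functions on `H`, when `h ↦ g ι(h) g⁻¹` has values in `D`. -/
noncomputable def transport (hg : ∀ h, g * ι h * g⁻¹ ∈ D) : (D → M2 k) →+ (H → M2 k) where
  toFun c h := act r 0 g⁻¹ (c ⟨g * ι h * g⁻¹, hg h⟩)
  map_zero' := funext fun h => map_zero _
  map_add' c c' := funext fun h => map_add _ _ _

lemma transport_apply (hg : ∀ h, g * ι h * g⁻¹ ∈ D) (c : D → M2 k) (h : H) :
    transport r hg c h = act r 0 g⁻¹ (c ⟨g * ι h * g⁻¹, hg h⟩) := rfl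

lemma transport_injective (hg : ∀ h, g * ι h * g⁻¹ ∈ D)
    (hsurj : ∀ σ ∈ D, ∃ h, g * ι h * g⁻¹ = σ) : Function.Injective (transport r hg) := by
  intro c c' hcc
  funext σ
  obtain ⟨h, hh⟩ := hsurj σ σ.2
  have h1 := congrFun hcc h
  rw [transport_apply, transport_apply] at h1
  have h2 := congrArg (act r 0 g) h1
  rw [act_act_inv, act_act_inv] at h2
  have h3 : (⟨g * ι h * g⁻¹, hg h⟩ : D) = σ := Subtype.ext hh
  rwa [h3] at h2

lemma transport_cob (hg : ∀ h, g * ι h * g⁻¹ ∈ D) (X : M2 k) :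
    transport r hg (cob r D.subtype 0 (act r 0 g X)) = cob r ι 0 X := by
  funext h
  rw [transport_apply, cob, cob]
  show act r 0 g⁻¹ (act r 0 (g * ι h * g⁻¹) (act r 0 g X) - act r 0 g X) = _
  rw [map_sub, act_inv_act, ← act_mul, ← act_mul]
  congr 3
  group

lemma transport_mem_Z1 (hg : ∀ h, g * ι h * g⁻¹ ∈ D) {c : D → M2 k}
    (hc : c ∈ Z1 r D.subtype 0) : transport r hg c ∈ Z1 r ι 0 := by
  obtain ⟨h1, h2, L, hL, h3⟩ := hc
  refine ⟨fun h => ?_, fun a b => ?_, L.map (g⁻¹ : GQ).toAlgHom, ?_, fun h hh => ?_⟩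
  · rw [transport_apply, trace_act, h1, mul_zero]
  · rw [transport_apply, transport_apply, transport_apply]
    have h4 : (⟨g * ι (a * b) * g⁻¹, hg (a * b)⟩ : D) =
        ⟨g * ι a * g⁻¹, hg a⟩ * ⟨g * ι b * g⁻¹, hg b⟩ := by
      refine Subtype.ext ?_
      show g * ι (a * b) * g⁻¹ = g * ι a * g⁻¹ * (g * ι b * g⁻¹)
      rw [map_mul]
      group
    rw [h4, h2, map_add]
    congr 1
    show act r 0 g⁻¹ (act r 0 (g * ι a * g⁻¹) _) = _
    rw [← act_mul, ← act_mul]
    congr 2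
    group
  · exact FiniteDimensional.of_surjective
      ((IntermediateField.intermediateFieldMap (g⁻¹ : GQ) L).toLinearEquiv.toLinearMap)
      (IntermediateField.intermediateFieldMap (g⁻¹ : GQ) L).toLinearEquiv.surjective
  · have h4 : c ⟨g * ι h * g⁻¹, hg h⟩ = 0 := by
      refine h3 _ fun x hx => ?_
      have h5 := hh (g⁻¹ x) ⟨x, hx, rfl⟩
      show g (ι h (g⁻¹ x)) = x
      rw [h5]
      exact g.apply_symm_apply x
    rw [transport_apply, h4, map_zero]

/-- The restriction of a global cocycle and its transport. -/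
lemma transport_res (hg : ∀ h, g * ι h * g⁻¹ ∈ D) {c : GQ → M2 k}
    (hc : c ∈ Z1 r (MonoidHom.id GQ) 0) :
    transport r hg ((fun σ : D => c σ) + cob r D.subtype 0 (c g)) = fun h => c (ι h) := by
  funext h
  have h0 : c (g * ι h * g⁻¹) = c g + act r 0 g (c (ι h)) - act r 0 (g * ι h * g⁻¹) (c g) := by
    have h4 : c g⁻¹ = - act r 0 g⁻¹ (c g) := Z1_inv hc g
    rw [hc.2.1 (g * ι h) g⁻¹, hc.2.1 g (ι h), h4]
    simp only [MonoidHom.id_apply, map_neg, ← act_mul]
    abel
  rw [transport_apply, Pi.add_apply, cob]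
  show act r 0 g⁻¹ (c (g * ι h * g⁻¹) + (act r 0 (g * ι h * g⁻¹) (c g) - c g)) = _
  rw [h0]
  have h1 : c g + act r 0 g (c (ι h)) - act r 0 (g * ι h * g⁻¹) (c g) +
      (act r 0 (g * ι h * g⁻¹) (c g) - c g) = act r 0 g (c (ι h)) := by abel
  rw [h1, act_inv_act]

/-- The coercion `(H → Ad0 k) → (H → M2 k)`. -/
def coeAd (H : Type) (k : Type) [Field k] : (H → Ad0 k) →+ (H → M2 k) where
  toFun c h := (c h : M2 k)
  map_zero' := rfl
  map_add' _ _ := rfl

variable (r) in
/-- Transport of a local condition. -/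
noncomputable def transportCond (hg : ∀ h, g * ι h * g⁻¹ ∈ D) (Λ : AddSubgroup (D → M2 k)) :
    AddSubgroup (H → Ad0 k) := (Λ.map (transport r hg)).comap (coeAd H k)

lemma mem_transportCond {hg : ∀ h, g * ι h * g⁻¹ ∈ D} {Λ : AddSubgroup (D → M2 k)}
    {c : H → Ad0 k} : c ∈ transportCond r hg Λ ↔
      ∃ l ∈ Λ, transport r hg l = fun h => (c h : M2 k) := Iff.rfl

lemma transportCond_card {hg : ∀ h, g * ι h * g⁻¹ ∈ D} {Λ : AddSubgroup (D → M2 k)}
    [hΛ : Finite Λ] : Finite (transportCond r hg Λ) ∧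
      Nat.card (transportCond r hg Λ) ≤ Nat.card Λ := by
  choose f hf using fun c : transportCond r hg Λ => mem_transportCond.1 c.2
  have hinj : Function.Injective (fun c => (⟨f c, (hf c).1⟩ : Λ)) := by
    intro c c' hcc
    have h1 : f c = f c' := congrArg Subtype.val hcc
    have h2 := (hf c).2
    rw [h1, (hf c').2] at h2
    exact Subtype.ext (funext fun h => Subtype.ext (congrFun h2 h).symm)
  exact ⟨Finite.of_injective _ hinj, Nat.card_le_card_of_injective _ hinj⟩

lemma mem_iff_mem_transportCond (hg : ∀ h, g * ι h * g⁻¹ ∈ D)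
    (hsurj : ∀ σ ∈ D, ∃ h, g * ι h * g⁻¹ = σ) {Λ : AddSubgroup (D → M2 k)}
    (hcob : ∀ X : M2 k, X.trace = 0 → cob r D.subtype 0 X ∈ Λ) {c : GQ → Ad0 k}
    (hc : (fun σ => (c σ : M2 k)) ∈ Z1 r (MonoidHom.id GQ) 0) :
    (fun h => c (ι h)) ∈ transportCond r hg Λ ↔ (fun σ : D => (c σ : M2 k)) ∈ Λ := by
  have h1 := transport_res (ι := ι) hg hc
  have h2 : cob r D.subtype 0 ((c g : Ad0 k) : M2 k) ∈ Λ := hcob _ (c g).2
  constructor
  · intro h
    obtain ⟨l, hl, hl2⟩ := mem_transportCond.1 h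
    have h3 : l = (fun σ : D => (c σ : M2 k)) + cob r D.subtype 0 ((c g : Ad0 k) : M2 k) := by
      apply transport_injective hg hsurj
      rw [h1, hl2]
    rw [h3] at hl
    exact (AddSubgroup.add_mem_cancel_right Λ h2).1 hl
  · intro h
    exact mem_transportCond.2 ⟨_, Λ.add_mem h h2, h1⟩

end Transport

lemma exists_conj (q : Nat.Primes) {A : ValuationSubring (AlgebraicClosure ℚ)}
    (hA : A.LiesOverPrime (q : ℕ)) : ∃ g : GQ,
      (∀ h, g * primeLocalToGlobal q h * g⁻¹ ∈ A.decompositionSubgroup ℚ) ∧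
      ∀ σ ∈ A.decompositionSubgroup ℚ, ∃ h, g * primeLocalToGlobal q h * g⁻¹ = σ := by
  have hq : Fact (q : ℕ).Prime := ⟨q.2⟩
  obtain ⟨g, hg⟩ := CFT.Bridge.exists_smul_padicPlace (q : ℕ) hA
  have hrange := CFT.Bridge.range_localGaloisToGlobal (q : ℕ)
  refine ⟨g, fun h => ?_, fun σ hσ => ?_⟩
  · have h1 : localGaloisToGlobal (q : ℕ) h ∈ (padicPlace (q : ℕ)).decompositionSubgroup ℚ := by
      rw [← hrange]; exact ⟨h, rfl⟩
    rw [FrobDensity.mem_decomposition_iff] at h1 ⊢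
    rw [← hg, mul_smul, mul_smul, inv_smul_smul]
    show g • localGaloisToGlobal (q : ℕ) h • padicPlace (q : ℕ) = _
    rw [h1]
  · have h1 : g⁻¹ * σ * g ∈ (padicPlace (q : ℕ)).decompositionSubgroup ℚ :=
      conj_mem_decomposition (by rw [hg]; exact hσ)
    rw [← hrange] at h1
    obtain ⟨h, hh⟩ := h1
    refine ⟨h, ?_⟩
    show g * localGaloisToGlobal (q : ℕ) h * g⁻¹ = σ
    rw [hh]
    group

lemma card_toPrimes {T : Finset ℕ} (hT : ∀ q ∈ T, q.Prime) : (toPrimes T).card = T.card := by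
  show (T.subtype Nat.Prime).card = T.card
  rw [Finset.card_subtype, Finset.filter_true_of_mem hT]

lemma prod_toPrimes {T : Finset ℕ} (hT : ∀ q ∈ T, q.Prime) (f : ℕ → ℕ) :
    ∏ q ∈ toPrimes T, f (q : ℕ) = ∏ q ∈ T, f q :=
  Finset.prod_subtype_of_mem f hT

/-- **The Greenberg-Wiles inequality for `ad⁰`** from the general one. -/
theorem gwad_of_gwcoc {k : Type} [Field k] [Finite k] {p : ℕ} [hp : Fact p.Prime] [CharP k p]
    (hp2 : p ≠ 2) (hGW : GWcoc p) {r : GQ →* M2 k} (hr : IsFiniteLevel r) (hdet : CycDet p r) :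
    GWad p r := by
  classical
  intro T Q A Λ hprime hdisj hpT hA hrT hΛfin hΛ1 hΛ2 hinj
  let _ : Algebra (ZMod p) k := ZMod.algebra k p
  have h2 : (2 : k) ≠ 0 := by
    intro h
    have h1 : ((2 : ℕ) : k) = 0 := by exact_mod_cast h
    rw [CharP.cast_eq_zero_iff k p] at h1
    exact hp2 ((Nat.prime_dvd_prime_iff_eq hp.out Nat.prime_two).1 h1)
  have hTprime : ∀ q ∈ T, q.Prime := fun q hq => hprime q (Finset.mem_union_left _ hq)
  have hQprime : ∀ q ∈ Q, q.Prime := fun q hq => hprime q (Finset.mem_union_right _ hq)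
  have hST : toPrimes T ⊆ toPrimes (T ∪ Q) := fun q hq =>
    mem_toPrimes.2 (Finset.mem_union_left _ (mem_toPrimes.1 hq))
  have hSdiff : toPrimes (T ∪ Q) \ toPrimes T = toPrimes Q := by
    ext q
    rw [Finset.mem_sdiff, mem_toPrimes, mem_toPrimes, mem_toPrimes, Finset.mem_union]
    constructor
    · rintro ⟨h1 | h1, h3⟩
      · exact absurd h1 h3
      · exact h1
    · intro h1
      exact ⟨Or.inr h1, fun h3 => Finset.disjoint_left.1 hdisj h3 h1⟩
  have hrS : UnramOutside (T ∪ Q) (fun σ => r σ - 1) := fun q hq hqS =>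
    hrT q hq fun h => hqS (Finset.mem_union_left _ h)
  have hex : ∀ q : Nat.Primes, ∃ g : GQ, (A q).LiesOverPrime (q : ℕ) →
      (∀ h, g * primeLocalToGlobal q h * g⁻¹ ∈ (A q).decompositionSubgroup ℚ) ∧
      ∀ σ ∈ (A q).decompositionSubgroup ℚ, ∃ h, g * primeLocalToGlobal q h * g⁻¹ = σ := by
    intro q
    by_cases h : (A q).LiesOverPrime (q : ℕ)
    · obtain ⟨g, hg⟩ := exists_conj q h
      exact ⟨g, fun _ => hg⟩
    · exact ⟨1, fun h' => absurd h' h⟩
  choose g hg using hex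
  have hAT : ∀ q ∈ toPrimes T, (A q).LiesOverPrime (q : ℕ) := fun q hq =>
    hA q (Finset.mem_union_left _ (mem_toPrimes.1 hq))
  have hAQ : ∀ q ∈ toPrimes Q, (A q).LiesOverPrime (q : ℕ) := fun q hq =>
    hA q (Finset.mem_union_right _ (mem_toPrimes.1 hq))
  let Λ' : ∀ q : Nat.Primes, AddSubgroup (primeLocalGaloisGroup q → Ad0 k) := fun q =>
    if h : (A q).LiesOverPrime (q : ℕ) then transportCond r (hg q h).1 (Λ q) else ⊥
  have hΛ' : ∀ q ∈ toPrimes T, ∀ h : (A q).LiesOverPrime (q : ℕ),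
      Λ' q = transportCond r (hg q h).1 (Λ q) := fun q _ h => dif_pos h
  let Λs : ∀ q : Nat.Primes, Submodule (ZMod p) (primeLocalGaloisGroup q → Ad0 k) := fun q =>
    AddSubgroup.toZModSubmodule p (Λ' q)
  have hΛs : ∀ (q : Nat.Primes) (c : primeLocalGaloisGroup q → Ad0 k),
      c ∈ Λs q ↔ c ∈ Λ' q := fun q c => Iff.rfl
  let Sel : Submodule (ZMod p) (GQ → Ad0 k) :=
    { carrier := {c | c ∈ PT.Z1 (levelsS (toPrimes (T ∪ Q))) (adRep p r 0) ∧
        ∀ q ∈ toPrimes T, (fun h => c (primeLocalToGlobal q h)) ∈ Λs q}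
      add_mem' := fun h h' => ⟨Submodule.add_mem _ h.1 h'.1, fun q hq =>
        (Λs q).add_mem (h.2 q hq) (h'.2 q hq)⟩
      zero_mem' := ⟨Submodule.zero_mem _, fun q hq => (Λs q).zero_mem⟩
      smul_mem' := fun a c h => ⟨Submodule.smul_mem _ a h.1, fun q hq =>
        (Λs q).smul_mem a (h.2 q hq)⟩ }
  have hc1 : ∀ q ∈ toPrimes T, Λs q ≤
      PT.Z1 (levelsLoc q) ((adRep p r 0).comp (primeLocalToGlobal q)) := by
    intro q hq c hc
    rw [hΛs, hΛ' q hq (hAT q hq)] at hc
    obtain ⟨l, hl, hl2⟩ := mem_transportCond.1 hc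
    have h3 := hΛ1 q (mem_toPrimes.1 hq) l hl
    have h4 := local_lift_mem_Z1 (p := p) (transport_mem_Z1 (hg q (hAT q hq)).1 h3)
    have h5 : c = fun h => (⟨transport r (hg q (hAT q hq)).1 l h,
        (transport_mem_Z1 (hg q (hAT q hq)).1 h3).1 h⟩ : Ad0 k) :=
      funext fun h => Subtype.ext (congrFun hl2 h).symm
    rw [h5]
    exact h4
  have hc2 : ∀ q ∈ toPrimes T,
      PT.B1 ((adRep p r 0).comp (primeLocalToGlobal q)) ≤ Λs q := by
    rintro q hq c ⟨X, rfl⟩
    rw [hΛs, hΛ' q hq (hAT q hq)]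
    refine mem_transportCond.2 ⟨_, hΛ2 q (mem_toPrimes.1 hq) (act r 0 (g q) X)
      (by rw [trace_act, show (X : M2 k).trace = 0 from X.2, mul_zero]),
      (transport_cob _ _).trans (funext fun h => ?_)⟩
    rfl
  have hc3 : ∀ y ∈ PT.Z1 (levelsS (toPrimes (T ∪ Q))) (adRep p r 1),
      (∀ q ∈ toPrimes (T ∪ Q) \ toPrimes T, (fun h => y (primeLocalToGlobal q h)) ∈
        PT.B1 ((adRep p r 1).comp (primeLocalToGlobal q))) → y ∈ PT.B1 (adRep p r 1) := by
    intro y hy hyq
    obtain ⟨h3, h4⟩ := coe_mem_Z1 hy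
    obtain ⟨X, hX, hX2⟩ := hinj _ h3 h4 fun q hq => by
      have hqP : (⟨q, hQprime q hq⟩ : Nat.Primes) ∈ toPrimes Q := mem_toPrimes.2 hq
      obtain ⟨X, hX⟩ := hyq ⟨q, hQprime q hq⟩ (by rw [hSdiff]; exact hqP)
      have hqF : Fact q.Prime := ⟨hQprime q hq⟩
      obtain ⟨g', hg'⟩ := CFT.Bridge.exists_smul_padicPlace q
        (hA q (Finset.mem_union_right _ hq))
      have h5 : LocTriv r ((padicPlace q).decompositionSubgroup ℚ)
          (fun σ => (y σ : M2 k)) := by
        refine ⟨X, X.2, fun σ hσ => ?_⟩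
        rw [← CFT.Bridge.range_localGaloisToGlobal q] at hσ
        obtain ⟨h, rfl⟩ := hσ
        exact congrArg Subtype.val (congrFun hX h).symm
      have h6 := h5.conj h3 g'
      rw [hg'] at h6
      exact h6
    refine ⟨⟨X, hX⟩, funext fun σ => Subtype.ext ?_⟩
    exact (congrFun hX2 σ).symm
  have hΛ'fin : ∀ q ∈ toPrimes T, Finite (Λs q) ∧ Nat.card (Λs q) ≤ Nat.card (Λ q) := by
    intro q hq
    have := hΛfin q (mem_toPrimes.1 hq)
    have h3 := transportCond_card (r := r) (hg := (hg q (hAT q hq)).1) (Λ := Λ q)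
    have h4 : Λ' q = transportCond r (hg q (hAT q hq)).1 (Λ q) := hΛ' q hq (hAT q hq)
    rw [← h4] at h3
    exact h3
  obtain ⟨hSelfin, hineq⟩ := hGW (toPrimes (T ∪ Q)) (toPrimes T) hST (mem_toPrimes.2 hpT)
    (Ad0 k) (Ad0 k) (adRep p r 0) (adRep p r 1) (adPair p) (adPair_left p h2)
    (adPair_right p h2) (adPair_equivariant p r hdet) (adRep_discrete hr hrT 0)
    (adRep_discrete hr hrT 1) Λs (fun q hq => (hΛ'fin q hq).1) hc1 hc2 hc3 Sel (fun c => Iff.rfl)
  -- the comparison of the Selmer groups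
  have hemb : ∀ c : SelSet r T Q (fun q => (A q).decompositionSubgroup ℚ) Λ,
      (fun σ => (⟨c.1.1 σ, c.1.2.1 σ⟩ : Ad0 k)) ∈ Sel := by
    intro c
    refine ⟨lift_mem_Z1 hr hrS c.1.2 c.2.1, fun q hq => ?_⟩
    rw [hΛs, hΛ' q hq (hAT q hq)]
    exact (mem_iff_mem_transportCond (hg q (hAT q hq)).1 (hg q (hAT q hq)).2
      (hΛ2 q (mem_toPrimes.1 hq)) (c := fun σ => (⟨c.1.1 σ, c.1.2.1 σ⟩ : Ad0 k))
      c.1.2).2 (c.2.2 q (mem_toPrimes.1 hq))
  have hinj' : Function.Injective (fun c : SelSet r T Q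
      (fun q => (A q).decompositionSubgroup ℚ) Λ => (⟨_, hemb c⟩ : Sel)) := by
    intro c c' hcc
    refine Subtype.ext (Subtype.ext (funext fun σ => ?_))
    exact congrArg (fun x : Sel => ((x : GQ → Ad0 k) σ : M2 k)) hcc
  have hfin : Finite (SelSet r T Q (fun q => (A q).decompositionSubgroup ℚ) Λ) :=
    Finite.of_injective _ hinj'
  refine ⟨Set.finite_coe_iff.1 hfin, ?_⟩
  have hcard1 := Nat.card_le_card_of_injective _ hinj'
  have hk : 1 < Nat.card k := Finite.one_lt_card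
  -- cardinalities
  have hcardV : ∀ (V : Type) [AddCommGroup V] [Module (ZMod p) V] [Finite V],
      p ^ Module.finrank (ZMod p) V = Nat.card V := by
    intro V _ _ _
    have : Module.Finite (ZMod p) V := Module.Finite.of_finite
    rw [Module.natCard_eq_pow_finrank (K := ZMod p) (V := V), Nat.card_zmod]
  have hpow : p ^ (Module.finrank (ZMod p) Sel + Module.finrank (ZMod p)
      (LinearMap.ker (adRep p r 0 complexConjugation - LinearMap.id)) +
      (toPrimes T).card * Module.finrank (ZMod p) (Ad0 k)) ≤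
      p ^ (Module.finrank (ZMod p) (Ad0 k) + ∑ q ∈ toPrimes T, Module.finrank (ZMod p) (Λs q) +
        ∑ q ∈ toPrimes (T ∪ Q) \ toPrimes T, Module.finrank (ZMod p)
          (Representation.invariants ((adRep p r 1).comp (primeLocalToGlobal q)))) :=
    Nat.pow_le_pow_right hp.out.pos hineq
  rw [pow_add, pow_add, pow_add, pow_add, mul_comm (toPrimes T).card, pow_mul, hcardV, hcardV,
    hcardV, card_Ad0, card_toPrimes hTprime, hSdiff, ← Finset.prod_pow_eq_pow_sum,
    ← Finset.prod_pow_eq_pow_sum, ← pow_mul] at hpow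
  have hL : ∏ q ∈ toPrimes T, p ^ Module.finrank (ZMod p) (Λs q) ≤ ∏ q ∈ T, Nat.card (Λ q) := by
    rw [← prod_toPrimes hTprime (fun q => Nat.card (Λ q))]
    refine Finset.prod_le_prod' fun q hq => ?_
    have := (hΛ'fin q hq).1
    rw [hcardV]
    exact (hΛ'fin q hq).2
  have hH : ∏ q ∈ toPrimes Q, p ^ Module.finrank (ZMod p)
      (Representation.invariants ((adRep p r 1).comp (primeLocalToGlobal q))) ≤
      ∏ q ∈ Q, Nat.card {X : M2 k // X.trace = 0 ∧
          ∀ σ ∈ (A q).decompositionSubgroup ℚ, act r 1 σ X = X} := by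
    rw [← prod_toPrimes hQprime (fun q => Nat.card {X : M2 k // X.trace = 0 ∧
          ∀ σ ∈ (A q).decompositionSubgroup ℚ, act r 1 σ X = X})]
    refine Finset.prod_le_prod' fun q hq => ?_
    rw [hcardV]
    refine Nat.card_le_card_of_injective (fun X => ⟨act r 1 (g q) (X : Ad0 k), ?_, ?_⟩) ?_
    · rw [trace_act, show ((X : Ad0 k) : M2 k).trace = 0 from (X : Ad0 k).2, mul_zero]
    · intro σ hσ
      obtain ⟨h, hh⟩ := (hg q (hAQ q hq)).2 σ hσ
      have h3 : act r 1 (primeLocalToGlobal q h) ((X : Ad0 k) : M2 k) = ((X : Ad0 k) : M2 k) :=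
        congrArg Subtype.val (X.2 h)
      rw [← hh, act_mul, act_mul, act_inv_act, h3]
    · intro X Y hXY
      have h3 : act r 1 (g q) ((X : Ad0 k) : M2 k) = act r 1 (g q) ((Y : Ad0 k) : M2 k) :=
        congrArg Subtype.val hXY
      have h4 := congrArg (act r 1 (g q)⁻¹) h3
      rw [act_inv_act, act_inv_act] at h4
      exact Subtype.ext (Subtype.ext h4)
  calc Nat.card (SelSet r T Q (fun q => (A q).decompositionSubgroup ℚ) Λ) *
        Nat.card k ^ (3 * T.card + 1)
      = Nat.card (SelSet r T Q (fun q => (A q).decompositionSubgroup ℚ) Λ) * Nat.card k *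
          Nat.card k ^ (3 * T.card) := by rw [pow_succ]; ring
    _ ≤ Nat.card Sel * Nat.card (LinearMap.ker (adRep p r 0 complexConjugation -
          LinearMap.id)) * Nat.card k ^ (3 * T.card) :=
        Nat.mul_le_mul_right _ (Nat.mul_le_mul hcard1 (card_le_ker p hdet))
    _ ≤ _ := hpow
    _ ≤ _ := Nat.mul_le_mul (Nat.mul_le_mul_left _ hL) hH

end Fermat.Agent.TW
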