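import Mathlib
import Fermat.Agent.TW.TangentDefs
import Fermat.Agent.FlatGS.BaseChange

set_option autoImplicit false

/-!
# The tangent space bound for the flat condition of S56
-/

namespace Fermat.Agent.TW

open IsLocalRing Matrix Fermat.Agent.S53norm GaloisRep
open Fermat.Agent.FlatGS (isFlatAt_baseChangeAlong isFlatAt_of_isEquiv)

variable {𝒪 : Type} [CommRing 𝒪] [IsDomain 𝒪] [IsDiscreteValuationRing 𝒪]
  [IsAdicComplete (maximalIdeal 𝒪) 𝒪] [Finite (ResidueField 𝒪)]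
  {ρbar : ResidualGaloisRep (ResidueField 𝒪)}

lemma finite_residueField_dual (k : Type) [Field k] [Finite k] :
    Finite (ResidueField (DualNumber k)) := by
  have : Finite (DualNumber k) := inferInstanceAs (Finite (k × k))
  exact Finite.of_surjective _ (residue_surjective (R := DualNumber k))

omit [IsDomain 𝒪] [IsDiscreteValuationRing 𝒪] [IsAdicComplete (maximalIdeal 𝒪) 𝒪]
  [Finite (ResidueField 𝒪)] in
lemma flat_isEquiv {p : ℕ} {T S' : Finset ℕ} {A : Type} [CommRing A] [IsLocalRing A]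
    [Algebra 𝒪 A] {ρ ρ' : GaloisRepAdic A} (he : ρ.IsEquiv ρ')
    (h : flatCondition 𝒪 p S' ρ ∧
            ∀ q ∈ T, q.Prime → q ≠ p → ρ.IsUnipotentOnInertiaAt q) :
    flatCondition 𝒪 p S' ρ' ∧
            ∀ q ∈ T, q.Prime → q ≠ p → ρ'.IsUnipotentOnInertiaAt q := by
  obtain ⟨⟨h1, h2, h3⟩, h4⟩ := h
  exact ⟨⟨detIsCyclotomic_of_isEquiv he h1, isFlatAt_of_isEquiv he h2,
      fun q hq hqS => isUnramifiedAt_of_isEquiv he (h3 q hq hqS)⟩,
      fun q hq hq1 hq2 => isUnipotentOnInertiaAt_of_isEquiv he (h4 q hq hq1 hq2)⟩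

omit [IsDomain 𝒪] [IsDiscreteValuationRing 𝒪] [IsAdicComplete (maximalIdeal 𝒪) 𝒪]
  [Finite (ResidueField 𝒪)] in
lemma flat_baseChange {p : ℕ} {T S' : Finset ℕ} {A B : Type} [CommRing A] [IsLocalRing A]
    [CommRing B] [IsLocalRing B] [Algebra 𝒪 A] [Algebra 𝒪 B] (φ : A →+* B) (hφ : IsLocalHom φ)
    (hres : Finite (ResidueField B)) {ρ : GaloisRepAdic A}
    (h : flatCondition 𝒪 p S' ρ ∧
            ∀ q ∈ T, q.Prime → q ≠ p → ρ.IsUnipotentOnInertiaAt q) :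
    flatCondition 𝒪 p S' (ρ.baseChangeAlong φ hφ) ∧
            ∀ q ∈ T, q.Prime → q ≠ p → (ρ.baseChangeAlong φ hφ).IsUnipotentOnInertiaAt q := by
  obtain ⟨⟨h1, h2, h3⟩, h4⟩ := h
  exact ⟨⟨detIsCyclotomic_baseChange φ hφ h1, isFlatAt_baseChangeAlong φ hφ ρ hres h2,
      fun q hq hqS => isUnramifiedAt_baseChange φ hφ (h3 q hq hqS)⟩,
      fun q hq hq1 hq2 => isUnipotentOnInertiaAt_baseChange φ hφ (h4 q hq hq1 hq2)⟩

/-- If a flat deformation ring exists, then `r` is flat and unipotent. -/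
theorem flat_zero_of_data {p : ℕ} (T S' : Finset ℕ)
    (DQ : DeformationRingData 𝒪 ρbar (fun _A _ _ _ ρ =>
          flatCondition 𝒪 p S' ρ ∧
            ∀ q ∈ T, q.Prime → q ≠ p → ρ.IsUnipotentOnInertiaAt q))
    {r : GQ →* M2 (ResidueField 𝒪)} (hr : HasMat (ρbar.ρ : GQ → _) r) (hlev : IsFiniteLevel r) :
    (defAdic hlev (0 : Z1 r (MonoidHom.id GQ) 0)).IsFlatAt p ∧
      ∀ q ∈ T, q.Prime → q ≠ p →
        (defAdic hlev (0 : Z1 r (MonoidHom.id GQ) 0)).IsUnipotentOnInertiaAt q := by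
  let _ := dualAlg 𝒪
  have h := defAdic_zero_of_data DQ hr hlev
    (fun φ hφ => flat_baseChange _ hφ (finite_residueField_dual _) DQ.isOfType)
    (fun ρ ρ' he h => flat_isEquiv he h)
  exact ⟨h.1.2.1, h.2⟩

/-- **Part (G)** for the flat condition of S56. -/
theorem exists_surjective_flat {p : ℕ} [Fact p.Prime]
    (hp2 : p ≠ 2) (hp : (p : ResidueField 𝒪) = 0) (T S' : Finset ℕ)
    (DQ : DeformationRingData 𝒪 ρbar (fun _A _ _ _ ρ =>
          flatCondition 𝒪 p S' ρ ∧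
            ∀ q ∈ T, q.Prime → q ≠ p → ρ.IsUnipotentOnInertiaAt q))
    {r : GQ →* M2 (ResidueField 𝒪)} (hr : HasMat (ρbar.ρ : GQ → _) r) (hlev : IsFiniteLevel r)
    (S : Set (Z1 r (MonoidHom.id GQ) 0)) (hfin : S.Finite)
    (hS : ∀ c : Z1 r (MonoidHom.id GQ) 0, (defAdic hlev c).IsFlatAt p →
      UnramOutside S' c.1 →
      (∀ q ∈ T, q.Prime → q ≠ p → (defAdic hlev c).IsUnipotentOnInertiaAt q) → c ∈ S)
    (n : ℕ) (hcard : Nat.card S ≤ Nat.card (ResidueField 𝒪) ^ (n + 3)) :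
    ∃ γ : MvPowerSeries (Fin n) 𝒪 →ₐ[𝒪] DQ.R, Function.Surjective γ := by
  let _ := dualAlg 𝒪
  refine exists_surjective_of_card_Z1 DQ hp2 hp hr hlev ?_ ?_ ?_ S hfin ?_ n hcard
  · intro φ hφ
    exact flat_baseChange _ hφ (finite_residueField_dual _) DQ.isOfType
  · intro ρ ρ' he h
    exact flat_isEquiv he h
  · rintro ρ ⟨⟨h1, -, -⟩, -⟩
    exact h1
  · rintro c ⟨⟨h1, h2, h3⟩, h4⟩
    refine hS c h2 (fun q hq hqS P hP σ hσ => ?_) h4
    exact (eq_zero_of_isUnramifiedAt (defAdic_hasMat hlev c) (h3 q hq hqS) hP hσ).2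

end Fermat.Agent.TW
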