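import Fermat.Agent.TW.Assembly
import Fermat.Agent.TW.Bridge
import Fermat.Agent.TW.TangentFlat
import Fermat.Agent.TW.LocalForms
import Fermat.Agent.TWGroup.Final

set_option autoImplicit false

/-!
# S56: the flat half and the final assembly
-/

namespace Fermat.Agent.TW

open Matrix IsLocalRing Polynomial GaloisRep
open scoped Pointwise
open Fermat.Agent.S53norm (GQ M2 HasMat dualAlg)

section Halves

variable {𝒪 : Type} [CommRing 𝒪] [IsDomain 𝒪] [IsDiscreteValuationRing 𝒪]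
  [IsAdicComplete (maximalIdeal 𝒪) 𝒪] [Finite (ResidueField 𝒪)]

/-- The flat half of S56, from the local bounds, the Greenberg-Wiles inequality and
the group theory. -/
theorem flat_half
    (p : ℕ) [Fact p.Prime] (hp2 : p ≠ 2) (hp𝒪 : (p : 𝒪) ∈ maximalIdeal 𝒪)
    (ρbar : ResidualGaloisRep (ResidueField 𝒪))
    (hdet : (GaloisRepAdic.ofResidualGaloisRep ρbar).DetIsCyclotomic p)
    (hsplit : ∀ σ : AlgebraicClosure ℚ ≃ₐ[ℚ] AlgebraicClosure ℚ,
      ∃ α β : ResidueField 𝒪, LinearMap.charpoly (ρbar.ρ σ) = (X - C α) * (X - C β))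
    (S Smin : Finset ℕ) (hpSmin : p ∈ Smin) (hSmin : Smin ⊆ S) (hS : ∀ q ∈ S, q.Prime)
    (hmin : ∀ q : ℕ, q.Prime → q ≠ p → (q ∈ Smin ↔ ¬ ρbar.IsUnramifiedAt q))
    {r : GQ →* M2 (ResidueField 𝒪)} (hr : HasMat (ρbar.ρ : GQ → _) r) (hlev : IsFiniteLevel r)
    (hTWe : TWElements p r) (hTWd : TWDetect p r) (hGW : GWad p r)
    (hfin : (dualSet r Smin).Finite)
    (hE2 : ∀ q ∈ Smin, q ≠ p →
      (defAdic hlev (0 : Z1 r (MonoidHom.id GQ) 0)).IsUnipotentOnInertiaAt q →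
      ∀ A : ValuationSubring (AlgebraicClosure ℚ), A.LiesOverPrime q →
        LocalBound r (A.decompositionSubgroup ℚ)
          (fun c => (defAdic hlev c).IsUnipotentOnInertiaAt q) 3)
    (hD2 : (defAdic hlev (0 : Z1 r (MonoidHom.id GQ) 0)).IsFlatAt p →
      ∀ A : ValuationSubring (AlgebraicClosure ℚ), A.LiesOverPrime p →
        LocalBound r (A.decompositionSubgroup ℚ)
          (fun c => (defAdic hlev c).IsFlatAt p) 4) :
    ∃ m : ℕ, ∀ n : ℕ, ∃ qv : Fin m → ℕ, Function.Injective qv ∧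
      (∀ i, (qv i).Prime ∧ qv i ∉ S ∧ p ^ (n + 1) ∣ qv i - 1) ∧
      (∀ i, ∀ P : ValuationSubring (AlgebraicClosure ℚ), P.LiesOverPrime (qv i) →
        ∀ φ : AlgebraicClosure ℚ ≃ₐ[ℚ] AlgebraicClosure ℚ, P.IsFrobeniusAt φ (qv i) →
          ∃ α β : ResidueField 𝒪, α ≠ β ∧ LinearMap.charpoly (ρbar.ρ φ) = (X - C α) * (X - C β)) ∧
      ∀ DQ : GaloisRep.DeformationRingData 𝒪 ρbar (fun _A _ _ _ ρ =>
          GaloisRep.flatCondition 𝒪 p (Smin ∪ Finset.univ.image qv) ρ ∧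
            ∀ q ∈ Smin, q.Prime → q ≠ p → ρ.IsUnipotentOnInertiaAt q),
        ∃ γ : MvPowerSeries (Fin m) 𝒪 →ₐ[𝒪] DQ.R, Function.Surjective γ := by
  have hp : p.Prime := Fact.out
  have hpk : (p : ResidueField 𝒪) = 0 := by
    have h1 := (residue_eq_zero_iff (R := 𝒪) (p : 𝒪)).2 hp𝒪
    rwa [map_natCast] at h1
  have hchar : CharP (ResidueField 𝒪) p := Frob.charP_of_prime_natCast_eq_zero hp hpk
  by_cases h0 : (defAdic hlev (0 : Z1 r (MonoidHom.id GQ) 0)).IsFlatAt p ∧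
      ∀ q ∈ Smin, q.Prime → q ≠ p →
        (defAdic hlev (0 : Z1 r (MonoidHom.id GQ) 0)).IsUnipotentOnInertiaAt q
  swap
  · refine ⟨0, fun n => ⟨Fin.elim0, fun i => i.elim0, fun i => i.elim0, fun i => i.elim0,
      fun DQ => ?_⟩⟩
    exact absurd (flat_zero_of_data Smin _ DQ hr hlev) h0
  have hT : ∀ q ∈ Smin, q.Prime := fun q hq => hS q (hSmin hq)
  have hrT : UnramOutside Smin (fun σ => r σ - 1) := unramOutside_of hr fun q hq hqS => by
    by_cases hqp : q = p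
    · exact absurd (hqp ▸ hpSmin) hqS
    · by_contra h
      exact hqS ((hmin q hq hqp).2 h)
  obtain ⟨m, hm⟩ := exists_twPrimes_and_selmer hp hp2 hlev (cycDet_of hr hpk hdet) hTWe hTWd hGW
    Smin hpSmin hT hrT hfin
    (fun q c => if q = p then (defAdic hlev c).IsFlatAt p
      else (defAdic hlev c).IsUnipotentOnInertiaAt q) (fun q hq A hA => by
        by_cases hqp : q = p
        · subst hqp
          simpa using hD2 h0.1 A hA
        · simpa [hqp] using hE2 q hq hqp (h0.2 q hq (hT q hq) hqp) A hA)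
  refine ⟨m, fun n => ?_⟩
  obtain ⟨qv, h1, h2, Sel, hSelfin, hSelcard, hSel⟩ := hm S (n + 1) hSmin (Nat.succ_ne_zero n)
  refine ⟨qv, h1, fun i => ⟨(h2 i).1.prime, (h2 i).2, (h2 i).1.dvd⟩, fun i P hP φ hφ =>
    exists_distinct hr (hsplit φ) ((h2 i).1.frob P hP φ hφ), fun DQ => ?_⟩
  refine exists_surjective_flat hp2 hpk Smin _ DQ hr hlev Sel hSelfin
    (fun c hc1 hc2 hc3 => hSel c hc2 fun q hq => ?_) m hSelcard
  by_cases hqp : q = p
  · simpa [hqp] using hc1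
  · simpa [hqp] using hc3 q hq (hT q hq) hqp

end Halves

section Assembly

/-- Finiteness of `H¹(G_{ℚ,T}, ad⁰(1))`. -/
def DualFin (p : ℕ) : Prop :=
  ∀ (k : Type) [Field k] [Finite k] [CharP k p] (r : GQ →* M2 k), IsFiniteLevel r → CycDet p r →
    ∀ T : Finset ℕ, p ∈ T → (∀ q ∈ T, q.Prime) → UnramOutside T (fun σ => r σ - 1) →
      (dualSet r T).Finite

/-- The bound for the flat local condition. -/
def FlatBound (p : ℕ) : Prop :=
  ∀ (k : Type) [Field k] [Finite k] [CharP k p] (r : GQ →* M2 k) (hlev : IsFiniteLevel r),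
    CycDet p r → (∀ σ, ∃ α β : k, (r σ).charpoly = (X - C α) * (X - C β)) →
    (defAdic hlev (0 : Z1 r (MonoidHom.id GQ) 0)).IsFlatAt p →
      ∀ A : ValuationSubring (AlgebraicClosure ℚ), A.LiesOverPrime p →
        LocalBound r (A.decompositionSubgroup ℚ) (fun c => (defAdic hlev c).IsFlatAt p) 4

variable {𝒪 : Type} [CommRing 𝒪] [IsDomain 𝒪] [IsDiscreteValuationRing 𝒪]
  [IsAdicComplete (maximalIdeal 𝒪) 𝒪] [Finite (ResidueField 𝒪)]

/-- S56 from the Greenberg-Wiles inequality, the finiteness of `H¹` and the flat bound. -/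
theorem both_halves
    (p : ℕ) [Fact p.Prime] (hp2 : p ≠ 2) (hp𝒪 : (p : 𝒪) ∈ maximalIdeal 𝒪)
    (hGW : GWcoc p) (hDF : DualFin p) (hFB : FlatBound p)
    (ρbar : ResidualGaloisRep (ResidueField 𝒪))
    (habs : ρbar.IsAbsolutelyIrreducible)
    (hdet : (GaloisRepAdic.ofResidualGaloisRep ρbar).DetIsCyclotomic p)
    (hsplit : ∀ σ : AlgebraicClosure ℚ ≃ₐ[ℚ] AlgebraicClosure ℚ,
      ∃ α β : ResidueField 𝒪, LinearMap.charpoly (ρbar.ρ σ) = (X - C α) * (X - C β))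
    (hTW : ∀ (K : Type) [Field K] [Algebra (ResidueField 𝒪) K]
      (G : Subgroup (AlgebraicClosure ℚ ≃ₐ[ℚ] AlgebraicClosure ℚ)), G.index = 2 →
      ∀ V : Submodule K (ρbar.baseChange K).V,
        (∀ σ ∈ G, ∀ x ∈ V, (ρbar.baseChange K).ρ σ x ∈ V) → V = ⊥ ∨ V = ⊤)
    (S Smin : Finset ℕ) (hpSmin : p ∈ Smin) (hSmin : Smin ⊆ S) (hS : ∀ q ∈ S, q.Prime)
    (hmin : ∀ q : ℕ, q.Prime → q ≠ p → (q ∈ Smin ↔ ¬ ρbar.IsUnramifiedAt q)) :
    (∃ r : ℕ, ∀ n : ℕ, ∃ qv : Fin r → ℕ, Function.Injective qv ∧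
      (∀ i, (qv i).Prime ∧ qv i ∉ S ∧ p ^ (n + 1) ∣ qv i - 1) ∧
      (∀ i, ∀ P : ValuationSubring (AlgebraicClosure ℚ), P.LiesOverPrime (qv i) →
        ∀ φ : AlgebraicClosure ℚ ≃ₐ[ℚ] AlgebraicClosure ℚ, P.IsFrobeniusAt φ (qv i) →
          ∃ α β : ResidueField 𝒪, α ≠ β ∧ LinearMap.charpoly (ρbar.ρ φ) = (X - C α) * (X - C β)) ∧
      ∀ DQ : GaloisRep.DeformationRingData 𝒪 ρbar (fun _A _ _ _ ρ =>
          GaloisRep.strictOrdinaryCondition 𝒪 p (Smin ∪ Finset.univ.image qv) ρ ∧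
            ∀ q ∈ Smin, q.Prime → q ≠ p → ρ.IsUnipotentOnInertiaAt q),
        ∃ γ : MvPowerSeries (Fin r) 𝒪 →ₐ[𝒪] DQ.R, Function.Surjective γ) ∧
    (∃ r : ℕ, ∀ n : ℕ, ∃ qv : Fin r → ℕ, Function.Injective qv ∧
      (∀ i, (qv i).Prime ∧ qv i ∉ S ∧ p ^ (n + 1) ∣ qv i - 1) ∧
      (∀ i, ∀ P : ValuationSubring (AlgebraicClosure ℚ), P.LiesOverPrime (qv i) →
        ∀ φ : AlgebraicClosure ℚ ≃ₐ[ℚ] AlgebraicClosure ℚ, P.IsFrobeniusAt φ (qv i) →
          ∃ α β : ResidueField 𝒪, α ≠ β ∧ LinearMap.charpoly (ρbar.ρ φ) = (X - C α) * (X - C β)) ∧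
      ∀ DQ : GaloisRep.DeformationRingData 𝒪 ρbar (fun _A _ _ _ ρ =>
          GaloisRep.flatCondition 𝒪 p (Smin ∪ Finset.univ.image qv) ρ ∧
            ∀ q ∈ Smin, q.Prime → q ≠ p → ρ.IsUnipotentOnInertiaAt q),
        ∃ γ : MvPowerSeries (Fin r) 𝒪 →ₐ[𝒪] DQ.R, Function.Surjective γ) := by
  obtain ⟨r, hr⟩ := exists_matrix ρbar
  have hlev : IsFiniteLevel r := isFiniteLevel_of_hasMat hr
  have hp : p.Prime := Fact.out
  have hpk : (p : ResidueField 𝒪) = 0 := by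
    have h1 := (residue_eq_zero_iff (R := 𝒪) (p : 𝒪)).2 hp𝒪
    rwa [map_natCast] at h1
  have hchar : CharP (ResidueField 𝒪) p := Frob.charP_of_prime_natCast_eq_zero hp hpk
  have hcyc : CycDet p r := cycDet_of hr hpk hdet
  have hsp : ∀ σ, ∃ α β : ResidueField 𝒪, (r σ).charpoly = (X - C α) * (X - C β) := fun σ => by
    rw [← charpoly_of_hasMat hr]
    exact hsplit σ
  have hNL : NoLine r := noLine_of hr habs hTW
  have hTWe : TWElements p r := TWGroup.twElements hp hp2 hcyc hsp hNL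
  have hTWd : TWDetect p r := TWGroup.twDetect hp hp2 hcyc hsp hNL
  have hGWad : GWad p r := gwad_of_gwcoc hp2 hGW hlev hcyc
  have hrT : UnramOutside Smin (fun σ => r σ - 1) := unramOutside_of hr fun q hq hqS => by
    by_cases hqp : q = p
    · exact absurd (hqp ▸ hpSmin) hqS
    · by_contra h
      exact hqS ((hmin q hq hqp).2 h)
  have hfin : (dualSet r Smin).Finite :=
    hDF _ r hlev hcyc Smin hpSmin (fun q hq => hS q (hSmin hq)) hrT
  have hE2 : ∀ q ∈ Smin, q ≠ p →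
      (defAdic hlev (0 : Z1 r (MonoidHom.id GQ) 0)).IsUnipotentOnInertiaAt q →
      ∀ A : ValuationSubring (AlgebraicClosure ℚ), A.LiesOverPrime q →
        LocalBound r (A.decompositionSubgroup ℚ)
          (fun c => (defAdic hlev c).IsUnipotentOnInertiaAt q) 3 := fun q hq hqp _ A hA =>
    localBound_isUnipotentOnInertiaAt hp2 (hS q (hSmin hq)) hqp hlev
      (not_unramified_matrix hr ((hmin q (hS q (hSmin hq)) hqp).1 hq)) A hA
  exact ⟨strictOrdinary_half p hp2 hp𝒪 ρbar hdet hsplit S Smin hpSmin hSmin hS hmin hr hlev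
      hTWe hTWd hGWad hfin hE2 (fun _ A hA => localBound_isStrictOrdinaryAt hp2 hlev hcyc A hA),
    flat_half p hp2 hp𝒪 ρbar hdet hsplit S Smin hpSmin hSmin hS hmin hr hlev
      hTWe hTWd hGWad hfin hE2 (hFB _ r hlev hcyc hsp)⟩

end Assembly

end Fermat.Agent.TW
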