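import Fermat.Agent.TW.Defs
import Fermat.Agent.Frob.Density
import Fermat.Agent.GalRep.Cyclo

set_option autoImplicit false

/-!
# S56, part (H): choice of the Taylor-Wiles primes
-/

namespace Fermat.Agent.TW

open Matrix
open scoped Pointwise
open Fermat.Agent.S53norm (GQ M2)

section Matrices

variable {k : Type} [Field k]

/-- The discriminant of a `2 × 2` matrix. -/
def disc (M : M2 k) : k := M.trace ^ 2 - 4 * M.det

lemma disc_ne_zero_iff {M : M2 k} : disc M ≠ 0 ↔ M.trace ^ 2 ≠ 4 * M.det := sub_ne_zero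

lemma disc_comb (M : M2 k) (a b : k) : disc (a • M + b • (1 : M2 k)) = a ^ 2 * disc M := by
  simp only [disc, Matrix.trace_fin_two, Matrix.det_fin_two, Matrix.add_apply, Matrix.smul_apply,
    smul_eq_mul, Matrix.one_apply_eq, ne_eq, zero_ne_one, not_false_eq_true,
    Matrix.one_apply_ne, one_ne_zero]
  ring

lemma mat_sq (M : M2 k) : M * M = M.trace • M - M.det • (1 : M2 k) := by
  ext i j
  fin_cases i <;> fin_cases j <;>
    simp [Matrix.mul_apply, Fin.sum_univ_two, Matrix.trace_fin_two, Matrix.det_fin_two] <;> ring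

lemma exists_pow_eq (M : M2 k) (n : ℕ) : ∃ a b : k, M ^ n = a • M + b • (1 : M2 k) := by
  induction n with
  | zero => exact ⟨0, 1, by simp⟩
  | succ n ih =>
    obtain ⟨a, b, h⟩ := ih
    refine ⟨a * M.trace + b, - (a * M.det), ?_⟩
    rw [pow_succ, h, add_mul, smul_mul_assoc, smul_mul_assoc, one_mul, mat_sq, smul_sub,
      smul_smul, smul_smul, add_smul, neg_smul]
    abel

lemma disc_pow_eq_zero {M : M2 k} (h : disc M = 0) (n : ℕ) : disc (M ^ n) = 0 := by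
  obtain ⟨a, b, h1⟩ := exists_pow_eq M n
  rw [h1, disc_comb, h, mul_zero]

lemma disc_conj (r : GQ →* M2 k) (g φ : GQ) : disc (r (g * φ * g⁻¹)) = disc (r φ) := by
  rw [disc, disc, map_mul, map_mul, trace_mul_cycle, det_mul, det_mul, r_inv_mul, one_mul]
  have h1 := det_mul_det_inv r g
  have h2 : (r g).det * (r φ).det * (r g⁻¹).det = ((r g).det * (r g⁻¹).det) * (r φ).det := by ring
  rw [h2, h1, one_mul]

end Matrices

section Places

lemma smul_eq_of_isFrobeniusAt {A : ValuationSubring (AlgebraicClosure ℚ)} {φ : GQ} {q : ℕ}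
    (h : A.IsFrobeniusAt φ q) : φ • A = A := h.mem_decompositionSubgroup

/-- Two Frobenius elements at the same place differ by an element of the inertia group. -/
lemma inv_mul_mem_inertia {A : ValuationSubring (AlgebraicClosure ℚ)} {φ φ' : GQ} {q : ℕ}
    (h : A.IsFrobeniusAt φ q) (h' : A.IsFrobeniusAt φ' q) :
    φ⁻¹ * φ' ∈ A.inertiaSubgroupIn ℚ := by
  refine ⟨(⟨φ, h.mem_decompositionSubgroup⟩ : A.decompositionSubgroup ℚ)⁻¹ *
    ⟨φ', h'.mem_decompositionSubgroup⟩, ?_, rfl⟩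
  refine MonoidHom.mem_ker.2 (RingEquiv.ext fun x => ?_)
  show ((⟨φ, h.mem_decompositionSubgroup⟩ : A.decompositionSubgroup ℚ)⁻¹ *
    ⟨φ', h'.mem_decompositionSubgroup⟩) • x = x
  rw [mul_smul, h'.smul_residue_eq, ← h.smul_residue_eq, inv_smul_smul]

lemma conj_mem_decomposition {A : ValuationSubring (AlgebraicClosure ℚ)} {g σ : GQ}
    (h : σ ∈ (g • A).decompositionSubgroup ℚ) : g⁻¹ * σ * g ∈ A.decompositionSubgroup ℚ := by
  rw [FrobDensity.mem_decomposition_iff] at h ⊢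
  rw [mul_smul, mul_smul, h, inv_smul_smul]

end Places

section Select

variable {k : Type} [Field k] {r : GQ →* M2 k} {p : ℕ}

/-- `q` is a Taylor-Wiles prime of level `N`. -/
structure IsTWPrime (p N : ℕ) (r : GQ →* M2 k) (q : ℕ) : Prop where
  prime : q.Prime
  dvd : p ^ N ∣ q - 1
  frob : ∀ P : ValuationSubring (AlgebraicClosure ℚ), P.LiesOverPrime q →
    ∀ φ : GQ, P.IsFrobeniusAt φ q → (r φ).trace ^ 2 ≠ 4 * (r φ).det

/-- `ψ` is a coboundary on the subgroup `D`. -/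
def LocTriv (r : GQ →* M2 k) (D : Subgroup GQ) (ψ : GQ → M2 k) : Prop :=
  ∃ X : M2 k, X.trace = 0 ∧ ∀ σ ∈ D, ψ σ = act r 1 σ X - X

lemma LocTriv.conj {ψ : GQ → M2 k} (hψ : ψ ∈ Z1 r (MonoidHom.id GQ) 1)
    {A : ValuationSubring (AlgebraicClosure ℚ)}
    (h : LocTriv r (A.decompositionSubgroup ℚ) ψ) (g : GQ) :
    LocTriv r ((g • A).decompositionSubgroup ℚ) ψ := by
  obtain ⟨X, hX, h1⟩ := h
  refine ⟨act r 1 g X - ψ g, ?_, fun σ hσ => ?_⟩
  · rw [trace_sub, trace_act, hX, mul_zero, hψ.1, sub_zero]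
  · have h2 := h1 _ (conj_mem_decomposition hσ)
    have h3 : σ = g * ((g⁻¹ * σ * g) * g⁻¹) := by group
    have h4 : ψ g⁻¹ = - act r 1 g⁻¹ (ψ g) := Z1_inv hψ g
    have h5 := hψ.2.1 g ((g⁻¹ * σ * g) * g⁻¹)
    rw [← h3, hψ.2.1 (g⁻¹ * σ * g) g⁻¹, h2, h4] at h5
    simp only [MonoidHom.id_apply] at h5
    rw [h5]
    simp only [map_add, map_sub, map_neg, ← act_mul]
    rw [show g * (g⁻¹ * σ * g) = σ * g by group, show g * (g⁻¹ * σ * g * g⁻¹) = σ by group]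
    abel

/-- A cocycle unramified outside `T ∪ Q` which is a coboundary at a place above each `q ∈ Q` is
unramified outside `T` (if `r` is). -/
lemma unramOutside_of_locTriv {T Q : Finset ℕ} (hrT : UnramOutside T (fun σ => r σ - 1))
    {ψ : GQ → M2 k} (hψ : ψ ∈ Z1 r (MonoidHom.id GQ) 1) (hur : UnramOutside (T ∪ Q) ψ)
    {A : ℕ → ValuationSubring (AlgebraicClosure ℚ)}
    (hA : ∀ q ∈ Q, (A q).LiesOverPrime q)
    (hloc : ∀ q ∈ Q, LocTriv r ((A q).decompositionSubgroup ℚ) ψ) : UnramOutside T ψ := by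
  intro q hq hqT B hB σ hσ
  by_cases hqQ : q ∈ Q
  · obtain ⟨g, hg⟩ := Frob.exists_smul_eq hq (hA q hqQ) hB
    obtain ⟨X, -, h1⟩ := (hloc q hqQ).conj hψ g
    rw [hg] at h1
    have h2 : σ ∈ B.decompositionSubgroup ℚ := by
      obtain ⟨s, -, rfl⟩ := hσ
      exact s.2
    have h3 : r σ = 1 := sub_eq_zero.1 (hrT q hq hqT B hB σ hσ)
    have h4 : r σ⁻¹ = 1 := by
      have := r_mul_inv r σ
      rwa [h3, one_mul] at this
    rw [h1 σ h2, act_apply, h3, h4, det_one, one_pow, one_smul, one_mul, mul_one, sub_self]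
  · exact hur q hq (by rw [Finset.mem_union]; tauto) B hB σ hσ

lemma finiteDimensional_roots (m : ℕ) (hm : m ≠ 0) :
    FiniteDimensional ℚ (IntermediateField.adjoin ℚ {μ : AlgebraicClosure ℚ | μ ^ m = 1}) := by
  have hfin : {μ : AlgebraicClosure ℚ | μ ^ m = 1}.Finite := by
    have h1 : {μ : AlgebraicClosure ℚ | μ ^ m = 1} ⊆
        ((Polynomial.X ^ m - 1 : Polynomial (AlgebraicClosure ℚ)).roots.toFinset : Set _) := by
      intro μ hμ
      have hμ' : μ ^ m = 1 := hμ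
      rw [Finset.mem_coe, Multiset.mem_toFinset, Polynomial.mem_roots]
      · simp [Polynomial.IsRoot, hμ']
      · exact (Polynomial.monic_X_pow_sub_C (1 : AlgebraicClosure ℚ) hm).ne_zero
    exact (Finset.finite_toSet _).subset h1
  have := hfin.to_subtype
  exact IntermediateField.finiteDimensional_adjoin fun x _ => Algebra.IsIntegral.isIntegral x

/-- From a Taylor-Wiles element to a Taylor-Wiles prime. -/
theorem exists_prime_of_element (hp : p.Prime) {N : ℕ} {S : Finset ℕ} (hpS : p ∈ S)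
    (hrS : UnramOutside S (fun σ => r σ - 1)) {σ : GQ}
    (hσμ : ∀ μ : AlgebraicClosure ℚ, μ ^ p ^ N = 1 → σ μ = μ)
    (hσ : (r σ).trace ^ 2 ≠ 4 * (r σ).det) (L : IntermediateField ℚ (AlgebraicClosure ℚ))
    (hLfin : FiniteDimensional ℚ L) (hL : ∀ τ : GQ, (∀ x ∈ L, τ x = x) → r τ = 1) :
    ∃ q : ℕ, IsTWPrime p N r q ∧ q ∉ S ∧ ∃ A : ValuationSubring (AlgebraicClosure ℚ),
      A.LiesOverPrime q ∧ ∃ φ : GQ, A.IsFrobeniusAt φ q ∧ ∃ m : ℕ, ∀ x ∈ L, σ x = (φ ^ m) x := by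
  have hpN : p ^ N ≠ 0 := pow_ne_zero _ hp.ne_zero
  have := finiteDimensional_roots (p ^ N) hpN
  have : FiniteDimensional ℚ ((L ⊔ IntermediateField.adjoin ℚ
      {μ : AlgebraicClosure ℚ | μ ^ p ^ N = 1} : IntermediateField ℚ (AlgebraicClosure ℚ))) :=
    IntermediateField.finiteDimensional_sup _ _
  obtain ⟨q, hq, hqS, A, hA, φ, hφ, m, m', h1, h2⟩ := FrobDensity.exists_frobenius_on
    (L ⊔ IntermediateField.adjoin ℚ {μ : AlgebraicClosure ℚ | μ ^ p ^ N = 1}) σ (S : Set ℕ)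
    S.finite_toSet
  have hqp : q ≠ p := fun h => hqS (by rw [h]; exact hpS)
  have hcop : Nat.Coprime q (p ^ N) := Nat.Coprime.pow_right _ ((Nat.coprime_primes hq hp).2 hqp)
  have hL1 : ∀ x ∈ L, σ x = (φ ^ m') x := fun x hx => h2 x ((le_sup_left : L ≤ _) hx)
  have hrσ : r σ = r (φ ^ m') := by
    have h3 : r ((φ ^ m')⁻¹ * σ) = 1 := hL _ fun x hx => by
      show (φ ^ m').symm (σ x) = x
      rw [hL1 x hx, AlgEquiv.symm_apply_apply]
    rw [map_mul] at h3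
    calc r σ = r (φ ^ m') * r (φ ^ m')⁻¹ * r σ := by rw [r_mul_inv, one_mul]
      _ = r (φ ^ m') := by rw [mul_assoc, h3, mul_one]
  have hdisc : disc (r φ) ≠ 0 := by
    intro h0
    apply disc_ne_zero_iff.2 hσ
    rw [hrσ, map_pow]
    exact disc_pow_eq_zero h0 _
  refine ⟨q, ⟨hq, ?_, ?_⟩, fun h => hqS h, A, hA, φ, hφ, m', hL1⟩
  · have : NeZero ((p ^ N : ℕ) : ℚ) := ⟨by exact_mod_cast hpN⟩
    obtain ⟨ζ, hζ⟩ := HasEnoughRootsOfUnity.exists_primitiveRoot (AlgebraicClosure ℚ) (p ^ N)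
    have h3 : φ ζ = ζ ^ q := GalRep.frobenius_rootOfUnity hA hcop hpN hφ hζ.pow_eq_one
    have h4 : φ ζ = (σ ^ m) ζ := h1 ζ ((le_sup_right : IntermediateField.adjoin ℚ
      {μ : AlgebraicClosure ℚ | μ ^ p ^ N = 1} ≤ _)
        (IntermediateField.subset_adjoin ℚ _ hζ.pow_eq_one))
    have h5 : ∀ j : ℕ, (σ ^ j) ζ = ζ := by
      intro j
      induction j with
      | zero => simp
      | succ j ih =>
        rw [pow_succ, AlgEquiv.mul_apply, hσμ ζ hζ.pow_eq_one, ih]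
    rw [h5] at h4
    have hζ0 : ζ ≠ 0 := hζ.ne_zero hpN
    have h6 : ζ ^ (q - 1) = 1 := by
      have h7 : ζ ^ (q - 1) * ζ = ζ := by
        rw [← pow_succ, Nat.sub_add_cancel hq.one_lt.le, ← h3, h4]
      exact mul_right_cancel₀ hζ0 (by rw [h7, one_mul])
    exact hζ.dvd_of_pow_eq_one _ h6
  · intro P hP φ' hφ'
    obtain ⟨g, hg⟩ := Frob.exists_smul_eq hq hA hP
    have h3 : (g⁻¹ • P).IsFrobeniusAt (g⁻¹ * φ' * g) q := by
      have := FrobDensity.isFrobeniusAt_conj (g := g⁻¹) hφ'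
      rwa [inv_inv] at this
    rw [← hg, inv_smul_smul] at h3
    have h4 := hrS q hq (fun h => hqS h) A hA _ (inv_mul_mem_inertia hφ h3)
    have h5 : r (g⁻¹ * φ' * g) = r φ := by
      have h6 : r (φ⁻¹ * (g⁻¹ * φ' * g)) = 1 := sub_eq_zero.1 h4
      rw [map_mul] at h6
      calc r (g⁻¹ * φ' * g) = r φ * r φ⁻¹ * r (g⁻¹ * φ' * g) := by rw [r_mul_inv, one_mul]
        _ = r φ := by rw [mul_assoc, h6, mul_one]
    rw [← disc_ne_zero_iff]
    have h6 := disc_conj r g⁻¹ φ'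
    rw [inv_inv, h5] at h6
    rwa [← h6]

/-- If `ψ` is trivial at a place whose Frobenius has `σ` as a power (on a level of `ψ`), then
`ψ σ` is in the image of `σ - 1`. -/
lemma exists_of_locTriv {ψ : GQ → M2 k} (hψ : ψ ∈ Z1 r (MonoidHom.id GQ) 1)
    {L : IntermediateField ℚ (AlgebraicClosure ℚ)} (hL : ∀ τ : GQ, (∀ x ∈ L, τ x = x) → r τ = 1)
    (hL' : ∀ τ : GQ, (∀ x ∈ L, τ x = x) → ψ τ = 0)
    {A : ValuationSubring (AlgebraicClosure ℚ)} (h : LocTriv r (A.decompositionSubgroup ℚ) ψ)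
    {φ σ : GQ} (hφ : φ ∈ A.decompositionSubgroup ℚ) {m : ℕ} (hm : ∀ x ∈ L, σ x = (φ ^ m) x) :
    ∃ X : M2 k, X.trace = 0 ∧ ψ σ = act r 1 σ X - X := by
  obtain ⟨X, hX, h1⟩ := h
  refine ⟨X, hX, ?_⟩
  have h3 : ∀ x ∈ L, ((φ ^ m)⁻¹ * σ) x = x := fun x hx => by
    show (φ ^ m).symm (σ x) = x
    rw [hm x hx, AlgEquiv.symm_apply_apply]
  have h4 : σ = φ ^ m * ((φ ^ m)⁻¹ * σ) := by group
  have h5 : ψ σ = ψ (φ ^ m) := by
    rw [h4, hψ.2.1, hL' _ h3, map_zero, add_zero]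
  have h6 : act r 1 σ X = act r 1 (φ ^ m) X := by
    rw [h4, act_mul]
    congr 1
    have h7 : r ((φ ^ m)⁻¹ * σ) = 1 := hL _ h3
    have h8 : r ((φ ^ m)⁻¹ * σ)⁻¹ = 1 := by
      have := r_mul_inv r ((φ ^ m)⁻¹ * σ)
      rwa [h7, one_mul] at this
    rw [act_apply, h7, h8, det_one, one_pow, one_smul, one_mul, mul_one]
  rw [h5, h6]
  exact h1 _ (Subgroup.pow_mem _ hφ m)

variable (r) in
/-- The cocycles of `ad⁰(1)` unramified outside `T`. -/
def dualSet (T : Finset ℕ) : Set (GQ → M2 k) :=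
  {ψ | ψ ∈ Z1 r (MonoidHom.id GQ) 1 ∧ UnramOutside T ψ}

/-- **Choice of the Taylor-Wiles primes.**  The number `m` only depends on `T`. -/
theorem exists_twPrimes (hp : p.Prime) (hr : IsFiniteLevel r) (hTW : TWElements p r)
    (hTWd : TWDetect p r) (T : Finset ℕ) (hpT : p ∈ T)
    (hrT : UnramOutside T (fun σ => r σ - 1)) (hfin : (dualSet r T).Finite) :
    ∃ m : ℕ, ∀ (S : Finset ℕ) (N : ℕ), T ⊆ S → ∃ qv : Fin m → ℕ, Function.Injective qv ∧
      (∀ i, IsTWPrime p N r (qv i) ∧ qv i ∉ S) ∧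
      ∀ ψ ∈ dualSet r T, (∀ i, ∃ A : ValuationSubring (AlgebraicClosure ℚ),
        A.LiesOverPrime (qv i) ∧ LocTriv r (A.decompositionSubgroup ℚ) ψ) →
        ∃ X : M2 k, X.trace = 0 ∧ ψ = cob r (MonoidHom.id GQ) 1 X := by
  classical
  refine ⟨(dualSet r T).ncard, fun S N hTS => ?_⟩
  have hrS' : ∀ S' : Finset ℕ, S ⊆ S' → UnramOutside S' (fun σ => r σ - 1) :=
    fun S' h q hq hqS => hrT q hq fun h' => hqS (h (hTS h'))
  let V : Finset ℕ → Set (GQ → M2 k) := fun Q => {ψ | ψ ∈ dualSet r T ∧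
    ∀ q ∈ Q, ∃ A : ValuationSubring (AlgebraicClosure ℚ),
      A.LiesOverPrime q ∧ LocTriv r (A.decompositionSubgroup ℚ) ψ}
  have hV0 : ∀ Q, V Q ⊆ dualSet r T := fun Q ψ h => h.1
  have hVfin : ∀ Q, (V Q).Finite := fun Q => hfin.subset (hV0 Q)
  have hVmono : ∀ Q q, V (insert q Q) ⊆ V Q := fun Q q ψ h =>
    ⟨h.1, fun q' hq' => h.2 q' (Finset.mem_insert_of_mem hq')⟩
  obtain ⟨L₀, hL₀, hL₀r⟩ := hr
  have claim : ∀ m : ℕ, ∃ Q : Finset ℕ, Q.card = m ∧ (∀ q ∈ Q, IsTWPrime p N r q ∧ q ∉ S) ∧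
      ((∀ ψ ∈ V Q, ∃ X : M2 k, X.trace = 0 ∧ ψ = cob r (MonoidHom.id GQ) 1 X) ∨
        (V Q).ncard + m ≤ (dualSet r T).ncard) := by
    intro m
    induction m with
    | zero =>
      refine ⟨∅, rfl, by simp, Or.inr ?_⟩
      rw [add_zero]
      exact Set.ncard_le_ncard (hV0 ∅) hfin
    | succ m ih =>
      obtain ⟨Q, hQc, hQ, h⟩ := ih
      have hpSQ : p ∈ S ∪ Q := Finset.mem_union_left _ (hTS hpT)
      by_cases hc : ∀ ψ ∈ V Q, ∃ X : M2 k, X.trace = 0 ∧ ψ = cob r (MonoidHom.id GQ) 1 X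
      · obtain ⟨σ, hσ1, hσ2⟩ := hTW N
        obtain ⟨q, hq, hqS, -⟩ := exists_prime_of_element hp hpSQ
          (hrS' _ Finset.subset_union_left) hσ1 hσ2 L₀ hL₀ hL₀r
        rw [Finset.mem_union, not_or] at hqS
        refine ⟨insert q Q, by rw [Finset.card_insert_of_notMem hqS.2, hQc], ?_, Or.inl ?_⟩
        · intro q' hq'
          rcases Finset.mem_insert.1 hq' with rfl | hq'
          · exact ⟨hq, hqS.1⟩
          · exact hQ q' hq'
        · exact fun ψ hψ => hc ψ (hVmono Q q hψ)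
      · have h1 : (V Q).ncard + m ≤ (dualSet r T).ncard := h.resolve_left hc
        push Not at hc
        obtain ⟨ψ, hψV, hψ⟩ := hc
        have hψ1 : ψ ∈ Z1 r (MonoidHom.id GQ) 1 := hψV.1.1
        obtain ⟨σ, hσ1, hσ2, hσ3⟩ := hTWd N ψ hψ1 hψ
        obtain ⟨L₁, hL₁, hL₁ψ⟩ := hψ1.2.2
        have := hL₀
        have := hL₁
        have hL : ∀ τ : GQ, (∀ x ∈ L₀ ⊔ L₁, τ x = x) → r τ = 1 := fun τ h =>
          hL₀r τ fun x hx => h x ((le_sup_left : L₀ ≤ L₀ ⊔ L₁) hx)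
        have hL' : ∀ τ : GQ, (∀ x ∈ L₀ ⊔ L₁, τ x = x) → ψ τ = 0 := fun τ h =>
          hL₁ψ τ fun x hx => h x ((le_sup_right : L₁ ≤ L₀ ⊔ L₁) hx)
        obtain ⟨q, hq, hqS, A, hA, φ, hφ, m', hm'⟩ := exists_prime_of_element hp hpSQ
          (hrS' _ Finset.subset_union_left) hσ1 hσ2 (L₀ ⊔ L₁)
          (IntermediateField.finiteDimensional_sup _ _) hL
        rw [Finset.mem_union, not_or] at hqS
        refine ⟨insert q Q, by rw [Finset.card_insert_of_notMem hqS.2, hQc], ?_, Or.inr ?_⟩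
        · intro q' hq'
          rcases Finset.mem_insert.1 hq' with rfl | hq'
          · exact ⟨hq, hqS.1⟩
          · exact hQ q' hq'
        · have hlt : (V (insert q Q)).ncard < (V Q).ncard := by
            refine Set.ncard_lt_ncard ⟨hVmono Q q, fun hle => ?_⟩ (hVfin Q)
            obtain ⟨B, hB, hB1⟩ := (hle hψV).2 q (Finset.mem_insert_self q Q)
            obtain ⟨g, hg⟩ := Frob.exists_smul_eq hq.prime hB hA
            have h2 := hB1.conj hψ1 g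
            rw [hg] at h2
            obtain ⟨X, hX, h3⟩ := exists_of_locTriv hψ1 hL hL' h2 hφ.mem_decompositionSubgroup hm'
            exact hσ3 X hX h3
          omega
  obtain ⟨Q, hQc, hQ, h⟩ := claim (dualSet r T).ncard
  have hcob : ∀ ψ ∈ V Q, ∃ X : M2 k, X.trace = 0 ∧ ψ = cob r (MonoidHom.id GQ) 1 X := by
    refine h.resolve_right fun h1 => ?_
    have h2 : (V Q).ncard = 0 := by omega
    rw [Set.ncard_eq_zero (hVfin Q)] at h2
    have h3 : (0 : GQ → M2 k) ∈ V Q := by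
      refine ⟨⟨Submodule.zero_mem _, fun _ _ _ _ _ _ _ => rfl⟩, fun q hq => ?_⟩
      obtain ⟨A, hA⟩ := Frob.exists_liesOverPrime q (hQ q hq).1.prime
      exact ⟨A, hA, 0, trace_zero _ _, fun σ _ => by simp⟩
    rw [h2] at h3
    exact h3
  let e := Q.equivFinOfCardEq hQc
  refine ⟨fun i => (e.symm i : ℕ), fun i j hij => e.symm.injective (Subtype.ext hij),
    fun i => hQ _ (e.symm i).2, fun ψ hψ hloc => hcob ψ ⟨hψ, fun q hq => ?_⟩⟩
  have := hloc (e ⟨q, hq⟩)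
  simpa using this

/-- **Choice of the Taylor-Wiles primes**, in the form needed for the Greenberg-Wiles
inequality. -/
theorem exists_twPrimes' (hp : p.Prime) (hr : IsFiniteLevel r) (hTW : TWElements p r)
    (hTWd : TWDetect p r) (T : Finset ℕ) (hpT : p ∈ T)
    (hrT : UnramOutside T (fun σ => r σ - 1)) (hfin : (dualSet r T).Finite) :
    ∃ m : ℕ, ∀ (S : Finset ℕ) (N : ℕ), T ⊆ S → ∃ qv : Fin m → ℕ, Function.Injective qv ∧
      (∀ i, IsTWPrime p N r (qv i) ∧ qv i ∉ S) ∧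
      ∀ A : ℕ → ValuationSubring (AlgebraicClosure ℚ),
        (∀ q ∈ Finset.univ.image qv, (A q).LiesOverPrime q) →
        ∀ ψ ∈ Z1 r (MonoidHom.id GQ) 1, UnramOutside (T ∪ Finset.univ.image qv) ψ →
          (∀ q ∈ Finset.univ.image qv, ∃ X : M2 k, X.trace = 0 ∧
            ∀ σ ∈ (A q).decompositionSubgroup ℚ, ψ σ = act r 1 σ X - X) →
          ∃ X : M2 k, X.trace = 0 ∧ ψ = cob r (MonoidHom.id GQ) 1 X := by
  obtain ⟨m, hm⟩ := exists_twPrimes hp hr hTW hTWd T hpT hrT hfin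
  refine ⟨m, fun S N hTS => ?_⟩
  obtain ⟨qv, h1, h2, h3⟩ := hm S N hTS
  refine ⟨qv, h1, h2, fun A hA ψ hψ hur hloc => ?_⟩
  have h4 : UnramOutside T ψ := unramOutside_of_locTriv hrT hψ hur hA hloc
  exact h3 ψ ⟨hψ, h4⟩ fun i => ⟨A (qv i), hA _ (Finset.mem_image_of_mem _ (Finset.mem_univ i)),
    hloc _ (Finset.mem_image_of_mem _ (Finset.mem_univ i))⟩

end Select

end Fermat.Agent.TW
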