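import Fermat.Agent.TW.Bridge
import Fermat.Agent.TW.Final
import Fermat.Agent.CFT.SKummer.Levels
import Fermat.Agent.CFT.Bridge.Chars

set_option autoImplicit false

/-!
# Finiteness of the spaces of cocycles unramified outside a finite set
-/

namespace Fermat.Agent.TW

open Matrix ExtCitation
open scoped Pointwise
open Fermat.Agent.S53norm (GQ M2 HasMat dualAlg)
open Fermat.Agent.PT (LevelSys LC1 Discrete)

section Abstract

variable {G : Type} [Group G] {p : ℕ} [Fact p.Prime] {M : Type} [AddCommGroup M]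
  [Module (ZMod p) M] [Finite M] {𝓛 : LevelSys G} (ρ : Representation (ZMod p) G M)

/-- If `ρ` is trivial on `U` and `Hom(U, 𝔽_p)` is finite then `Z¹(G, M)` is finite. -/
theorem finite_Z1_of_restrict {U : Subgroup G} (hUf : U.FiniteIndex) (hU : ∀ u ∈ U, ρ u = 1)
    (hfin : Finite (PT.Z1 (𝓛.restrict U) (CFT.Bridge.triv p U))) : Finite (PT.Z1 𝓛 ρ) := by
  classical
  have : FiniteDimensional (ZMod p) M := Module.Finite.of_finite
  set b := Module.finBasis (ZMod p) M with hb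
  have hf : Finite (G ⧸ U) := inferInstance
  have key : ∀ (c : PT.Z1 𝓛 ρ) (i : Fin (Module.finrank (ZMod p) M)),
      (fun u : U => b.repr (c.1 u) i) ∈ PT.Z1 (𝓛.restrict U) (CFT.Bridge.triv p U) := by
    intro c i
    obtain ⟨⟨V, hV, hcV⟩, hc⟩ := c.2
    refine ⟨⟨V.comap U.subtype, LevelSys.comap_mem_comap _ hV, fun g s hs => ?_⟩, fun g h => ?_⟩
    · show b.repr (c.1 ((g : G) * (s : G))) i = b.repr (c.1 g) i
      rw [hcV (g : G) (s : G) hs]
    · show b.repr (c.1 ((g : G) * (h : G))) i = b.repr (c.1 h) i + b.repr (c.1 g) i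
      rw [hc, hU g g.2, map_add, Module.End.one_apply, Finsupp.add_apply]
  refine Finite.of_injective (fun c : PT.Z1 𝓛 ρ =>
    ((fun i => (⟨_, key c i⟩ : PT.Z1 (𝓛.restrict U) (CFT.Bridge.triv p U))),
      (fun q : G ⧸ U => c.1 q.out))) fun c c' hcc => ?_
  have h1 := congrArg Prod.fst hcc
  have h2 := congrArg Prod.snd hcc
  have h3 : ∀ u ∈ U, c.1 u = c'.1 u := by
    intro u hu
    apply b.repr.injective
    ext i
    have := congrArg Subtype.val (congrFun h1 i)
    exact congrFun this ⟨u, hu⟩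
  refine Subtype.ext (funext fun g => ?_)
  have h4 : (g : G ⧸ U).out⁻¹ * g ∈ U := QuotientGroup.eq.1 (Quotient.out_eq' (g : G ⧸ U))
  have h5 : g = (g : G ⧸ U).out * ((g : G ⧸ U).out⁻¹ * g) := by group
  have h6 := congrFun h2 (g : G ⧸ U)
  rw [h5, c.2.2, c'.2.2, h3 _ h4]
  simp only at h6
  rw [h6]

end Abstract

/-- Finiteness of `Hom(G_{K,S}, 𝔽_p)` for all sufficiently large finite `K ⊆ ℚ_S`. -/
def HomFin (p : ℕ) [Fact p.Prime] : Prop :=
  ∀ S : Finset Nat.Primes, pPrime p ∈ S → ∀ U ∈ CFT.SKummer.sLevels S,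
    ∃ U' ∈ CFT.SKummer.sLevels S, U' ≤ U ∧
      Finite (PT.Z1 ((CFT.SKummer.sLevels S).restrict U') (CFT.Bridge.triv p U'))

lemma levelsS_eq (S : Finset Nat.Primes) : levelsS S = CFT.SKummer.sLevels S := rfl

section Main

variable {k : Type} [Field k] {p : ℕ} [hp : Fact p.Prime] {r : GQ →* M2 k}

/-- Finiteness of `Z¹(G_S, ad⁰(j))`. -/
theorem finite_unramOutside [Finite k] [CharP k p] (hF : HomFin p) (hr : IsFiniteLevel r)
    {S : Finset ℕ} (hpS : p ∈ S) (hrS : UnramOutside S (fun σ => r σ - 1)) (j : ℕ) :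
    {c : GQ → M2 k | c ∈ Z1 r (MonoidHom.id GQ) j ∧ UnramOutside S c}.Finite := by
  let _ : Algebra (ZMod p) k := ZMod.algebra k p
  have h0 : MonoidHom.ker r ∈ levelsS (toPrimes S) := by
    obtain ⟨L, hL, h⟩ := hr
    refine mem_levelsS_of (mem_galLevels_of hL fun σ hσ => h σ hσ) ?_
    intro q hq A hA σ hσ
    have hq' : (q : ℕ) ∉ S := fun h => hq (mem_toPrimes.2 h)
    exact MonoidHom.mem_ker.2 (sub_eq_zero.1 (hrS q q.2 hq' A hA σ hσ))
  obtain ⟨U, hU, hUr, hfin⟩ := hF (toPrimes S) (mem_toPrimes.2 hpS) _ h0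
  have hUf : U.FiniteIndex := LevelSys.finiteIndex hU
  have hfin2 : Finite (PT.Z1 (levelsS (toPrimes S)) (adRep p r j)) :=
    finite_Z1_of_restrict (adRep p r j) hUf (fun u hu => LinearMap.ext fun X => Subtype.ext
      (act_eq_self (MonoidHom.mem_ker.1 (hUr hu)) _)) hfin
  rw [← Set.finite_coe_iff]
  refine Finite.of_injective (fun c : {c : GQ → M2 k | c ∈ Z1 r (MonoidHom.id GQ) j ∧
    UnramOutside S c} => (⟨_, lift_mem_Z1 (p := p) hr hrS c.2.1 c.2.2⟩ :
      PT.Z1 (levelsS (toPrimes S)) (adRep p r j))) fun c c' hcc => ?_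
  refine Subtype.ext (funext fun σ => ?_)
  have := congrFun (congrArg Subtype.val hcc) σ
  exact congrArg Subtype.val this

/-- The finiteness input of S56. -/
theorem dualFin_of_homFin (hF : HomFin p) : DualFin p := by
  intro k _ _ _ r hr _ T hpT _ hrT
  exact finite_unramOutside hF hr hpT hrT 1

end Main

end Fermat.Agent.TW
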