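import Fermat.Agent.TW.Core
import Fermat.Agent.TW.TangentDefs
import Fermat.Statements.S56

set_option autoImplicit false

/-!
# S56: assembly
-/

namespace Fermat.Agent.TW

open Matrix IsLocalRing Polynomial GaloisRep
open scoped Pointwise
open Fermat.Agent.S53norm (GQ M2 HasMat dualAlg)

section Core

variable {k : Type} [Field k] {r : GQ →* M2 k} {p : ℕ}

/-- From the local bounds, the Greenberg-Wiles inequality and the choice of primes to a bound for
the number of allowed cocycles. -/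
theorem exists_twPrimes_and_selmer [Finite k] [CharP k p] (hp : p.Prime) (hp2 : p ≠ 2)
    (hlev : IsFiniteLevel r) (hdet : CycDet p r)
    (hTWe : TWElements p r) (hTWd : TWDetect p r) (hGW : GWad p r)
    (T : Finset ℕ) (hpT : p ∈ T) (hT : ∀ q ∈ T, q.Prime)
    (hrT : UnramOutside T (fun σ => r σ - 1)) (hfin : (dualSet r T).Finite)
    (P : ℕ → Z1 r (MonoidHom.id GQ) 0 → Prop)
    (hP : ∀ q ∈ T, ∀ A : ValuationSubring (AlgebraicClosure ℚ), A.LiesOverPrime q →
      LocalBound r (A.decompositionSubgroup ℚ) (P q) (if q = p then 4 else 3)) :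
    ∃ m : ℕ, ∀ (S : Finset ℕ) (N : ℕ), T ⊆ S → N ≠ 0 → ∃ qv : Fin m → ℕ, Function.Injective qv ∧
      (∀ i, IsTWPrime p N r (qv i) ∧ qv i ∉ S) ∧
      ∃ Sel : Set (Z1 r (MonoidHom.id GQ) 0), Sel.Finite ∧ Nat.card Sel ≤ Nat.card k ^ (m + 3) ∧
        ∀ c : Z1 r (MonoidHom.id GQ) 0, UnramOutside (T ∪ Finset.univ.image qv) c.1 →
          (∀ q ∈ T, P q c) → c ∈ Sel := by
  classical
  obtain ⟨m, hm⟩ := exists_twPrimes' hp hlev hTWe hTWd T hpT hrT hfin
  refine ⟨m, fun S N hTS hN => ?_⟩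
  obtain ⟨qv, h1, h2, h3⟩ := hm S N hTS
  refine ⟨qv, h1, h2, ?_⟩
  set Q := Finset.univ.image qv with hQdef
  have hQcard : Q.card = m := by
    rw [hQdef, Finset.card_image_of_injective _ h1, Finset.card_univ, Fintype.card_fin]
  have hQprop : ∀ q ∈ Q, IsTWPrime p N r q ∧ q ∉ S := by
    intro q hq
    obtain ⟨i, -, rfl⟩ := Finset.mem_image.1 hq
    exact h2 i
  have hdisj : Disjoint T Q := by
    rw [Finset.disjoint_left]
    exact fun q hqT hqQ => (hQprop q hqQ).2 (hTS hqT)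
  have hprime : ∀ q ∈ T ∪ Q, q.Prime := by
    intro q hq
    rcases Finset.mem_union.1 hq with hq | hq
    · exact hT q hq
    · exact (hQprop q hq).1.prime
  choose! A hA using fun (q : ℕ) (hq : q ∈ T ∪ Q) => Frob.exists_liesOverPrime q (hprime q hq)
  have hloc : ∀ q : ℕ, ∃ Λ : AddSubgroup ((A q).decompositionSubgroup ℚ → M2 k), q ∈ T →
      (Finite Λ ∧ Nat.card Λ ≤ Nat.card k ^ (if q = p then 4 else 3) ∧
      (∀ c ∈ Λ, c ∈ Z1 r ((A q).decompositionSubgroup ℚ).subtype 0) ∧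
      (∀ X : M2 k, X.trace = 0 → cob r ((A q).decompositionSubgroup ℚ).subtype 0 X ∈ Λ) ∧
      ∀ c : Z1 r (MonoidHom.id GQ) 0, P q c →
        (fun σ : (A q).decompositionSubgroup ℚ => c.1 σ) ∈ Λ) := by
    intro q
    by_cases hq : q ∈ T
    · obtain ⟨Λ, h⟩ := hP q hq (A q) (hA q (Finset.mem_union_left _ hq))
      exact ⟨Λ, fun _ => h⟩
    · exact ⟨⊥, fun h => absurd h hq⟩
  choose Λ hΛ using hloc
  have hsum : ∑ q ∈ T, (if q = p then 4 else 3) = 3 * T.card + 1 := by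
    have h4 : ∀ q ∈ T, (if q = p then 4 else 3) = 3 + (if q = p then 1 else 0) := fun q _ => by
      split_ifs <;> rfl
    rw [Finset.sum_congr rfl h4, Finset.sum_add_distrib, Finset.sum_const, smul_eq_mul,
      Finset.sum_ite_eq' T p, if_pos hpT, mul_comm]
  obtain ⟨h5, h6⟩ := card_allowed_le hGW T Q A Λ (fun q => if q = p then 4 else 3) hprime hdisj
    hpT hA hrT (fun q hq => (hΛ q hq).1) (fun q hq => (hΛ q hq).2.1)
    (fun q hq => (hΛ q hq).2.2.1) (fun q hq => (hΛ q hq).2.2.2.1)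
    (h3 A fun q hq => hA q (Finset.mem_union_right _ hq))
    (fun q hq => card_h0_le hp hp2 hdet hN (hQprop q hq).1
      (fun h => (hQprop q hq).2 (hTS (h ▸ hpT))) (hA q (Finset.mem_union_right _ hq)))
    (n := m + 3) (by rw [hsum, hQcard]; omega)
  refine ⟨SelSet r T Q (fun q => (A q).decompositionSubgroup ℚ) Λ, ?_, ?_, ?_⟩
  · rw [← Set.finite_coe_iff]
    exact Finite.of_equiv _ (allowedEquiv r T Q _ Λ).symm
  · exact (Nat.card_congr (allowedEquiv r T Q _ Λ)).trans_le h6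
  · exact fun c hc hPc => ⟨hc, fun q hq => (hΛ q hq).2.2.2.2 c (hPc q hq)⟩

end Core

section Charpoly

variable {k : Type} [Field k]

lemma charpoly_of_hasMat {ρbar : ResidualGaloisRep k} {r : GQ → M2 k}
    (hr : HasMat (ρbar.ρ : GQ → _) r) (σ : GQ) :
    LinearMap.charpoly (ρbar.ρ σ) = (r σ).charpoly := by
  obtain ⟨e, he⟩ := hr
  have h1 : e.conj (ρbar.ρ σ) = Matrix.toLin' (r σ) := by
    refine LinearMap.ext fun v => ?_
    rw [LinearEquiv.conj_apply_apply, he, LinearEquiv.apply_symm_apply, Matrix.toLin'_apply]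
  rw [← LinearEquiv.charpoly_conj e, h1, Matrix.charpoly_toLin']

/-- Splitting of the characteristic polynomial with distinct roots. -/
lemma exists_distinct {ρbar : ResidualGaloisRep k} {r : GQ → M2 k}
    (hr : HasMat (ρbar.ρ : GQ → _) r) {σ : GQ}
    (hsplit : ∃ α β : k, LinearMap.charpoly (ρbar.ρ σ) = (X - C α) * (X - C β))
    (hσ : (r σ).trace ^ 2 ≠ 4 * (r σ).det) :
    ∃ α β : k, α ≠ β ∧ LinearMap.charpoly (ρbar.ρ σ) = (X - C α) * (X - C β) := by
  obtain ⟨α, β, h⟩ := hsplit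
  refine ⟨α, β, ?_, h⟩
  rintro rfl
  apply hσ
  rw [charpoly_of_hasMat hr, Matrix.charpoly_fin_two] at h
  have h0 := congrArg (fun f => f.coeff 0) h
  have h1 := congrArg (fun f => f.coeff 1) h
  have h2 : ((X - C α) * (X - C α) : k[X]) = X ^ 2 - C (2 * α) * X + C (α ^ 2) := by
    rw [C_mul, C_pow]
    simp only [map_ofNat]
    ring
  rw [h2] at h0 h1
  simp only [coeff_add, coeff_sub, coeff_X_pow, coeff_C_mul, coeff_X_zero, coeff_X_one,
    coeff_C_zero, coeff_C_succ] at h0 h1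
  norm_num at h0 h1
  rw [h0, h1]
  ring

end Charpoly

section Matrix

variable {k : Type} [Field k]

/-- Every residual representation has a matrix. -/
lemma exists_matrix (ρbar : ResidualGaloisRep k) :
    ∃ r : GQ →* M2 k, HasMat (ρbar.ρ : GQ → _) r := by
  obtain ⟨r, hr⟩ := S53norm.exists_hasMat (A := k) ρbar.finrank_eq (ρbar.ρ : GQ → _)
  exact ⟨{ toFun := r, map_one' := hr.map_one, map_mul' := hr.map_mul }, hr⟩

lemma cycDet_of {ρbar : ResidualGaloisRep k} {r : GQ →* M2 k}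
    (hr : HasMat (ρbar.ρ : GQ → _) r) {p : ℕ} (hpk : (p : k) = 0)
    (hdet : (GaloisRepAdic.ofResidualGaloisRep ρbar).DetIsCyclotomic p) : CycDet p r := by
  intro σ a ha
  have h1 := ((detIsCyclotomic_iff (ρ := GaloisRepAdic.ofResidualGaloisRep ρbar) hr p).1 hdet).2
    1 σ a (by simpa using ha)
  rw [pow_one, hpk, Ideal.span_singleton_zero, Ideal.mem_bot, sub_eq_zero] at h1
  exact h1

lemma unramOutside_of {ρbar : ResidualGaloisRep k} {r : GQ →* M2 k}
    (hr : HasMat (ρbar.ρ : GQ → _) r) {T : Finset ℕ}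
    (h : ∀ q : ℕ, q.Prime → q ∉ T → ρbar.IsUnramifiedAt q) :
    UnramOutside T (fun σ => r σ - 1) := by
  intro q hq hqT A hA σ hσ
  have h1 := h q hq hqT A hA σ hσ
  obtain ⟨e, he⟩ := hr
  show r σ - 1 = 0
  rw [sub_eq_zero]
  refine S53norm.mat_ext fun v => ?_
  have h2 := he σ (e.symm v)
  rw [h1, Module.End.one_apply, LinearEquiv.apply_symm_apply] at h2
  rw [← h2, Matrix.one_mulVec]

/-- No line over `k̄` is stable under a subgroup of index at most two. -/
lemma noLine_of {ρbar : ResidualGaloisRep k} {r : GQ →* M2 k}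
    (hr : HasMat (ρbar.ρ : GQ → _) r) (habs : ρbar.IsAbsolutelyIrreducible)
    (hTW : ∀ (K : Type) [Field K] [Algebra k K] (G : Subgroup GQ), G.index = 2 →
      ∀ V : Submodule K (ρbar.baseChange K).V,
        (∀ σ ∈ G, ∀ x ∈ V, (ρbar.baseChange K).ρ σ x ∈ V) → V = ⊥ ∨ V = ⊤) : NoLine r := by
  intro G hG v hv hstab
  have hmat : HasMat ((ρbar.baseChange (AlgebraicClosure k)).ρ : GQ → _)
      (fun σ => (r σ).map (algebraMap k (AlgebraicClosure k))) :=
    hr.baseChange (B := AlgebraicClosure k)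
  have key : ∀ V : Submodule (AlgebraicClosure k) (ρbar.baseChange (AlgebraicClosure k)).V,
      (∀ σ ∈ G, ∀ x ∈ V, (ρbar.baseChange (AlgebraicClosure k)).ρ σ x ∈ V) → V = ⊥ ∨ V = ⊤ := by
    rcases hG with hG | hG
    · rw [Subgroup.index_eq_one] at hG
      intro V hV
      exact habs V fun σ x hx => hV σ (by rw [hG]; exact Subgroup.mem_top σ) x hx
    · exact hTW (AlgebraicClosure k) G hG
  obtain ⟨e, he⟩ := hmat
  have h1 : ∀ σ ∈ G, ∀ x ∈ Submodule.span (AlgebraicClosure k) {e.symm v},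
      (ρbar.baseChange (AlgebraicClosure k)).ρ σ x ∈
        Submodule.span (AlgebraicClosure k) {e.symm v} := by
    intro σ hσ x hx
    obtain ⟨b, rfl⟩ := Submodule.mem_span_singleton.1 hx
    obtain ⟨a, ha⟩ := hstab σ hσ
    have h2 : (ρbar.baseChange (AlgebraicClosure k)).ρ σ (e.symm v) = a • e.symm v := by
      apply e.injective
      rw [he, LinearEquiv.apply_symm_apply, map_smul, LinearEquiv.apply_symm_apply, ha]
    rw [map_smul, h2]
    exact Submodule.smul_mem _ _ (Submodule.smul_mem _ _ (Submodule.mem_span_singleton_self _))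
  have hne : e.symm v ≠ 0 := by simpa using hv
  rcases key _ h1 with h2 | h2
  · rw [Submodule.span_singleton_eq_bot] at h2
    exact hne h2
  · have h3 := (ρbar.baseChange (AlgebraicClosure k)).finrank_eq
    have h4 : Module.finrank (AlgebraicClosure k)
        (Submodule.span (AlgebraicClosure k) {e.symm v}) = 1 := finrank_span_singleton hne
    rw [h2, finrank_top, h3] at h4
    omega

end Matrix

section Halves

variable {𝒪 : Type} [CommRing 𝒪] [IsDomain 𝒪] [IsDiscreteValuationRing 𝒪]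
  [IsAdicComplete (maximalIdeal 𝒪) 𝒪] [Finite (ResidueField 𝒪)]

/-- The strict ordinary half of S56, from the local bounds, the Greenberg-Wiles inequality and
the group theory. -/
theorem strictOrdinary_half
    (p : ℕ) [Fact p.Prime] (hp2 : p ≠ 2) (hp𝒪 : (p : 𝒪) ∈ maximalIdeal 𝒪)
    (ρbar : ResidualGaloisRep (ResidueField 𝒪))
    (hdet : (GaloisRepAdic.ofResidualGaloisRep ρbar).DetIsCyclotomic p)
    (hsplit : ∀ σ : AlgebraicClosure ℚ ≃ₐ[ℚ] AlgebraicClosure ℚ,
      ∃ α β : ResidueField 𝒪, LinearMap.charpoly (ρbar.ρ σ) = (X - C α) * (X - C β))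
    (S Smin : Finset ℕ) (hpSmin : p ∈ Smin) (hSmin : Smin ⊆ S) (hS : ∀ q ∈ S, q.Prime)
    (hmin : ∀ q : ℕ, q.Prime → q ≠ p → (q ∈ Smin ↔ ¬ ρbar.IsUnramifiedAt q))
    {r : GQ →* M2 (ResidueField 𝒪)} (hr : HasMat (ρbar.ρ : GQ → _) r) (hlev : IsFiniteLevel r)
    (hTWe : TWElements p r) (hTWd : TWDetect p r) (hGW : GWad p r)
    (hfin : (dualSet r Smin).Finite)
    (hE2 : ∀ q ∈ Smin, q ≠ p →
      (defAdic hlev (0 : Z1 r (MonoidHom.id GQ) 0)).IsUnipotentOnInertiaAt q →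
      ∀ A : ValuationSubring (AlgebraicClosure ℚ), A.LiesOverPrime q →
        LocalBound r (A.decompositionSubgroup ℚ)
          (fun c => (defAdic hlev c).IsUnipotentOnInertiaAt q) 3)
    (hD1 : (defAdic hlev (0 : Z1 r (MonoidHom.id GQ) 0)).IsStrictOrdinaryAt p →
      ∀ A : ValuationSubring (AlgebraicClosure ℚ), A.LiesOverPrime p →
        LocalBound r (A.decompositionSubgroup ℚ)
          (fun c => (defAdic hlev c).IsStrictOrdinaryAt p) 4) :
    ∃ m : ℕ, ∀ n : ℕ, ∃ qv : Fin m → ℕ, Function.Injective qv ∧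
      (∀ i, (qv i).Prime ∧ qv i ∉ S ∧ p ^ (n + 1) ∣ qv i - 1) ∧
      (∀ i, ∀ P : ValuationSubring (AlgebraicClosure ℚ), P.LiesOverPrime (qv i) →
        ∀ φ : AlgebraicClosure ℚ ≃ₐ[ℚ] AlgebraicClosure ℚ, P.IsFrobeniusAt φ (qv i) →
          ∃ α β : ResidueField 𝒪, α ≠ β ∧ LinearMap.charpoly (ρbar.ρ φ) = (X - C α) * (X - C β)) ∧
      ∀ DQ : GaloisRep.DeformationRingData 𝒪 ρbar (fun _A _ _ _ ρ =>
          GaloisRep.strictOrdinaryCondition 𝒪 p (Smin ∪ Finset.univ.image qv) ρ ∧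
            ∀ q ∈ Smin, q.Prime → q ≠ p → ρ.IsUnipotentOnInertiaAt q),
        ∃ γ : MvPowerSeries (Fin m) 𝒪 →ₐ[𝒪] DQ.R, Function.Surjective γ := by
  have hp : p.Prime := Fact.out
  have hpk : (p : ResidueField 𝒪) = 0 := by
    have h1 := (residue_eq_zero_iff (R := 𝒪) (p : 𝒪)).2 hp𝒪
    rwa [map_natCast] at h1
  have hchar : CharP (ResidueField 𝒪) p := Frob.charP_of_prime_natCast_eq_zero hp hpk
  by_cases h0 : (defAdic hlev (0 : Z1 r (MonoidHom.id GQ) 0)).IsStrictOrdinaryAt p ∧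
      ∀ q ∈ Smin, q.Prime → q ≠ p →
        (defAdic hlev (0 : Z1 r (MonoidHom.id GQ) 0)).IsUnipotentOnInertiaAt q
  swap
  · refine ⟨0, fun n => ⟨Fin.elim0, fun i => i.elim0, fun i => i.elim0, fun i => i.elim0,
      fun DQ => ?_⟩⟩
    exact absurd (strictOrdinary_zero_of_data Smin _ DQ hr hlev) h0
  have hT : ∀ q ∈ Smin, q.Prime := fun q hq => hS q (hSmin hq)
  have hrT : UnramOutside Smin (fun σ => r σ - 1) := unramOutside_of hr fun q hq hqS => by
    by_cases hqp : q = p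
    · exact absurd (hqp ▸ hpSmin) hqS
    · by_contra h
      exact hqS ((hmin q hq hqp).2 h)
  obtain ⟨m, hm⟩ := exists_twPrimes_and_selmer hp hp2 hlev (cycDet_of hr hpk hdet) hTWe hTWd hGW
    Smin hpSmin hT hrT hfin
    (fun q c => if q = p then (defAdic hlev c).IsStrictOrdinaryAt p
      else (defAdic hlev c).IsUnipotentOnInertiaAt q) (fun q hq A hA => by
        by_cases hqp : q = p
        · subst hqp
          simpa using hD1 h0.1 A hA
        · simpa [hqp] using hE2 q hq hqp (h0.2 q hq (hT q hq) hqp) A hA)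
  refine ⟨m, fun n => ?_⟩
  obtain ⟨qv, h1, h2, Sel, hSelfin, hSelcard, hSel⟩ := hm S (n + 1) hSmin (Nat.succ_ne_zero n)
  refine ⟨qv, h1, fun i => ⟨(h2 i).1.prime, (h2 i).2, (h2 i).1.dvd⟩, fun i P hP φ hφ =>
    exists_distinct hr (hsplit φ) ((h2 i).1.frob P hP φ hφ), fun DQ => ?_⟩
  refine exists_surjective_strictOrdinary hp2 hpk Smin _ DQ hr hlev Sel hSelfin
    (fun c hc1 hc2 hc3 => hSel c hc2 fun q hq => ?_) m hSelcard
  by_cases hqp : q = p
  · simpa [hqp] using hc1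
  · simpa [hqp] using hc3 q hq (hT q hq) hqp

end Halves

end Fermat.Agent.TW
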