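import Fermat.Agent.TW.Select

set_option autoImplicit false

/-!
# S56: the numerical heart of the assembly
-/

namespace Fermat.Agent.TW

open Matrix
open scoped Pointwise
open Fermat.Agent.S53norm (GQ M2)

section H0

variable {k : Type} [Field k]

/-- The trace-zero matrices commuting with a matrix of non-zero discriminant form a line. -/
lemma card_commute_le [Finite k] (h2 : (2 : k) ≠ 0) {M : M2 k} (hM : disc M ≠ 0)
    (P : M2 k → Prop) (hP : ∀ X, P X → X.trace = 0 ∧ M * X = X * M) :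
    Nat.card {X : M2 k // P X} ≤ Nat.card k := by
  have key : ∀ X, P X → X 1 1 = - X 0 0 ∧ M 0 1 * X 1 0 = X 0 1 * M 1 0 ∧
      (M 0 0 - M 1 1) * X 0 1 = 2 * X 0 0 * M 0 1 ∧
      (M 0 0 - M 1 1) * X 1 0 = 2 * X 0 0 * M 1 0 := by
    intro X hX
    obtain ⟨h3, h4⟩ := hP X hX
    rw [Matrix.trace_fin_two] at h3
    have h11 : X 1 1 = - X 0 0 := by linear_combination h3
    have e00 := congrFun (congrFun h4 0) 0
    have e01 := congrFun (congrFun h4 0) 1
    have e10 := congrFun (congrFun h4 1) 0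
    simp only [Matrix.mul_apply, Fin.sum_univ_two] at e00 e01 e10
    refine ⟨h11, ?_, ?_, ?_⟩
    · linear_combination e00
    · rw [h11] at e01
      linear_combination e01
    · rw [h11] at e10
      linear_combination -e10
  have hext : ∀ X Y : M2 k, P X → P Y → X 0 0 = Y 0 0 → X 0 1 = Y 0 1 → X 1 0 = Y 1 0 →
      X = Y := by
    intro X Y hX hY h00 h01 h10
    ext i j
    fin_cases i <;> fin_cases j
    · exact h00
    · exact h01
    · exact h10
    · show X 1 1 = Y 1 1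
      rw [(key X hX).1, (key Y hY).1, h00]
  by_cases hb : M 0 1 = 0
  · by_cases hc : M 1 0 = 0
    · have had : M 0 0 - M 1 1 ≠ 0 := by
        intro h
        apply hM
        rw [disc, Matrix.trace_fin_two, Matrix.det_fin_two, hb, hc]
        linear_combination (M 0 0 - M 1 1) * h
      refine Nat.card_le_card_of_injective (fun X => X.1 0 0) ?_
      rintro ⟨X, hX⟩ ⟨Y, hY⟩ h
      have h' : X 0 0 = Y 0 0 := h
      have kX := key X hX
      have kY := key Y hY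
      rw [hb, hc] at kX kY
      refine Subtype.ext (hext X Y hX hY h' ?_ ?_)
      · have h1 : X 0 1 = 0 := (mul_eq_zero.1 (kX.2.2.1.trans (by ring))).resolve_left had
        have h2 : Y 0 1 = 0 := (mul_eq_zero.1 (kY.2.2.1.trans (by ring))).resolve_left had
        rw [h1, h2]
      · have h1 : X 1 0 = 0 := (mul_eq_zero.1 (kX.2.2.2.trans (by ring))).resolve_left had
        have h2 : Y 1 0 = 0 := (mul_eq_zero.1 (kY.2.2.2.trans (by ring))).resolve_left had
        rw [h1, h2]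
    · refine Nat.card_le_card_of_injective (fun X => X.1 1 0) ?_
      rintro ⟨X, hX⟩ ⟨Y, hY⟩ h
      have h' : X 1 0 = Y 1 0 := h
      have kX := key X hX
      have kY := key Y hY
      have h0 : X 0 0 = Y 0 0 := by
        have h3 : 2 * M 1 0 * X 0 0 = 2 * M 1 0 * Y 0 0 := by
          have e1 := kX.2.2.2
          have e2 := kY.2.2.2
          rw [h'] at e1
          linear_combination e2 - e1
        exact mul_left_cancel₀ (mul_ne_zero h2 hc) h3
      have h1 : X 0 1 = Y 0 1 := by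
        have h3 : M 1 0 * X 0 1 = M 1 0 * Y 0 1 := by
          have e1 := kX.2.1
          have e2 := kY.2.1
          rw [h'] at e1
          linear_combination e2 - e1
        exact mul_left_cancel₀ hc h3
      exact Subtype.ext (hext X Y hX hY h0 h1 h')
  · refine Nat.card_le_card_of_injective (fun X => X.1 0 1) ?_
    rintro ⟨X, hX⟩ ⟨Y, hY⟩ h
    have h' : X 0 1 = Y 0 1 := h
    have kX := key X hX
    have kY := key Y hY
    have h0 : X 0 0 = Y 0 0 := by
      have h3 : 2 * M 0 1 * X 0 0 = 2 * M 0 1 * Y 0 0 := by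
        have e1 := kX.2.2.1
        have e2 := kY.2.2.1
        rw [h'] at e1
        linear_combination e2 - e1
      exact mul_left_cancel₀ (mul_ne_zero h2 hb) h3
    have h1 : X 1 0 = Y 1 0 := by
      have h3 : M 0 1 * X 1 0 = M 0 1 * Y 1 0 := by
        have e1 := kX.2.1
        have e2 := kY.2.1
        rw [h'] at e1
        linear_combination e1 - e2
      exact mul_left_cancel₀ hb h3
    exact Subtype.ext (hext X Y hX hY h0 h' h1)

/-- At a Taylor-Wiles prime `q`, `H⁰(ℚ_q, ad⁰(1))` has at most `#k` elements. -/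
lemma card_h0_le [Finite k] {p : ℕ} [CharP k p] (hp : p.Prime) (hp2 : p ≠ 2) {r : GQ →* M2 k}
    (hdet : CycDet p r) {N : ℕ} (hN : N ≠ 0) {q : ℕ} (hq : IsTWPrime p N r q) (hqp : q ≠ p)
    {A : ValuationSubring (AlgebraicClosure ℚ)} (hA : A.LiesOverPrime q) :
    Nat.card {X : M2 k // X.trace = 0 ∧
      ∀ σ ∈ A.decompositionSubgroup ℚ, act r 1 σ X = X} ≤ Nat.card k := by
  obtain ⟨φ, hφ⟩ := Frob.exists_isFrobeniusAt hq.prime hA
  have h2 : (2 : k) ≠ 0 := by
    intro h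
    have h1 : ((2 : ℕ) : k) = 0 := by exact_mod_cast h
    rw [CharP.cast_eq_zero_iff k p] at h1
    exact hp2 ((Nat.prime_dvd_prime_iff_eq hp Nat.prime_two).1 h1)
  have hdetφ : (r φ).det = 1 := by
    rw [hdet φ q fun μ hμ => GalRep.frobenius_rootOfUnity hA
      ((Nat.coprime_primes hq.prime hp).2 hqp) hp.ne_zero hφ hμ]
    have h1 : p ∣ q - 1 := (dvd_pow_self p hN).trans hq.dvd
    have h3 : ((q - 1 : ℕ) : k) = 0 := (CharP.cast_eq_zero_iff k p _).2 h1
    rw [Nat.cast_sub hq.prime.one_lt.le, Nat.cast_one, sub_eq_zero] at h3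
    exact h3
  refine card_commute_le h2 (disc_ne_zero_iff.2 (hq.frob A hA φ hφ)) _ fun X hX => ⟨hX.1, ?_⟩
  have h3 := hX.2 φ hφ.mem_decompositionSubgroup
  rw [act_one_apply, hdetφ, one_smul] at h3
  calc r φ * X = r φ * X * (r φ⁻¹ * r φ) := by rw [r_inv_mul, mul_one]
    _ = (r φ * X * r φ⁻¹) * r φ := by simp only [mul_assoc]
    _ = X * r φ := by rw [h3]

end H0

section Core

variable {k : Type} [Field k] {r : GQ →* M2 k} {p : ℕ}

/-- The group of allowed cocycles. -/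
def allowed (r : GQ →* M2 k) (T Q : Finset ℕ) (D : ℕ → Subgroup GQ)
    (Λ : ∀ q, AddSubgroup (D q → M2 k)) : AddSubgroup (GQ → M2 k) where
  carrier := {c | c ∈ Z1 r (MonoidHom.id GQ) 0 ∧ UnramOutside (T ∪ Q) c ∧
    ∀ q ∈ T, (fun σ : D q => c (σ : GQ)) ∈ Λ q}
  zero_mem' := ⟨Submodule.zero_mem _, fun _ _ _ _ _ _ _ => rfl, fun q _ => (Λ q).zero_mem⟩
  add_mem' := by
    rintro a b ⟨h1, h2, h3⟩ ⟨h1', h2', h3'⟩
    refine ⟨Submodule.add_mem _ h1 h1', fun q hq hqS A hA σ hσ => ?_, fun q hq =>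
      (Λ q).add_mem (h3 q hq) (h3' q hq)⟩
    rw [Pi.add_apply, h2 q hq hqS A hA σ hσ, h2' q hq hqS A hA σ hσ, add_zero]
  neg_mem' := by
    rintro a ⟨h1, h2, h3⟩
    refine ⟨Submodule.neg_mem _ h1, fun q hq hqS A hA σ hσ => ?_, fun q hq =>
      (Λ q).neg_mem (h3 q hq)⟩
    rw [Pi.neg_apply, h2 q hq hqS A hA σ hσ, neg_zero]

lemma mem_allowed {T Q : Finset ℕ} {D : ℕ → Subgroup GQ} {Λ : ∀ q, AddSubgroup (D q → M2 k)}
    {c : GQ → M2 k} : c ∈ allowed r T Q D Λ ↔ c ∈ Z1 r (MonoidHom.id GQ) 0 ∧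
      UnramOutside (T ∪ Q) c ∧ ∀ q ∈ T, (fun σ : D q => c (σ : GQ)) ∈ Λ q := Iff.rfl

/-- The allowed cocycles are the elements of `SelSet`. -/
def allowedEquiv (r : GQ →* M2 k) (T Q : Finset ℕ) (D : ℕ → Subgroup GQ)
    (Λ : ∀ q, AddSubgroup (D q → M2 k)) : SelSet r T Q D Λ ≃ allowed r T Q D Λ where
  toFun c := ⟨c.1.1, c.1.2, c.2.1, c.2.2⟩
  invFun c := ⟨⟨c.1, c.2.1⟩, c.2.2.1, c.2.2.2⟩
  left_inv _ := rfl
  right_inv _ := rfl

/-- **The numerical heart**: from the Greenberg-Wiles inequality to the bound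
`#k ^ (#Q + 3)` for the number of allowed cocycles. -/
theorem card_allowed_le [Finite k] (hGW : GWad p r) (T Q : Finset ℕ)
    (A : ℕ → ValuationSubring (AlgebraicClosure ℚ))
    (Λ : ∀ q, AddSubgroup ((A q).decompositionSubgroup ℚ → M2 k))
    (e : ℕ → ℕ)
    (hprime : ∀ q ∈ T ∪ Q, q.Prime) (hTQ : Disjoint T Q) (hpT : p ∈ T)
    (hA : ∀ q ∈ T ∪ Q, (A q).LiesOverPrime q)
    (hrT : UnramOutside T (fun σ => r σ - 1))
    (hΛfin : ∀ q ∈ T, Finite (Λ q))
    (hΛcard : ∀ q ∈ T, Nat.card (Λ q) ≤ Nat.card k ^ e q)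
    (hΛ1 : ∀ q ∈ T, ∀ c ∈ Λ q, c ∈ Z1 r ((A q).decompositionSubgroup ℚ).subtype 0)
    (hΛ2 : ∀ q ∈ T, ∀ X : M2 k, X.trace = 0 →
      cob r ((A q).decompositionSubgroup ℚ).subtype 0 X ∈ Λ q)
    (hinj : ∀ ψ ∈ Z1 r (MonoidHom.id GQ) 1, UnramOutside (T ∪ Q) ψ →
      (∀ q ∈ Q, ∃ X : M2 k, X.trace = 0 ∧
        ∀ σ ∈ (A q).decompositionSubgroup ℚ, ψ σ = act r 1 σ X - X) →
      ∃ X : M2 k, X.trace = 0 ∧ ψ = cob r (MonoidHom.id GQ) 1 X)
    (hQ : ∀ q ∈ Q, Nat.card {X : M2 k // X.trace = 0 ∧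
      ∀ σ ∈ (A q).decompositionSubgroup ℚ, act r 1 σ X = X} ≤ Nat.card k)
    {n : ℕ} (hn : 3 + (∑ q ∈ T, e q) + Q.card ≤ n + (3 * T.card + 1)) :
    Finite (allowed r T Q (fun q => (A q).decompositionSubgroup ℚ) Λ) ∧
      Nat.card (allowed r T Q (fun q => (A q).decompositionSubgroup ℚ) Λ) ≤
        Nat.card k ^ n := by
  obtain ⟨h1, h2⟩ := hGW T Q A Λ hprime hTQ hpT hA hrT hΛfin hΛ1 hΛ2 hinj
  have hk : 1 < Nat.card k := Finite.one_lt_card
  have h3 : Nat.card (allowed r T Q (fun q => (A q).decompositionSubgroup ℚ) Λ) =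
      Nat.card (SelSet r T Q (fun q => (A q).decompositionSubgroup ℚ) Λ) :=
    (Nat.card_congr (allowedEquiv r T Q _ Λ)).symm
  have := h1.to_subtype
  refine ⟨Finite.of_equiv _ (allowedEquiv r T Q _ Λ), ?_⟩
  rw [h3]
  have h4 : ∏ q ∈ T, Nat.card (Λ q) ≤ Nat.card k ^ (∑ q ∈ T, e q) := by
    rw [← Finset.prod_pow_eq_pow_sum]
    exact Finset.prod_le_prod' hΛcard
  have h5 : ∏ q ∈ Q, Nat.card {X : M2 k // X.trace = 0 ∧
      ∀ σ ∈ (A q).decompositionSubgroup ℚ, act r 1 σ X = X} ≤ Nat.card k ^ Q.card := by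
    rw [← Finset.prod_const]
    exact Finset.prod_le_prod' hQ
  have h6 : Nat.card (SelSet r T Q (fun q => (A q).decompositionSubgroup ℚ) Λ) *
      Nat.card k ^ (3 * T.card + 1) ≤ Nat.card k ^ n * Nat.card k ^ (3 * T.card + 1) := by
    refine h2.trans ?_
    calc _ ≤ Nat.card k ^ 3 * Nat.card k ^ (∑ q ∈ T, e q) * Nat.card k ^ Q.card :=
          Nat.mul_le_mul (Nat.mul_le_mul_left _ h4) h5
      _ = Nat.card k ^ (3 + (∑ q ∈ T, e q) + Q.card) := by rw [pow_add, pow_add]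
      _ ≤ Nat.card k ^ (n + (3 * T.card + 1)) := Nat.pow_le_pow_right hk.le hn
      _ = _ := by rw [pow_add]
  exact Nat.le_of_mul_le_mul_right h6 (by positivity)

end Core

end Fermat.Agent.TW
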