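import Fermat.Agent.TW.Bridge
import Fermat.Agent.PT.Frozen
import Fermat.Agent.GW.LocalUnrPrimes

set_option autoImplicit false

/-!
# The Greenberg-Wiles inequality: from `H¹` to cocycles
-/

namespace Fermat.Agent.TW

open ExtCitation
open Fermat.Agent.S53norm (GQ M2)
open Fermat.Agent.PT (LevelSys LC1 Discrete Equivar H1mk dualT res1)
open Fermat.Agent.PT.Frozen (rLevels sLevels_compat)
open Fermat.Agent.CFT.Bridge (galLevels)
open Fermat.Agent.CFT.SKummer (sLevels)

/-- **The general Greenberg-Wiles inequality**, in terms of `H¹`; `S = T ∪ Q`. -/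
def GWH1 (p : ℕ) [Fact p.Prime] : Prop :=
  ∀ (S T : Finset Nat.Primes), T ⊆ S → pPrime p ∈ T →
  ∀ (M : Type) [AddCommGroup M] [Module (ZMod p) M] [Finite M]
    (ρ : Representation (ZMod p) GQ M), Discrete (sLevels T) ρ →
    (∀ x : PT.H1 (sLevels S) (dualT (cycloChar p) ρ), (∀ q ∈ S \ T,
      res1 (primeLocalToGlobal q) (sLevels_compat (primeLocalToGlobal q))
        (dualT (cycloChar p) ρ) x = 0) → x = 0) →
    ∀ L : ∀ q : Nat.Primes, Submodule (ZMod p)
      (PT.H1 (rLevels (primeLocalToGlobal q)) (ρ.comp (primeLocalToGlobal q))),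
    (∀ q ∈ T, FiniteDimensional (ZMod p) (L q)) →
    ∀ Sel : Submodule (ZMod p) (PT.H1 (sLevels S) ρ),
      (∀ x, x ∈ Sel ↔ ∀ q ∈ T,
        res1 (primeLocalToGlobal q) (sLevels_compat (primeLocalToGlobal q)) ρ x ∈ L q) →
    FiniteDimensional (ZMod p) Sel ∧
    Module.finrank (ZMod p) Sel +
        Module.finrank (ZMod p) (LinearMap.ker (ρ complexConjugation - LinearMap.id)) +
        ∑ q ∈ T, Module.finrank (ZMod p)
          (Representation.invariants (ρ.comp (primeLocalToGlobal q))) ≤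
      Module.finrank (ZMod p) (Representation.invariants ρ) +
        ∑ q ∈ T, Module.finrank (ZMod p) (L q) +
        ∑ q ∈ S \ T, Module.finrank (ZMod p) (Representation.invariants
          ((dualT (cycloChar p) ρ).comp (primeLocalToGlobal q)))

section General

variable {k : Type*} [Field k] {G : Type*} [Group G] {M : Type*} [AddCommGroup M]
  [Module k M] [FiniteDimensional k M] {𝓛 : LevelSys G} {ρ : Representation k G M}

/-- The image of a space of cocycles in `H¹`. -/
noncomputable def toH1 (Λ : Submodule k (G → M)) : Submodule k (PT.H1 𝓛 ρ) :=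
  (Λ.comap (PT.Z1 𝓛 ρ).subtype).map (H1mk 𝓛 ρ)

omit [FiniteDimensional k M] in
lemma mem_toH1 {Λ : Submodule k (G → M)} (hB : PT.B1 ρ ≤ Λ) (c : PT.Z1 𝓛 ρ) :
    H1mk 𝓛 ρ c ∈ toH1 Λ ↔ c.1 ∈ Λ := by
  constructor
  · rintro ⟨c', hc', h⟩
    have h1 : H1mk 𝓛 ρ (c - c') = 0 := by rw [map_sub, h, sub_self]
    rw [PT.H1mk_eq_zero] at h1
    obtain ⟨m, hm⟩ := h1
    have h2 : c.1 - c'.1 ∈ Λ := hB ⟨m, funext fun g => (hm g).symm⟩
    have h3 := Λ.add_mem h2 hc'
    rwa [Submodule.subtype_apply, sub_add_cancel] at h3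
  · intro h
    exact ⟨c, h, rfl⟩

omit [FiniteDimensional k M] in
lemma finite_toH1 {Λ : Submodule k (G → M)} (hZ : Λ ≤ PT.Z1 𝓛 ρ)
    (hΛ : FiniteDimensional k Λ) : FiniteDimensional k (toH1 (𝓛 := 𝓛) (ρ := ρ) Λ) := by
  let e := Submodule.comapSubtypeEquivOfLe hZ
  have hfd' : FiniteDimensional k (Λ.comap (PT.Z1 𝓛 ρ).subtype) :=
    FiniteDimensional.of_injective e.toLinearMap e.injective
  exact Module.Finite.map (Λ.comap (PT.Z1 𝓛 ρ).subtype) (H1mk 𝓛 ρ)

lemma finrank_toH1 {Λ : Submodule k (G → M)} (hB : PT.B1 ρ ≤ Λ) (hZ : Λ ≤ PT.Z1 𝓛 ρ)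
    (hL : FiniteDimensional k (toH1 (𝓛 := 𝓛) (ρ := ρ) Λ)) :
    FiniteDimensional k Λ ∧
    Module.finrank k Λ + Module.finrank k (Representation.invariants ρ) =
      Module.finrank k M + Module.finrank k (toH1 (𝓛 := 𝓛) (ρ := ρ) Λ) := by
  have hfB : FiniteDimensional k (PT.B1 ρ) := by
    unfold PT.B1; infer_instance
  let φ : Λ →ₗ[k] PT.H1 𝓛 ρ := (H1mk 𝓛 ρ) ∘ₗ Submodule.inclusion hZ
  have hφ : ∀ c, φ c = H1mk 𝓛 ρ ⟨c.1, hZ c.2⟩ := fun c => rfl
  have hrange : LinearMap.range φ = toH1 Λ := by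
    ext x
    constructor
    · rintro ⟨c, rfl⟩
      exact ⟨⟨c.1, hZ c.2⟩, c.2, rfl⟩
    · rintro ⟨c, hc, rfl⟩
      exact ⟨⟨c.1, hc⟩, rfl⟩
  have hker : LinearMap.ker φ = (PT.B1 ρ).comap Λ.subtype := by
    ext c
    rw [LinearMap.mem_ker, hφ, PT.H1mk_eq_zero]
    constructor
    · rintro ⟨m, hm⟩
      exact ⟨m, funext fun g => (hm g).symm⟩
    · rintro ⟨m, hm⟩
      exact ⟨m, fun g => (congrFun hm g).symm⟩
  let e := Submodule.comapSubtypeEquivOfLe hB
  have hfk : FiniteDimensional k (LinearMap.ker φ) := by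
    rw [hker]
    exact FiniteDimensional.of_injective e.toLinearMap e.injective
  have hfr : FiniteDimensional k (LinearMap.range φ) := by
    rw [hrange]
    exact hL
  have hfq : FiniteDimensional k (Λ ⧸ LinearMap.ker φ) :=
    FiniteDimensional.of_injective φ.quotKerEquivRange.toLinearMap φ.quotKerEquivRange.injective
  have hfΛ : FiniteDimensional k Λ := Module.Finite.of_submodule_quotient (LinearMap.ker φ)
  refine ⟨hfΛ, ?_⟩
  have h1 := LinearMap.finrank_range_add_finrank_ker φ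
  have h2 : Module.finrank k (LinearMap.ker φ) = Module.finrank k (PT.B1 ρ) := by
    rw [hker]
    exact e.finrank_eq
  have h3 := LinearMap.finrank_range_add_finrank_ker (PT.d01 ρ)
  rw [GWLoc.ker_d01] at h3
  have h4 : Module.finrank k (PT.B1 ρ) = Module.finrank k (LinearMap.range (PT.d01 ρ)) := rfl
  rw [hrange] at h1
  omega

end General

section Main

variable {p : ℕ} [hp : Fact p.Prime]

/-- From `H¹` to cocycles. -/
theorem gwcoc_of_gwH1 (hGW : GWH1 p) : GWcoc p := by
  intro S T hTS hpT M M' _ _ _ _ _ _ ρ ρ' B hB1 hB2 hB hρ hρ' Λ hΛfin hΛZ hΛB hinj Sel hSel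
  have hfdM : FiniteDimensional (ZMod p) M := Module.Finite.of_finite
  have hfdM' : FiniteDimensional (ZMod p) M' := Module.Finite.of_finite
  -- the isomorphism `M' ≃ Dual M`
  let f : M' →ₗ[ZMod p] Module.Dual (ZMod p) M := B.flip
  have hf : ∀ m' m, f m' m = B m m' := fun m' m => rfl
  have hfinj : Function.Injective f := by
    rw [← LinearMap.ker_eq_bot, LinearMap.ker_eq_bot']
    intro m' hm'
    exact hB2 m' fun m => LinearMap.congr_fun hm' m
  have hBinj : Function.Injective B := by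
    rw [← LinearMap.ker_eq_bot, LinearMap.ker_eq_bot']
    intro m hm
    exact hB1 m fun m' => LinearMap.congr_fun hm m'
  have hfsurj : Function.Surjective f := by
    have h1 : Module.finrank (ZMod p) M ≤ Module.finrank (ZMod p) (Module.Dual (ZMod p) M') :=
      LinearMap.finrank_le_finrank_of_injective hBinj
    rw [Subspace.dual_finrank_eq] at h1
    have h2 := LinearMap.finrank_le_finrank_of_injective hfinj
    rw [Subspace.dual_finrank_eq] at h2
    refine (LinearMap.injective_iff_surjective_of_finrank_eq_finrank ?_).1 hfinj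
    rw [Subspace.dual_finrank_eq]
    exact le_antisymm h2 h1
  have hfeq : ∀ g m', f (ρ' g m') = dualT (cycloChar p) ρ g (f m') := by
    intro g m'
    refine LinearMap.ext fun m => ?_
    rw [PT.dualT_apply, hf, hf]
    have h1 := hB g (ρ g⁻¹ m) m'
    rw [← Module.End.mul_apply, ← map_mul, mul_inv_cancel, map_one, Module.End.one_apply] at h1
    exact h1
  let e : M' ≃ₗ[ZMod p] Module.Dual (ZMod p) M := LinearEquiv.ofBijective f ⟨hfinj, hfsurj⟩
  have he : ∀ x, e x = f x := fun x => rfl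
  have heq : ∀ g y, e.symm (dualT (cycloChar p) ρ g y) = ρ' g (e.symm y) := by
    intro g y
    apply e.injective
    rw [LinearEquiv.apply_symm_apply, he, hfeq, ← he, LinearEquiv.apply_symm_apply]
  have hdual : ∀ x : PT.H1 (sLevels S) (dualT (cycloChar p) ρ), (∀ q ∈ S \ T,
      res1 (primeLocalToGlobal q) (sLevels_compat (primeLocalToGlobal q))
        (dualT (cycloChar p) ρ) x = 0) → x = 0 := by
    intro x hx
    obtain ⟨c, rfl⟩ := PT.H1mk_surjective x
    have hy : (fun g => e.symm (c.1 g)) ∈ PT.Z1 (levelsS S) ρ' := by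
      refine ⟨c.2.1.comp e.symm, fun g h => ?_⟩
      show e.symm (c.1 (g * h)) = ρ' g (e.symm (c.1 h)) + e.symm (c.1 g)
      rw [c.2.2, map_add, heq]
    obtain ⟨m', hm'⟩ := hinj _ hy fun q hq => by
      have h1 : H1mk (rLevels (primeLocalToGlobal q))
        ((dualT (cycloChar p) ρ).comp (primeLocalToGlobal q))
        (PT.Z1map (primeLocalToGlobal q) (sLevels_compat (primeLocalToGlobal q)) LinearMap.id
          (fun _ _ => rfl) c) = 0 := hx q hq
      rw [PT.H1mk_eq_zero] at h1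
      obtain ⟨m, hm⟩ := h1
      refine ⟨e.symm m, funext fun h => ?_⟩
      show ρ' (primeLocalToGlobal q h) (e.symm m) - e.symm m =
        e.symm (c.1 (primeLocalToGlobal q h))
      rw [← heq, ← map_sub]
      congr 1
      exact (hm h).symm
    rw [PT.H1mk_eq_zero]
    refine ⟨f m', fun g => ?_⟩
    have h1 := congrFun hm' g
    have h2 : ρ' g m' - m' = e.symm (c.1 g) := h1
    rw [← hfeq, ← map_sub, h2, ← he, LinearEquiv.apply_symm_apply]
  -- the local conditions
  let L : ∀ q : Nat.Primes, Submodule (ZMod p)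
      (PT.H1 (rLevels (primeLocalToGlobal q)) (ρ.comp (primeLocalToGlobal q))) :=
    fun q => toH1 (Λ q)
  have hLfin : ∀ q ∈ T, FiniteDimensional (ZMod p) (L q) := by
    intro q hq
    have := hΛfin q hq
    exact finite_toH1 (hΛZ q hq) Module.Finite.of_finite
  have hBS : PT.B1 ρ ≤ Sel := by
    rintro _ ⟨m, rfl⟩
    refine (hSel _).2 ⟨?_, fun q hq => hΛB q hq ⟨m, rfl⟩⟩
    refine PT.d01_mem_Z1 (fun m => ?_) m
    obtain ⟨U, ⟨F, hF, hFU⟩, hU⟩ := hρ m
    exact ⟨U, ⟨F, ⟨hF.1, fun q hq => hF.2 q fun h => hq (hTS h)⟩, hFU⟩, hU⟩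
  have hSelZ : Sel ≤ PT.Z1 (sLevels S) ρ := fun c hc => ((hSel c).1 hc).1
  have hSel' : ∀ x, x ∈ toH1 (𝓛 := sLevels S) (ρ := ρ) Sel ↔ ∀ q ∈ T,
      res1 (primeLocalToGlobal q) (sLevels_compat (primeLocalToGlobal q)) ρ x ∈ L q := by
    intro x
    obtain ⟨c, rfl⟩ := PT.H1mk_surjective x
    rw [mem_toH1 hBS, hSel]
    have h1 : ∀ q ∈ T, (res1 (primeLocalToGlobal q) (sLevels_compat (primeLocalToGlobal q)) ρ
        (H1mk (sLevels S) ρ c) ∈ L q ↔ (fun h => c.1 (primeLocalToGlobal q h)) ∈ Λ q) := by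
      intro q hq
      exact mem_toH1 (hΛB q hq) _
    constructor
    · rintro ⟨-, h⟩ q hq
      exact (h1 q hq).2 (h q hq)
    · intro h
      exact ⟨c.2, fun q hq => (h1 q hq).1 (h q hq)⟩
  obtain ⟨h1, h2⟩ := hGW S T hTS hpT M ρ hρ hdual L hLfin (toH1 Sel) hSel'
  obtain ⟨h3, h4⟩ := finrank_toH1 hBS hSelZ h1
  refine ⟨Module.finite_of_finite (ZMod p), ?_⟩
  have h5 : ∑ q ∈ T, Module.finrank (ZMod p) (Λ q) + ∑ q ∈ T, Module.finrank (ZMod p)
      (Representation.invariants (ρ.comp (primeLocalToGlobal q))) =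
      T.card * Module.finrank (ZMod p) M + ∑ q ∈ T, Module.finrank (ZMod p) (L q) := by
    rw [← Finset.sum_add_distrib, ← smul_eq_mul, ← Finset.sum_const, ← Finset.sum_add_distrib]
    refine Finset.sum_congr rfl fun q hq => ?_
    exact (finrank_toH1 (hΛB q hq) (hΛZ q hq) (hLfin q hq)).2
  have h6 : ∀ q : Nat.Primes, Module.finrank (ZMod p) (Representation.invariants
      ((dualT (cycloChar p) ρ).comp (primeLocalToGlobal q))) =
      Module.finrank (ZMod p) (Representation.invariants (ρ'.comp (primeLocalToGlobal q))) := by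
    intro q
    refine (LinearEquiv.finrank_eq (e.symm.ofSubmodules _ _ ?_))
    ext y
    rw [Submodule.mem_map]
    constructor
    · rintro ⟨x, hx, rfl⟩ g
      show ρ' (primeLocalToGlobal q g) (e.symm x) = e.symm x
      rw [← heq]
      congr 1
      exact hx g
    · intro hy
      refine ⟨e y, fun g => ?_, e.symm_apply_apply y⟩
      show dualT (cycloChar p) ρ (primeLocalToGlobal q g) (e y) = e y
      rw [he, ← hfeq]
      congr 1
      exact hy g
  simp only [h6] at h2
  omega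

end Main

end Fermat.Agent.TW
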