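import Fermat.Agent.TW.InertiaField

set_option autoImplicit false

/-!
# Hilbert 90 for arbitrary subgroups of the absolute Galois group
-/

namespace Fermat.Agent.TW

open scoped Pointwise
open Fermat.Agent.Frob Fermat.Agent.Minkowski

/-- **Hilbert 90** for a subgroup `H` of `Gal(ℚ̄/ℚ)` and level-constant cocycles. -/
theorem exists_hilbert90 (H : Subgroup GQ) (c : GQ → Qbar) (hc0 : ∀ g ∈ H, c g ≠ 0)
    (hc : ∀ g ∈ H, ∀ h ∈ H, c (g * h) = c g * g (c h))
    (L : IntermediateField ℚ Qbar) [FiniteDimensional ℚ L]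
    (hL : ∀ g ∈ H, (∀ x ∈ L, g x = x) → c g = 1) :
    ∃ z : Qbar, z ≠ 0 ∧ ∀ g ∈ H, g z = c g * z := by
  classical
  obtain ⟨F, hLF, hfd, hgal⟩ := exists_galois_ge L
  let ρ : GQ →* (F ≃ₐ[ℚ] F) := AlgEquiv.restrictNormalHom F
  have hρ : ∀ (g : GQ) (x : F), ((ρ g x : F) : Qbar) = g x := fun g x =>
    AlgEquiv.restrictNormal_commutes g F x
  let S : Subgroup (F ≃ₐ[ℚ] F) := H.map ρ
  have hS : ∀ s : S, ∃ t : GQ, t ∈ H ∧ ρ t = s := by
    rintro ⟨s, t, ht, rfl⟩
    exact ⟨t, ht, rfl⟩
  choose t htH ht using hS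
  have key : ∀ a ∈ H, ∀ b ∈ H, ρ a = ρ b → c a = c b ∧ ∀ x : F, a (x : Qbar) = b x := by
    intro a ha b hb hab
    have h1 : ∀ x : F, a (x : Qbar) = b x := fun x => by rw [← hρ, ← hρ, hab]
    refine ⟨?_, h1⟩
    have h2 : a = b * (b⁻¹ * a) := by group
    have h3 : c (b⁻¹ * a) = 1 := by
      apply hL _ (mul_mem (inv_mem hb) ha)
      intro x hx
      change b⁻¹ (a x) = x
      rw [h1 ⟨x, hLF hx⟩]
      exact b.symm_apply_apply x
    rw [h2, hc b hb _ (mul_mem (inv_mem hb) ha), h3, map_one, mul_one]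
  have hfin : Finite S := inferInstance
  let ftS : Fintype S := Fintype.ofFinite S
  let z : F → Qbar := fun x => ∑ s : S, c (t s) * (t s) (x : Qbar)
  have hz : ∀ g ∈ H, ∀ x, c g * g (z x) = z x := by
    intro g hg x
    let gS : S := ⟨ρ g, g, hg, rfl⟩
    change c g * g (∑ s : S, c (t s) * (t s) (x : Qbar)) = ∑ s : S, c (t s) * (t s) (x : Qbar)
    rw [map_sum, Finset.mul_sum, ← Equiv.sum_comp (Equiv.mulLeft gS)
      (fun s : S => c (t s) * (t s) (x : Qbar))]
    refine Finset.sum_congr rfl fun s _ => ?_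
    have h1 := key (t (gS * s)) (htH _) (g * t s) (mul_mem hg (htH s)) (by
      rw [ht, map_mul, ht]; rfl)
    rw [Equiv.coe_mulLeft, h1.1, h1.2, hc g hg _ (htH s), map_mul, mul_assoc]
    rfl
  have hne : ∃ x, z x ≠ 0 := by
    by_contra hcon
    push Not at hcon
    let f : S → (F →* Qbar) := fun s =>
      { toFun := fun x => t s x
        map_one' := by simp
        map_mul' := fun x y => by simp }
    have hf : Function.Injective f := by
      intro s s' h
      apply Subtype.ext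
      apply AlgEquiv.ext
      intro x
      apply Subtype.ext
      rw [← ht, ← ht, hρ, hρ]
      exact DFunLike.congr_fun h x
    have hli := (linearIndependent_monoidHom F Qbar).comp f hf
    rw [Fintype.linearIndependent_iff] at hli
    have h0 := hli (fun s => c (t s)) (by
      funext x
      have := hcon x
      simp only [Finset.sum_apply, Pi.smul_apply, smul_eq_mul, Pi.zero_apply, Function.comp]
      exact this) 1
    exact hc0 _ (htH 1) h0
  obtain ⟨x, hx⟩ := hne
  refine ⟨(z x)⁻¹, inv_ne_zero hx, fun g hg => ?_⟩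
  have h1 := hz g hg x
  have h2 : g (z x) ≠ 0 := by rwa [Ne, map_eq_zero]
  have h4 : (g (z x))⁻¹ * z x = c g := by
    calc (g (z x))⁻¹ * z x = (g (z x))⁻¹ * (c g * g (z x)) := by rw [h1]
      _ = c g := by field_simp
  rw [map_inv₀, ← h4]
  field_simp

end Fermat.Agent.TW
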