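import Mathlib
import Fermat.Agent.TW.PowerSurj

set_option autoImplicit false

/-!
# Surjections from power series rings, relative version
-/

namespace Fermat.Agent.TW

open IsLocalRing Fermat.Agent.S53rep

variable {𝒪 R : Type} [CommRing 𝒪] [IsLocalRing 𝒪] [IsNoetherianRing 𝒪]
  [IsAdicComplete (maximalIdeal 𝒪) 𝒪] [CommRing R] [IsLocalRing R] [IsNoetherianRing R]
  [IsAdicComplete (maximalIdeal R) R] [Algebra 𝒪 R] [IsLocalHom (algebraMap 𝒪 R)]

/-- A complete local `𝒪`-algebra with at most `q ^ g` tangent vectors killing the family `z` is a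
quotient of a power series ring in `z` and `g` further variables. -/
theorem exists_surjective_of_card_rel [Finite (ResidueField 𝒪)]
    (hres : Function.Surjective (residue R ∘ algebraMap 𝒪 R)) {ι : Type} [Finite ι] (z : ι → R)
    (hz : ∀ i, z i ∈ maximalIdeal R) (g : ℕ)
    (hcard : Nat.card {f : R →+* DualNumber (ResidueField 𝒪) // f.comp (algebraMap 𝒪 R) =
        (algebraMap (ResidueField 𝒪) (DualNumber (ResidueField 𝒪))).comp (residue 𝒪) ∧
        ∀ i, f (z i) = 0} ≤ Nat.card (ResidueField 𝒪) ^ g) :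
    ∃ γ : MvPowerSeries (ι ⊕ Fin g) 𝒪 →ₐ[𝒪] R, Function.Surjective γ ∧
      ∀ i, γ (MvPowerSeries.X (Sum.inl i)) = z i := by
  set I : Ideal R := Ideal.span (Set.range z) with hI
  have hIm : I ≤ maximalIdeal R := by
    rw [hI, Ideal.span_le]
    rintro _ ⟨i, rfl⟩
    exact hz i
  have hnt : Nontrivial (R ⧸ I) :=
    Ideal.Quotient.nontrivial_iff.mpr fun h =>
      (maximalIdeal.isMaximal R).ne_top (top_le_iff.mp (h ▸ hIm))
  have hsurj : Function.Surjective (Ideal.Quotient.mk I) := Ideal.Quotient.mk_surjective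
  have hloc : IsLocalRing (R ⧸ I) := IsLocalRing.of_surjective' (Ideal.Quotient.mk I) hsurj
  have hmkloc : IsLocalHom (Ideal.Quotient.mk I) := by
    constructor
    intro a ha
    obtain ⟨b, hb⟩ := ha.exists_right_inv
    obtain ⟨b, rfl⟩ := hsurj b
    rw [← map_mul, ← map_one (Ideal.Quotient.mk I), Ideal.Quotient.mk_eq_mk_iff_sub_mem] at hb
    by_contra hna
    have h1 : a * b ∈ maximalIdeal R := Ideal.mul_mem_right _ _ hna
    have h2 : (1 : R) ∈ maximalIdeal R := by
      have := Ideal.sub_mem _ h1 (hIm hb)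
      rwa [sub_sub_cancel] at this
    exact (Ideal.ne_top_iff_one _).mp (maximalIdeal.isMaximal R).ne_top h2
  have halg : IsLocalHom (algebraMap 𝒪 (R ⧸ I)) := by
    show IsLocalHom ((Ideal.Quotient.mk I).comp (algebraMap 𝒪 R))
    exact RingHom.isLocalHom_comp _ _
  have hres' : Function.Surjective (residue (R ⧸ I) ∘ algebraMap 𝒪 (R ⧸ I)) := by
    intro y
    obtain ⟨y, rfl⟩ := residue_surjective y
    obtain ⟨y, rfl⟩ := hsurj y
    obtain ⟨c, hc⟩ := hres (residue R y)
    refine ⟨c, ?_⟩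
    rw [Function.comp_apply, ← sub_eq_zero, ← map_sub, residue_eq_zero_iff] at hc ⊢
    have h1 : algebraMap 𝒪 (R ⧸ I) c - Ideal.Quotient.mk I y =
      Ideal.Quotient.mk I (algebraMap 𝒪 R c - y) := by
      rw [map_sub]; rfl
    rw [h1]
    exact map_nonunit _ _ hc
  have hcard' : Nat.card {f : (R ⧸ I) →+* DualNumber (ResidueField 𝒪) //
      f.comp (algebraMap 𝒪 (R ⧸ I)) =
        (algebraMap (ResidueField 𝒪) (DualNumber (ResidueField 𝒪))).comp (residue 𝒪)} ≤
      Nat.card (ResidueField 𝒪) ^ g := by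
    refine le_trans (le_of_eq ?_) hcard
    refine Nat.card_congr
      { toFun := fun f => ⟨f.1.comp (Ideal.Quotient.mk I), f.2, fun i => ?_⟩
        invFun := fun f => ⟨Ideal.Quotient.lift I f.1 (fun a ha => ?_), ?_⟩
        left_inv := fun f => ?_
        right_inv := fun f => ?_ }
    · have h1 : Ideal.Quotient.mk I (z i) = 0 :=
        Ideal.Quotient.eq_zero_iff_mem.mpr (Ideal.subset_span ⟨i, rfl⟩)
      rw [RingHom.comp_apply, h1, map_zero]
    · have h1 : I ≤ RingHom.ker f.1 := by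
        rw [hI, Ideal.span_le]
        rintro _ ⟨i, rfl⟩
        exact f.2.2 i
      exact h1 ha
    · exact f.2.1
    · apply Subtype.ext
      apply Ideal.Quotient.ringHom_ext
      rfl
    · rfl
  obtain ⟨x', hx', hgen'⟩ := exists_generators_of_card hres' g hcard'
  have hlift : ∀ s, ∃ x : R, Ideal.Quotient.mk I x = x' s := fun s => hsurj _
  choose x hx using hlift
  have hxm : ∀ s, x s ∈ maximalIdeal R := by
    intro s
    by_contra h
    have h1 : IsUnit (x s) := by
      rwa [IsLocalRing.mem_maximalIdeal, mem_nonunits_iff, not_not] at h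
    have h2 := h1.map (Ideal.Quotient.mk I)
    rw [hx] at h2
    exact hx' s h2
  have hmap : ∀ y ∈ maximalIdeal R, y ∈ (Ideal.span (Set.range x) ⊔
      (maximalIdeal 𝒪).map (algebraMap 𝒪 R) ⊔ maximalIdeal R ^ 2) ⊔ I := by
    intro y hy
    have hmm : maximalIdeal (R ⧸ I) = (maximalIdeal R).map (Ideal.Quotient.mk I) := by
      refine le_antisymm ?_ ?_
      · intro a ha
        obtain ⟨a, rfl⟩ := hsurj a
        refine Ideal.mem_map_of_mem _ ?_
        by_contra h
        have h1 : IsUnit a := by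
          rwa [IsLocalRing.mem_maximalIdeal, mem_nonunits_iff, not_not] at h
        exact ha (h1.map _)
      · rw [Ideal.map_le_iff_le_comap]
        intro a ha
        exact map_nonunit _ _ ha
    have h1 : Ideal.Quotient.mk I y ∈ maximalIdeal (R ⧸ I) := map_nonunit _ _ hy
    have h2 := hgen' h1
    have h3 : Ideal.span (Set.range x') ⊔ (maximalIdeal 𝒪).map (algebraMap 𝒪 (R ⧸ I)) ⊔
        maximalIdeal (R ⧸ I) ^ 2 = (Ideal.span (Set.range x) ⊔
      (maximalIdeal 𝒪).map (algebraMap 𝒪 R) ⊔ maximalIdeal R ^ 2).map (Ideal.Quotient.mk I) := by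
      rw [Ideal.map_sup, Ideal.map_sup, Ideal.map_pow, ← hmm, Ideal.map_span, Ideal.map_map,
        ← Set.range_comp]
      have h6 : x' = ⇑(Ideal.Quotient.mk I) ∘ x := funext fun s => (hx s).symm
      rw [h6]
      rfl
    rw [h3] at h2
    have h4 : y ∈ (((Ideal.span (Set.range x) ⊔
      (maximalIdeal 𝒪).map (algebraMap 𝒪 R) ⊔ maximalIdeal R ^ 2).map
        (Ideal.Quotient.mk I)).comap (Ideal.Quotient.mk I)) := h2
    rw [Ideal.comap_map_of_surjective _ hsurj] at h4
    have h5 : Ideal.comap (Ideal.Quotient.mk I) ⊥ = I := by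
      rw [← RingHom.ker_eq_comap_bot, Ideal.mk_ker]
    rwa [h5] at h4
  have hgen : maximalIdeal R ≤ Ideal.span (Set.range (Sum.elim z x)) ⊔
      (maximalIdeal 𝒪).map (algebraMap 𝒪 R) ⊔ maximalIdeal R ^ 2 := by
    intro y hy
    have h1 := hmap y hy
    have h2 : (Ideal.span (Set.range x) ⊔ (maximalIdeal 𝒪).map (algebraMap 𝒪 R) ⊔
        maximalIdeal R ^ 2) ⊔ I ≤ Ideal.span (Set.range (Sum.elim z x)) ⊔
      (maximalIdeal 𝒪).map (algebraMap 𝒪 R) ⊔ maximalIdeal R ^ 2 := by
      rw [Set.Sum.elim_range, Ideal.span_union]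
      refine sup_le (sup_le_sup_right (sup_le_sup_right le_sup_right _) _) ?_
      exact le_sup_left.trans (le_sup_left.trans le_sup_left)
    exact h2 h1
  obtain ⟨γ, hγ, hγX⟩ := exists_surjective_of_generators hres (Sum.elim z x)
    (by rintro (i | s)
        · exact hz i
        · exact hxm s) hgen
  exact ⟨γ, hγ, fun i => hγX (Sum.inl i)⟩

end Fermat.Agent.TW
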