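import Fermat.Agent.PT.Defs

/-!
# Unramified cohomology classes

`G` a group with a level system, `I` a normal subgroup such that `G / I` is topologically
generated by `φ`, `M` a finite-dimensional discrete representation.  The space of classes in
`H¹(G, M)` which are trivial on `I` has dimension at most `dim M^G`.
-/

set_option autoImplicit false

namespace Fermat.Agent.TW

open Fermat.Agent.PT

/-- `G / I` is topologically generated by `φ`. -/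
def TopGen {G : Type*} [Group G] (𝓛 : LevelSys G) (I : Subgroup G) (φ : G) : Prop :=
  ∀ U ∈ 𝓛, ∀ g : G, ∃ n : ℕ, ∃ i ∈ I, ∃ u ∈ U, g = φ ^ n * i * u

section

variable {k : Type*} [Field k] {G : Type*} [Group G] (𝓛 : LevelSys G)
variable {M : Type*} [AddCommGroup M] [Module k M] (ρ : Representation k G M)

/-- Invariants under a subgroup. -/
def invSub (I : Subgroup G) : Submodule k M where
  carrier := {m | ∀ i ∈ I, ρ i m = m}
  add_mem' {a b} ha hb i hi := by rw [map_add, ha i hi, hb i hi]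
  zero_mem' i _ := map_zero _
  smul_mem' c m hm i hi := by rw [map_smul, hm i hi]

variable {ρ} in
lemma mem_invSub {I : Subgroup G} {m : M} : m ∈ invSub ρ I ↔ ∀ i ∈ I, ρ i m = m := Iff.rfl

/-- Cocycles vanishing on `I`. -/
def Zur (I : Subgroup G) : Submodule k (G → M) where
  carrier := {c | c ∈ Z1 𝓛 ρ ∧ ∀ i ∈ I, c i = 0}
  add_mem' {a b} ha hb := ⟨(Z1 𝓛 ρ).add_mem ha.1 hb.1, fun i hi => by
    show a i + b i = 0
    rw [ha.2 i hi, hb.2 i hi, add_zero]⟩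
  zero_mem' := ⟨(Z1 𝓛 ρ).zero_mem, fun i _ => rfl⟩
  smul_mem' r c hc := ⟨(Z1 𝓛 ρ).smul_mem r hc.1, fun i hi => by
    show r • c i = 0
    rw [hc.2 i hi, smul_zero]⟩

/-- The classes in `H¹(G, M)` which become trivial on `I`. -/
def H1ur (I : Subgroup G) : Submodule k (H1 𝓛 ρ) where
  carrier := {x | ∃ c : ↥(Z1 𝓛 ρ), (∀ i ∈ I, (c : G → M) i = 0) ∧ H1mk 𝓛 ρ c = x}
  add_mem' := by
    rintro _ _ ⟨c, hc, rfl⟩ ⟨c', hc', rfl⟩
    refine ⟨c + c', fun i hi => ?_, map_add _ _ _⟩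
    show (c : G → M) i + (c' : G → M) i = 0
    rw [hc i hi, hc' i hi, add_zero]
  zero_mem' := ⟨0, fun i _ => rfl, map_zero _⟩
  smul_mem' := by
    rintro r _ ⟨c, hc, rfl⟩
    refine ⟨r • c, fun i hi => ?_, map_smul _ _ _⟩
    show r • (c : G → M) i = 0
    rw [hc i hi, smul_zero]

variable {𝓛 ρ}

lemma cocycle_one (c : ↥(Z1 𝓛 ρ)) : (c : G → M) 1 = 0 := by
  have h := c.2.2 1 1
  rw [mul_one, map_one, Module.End.one_apply] at h
  simpa using h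

lemma mem_Zur {I : Subgroup G} {c : G → M} :
    c ∈ Zur 𝓛 ρ I ↔ c ∈ Z1 𝓛 ρ ∧ ∀ i ∈ I, c i = 0 := Iff.rfl

lemma mem_H1ur {I : Subgroup G} {x : H1 𝓛 ρ} :
    x ∈ H1ur 𝓛 ρ I ↔ ∃ c : ↥(Z1 𝓛 ρ), (∀ i ∈ I, (c : G → M) i = 0) ∧ H1mk 𝓛 ρ c = x := Iff.rfl

/-- A class is unramified iff a (any) representing cocycle is a coboundary on `I`. -/
lemma H1mk_mem_H1ur_iff (hρ : Discrete 𝓛 ρ) {I : Subgroup G} {c : ↥(Z1 𝓛 ρ)} :
    H1mk 𝓛 ρ c ∈ H1ur 𝓛 ρ I ↔ ∃ m : M, ∀ i ∈ I, (c : G → M) i = ρ i m - m := by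
  constructor
  · rintro ⟨c', hc', h⟩
    have h2 : H1mk 𝓛 ρ (c - c') = 0 := by rw [map_sub, h, sub_self]
    obtain ⟨m, hm⟩ := H1mk_eq_zero.1 h2
    refine ⟨m, fun i hi => ?_⟩
    have h3 := hm i
    have h4 : ((c - c' : ↥(Z1 𝓛 ρ)) : G → M) i = (c : G → M) i - (c' : G → M) i := rfl
    rw [h4, hc' i hi, sub_zero] at h3
    exact h3
  · rintro ⟨m, hm⟩
    refine ⟨c - ⟨d01 ρ m, d01_mem_Z1 hρ m⟩, fun i hi => ?_, ?_⟩
    · show (c : G → M) i - (ρ i m - m) = 0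
      rw [hm i hi, sub_self]
    · rw [map_sub]
      have : H1mk 𝓛 ρ ⟨d01 ρ m, d01_mem_Z1 hρ m⟩ = 0 :=
        H1mk_eq_zero.2 ⟨m, fun g => rfl⟩
      rw [this, sub_zero]

lemma cocycle_mul (c : ↥(Z1 𝓛 ρ)) (g h : G) :
    (c : G → M) (g * h) = ρ g ((c : G → M) h) + (c : G → M) g := c.2.2 g h

lemma cocycle_inv (c : ↥(Z1 𝓛 ρ)) (g : G) :
    (c : G → M) g⁻¹ = - ρ g⁻¹ ((c : G → M) g) := by
  have h := cocycle_mul c g⁻¹ g
  rw [inv_mul_cancel, cocycle_one] at h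
  rw [eq_neg_iff_add_eq_zero, add_comm]
  exact h.symm

/-- The value at `φ` of a cocycle vanishing on the normal subgroup `I` is `I`-invariant. -/
lemma apply_mem_invSub {I : Subgroup G} [hI : I.Normal] {c : ↥(Z1 𝓛 ρ)}
    (hc : ∀ i ∈ I, (c : G → M) i = 0) (φ : G) : (c : G → M) φ ∈ invSub ρ I := by
  intro i hi
  have h1 := cocycle_mul c i φ
  have h2 : i * φ = φ * (φ⁻¹ * i * φ) := by group
  have h3 : φ⁻¹ * i * φ ∈ I := by simpa using hI.conj_mem i hi φ⁻¹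
  rw [h2, cocycle_mul, hc _ h3, hc i hi, map_zero, zero_add, add_zero] at h1
  exact h1.symm

lemma eq_zero_of_apply_eq_zero {I : Subgroup G} [I.Normal] {φ : G} (hφ : TopGen 𝓛 I φ)
    {c : ↥(Z1 𝓛 ρ)} (hc : ∀ i ∈ I, (c : G → M) i = 0) (h0 : (c : G → M) φ = 0) : c = 0 := by
  have hpow : ∀ n : ℕ, (c : G → M) (φ ^ n) = 0 := by
    intro n
    induction n with
    | zero => rw [pow_zero, cocycle_one]
    | succ n ih => rw [pow_succ, cocycle_mul, h0, ih, map_zero, zero_add]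
  obtain ⟨U, hU, hU'⟩ := c.2.1
  ext g
  obtain ⟨n, i, hi, u, hu, rfl⟩ := hφ U hU g
  rw [hU' _ u hu, cocycle_mul, hc i hi, hpow, map_zero, zero_add]
  rfl

variable [FiniteDimensional k M]

/-- Evaluation at `φ` on `Zur`. -/
def evφ (I : Subgroup G) [I.Normal] (φ : G) : ↥(Zur 𝓛 ρ I) →ₗ[k] ↥(invSub ρ I) where
  toFun c := ⟨c.1 φ, apply_mem_invSub (c := ⟨c.1, c.2.1⟩) c.2.2 φ⟩
  map_add' _ _ := rfl
  map_smul' _ _ := rfl

omit [FiniteDimensional k M] in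
lemma evφ_injective {I : Subgroup G} [I.Normal] {φ : G} (hφ : TopGen 𝓛 I φ) :
    Function.Injective (evφ (𝓛 := 𝓛) (ρ := ρ) I φ) := by
  rw [injective_iff_map_eq_zero]
  rintro ⟨c, hc⟩ h
  have h2 : c φ = 0 := congrArg Subtype.val h
  have := eq_zero_of_apply_eq_zero (c := ⟨c, hc.1⟩) hφ hc.2 h2
  exact Subtype.ext (congrArg (fun z : ↥(Z1 𝓛 ρ) => (z : G → M)) this)

/-- Coboundaries of `I`-invariant vectors. -/
def dInv (hρ : Discrete 𝓛 ρ) (I : Subgroup G) : ↥(invSub ρ I) →ₗ[k] ↥(Zur 𝓛 ρ I) where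
  toFun m := ⟨d01 ρ m.1, d01_mem_Z1 hρ m.1, fun i hi => by
    show ρ i m.1 - m.1 = 0
    rw [m.2 i hi, sub_self]⟩
  map_add' x y := by
    apply Subtype.ext
    exact map_add (d01 ρ) _ _
  map_smul' r x := by
    apply Subtype.ext
    exact map_smul (d01 ρ) _ _

/-- **Unramified classes**: `dim ker(H¹(G,M) → H¹(I,M)) ≤ dim M^G`. -/
theorem finrank_H1ur_le (hρ : Discrete 𝓛 ρ) {I : Subgroup G} [I.Normal] {φ : G}
    (hφ : TopGen 𝓛 I φ) :
    FiniteDimensional k (H1ur 𝓛 ρ I) ∧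
      Module.finrank k (H1ur 𝓛 ρ I) ≤ Module.finrank k (invSub ρ (⊤ : Subgroup G)) := by
  have hfin : FiniteDimensional k (Zur 𝓛 ρ I) :=
    FiniteDimensional.of_injective (evφ I φ) (evφ_injective hφ)
  have h1 : Module.finrank k (Zur 𝓛 ρ I) ≤ Module.finrank k (invSub ρ I) :=
    LinearMap.finrank_le_finrank_of_injective (evφ_injective hφ)
  -- the class map
  have hle : Zur 𝓛 ρ I ≤ Z1 𝓛 ρ := fun c hc => hc.1
  let f : ↥(Zur 𝓛 ρ I) →ₗ[k] H1 𝓛 ρ := H1mk 𝓛 ρ ∘ₗ Submodule.inclusion hle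
  have hrange : LinearMap.range f = H1ur 𝓛 ρ I := by
    ext x
    constructor
    · rintro ⟨c, rfl⟩
      exact ⟨⟨c.1, c.2.1⟩, c.2.2, rfl⟩
    · rintro ⟨c, hc, rfl⟩
      exact ⟨⟨c.1, c.2, hc⟩, rfl⟩
  have h2 : LinearMap.range (dInv hρ I) ≤ LinearMap.ker f := by
    rintro _ ⟨m, rfl⟩
    rw [LinearMap.mem_ker]
    exact H1mk_eq_zero.2 ⟨m.1, fun g => rfl⟩
  have hfin2 : FiniteDimensional k (LinearMap.ker f) :=
    FiniteDimensional.finiteDimensional_submodule (K := k) (V := ↥(Zur 𝓛 ρ I)) _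
  have h3 : Module.finrank k (LinearMap.range (dInv hρ I)) ≤ Module.finrank k (LinearMap.ker f) :=
    Submodule.finrank_mono h2
  have h4 := LinearMap.finrank_range_add_finrank_ker (K := k) (V := ↥(invSub ρ I))
    (V₂ := ↥(Zur 𝓛 ρ I)) (dInv (𝓛 := 𝓛) hρ I)
  have h5 := LinearMap.finrank_range_add_finrank_ker (K := k) (V := ↥(Zur 𝓛 ρ I))
    (V₂ := H1 𝓛 ρ) f
  have h6 : Module.finrank k (LinearMap.ker (dInv (𝓛 := 𝓛) hρ I)) ≤
      Module.finrank k (invSub ρ (⊤ : Subgroup G)) := by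
    let g : ↥(LinearMap.ker (dInv (𝓛 := 𝓛) hρ I)) →ₗ[k] ↥(invSub ρ (⊤ : Subgroup G)) :=
      { toFun := fun m => ⟨m.1.1, fun g _ => by
          have h := congrArg (fun z : ↥(Zur 𝓛 ρ I) => z.1 g) m.2
          have h' : ρ g m.1.1 - m.1.1 = 0 := h
          exact sub_eq_zero.1 h'⟩
        map_add' := fun _ _ => rfl
        map_smul' := fun _ _ => rfl }
    have hg : Function.Injective g := by
      intro a b hab
      apply Subtype.ext
      apply Subtype.ext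
      exact congrArg (fun z : ↥(invSub ρ (⊤ : Subgroup G)) => z.1) hab
    exact LinearMap.finrank_le_finrank_of_injective hg
  rw [hrange] at h5
  refine ⟨?_, by omega⟩
  rw [← hrange]
  infer_instance

end

end Fermat.Agent.TW
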